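/-
GATE-C / C4 (LM-J), part 1 (helper71): **level-constant coinduction along an arbitrary
homomorphism** `r : D →* G`.

For a level system `𝒰` on `G` and `A : Rep k D`, `lcCoind 𝒰 r A` is the subrepresentation of
Mathlib's `Rep.coind r A` (functions `F : G → A` with `F (r d * g) = d • F g`, `G` acting by right
translation) consisting of the functions that are right-invariant under some member of `𝒰`.
It is `𝒰`-discrete by construction.  (For `r = primeLocalToGlobal q : G_{ℚ_q} → G_ℚ`,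
`𝒰 = levelS S`, `A = ℚ̄_qˣ` this is the `q`-component of the `S`-idele module of `ℚ_S`:
no categorical colimit is needed.)

This file: definition, discreteness, functoriality, evaluation at `1`, the embedding into helper5's
acyclic envelope, EXACTNESS on short exact sequences with discrete middle term (lifting of
level-constant equivariant functions), and the invariants (degree `0`).
-/
import Fermat.Agent.GC.Prof.CoindDisc
import Fermat.Agent.GC.Prof.Low

set_option autoImplicit false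
set_option linter.unusedSectionVars false

open CategoryTheory

noncomputable section

namespace Fermat.Agent.GC.LimJ

open Fermat.Agent.GC.Prof

universe u

variable {k G D : Type u} [CommRing k] [Group G] [Group D]

/-! ### Definition -/

section Def

variable (𝒰 : LevelSystem G) (r : D →* G) (A : Rep.{u} k D)

/-- The level-constant vectors of `Rep.coind r A`: equivariant functions `G → A` that are
right-invariant under some member of `𝒰`. -/
def lcCoindV : Submodule k (Rep.coind r A) where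
  carrier := {F | ∃ U ∈ 𝒰.sets, ∀ g u, u ∈ U → F.1 (g * u) = F.1 g}
  add_mem' := by
    rintro F F' ⟨U, hU, h⟩ ⟨V, hV, h'⟩
    obtain ⟨W, hW, hWle⟩ := 𝒰.directed U hU V hV
    refine ⟨W, hW, fun g u hu => ?_⟩
    show F.1 (g * u) + F'.1 (g * u) = F.1 g + F'.1 g
    rw [h g u (hWle.trans inf_le_left hu), h' g u (hWle.trans inf_le_right hu)]
  zero_mem' := by
    obtain ⟨U, hU⟩ := 𝒰.nonempty
    exact ⟨U, hU, fun _ _ _ => rfl⟩
  smul_mem' := by
    rintro c F ⟨U, hU, h⟩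
    refine ⟨U, hU, fun g u hu => ?_⟩
    show c • F.1 (g * u) = c • F.1 g
    rw [h g u hu]

lemma mem_lcCoindV_iff (F : Rep.coind r A) :
    F ∈ lcCoindV 𝒰 r A ↔ ∃ U ∈ 𝒰.sets, ∀ g u, u ∈ U → F.1 (g * u) = F.1 g := Iff.rfl

/-- Every level-constant vector is right-invariant under a *normal* member. -/
lemma exists_normal_of_mem_lcCoindV {F : Rep.coind r A} (hF : F ∈ lcCoindV 𝒰 r A) :
    ∃ U ∈ 𝒰.sets, U.Normal ∧ U.FiniteIndex ∧ ∀ g u, u ∈ U → F.1 (g * u) = F.1 g := by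
  obtain ⟨U, hU, h⟩ := hF
  obtain ⟨V, hV, hle, hn, hf⟩ := 𝒰.normal_below U hU
  exact ⟨V, hV, hn, hf, fun g u hu => h g u (hle hu)⟩

lemma lcCoindV_le_comap (g : G) :
    lcCoindV 𝒰 r A ≤ (lcCoindV 𝒰 r A).comap ((Rep.coind r A).ρ g) := by
  intro F hF
  obtain ⟨U, hU, hn, -, h⟩ := exists_normal_of_mem_lcCoindV 𝒰 r A hF
  refine ⟨U, hU, fun x u hu => ?_⟩
  show F.1 (x * u * g) = F.1 (x * g)
  have : x * u * g = x * g * (g⁻¹ * u * g) := by group
  rw [this]
  exact h _ _ (by simpa using hn.conj_mem u hu g⁻¹)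

/-- **Level-constant coinduction** of `A` along `r`, relative to the level system `𝒰` on `G`. -/
def lcCoind : Rep.{u} k G :=
  Rep.subrepresentation (Rep.coind r A) (lcCoindV 𝒰 r A) (lcCoindV_le_comap 𝒰 r A)

/-- the inclusion into the full coinduction -/
def lcCoindι : lcCoind 𝒰 r A ⟶ Rep.coind r A :=
  Rep.subtype (Rep.coind r A) (lcCoindV 𝒰 r A) (lcCoindV_le_comap 𝒰 r A)

variable {𝒰 r A}

/-- the underlying function `G → A` of a vector of `lcCoind` -/
def lcCoindFun (F : lcCoind 𝒰 r A) : G → A := (F : lcCoindV 𝒰 r A).1.1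

lemma lcCoindFun_equivariant (F : lcCoind 𝒰 r A) (d : D) (g : G) :
    lcCoindFun F (r d * g) = A.ρ d (lcCoindFun F g) := (F : lcCoindV 𝒰 r A).1.2 d g

lemma lcCoindFun_smul (F : lcCoind 𝒰 r A) (g x : G) :
    lcCoindFun ((lcCoind 𝒰 r A).ρ g F) x = lcCoindFun F (x * g) := rfl

lemma lcCoindFun_add (F F' : lcCoind 𝒰 r A) (x : G) :
    lcCoindFun (F + F') x = lcCoindFun F x + lcCoindFun F' x := rfl

lemma lcCoindFun_zero (x : G) : lcCoindFun (0 : lcCoind 𝒰 r A) x = 0 := rfl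

lemma lcCoindFun_lc (F : lcCoind 𝒰 r A) :
    ∃ U ∈ 𝒰.sets, U.Normal ∧ U.FiniteIndex ∧ ∀ g u, u ∈ U → lcCoindFun F (g * u) = lcCoindFun F g :=
  exists_normal_of_mem_lcCoindV 𝒰 r A (F : lcCoindV 𝒰 r A).2

lemma lcCoind_ext {F F' : lcCoind 𝒰 r A} (h : ∀ g, lcCoindFun F g = lcCoindFun F' g) : F = F' :=
  Subtype.ext (Subtype.ext (funext h))

/-- constructor for vectors of `lcCoind` -/
def lcCoindMk (f : G → A) (heq : ∀ d g, f (r d * g) = A.ρ d (f g))
    (hlc : ∃ U ∈ 𝒰.sets, ∀ g u, u ∈ U → f (g * u) = f g) : lcCoind 𝒰 r A :=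
  (⟨⟨f, heq⟩, hlc⟩ : lcCoindV 𝒰 r A)

@[simp]
lemma lcCoindFun_mk (f : G → A) (heq : ∀ d g, f (r d * g) = A.ρ d (f g))
    (hlc : ∃ U ∈ 𝒰.sets, ∀ g u, u ∈ U → f (g * u) = f g) (g : G) :
    lcCoindFun (lcCoindMk f heq hlc : lcCoind 𝒰 r A) g = f g := rfl

instance isDiscrete_lcCoind : IsDiscrete 𝒰 (lcCoind 𝒰 r A) where
  exists_fix F := by
    obtain ⟨U, hU, -, -, h⟩ := lcCoindFun_lc F
    refine ⟨U, hU, fun s hs => ?_⟩
    apply lcCoind_ext
    intro x
    rw [lcCoindFun_smul]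
    exact h x s hs

end Def

/-! ### Functoriality and evaluation -/

section Functor

variable (𝒰 : LevelSystem G) (r : D →* G) {A B C : Rep.{u} k D}

/-- functoriality of `lcCoind` in the coefficients: postcomposition -/
def lcCoindMap (φ : A ⟶ B) : lcCoind 𝒰 r A ⟶ lcCoind 𝒰 r B :=
  Rep.ofHom
    ⟨{ toFun := fun F : lcCoind 𝒰 r A => lcCoindMk (fun g => φ.hom (lcCoindFun F g))
          (fun d g => by
            rw [lcCoindFun_equivariant]
            exact congrArg (fun f => f (lcCoindFun F g)) (φ.hom.isIntertwining' d))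
          (by
            obtain ⟨U, hU, -, -, h⟩ := lcCoindFun_lc F
            exact ⟨U, hU, fun g u hu => by rw [h g u hu]⟩)
       map_add' := fun (F F' : lcCoind 𝒰 r A) => by
         apply lcCoind_ext
         intro g
         show φ.hom (lcCoindFun F g + lcCoindFun F' g) =
           φ.hom (lcCoindFun F g) + φ.hom (lcCoindFun F' g)
         exact map_add _ _ _
       map_smul' := fun c (F : lcCoind 𝒰 r A) => by
         apply lcCoind_ext
         intro g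
         show φ.hom (c • lcCoindFun F g) = c • φ.hom (lcCoindFun F g)
         rw [map_smul] },
     fun g => by
       ext F x
       rfl⟩

@[simp]
lemma lcCoindFun_map (φ : A ⟶ B) (F : lcCoind 𝒰 r A) (g : G) :
    lcCoindFun ((lcCoindMap 𝒰 r φ).hom F) g = φ.hom (lcCoindFun F g) := rfl

lemma lcCoindMap_id : lcCoindMap 𝒰 r (𝟙 A) = 𝟙 _ := by
  ext F
  apply lcCoind_ext
  intro x
  rfl

lemma lcCoindMap_comp (φ : A ⟶ B) (ψ : B ⟶ C) :
    lcCoindMap 𝒰 r (φ ≫ ψ) = lcCoindMap 𝒰 r φ ≫ lcCoindMap 𝒰 r ψ := by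
  ext F
  apply lcCoind_ext
  intro x
  rfl

lemma lcCoindMap_zero : lcCoindMap 𝒰 r (0 : A ⟶ B) = 0 := by
  ext F
  apply lcCoind_ext
  intro x
  rfl

variable (A)

/-- evaluation at `1`: `Res_r (lcCoind 𝒰 r A) ⟶ A` -/
def lcCoindEv : Rep.res r (lcCoind 𝒰 r A) ⟶ A :=
  Rep.ofHom
    ⟨{ toFun := fun F : lcCoind 𝒰 r A => lcCoindFun F 1
       map_add' := fun _ _ => rfl
       map_smul' := fun _ _ => rfl },
     fun d => by
       ext (F : lcCoind 𝒰 r A)
       show lcCoindFun F (1 * r d) = A.ρ d (lcCoindFun F 1)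
       rw [one_mul, ← lcCoindFun_equivariant, mul_one]⟩

lemma lcCoindEv_hom_apply (F : lcCoind 𝒰 r A) :
    (lcCoindEv 𝒰 r A).hom F = lcCoindFun F 1 := rfl

variable {A}

lemma lcCoindEv_naturality (φ : A ⟶ B) :
    (Rep.resFunctor r).map (lcCoindMap 𝒰 r φ) ≫ lcCoindEv 𝒰 r B = lcCoindEv 𝒰 r A ≫ φ := by
  ext F
  rfl

end Functor

/-! ### `lcCoind` of the acyclic envelope is acyclic -/

section Env

variable (𝒰 : LevelSystem G) (r : D →* G) (A : Rep.{u} k D)

/-- the target of the comparison: level-constant functions `G → A` (only the module matters) -/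
abbrev lcIndGr : Rep.{u} k G := lcInd 𝒰 (Rep.trivial k G A.V)

theorem lcCoindEnvTo_mem (F : lcCoind 𝒰 r (lcInd (𝒰.comap r) A)) :
    (fun x : G => ((lcCoindFun F x : lcIndV (𝒰.comap r) A).1 1 : A)) ∈
      lcIndV 𝒰 (Rep.trivial k G A.V) := by
  obtain ⟨U, hU, -, -, h⟩ := lcCoindFun_lc F
  refine ⟨U, hU, fun x u hu => ?_⟩
  show (lcCoindFun F (x * u) : lcIndV (𝒰.comap r) A).1 1 = (lcCoindFun F x : lcIndV (𝒰.comap r) A).1 1
  rw [h x u hu]

/-- `F ↦ (x ↦ F x 1)` -/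
def lcCoindEnvToLin :
    (lcCoind 𝒰 r (lcInd (𝒰.comap r) A)).V →ₗ[k] lcIndV 𝒰 (Rep.trivial k G A.V) where
  toFun := fun F : lcCoind 𝒰 r (lcInd (𝒰.comap r) A) =>
    ⟨fun x => (lcCoindFun F x : lcIndV (𝒰.comap r) A).1 1, lcCoindEnvTo_mem 𝒰 r A F⟩
  map_add' _ _ := rfl
  map_smul' _ _ := rfl

/-- `lcCoind 𝒰 r (lcInd 𝒰_D A) ⟶ lcInd 𝒰 A`, `F ↦ (x ↦ F x 1)` -/
def lcCoindEnvTo : lcCoind 𝒰 r (lcInd (𝒰.comap r) A) ⟶ lcIndGr 𝒰 A :=
  Rep.ofHom ⟨lcCoindEnvToLin 𝒰 r A, fun g => by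
    ext F x
    rfl⟩

theorem lcCoindEnvOf_inner_mem (φ : lcIndV 𝒰 (Rep.trivial k G A.V)) (g : G) :
    (fun y : D => (φ.1 (r y * g) : A)) ∈ lcIndV (𝒰.comap r) A := by
  obtain ⟨V, hV, hn, h⟩ := exists_normal_of_mem_lcIndV 𝒰 _ φ.2
  refine ⟨V.comap r, ⟨V, hV, rfl⟩, fun y w hw => ?_⟩
  show φ.1 (r (y * w) * g) = φ.1 (r y * g)
  have h1 : r (y * w) * g = r y * g * (g⁻¹ * r w * g) := by
    rw [map_mul]
    group
  rw [h1]
  exact h _ _ (by simpa using hn.conj_mem (r w) hw g⁻¹)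

theorem lcCoindEnvOf_equivariant (φ : lcIndV 𝒰 (Rep.trivial k G A.V)) (d : D) (g : G) :
    (⟨fun y : D => (φ.1 (r y * (r d * g)) : A), lcCoindEnvOf_inner_mem 𝒰 r A φ (r d * g)⟩ :
      lcInd (𝒰.comap r) A) =
    (lcInd (𝒰.comap r) A).ρ d
      (⟨fun y : D => (φ.1 (r y * g) : A), lcCoindEnvOf_inner_mem 𝒰 r A φ g⟩ :
        lcInd (𝒰.comap r) A) := by
  apply Subtype.ext
  funext y
  show φ.1 (r y * (r d * g)) = φ.1 (r (y * d) * g)
  rw [map_mul, mul_assoc]

theorem lcCoindEnvOf_lc (φ : lcIndV 𝒰 (Rep.trivial k G A.V)) :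
    ∃ U ∈ 𝒰.sets, ∀ g u, u ∈ U →
      (⟨fun y : D => (φ.1 (r y * (g * u)) : A), lcCoindEnvOf_inner_mem 𝒰 r A φ (g * u)⟩ :
        lcInd (𝒰.comap r) A) =
      ⟨fun y : D => (φ.1 (r y * g) : A), lcCoindEnvOf_inner_mem 𝒰 r A φ g⟩ := by
  obtain ⟨U, hU, h⟩ := φ.2
  refine ⟨U, hU, fun g u hu => ?_⟩
  apply Subtype.ext
  funext y
  show φ.1 (r y * (g * u)) = φ.1 (r y * g)
  rw [← mul_assoc]
  exact h _ _ hu

/-- `φ ↦ (g ↦ y ↦ φ (r y * g))` -/
def lcCoindEnvOfLin : lcIndV 𝒰 (Rep.trivial k G A.V) →ₗ[k]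
    (lcCoind 𝒰 r (lcInd (𝒰.comap r) A)).V where
  toFun φ := lcCoindMk
    (fun g => (⟨fun y : D => (φ.1 (r y * g) : A), lcCoindEnvOf_inner_mem 𝒰 r A φ g⟩ :
      lcInd (𝒰.comap r) A))
    (lcCoindEnvOf_equivariant 𝒰 r A φ) (lcCoindEnvOf_lc 𝒰 r A φ)
  map_add' _ _ := rfl
  map_smul' _ _ := rfl

/-- `lcInd 𝒰 A ⟶ lcCoind 𝒰 r (lcInd 𝒰_D A)`, `φ ↦ (g ↦ y ↦ φ (r y * g))` -/
def lcCoindEnvOf : lcIndGr 𝒰 A ⟶ lcCoind 𝒰 r (lcInd (𝒰.comap r) A) :=
  Rep.ofHom ⟨lcCoindEnvOfLin 𝒰 r A, fun g => by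
    ext φ x y
    show φ.1 (r y * x * g) = φ.1 (r y * (x * g))
    rw [mul_assoc]⟩

theorem lcCoindEnvTo_comp_lcCoindEnvOf :
    lcCoindEnvTo 𝒰 r A ≫ lcCoindEnvOf 𝒰 r A = 𝟙 _ := by
  ext (F : lcCoind 𝒰 r (lcInd (𝒰.comap r) A))
  apply lcCoind_ext
  intro x
  apply Subtype.ext
  funext y
  show (lcCoindFun F (r y * x) : lcIndV (𝒰.comap r) A).1 1 =
    (lcCoindFun F x : lcIndV (𝒰.comap r) A).1 y
  rw [lcCoindFun_equivariant]
  show (lcCoindFun F x : lcIndV (𝒰.comap r) A).1 (1 * y) = _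
  rw [one_mul]

/-- every class of positive degree with values in `lcCoind 𝒰 r (lcInd 𝒰_D A)` vanishes -/
theorem Hlc_lcCoind_lcInd_eq_zero (n : ℕ)
    (x : Hlc 𝒰 (lcCoind 𝒰 r (lcInd (𝒰.comap r) A)) (n + 1)) : x = 0 := by
  have h1 : HlcMap 𝒰 (lcCoindEnvTo 𝒰 r A) (n + 1) ≫ HlcMap 𝒰 (lcCoindEnvOf 𝒰 r A) (n + 1) = 𝟙 _ := by
    rw [← HlcMap_comp, lcCoindEnvTo_comp_lcCoindEnvOf, HlcMap_id]
  have h2 : x = HlcMap 𝒰 (lcCoindEnvOf 𝒰 r A) (n + 1)
      (HlcMap 𝒰 (lcCoindEnvTo 𝒰 r A) (n + 1) x) := by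
    have := congr($h1 x)
    exact this.symm
  rw [h2, Hlc_lcInd_eq_zero 𝒰 (Rep.trivial k G A.V) n
    (HlcMap 𝒰 (lcCoindEnvTo 𝒰 r A) (n + 1) x), map_zero]

end Env

/-! ### Exactness -/

section Exact

variable (𝒰 : LevelSystem G) (r : D →* G)

/-- the double-coset relation `g ~ r d * g * u`, `u ∈ U` -/
def dcSetoid (U : Subgroup G) : Setoid G where
  r g g' := ∃ d : D, ∃ u ∈ U, g' = r d * g * u
  iseqv :=
    ⟨fun g => ⟨1, 1, U.one_mem, by simp⟩,
     fun {g g'} ⟨d, u, hu, h⟩ => ⟨d⁻¹, u⁻¹, U.inv_mem hu, by rw [h, map_inv]; group⟩,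
     fun {g g' g''} ⟨d, u, hu, h⟩ ⟨d', u', hu', h'⟩ =>
      ⟨d' * d, u * u', U.mul_mem hu hu', by rw [h', h, map_mul]; group⟩⟩

/-- **Lifting of level-constant equivariant functions**: `lcCoind 𝒰 r` preserves surjections
whose source is discrete for the induced level system on `D`. -/
theorem lcCoindMap_surjective {A B : Rep.{u} k D} [IsDiscrete (𝒰.comap r) A] (π : A ⟶ B)
    (hπ : Function.Surjective π.hom) : Function.Surjective (lcCoindMap 𝒰 r π).hom := by
  intro F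
  obtain ⟨U, hU, hUn, hUf, hF⟩ := lcCoindFun_lc F
  have : Finite (G ⧸ U) := Subgroup.finite_quotient_of_finiteIndex
  -- lifts of the values at the cosets of `U`
  let b : G ⧸ U → A := fun c => Function.surjInv hπ (lcCoindFun F c.out)
  have hb : ∀ c, π.hom (b c) = lcCoindFun F c.out := fun c => Function.surjInv_eq hπ _
  have hfix : ∀ c : G ⧸ U, ∃ W ∈ 𝒰.sets, ∀ d : D, r d ∈ W → A.ρ d (b c) = b c := by
    intro c
    obtain ⟨W', ⟨W, hW, rfl⟩, h⟩ := IsDiscrete.exists_fix (𝒰 := 𝒰.comap r) (M := A) (b c)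
    exact ⟨W, hW, fun d hd => h d hd⟩
  choose W hW hWfix using hfix
  obtain ⟨V₁, hV₁, hV₁le, -, -⟩ :=
    𝒰.exists_normal_le_finite (Set.univ : Set (G ⧸ U)) Set.finite_univ W (fun c _ => hW c)
  obtain ⟨U', hU', hU'V₁, hU'U, hn', -⟩ := 𝒰.exists_normal_le_inf hV₁ hU
  have hbfix : ∀ (c : G ⧸ U) (d : D), r d ∈ U' → A.ρ d (b c) = b c := fun c d hd =>
    hWfix c d (hV₁le c (Set.mem_univ c) (hU'V₁ hd))
  -- representatives of the double cosets `r(D) \ G / U'`
  let s := dcSetoid r U'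
  let rep : G → G := fun g => (Quotient.mk s g).out
  have hrep : ∀ g, ∃ d : D, ∃ u ∈ U', g = r d * rep g * u := fun g =>
    Quotient.exact (Quotient.out_eq (Quotient.mk s g))
  choose dd uu huu hdd using hrep
  have hrep_eq : ∀ g g' : G, (∃ d : D, ∃ u ∈ U', g' = r d * g * u) → rep g' = rep g := by
    intro g g' h
    have : Quotient.mk s g' = Quotient.mk s g := (Quotient.sound (s := s) h).symm
    simp only [rep, this]
  let f : G → A := fun g => A.ρ (dd g) (b (QuotientGroup.mk (rep g)))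
  -- the key transformation rule
  have key : ∀ (e : D) (g : G) (u : G), u ∈ U' → f (r e * g * u) = A.ρ e (f g) := by
    intro e g u hu
    have h1 : rep (r e * g * u) = rep g := hrep_eq g _ ⟨e, u, hu, rfl⟩
    set g' := r e * g * u with hg'
    have h2 := hdd g'
    have h3 := hdd g
    rw [h1] at h2
    -- `r (dd g') x u₂ = r e r (dd g) x u₁ u`
    set x := rep g with hx
    have h4 : r ((e * dd g)⁻¹ * dd g') = x * (uu g * u * (uu g')⁻¹) * x⁻¹ := by
      have : r (dd g') * x * uu g' = r e * (r (dd g) * x * uu g) * u := by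
        rw [← h2, ← h3]
      rw [map_mul, map_inv, map_mul]
      have h5 : r (dd g') = r e * (r (dd g) * x * uu g) * u * (uu g')⁻¹ * x⁻¹ := by
        rw [← this]; group
      rw [h5]; group
    have h6 : r ((e * dd g)⁻¹ * dd g') ∈ U' := by
      rw [h4]
      exact hn'.conj_mem _ (U'.mul_mem (U'.mul_mem (huu g) hu) (U'.inv_mem (huu g'))) x
    have h7 := hbfix (QuotientGroup.mk x) _ h6
    show A.ρ (dd g') (b (QuotientGroup.mk (rep g'))) = A.ρ e (A.ρ (dd g) (b (QuotientGroup.mk x)))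
    rw [h1]
    have h8 : dd g' = (e * dd g) * ((e * dd g)⁻¹ * dd g') := by group
    rw [h8, map_mul, Module.End.mul_apply, h7, map_mul, Module.End.mul_apply]
  have hfeq : ∀ d g, f (r d * g) = A.ρ d (f g) := fun d g => by
    have := key d g 1 U'.one_mem
    rwa [mul_one] at this
  have hflc : ∃ V ∈ 𝒰.sets, ∀ g u, u ∈ V → f (g * u) = f g := ⟨U', hU', fun g u hu => by
    have := key 1 g u hu
    rwa [map_one, one_mul, map_one, Module.End.one_apply] at this⟩
  refine ⟨lcCoindMk f hfeq hflc, ?_⟩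
  apply lcCoind_ext
  intro g
  rw [lcCoindFun_map, lcCoindFun_mk]
  show π.hom (A.ρ (dd g) (b (QuotientGroup.mk (rep g)))) = lcCoindFun F g
  have h1 : π.hom (A.ρ (dd g) (b (QuotientGroup.mk (rep g)))) =
      B.ρ (dd g) (π.hom (b (QuotientGroup.mk (rep g)))) :=
    congrArg (fun φ => φ (b (QuotientGroup.mk (rep g)))) (π.hom.isIntertwining' (dd g))
  rw [h1, hb, ← lcCoindFun_equivariant]
  -- `(mk (rep g)).out = rep g * u₀`, `u₀ ∈ U`
  obtain ⟨u₀, hu₀⟩ := QuotientGroup.mk_out_eq_mul U (rep g)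
  rw [hu₀, ← mul_assoc, hF _ _ u₀.2]
  have h2 : r (dd g) * rep g = g * (uu g)⁻¹ := by
    rw [eq_mul_inv_iff_mul_eq]
    exact (hdd g).symm
  rw [h2, hF _ _ (U.inv_mem (hU'U (huu g)))]

/-- a short complex of representations is short exact as soon as it is so on underlying sets -/
theorem rep_shortExact_of_forget (S : ShortComplex (Rep.{u} k G))
    (hf : Function.Injective S.f.hom) (hg : Function.Surjective S.g.hom)
    (hex : ∀ x, S.g.hom x = 0 → ∃ y, S.f.hom y = x) : S.ShortExact where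
  exact := (forget₂ (Rep.{u} k G) (ModuleCat.{u} k)).reflects_exact_of_faithful _ <|
    (ShortComplex.moduleCat_exact_iff _).2 hex
  mono_f := (Rep.mono_iff_injective _).2 hf
  epi_g := (Rep.epi_iff_surjective _).2 hg

/-- the image of a short complex of `D`-representations under `lcCoind 𝒰 r` -/
def lcCoindSC (X : ShortComplex (Rep.{u} k D)) : ShortComplex (Rep.{u} k G) :=
  ShortComplex.mk (lcCoindMap 𝒰 r X.f) (lcCoindMap 𝒰 r X.g)
    (by rw [← lcCoindMap_comp, X.zero, lcCoindMap_zero])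

/-- **`lcCoind 𝒰 r` is exact** on short exact sequences with discrete middle term. -/
theorem lcCoindSC_shortExact {X : ShortComplex (Rep.{u} k D)} (hX : X.ShortExact)
    [IsDiscrete (𝒰.comap r) X.X₂] : (lcCoindSC 𝒰 r X).ShortExact := by
  have hinj : Function.Injective X.f.hom := (Rep.mono_iff_injective X.f).1 hX.mono_f
  have hsurj : Function.Surjective X.g.hom := (Rep.epi_iff_surjective X.g).1 hX.epi_g
  have hex : ∀ y : X.X₂, X.g.hom y = 0 → ∃ x : X.X₁, X.f.hom x = y := by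
    intro y hy
    have := (hX.exact.map (forget₂ (Rep k D) (ModuleCat k))).moduleCat_range_eq_ker
    have hy' : y ∈ LinearMap.ker (ModuleCat.Hom.hom
        (X.map (forget₂ (Rep.{u} k D) (ModuleCat k))).g) := hy
    rw [← this] at hy'
    exact hy'
  refine rep_shortExact_of_forget _ ?_ (lcCoindMap_surjective 𝒰 r X.g hsurj) ?_
  · intro (F : lcCoind 𝒰 r X.X₁) (F' : lcCoind 𝒰 r X.X₁) h
    apply lcCoind_ext
    intro g
    apply hinj
    have := congrArg (fun F'' : lcCoind 𝒰 r X.X₂ => lcCoindFun F'' g) h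
    exact this
  · intro (F : lcCoind 𝒰 r X.X₂) hF
    have hF' : ∀ g, X.g.hom (lcCoindFun F g) = 0 := fun g =>
      congrArg (fun F'' : lcCoind 𝒰 r X.X₃ => lcCoindFun F'' g) hF
    choose f' hf' using fun g => hex _ (hF' g)
    obtain ⟨U, hU, -, -, h⟩ := lcCoindFun_lc F
    refine ⟨lcCoindMk f' (fun d g => hinj ?_) ⟨U, hU, fun g u hu => hinj ?_⟩, ?_⟩
    · rw [hf', lcCoindFun_equivariant, ← hf' g]
      exact (congrArg (fun φ => φ (f' g)) (X.f.hom.isIntertwining' d)).symm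
    · rw [hf', hf', h g u hu]
    · apply lcCoind_ext
      intro g
      exact hf' g

end Exact

end Fermat.Agent.GC.LimJ
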