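/-
GATE-C / C4 (LM-J), part 4 (helper71): the **discrete part** of a representation with respect to a
level system: the subrepresentation of the vectors fixed by some member.

* `discPart 𝒱 A : Rep k D`, `discPartι : discPart 𝒱 A ⟶ A` (injective), `isDiscrete_discPart`;
* `discPartMk`, `discPart_ext`, `discPartLift` (a morphism from a discrete representation factors
  through the discrete part);
* values of level-constant equivariant functions lie in the discrete part
  (`lcCoind_apply_mem_discSub`), so `lcCoind 𝒰 r (discPart (𝒰.comap r) A) ≅ lcCoind 𝒰 r A`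
  (`lcCoindMap_discPartι_bijective`).
-/
import Fermat.Agent.GC.Global.Limit.LcCoind

set_option autoImplicit false
set_option linter.unusedSectionVars false

open CategoryTheory

noncomputable section

namespace Fermat.Agent.GC.LimJ

open Fermat.Agent.GC.Prof

universe u

variable {k G D : Type u} [CommRing k] [Group G] [Group D]

section Def

variable (𝒱 : LevelSystem D) (A : Rep.{u} k D)

/-- the vectors of `A` fixed by some member of `𝒱` -/
def discSub : Submodule k A where
  carrier := {a | ∃ U ∈ 𝒱.sets, ∀ s ∈ U, A.ρ s a = a}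
  add_mem' := by
    rintro a b ⟨U, hU, ha⟩ ⟨V, hV, hb⟩
    obtain ⟨W, hW, hWle⟩ := 𝒱.directed U hU V hV
    refine ⟨W, hW, fun s hs => ?_⟩
    rw [map_add, ha s (hWle.trans inf_le_left hs), hb s (hWle.trans inf_le_right hs)]
  zero_mem' := by
    obtain ⟨U, hU⟩ := 𝒱.nonempty
    exact ⟨U, hU, fun s _ => map_zero _⟩
  smul_mem' := by
    rintro c a ⟨U, hU, ha⟩
    refine ⟨U, hU, fun s hs => ?_⟩
    rw [map_smul, ha s hs]

lemma mem_discSub_iff (a : A) : a ∈ discSub 𝒱 A ↔ ∃ U ∈ 𝒱.sets, ∀ s ∈ U, A.ρ s a = a := Iff.rfl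

lemma discSub_le_comap (d : D) : discSub 𝒱 A ≤ (discSub 𝒱 A).comap (A.ρ d) := by
  rintro a ⟨U, hU, ha⟩
  obtain ⟨V, hV, hVU, hn, -⟩ := 𝒱.normal_below U hU
  refine ⟨V, hV, fun s hs => ?_⟩
  show A.ρ s (A.ρ d a) = A.ρ d a
  have h1 : s * d = d * (d⁻¹ * s * d) := by group
  rw [← Module.End.mul_apply, ← map_mul, h1, map_mul, Module.End.mul_apply,
    ha _ (hVU (by simpa using hn.conj_mem s hs d⁻¹))]

/-- the **discrete part** of `A` for the level system `𝒱` -/
def discPart : Rep.{u} k D :=
  Rep.subrepresentation A (discSub 𝒱 A) (discSub_le_comap 𝒱 A)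

/-- the inclusion of the discrete part -/
def discPartι : discPart 𝒱 A ⟶ A :=
  Rep.subtype A (discSub 𝒱 A) (discSub_le_comap 𝒱 A)

variable {𝒱 A}

/-- the underlying vector of `A` -/
def discPartVal (a : discPart 𝒱 A) : A := (a : discSub 𝒱 A).1

lemma discPartι_hom_apply (a : discPart 𝒱 A) : (discPartι 𝒱 A).hom a = discPartVal a := rfl

lemma discPartVal_mem (a : discPart 𝒱 A) : discPartVal a ∈ discSub 𝒱 A := (a : discSub 𝒱 A).2

lemma discPartVal_ρ (d : D) (a : discPart 𝒱 A) :
    discPartVal ((discPart 𝒱 A).ρ d a) = A.ρ d (discPartVal a) := rfl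

lemma discPartVal_add (a b : discPart 𝒱 A) :
    discPartVal (a + b) = discPartVal a + discPartVal b := rfl

lemma discPartVal_zero : discPartVal (0 : discPart 𝒱 A) = 0 := rfl

lemma discPartVal_smul (c : k) (a : discPart 𝒱 A) :
    discPartVal (c • a) = c • discPartVal a := rfl

lemma discPart_ext {a b : discPart 𝒱 A} (h : discPartVal a = discPartVal b) : a = b :=
  Subtype.ext h

lemma discPartι_injective : Function.Injective (discPartι 𝒱 A).hom := fun _ _ h => discPart_ext h

/-- constructor -/
def discPartMk (a : A) (ha : a ∈ discSub 𝒱 A) : discPart 𝒱 A := (⟨a, ha⟩ : discSub 𝒱 A)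

@[simp] lemma discPartVal_mk (a : A) (ha : a ∈ discSub 𝒱 A) :
    discPartVal (discPartMk a ha) = a := rfl

instance isDiscrete_discPart : IsDiscrete 𝒱 (discPart 𝒱 A) where
  exists_fix a := by
    obtain ⟨U, hU, h⟩ := discPartVal_mem a
    exact ⟨U, hU, fun s hs => discPart_ext (by rw [discPartVal_ρ, h s hs])⟩

/-- every vector of a discrete representation lies in the discrete part -/
lemma mem_discSub_of_isDiscrete [IsDiscrete 𝒱 A] (a : A) : a ∈ discSub 𝒱 A :=
  IsDiscrete.exists_fix (𝒰 := 𝒱) a

/-- a morphism from a discrete representation factors through the discrete part -/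
def discPartLift {B : Rep.{u} k D} [IsDiscrete 𝒱 B] (φ : B ⟶ A) : B ⟶ discPart 𝒱 A :=
  Rep.ofHom
    ⟨{ toFun := fun b => discPartMk (φ.hom b) (by
          obtain ⟨U, hU, h⟩ := IsDiscrete.exists_fix (𝒰 := 𝒱) b
          refine ⟨U, hU, fun s hs => ?_⟩
          rw [← Rep.hom_comm_apply, h s hs])
       map_add' := fun b b' => discPart_ext (by
         show φ.hom (b + b') = φ.hom b + φ.hom b'
         rw [map_add])
       map_smul' := fun c b => discPart_ext (by
         show φ.hom (c • b) = c • φ.hom b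
         rw [map_smul]) },
     fun d => by
       ext b
       exact (Rep.hom_comm_apply φ d b)⟩

lemma discPartLift_comp_discPartι {B : Rep.{u} k D} [IsDiscrete 𝒱 B] (φ : B ⟶ A) :
    discPartLift φ ≫ discPartι 𝒱 A = φ := by
  ext b
  rfl

end Def

/-! ### Level-constant coinduction only sees the discrete part -/

section Coind

variable (𝒰 : LevelSystem G) (r : D →* G) (A : Rep.{u} k D)

/-- the values of a level-constant equivariant function lie in the discrete part -/
lemma lcCoindFun_mem_discSub (F : lcCoind 𝒰 r A) (g : G) :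
    lcCoindFun F g ∈ discSub (𝒰.comap r) A := by
  obtain ⟨U, hU, hn, -, h⟩ := lcCoindFun_lc F
  refine ⟨U.comap r, ⟨U, hU, rfl⟩, fun d hd => ?_⟩
  rw [← lcCoindFun_equivariant]
  have h1 : r d * g = g * (g⁻¹ * r d * g) := by group
  rw [h1]
  exact h _ _ (by simpa using hn.conj_mem (r d) hd g⁻¹)

theorem lcCoindMap_discPartι_injective :
    Function.Injective (lcCoindMap 𝒰 r (discPartι (𝒰.comap r) A)).hom := by
  intro F F' h
  apply lcCoind_ext
  intro g
  apply discPart_ext
  have := congrArg (fun F'' : lcCoind 𝒰 r A => lcCoindFun F'' g) h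
  exact this

theorem lcCoindMap_discPartι_surjective :
    Function.Surjective (lcCoindMap 𝒰 r (discPartι (𝒰.comap r) A)).hom := by
  intro F
  obtain ⟨U, hU, -, -, h⟩ := lcCoindFun_lc F
  refine ⟨lcCoindMk (fun g => discPartMk (lcCoindFun F g) (lcCoindFun_mem_discSub 𝒰 r A F g))
    (fun d g => discPart_ext (by
      rw [discPartVal_mk, discPartVal_ρ, discPartVal_mk, lcCoindFun_equivariant]))
    ⟨U, hU, fun g u hu => discPart_ext (by rw [discPartVal_mk, discPartVal_mk, h g u hu])⟩, ?_⟩
  apply lcCoind_ext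
  intro g
  rfl

end Coind

end Fermat.Agent.GC.LimJ
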