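/-
GATE-C / C4 (LM-J) = (A7), part 5 (helper71): **the `S`-idele module `J_S` of `ℚ_S` as a discrete
`G_ℚ`-module, the diagonal embedding of `ℚ_Sˣ`, and the `S`-idele class module
`D_S = J_S / O_Sˣ`**.

`G_ℚ = Gal(Qbar/ℚ)` with helper59's level system `levelS S`; for a prime `q`,
`r_q = localGaloisToGlobal q : G_{ℚ_q} → G_ℚ`, `levelSq S q = (levelS S).comap r_q`.
* `locUnitsS S q : Rep ℤ G_{ℚ_q}` — the `levelSq`-discrete part of `(PadicAlgCl q)ˣ`
  (`= ((ℚ_S)_q)ˣ`, `(ℚ_S)_q = ⋃_{L ⊆ ℚ_S} L_q`);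
* `JSq S q := lcCoind (levelS S) r_q (locUnitsS S q) : Rep ℤ G_ℚ` — level-constant functions
  `F : G_ℚ → (PadicAlgCl q)ˣ` with `F (r_q τ * g) = τ (F g)`; `JSq.val F g : (PadicAlgCl q)ˣ`;
* `JS S := ∏_{q ∈ S} JSq S q` (helper72's `Mackey.piRep`), discrete for `levelS S`;
* `diagS S : unitsS S ⟶ JS S` (helper78's `ℚ_Sˣ`), `x ↦ (q ↦ g ↦ ι_q (g x))`, injective for `S ≠ ∅`;
  `EStoJS S : sUnitsS S ⟶ JS S` its restriction to `O_Sˣ`;
* `DS S := JS S ⧸ O_Sˣ`, `JStoDS S`, `ideleSShortComplex_shortExact :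
  0 → sUnitsS S → JS S → DS S → 0`, all discrete for `levelS S`.
-/
import Fermat.Agent.GC.Global.Limit.DiscPart
import Fermat.Agent.GC.Kummer.HlcUnits
import Fermat.Agent.GC.Places.Levels
import Fermat.Agent.GC.Global.ClassModule
import Fermat.Agent.GC.Prof.ProdInst
import Fermat.Agent.GC.Prof.LESNat

set_option autoImplicit false
set_option linter.unusedSectionVars false

open CategoryTheory
open scoped Padic

noncomputable section

namespace Fermat.Agent.GC.LimJ

open Fermat.Agent.GC.Prof Fermat.Agent.GC.C0 Fermat.Agent.GC.Local.KR Fermat.Agent.GC.Local.Abs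
  Fermat.Agent.GC.KumH Fermat.Agent.GC.Global.Mackey

local notation "Qb" => AlgebraicClosure ℚ
local notation "GQ" => (AlgebraicClosure ℚ ≃ₐ[ℚ] AlgebraicClosure ℚ)

variable (S : Finset Nat.Primes)

/-! ### The local coefficient modules -/

section Local

variable (q : ℕ) [Fact q.Prime]

/-- the level system on `G_{ℚ_q}` induced by `levelS S` -/
abbrev levelSq : LevelSystem (Gq q) := (levelS S).comap (localGaloisToGlobal q)

/-- the local coefficient module `((ℚ_S)_q)ˣ`: the units of `PadicAlgCl q` fixed by the absolute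
Galois group of some `L_q`, `L/ℚ` finite unramified outside `S` -/
def locUnitsS : Rep ℤ (Gq q) := discPart (levelSq S q) (unitsRep ℚ_[q] (PadicAlgCl q))

instance isDiscrete_locUnitsS : IsDiscrete (levelSq S q) (locUnitsS S q) :=
  inferInstanceAs (IsDiscrete (levelSq S q) (discPart (levelSq S q) (unitsRep ℚ_[q] (PadicAlgCl q))))

/-- the inclusion of `((ℚ_S)_q)ˣ` into `(PadicAlgCl q)ˣ` -/
def locUnitsSι : locUnitsS S q ⟶ unitsRep ℚ_[q] (PadicAlgCl q) :=
  discPartι (levelSq S q) (unitsRep ℚ_[q] (PadicAlgCl q))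

/-- the underlying unit of `PadicAlgCl q` -/
def locUnitsS.unit (a : locUnitsS S q) : (PadicAlgCl q)ˣ :=
  Additive.toMul (α := (PadicAlgCl q)ˣ)
    (discPartVal (𝒱 := levelSq S q) (A := unitsRep ℚ_[q] (PadicAlgCl q)) a)

variable {S q}

lemma locUnitsS.unit_injective : Function.Injective (locUnitsS.unit S q) := by
  intro a b h
  exact discPart_ext (Additive.toMul.injective h)

lemma locUnitsS.unit_add (a b : locUnitsS S q) :
    locUnitsS.unit S q (a + b) = locUnitsS.unit S q a * locUnitsS.unit S q b := rfl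

lemma locUnitsS.unit_zero : locUnitsS.unit S q 0 = 1 := rfl

lemma locUnitsS.unit_ρ (τ : Gq q) (a : locUnitsS S q) :
    ((locUnitsS.unit S q ((locUnitsS S q).ρ τ a) : (PadicAlgCl q)ˣ) : PadicAlgCl q) =
      τ ((locUnitsS.unit S q a : (PadicAlgCl q)ˣ) : PadicAlgCl q) := rfl

/-- a unit of `PadicAlgCl q` lies in `((ℚ_S)_q)ˣ` iff it is fixed by `r_q⁻¹ (Gal(Qbar/F))` for
some finite `F/ℚ` unramified outside `S` -/
lemma mem_discSub_unitsRep_iff (u : (PadicAlgCl q)ˣ) :
    (Additive.ofMul u : unitsRep ℚ_[q] (PadicAlgCl q)) ∈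
        discSub (levelSq S q) (unitsRep ℚ_[q] (PadicAlgCl q)) ↔
      ∃ F : IntermediateField ℚ Qb, F.IsUnramifiedOutside S ∧
        ∀ τ : Gq q, localGaloisToGlobal q τ ∈ F.fixingSubgroup → τ (u : PadicAlgCl q) = u := by
  constructor
  · rintro ⟨_, ⟨_, ⟨F, hF, rfl⟩, rfl⟩, h⟩
    refine ⟨F, hF, fun τ hτ => ?_⟩
    have h1 := h τ hτ
    have h2 := congrArg (fun a : Additive (PadicAlgCl q)ˣ =>
      ((Additive.toMul a : (PadicAlgCl q)ˣ) : PadicAlgCl q)) h1
    exact h2
  · rintro ⟨F, hF, h⟩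
    refine ⟨F.fixingSubgroup.comap (localGaloisToGlobal q), ⟨_, ⟨F, hF, rfl⟩, rfl⟩, fun τ hτ => ?_⟩
    apply Additive.toMul.injective
    apply Units.ext
    exact h τ hτ

/-- constructor for elements of `((ℚ_S)_q)ˣ` -/
def locUnitsS.mk (u : (PadicAlgCl q)ˣ)
    (hu : ∃ F : IntermediateField ℚ Qb, F.IsUnramifiedOutside S ∧
      ∀ τ : Gq q, localGaloisToGlobal q τ ∈ F.fixingSubgroup → τ (u : PadicAlgCl q) = u) :
    locUnitsS S q :=
  discPartMk (𝒱 := levelSq S q) (A := unitsRep ℚ_[q] (PadicAlgCl q)) (Additive.ofMul u)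
    ((mem_discSub_unitsRep_iff u).2 hu)

@[simp] lemma locUnitsS.unit_mk (u : (PadicAlgCl q)ˣ)
    (hu : ∃ F : IntermediateField ℚ Qb, F.IsUnramifiedOutside S ∧
      ∀ τ : Gq q, localGaloisToGlobal q τ ∈ F.fixingSubgroup → τ (u : PadicAlgCl q) = u) :
    locUnitsS.unit S q (locUnitsS.mk u hu) = u := rfl

lemma locUnitsS.exists_fix (a : locUnitsS S q) :
    ∃ F : IntermediateField ℚ Qb, F.IsUnramifiedOutside S ∧
      ∀ τ : Gq q, localGaloisToGlobal q τ ∈ F.fixingSubgroup →
        τ ((locUnitsS.unit S q a : (PadicAlgCl q)ˣ) : PadicAlgCl q) = locUnitsS.unit S q a :=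
  (mem_discSub_unitsRep_iff (locUnitsS.unit S q a)).1
    (discPartVal_mem (𝒱 := levelSq S q) (A := unitsRep ℚ_[q] (PadicAlgCl q)) a)

end Local

/-! ### The `q`-component of `J_S` -/

section Component

variable (q : ℕ) [Fact q.Prime]

/-- the `q`-component of the `S`-idele module of `ℚ_S` -/
def JSq : Rep ℤ GQ := lcCoind (levelS S) (localGaloisToGlobal q) (locUnitsS S q)

instance isDiscrete_JSq : IsDiscrete (levelS S) (JSq S q) :=
  inferInstanceAs (IsDiscrete (levelS S) (lcCoind (levelS S) (localGaloisToGlobal q) (locUnitsS S q)))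

/-- the value of `F ∈ JSq` at `g`, as a unit of `PadicAlgCl q` -/
def JSq.val (F : JSq S q) (g : GQ) : (PadicAlgCl q)ˣ :=
  locUnitsS.unit S q (lcCoindFun (𝒰 := levelS S) (r := localGaloisToGlobal q)
    (A := locUnitsS S q) F g)

variable {S q}

lemma JSq.ext_val {F F' : JSq S q} (h : ∀ g, JSq.val S q F g = JSq.val S q F' g) : F = F' := by
  apply lcCoind_ext (𝒰 := levelS S) (r := localGaloisToGlobal q) (A := locUnitsS S q)
  intro g
  exact locUnitsS.unit_injective (h g)

lemma JSq.val_add (F F' : JSq S q) (g : GQ) :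
    JSq.val S q (F + F') g = JSq.val S q F g * JSq.val S q F' g := rfl

lemma JSq.val_zero (g : GQ) : JSq.val S q (0 : JSq S q) g = 1 := rfl

lemma JSq.val_ρ (σ : GQ) (F : JSq S q) (g : GQ) :
    JSq.val S q ((JSq S q).ρ σ F) g = JSq.val S q F (g * σ) := rfl

lemma JSq.val_equivariant (F : JSq S q) (τ : Gq q) (g : GQ) :
    ((JSq.val S q F (localGaloisToGlobal q τ * g) : (PadicAlgCl q)ˣ) : PadicAlgCl q) =
      τ ((JSq.val S q F g : (PadicAlgCl q)ˣ) : PadicAlgCl q) := by
  have h := lcCoindFun_equivariant (𝒰 := levelS S) (r := localGaloisToGlobal q)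
    (A := locUnitsS S q) F τ g
  exact congrArg (fun a => ((locUnitsS.unit S q a : (PadicAlgCl q)ˣ) : PadicAlgCl q)) h

lemma JSq.val_lc (F : JSq S q) :
    ∃ L : IntermediateField ℚ Qb, L.IsUnramifiedOutside S ∧
      ∀ g u, u ∈ L.fixingSubgroup → JSq.val S q F (g * u) = JSq.val S q F g := by
  obtain ⟨U, hU, h⟩ := (F : lcCoindV (levelS S) (localGaloisToGlobal q) (locUnitsS S q)).2
  obtain ⟨L, hL, rfl⟩ := hU
  exact ⟨L, hL, fun g u hu => congrArg (locUnitsS.unit S q) (h g u hu)⟩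

/-- constructor for elements of `JSq`: a function `f : G_ℚ → (PadicAlgCl q)ˣ` with
`f (r τ * g) = τ (f g)`, right-invariant under `Gal(Qbar/L)` for some finite `L/ℚ`
unramified outside `S` -/
def JSq.ofFamily (f : GQ → (PadicAlgCl q)ˣ)
    (heq : ∀ (τ : Gq q) (g : GQ),
      ((f (localGaloisToGlobal q τ * g) : (PadicAlgCl q)ˣ) : PadicAlgCl q) = τ (f g))
    (L : IntermediateField ℚ Qb) (hL : L.IsUnramifiedOutside S)
    (hlc : ∀ g u, u ∈ L.fixingSubgroup → f (g * u) = f g) : JSq S q :=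
  lcCoindMk (𝒰 := levelS S) (r := localGaloisToGlobal q) (A := locUnitsS S q)
    (fun g => locUnitsS.mk (f g) ⟨L.map (g : Qb →ₐ[ℚ] Qb), isUnramifiedOutside_map hL g,
      fun τ hτ => by
        rw [← heq]
        have h1 : localGaloisToGlobal q τ * g = g * (g⁻¹ * localGaloisToGlobal q τ * g) := by
          group
        rw [h1, hlc g _ ((Fermat.Agent.GC.Places.mem_fixingSubgroup_conjField_iff L g _).1 hτ)]⟩)
    (fun τ g => locUnitsS.unit_injective (Units.ext (by
      rw [locUnitsS.unit_mk, locUnitsS.unit_ρ, locUnitsS.unit_mk]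
      exact heq τ g)))
    ⟨L.fixingSubgroup, ⟨L, hL, rfl⟩, fun g u hu => locUnitsS.unit_injective (by
      rw [locUnitsS.unit_mk, locUnitsS.unit_mk, hlc g u hu])⟩

@[simp] lemma JSq.val_ofFamily (f : GQ → (PadicAlgCl q)ˣ) (heq) (L : IntermediateField ℚ Qb)
    (hL : L.IsUnramifiedOutside S) (hlc) (g : GQ) :
    JSq.val S q (JSq.ofFamily f heq L hL hlc) g = f g := rfl

end Component

/-! ### The diagonal embedding, `q`-component -/

section DiagQ

variable (q : ℕ) [Fact q.Prime]

/-- `x ↦ (g ↦ ι_q (g x))` on units of `ℚ_S` -/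
def diagSqFun (x : unitsQS S) (g : GQ) : (PadicAlgCl q)ˣ :=
  Units.map (padicEmbedding q : Qb →* PadicAlgCl q) (g • (x : Qbˣ))

lemma coe_diagSqFun (x : unitsQS S) (g : GQ) :
    ((diagSqFun S q x g : (PadicAlgCl q)ˣ) : PadicAlgCl q) =
      padicEmbedding q (g ((x : Qbˣ) : Qb)) := rfl

lemma diagSqFun_equivariant (x : unitsQS S) (τ : Gq q) (g : GQ) :
    ((diagSqFun S q x (localGaloisToGlobal q τ * g) : (PadicAlgCl q)ˣ) : PadicAlgCl q) =
      τ (diagSqFun S q x g) := by
  rw [coe_diagSqFun, coe_diagSqFun, ← padicEmbedding_localGaloisToGlobal]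
  rfl

lemma diagSqFun_mul (x y : unitsQS S) (g : GQ) :
    diagSqFun S q (x * y) g = diagSqFun S q x g * diagSqFun S q y g := by
  apply Units.ext
  simp only [coe_diagSqFun, Units.val_mul, Subgroup.coe_mul, map_mul]

/-- the `q`-component of the diagonal embedding, on vectors -/
def diagSqVec (x : unitsQS S) : JSq S q :=
  JSq.ofFamily (diagSqFun S q x) (diagSqFun_equivariant S q x) x.2.choose x.2.choose_spec.1
    (fun g u hu => by
      apply Units.ext
      rw [coe_diagSqFun, coe_diagSqFun]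
      have h1 := (IntermediateField.mem_fixingSubgroup_iff _ u).1 hu _ x.2.choose_spec.2
      show padicEmbedding q (g (u ((x : Qbˣ) : Qb))) = _
      rw [h1])

@[simp] lemma val_diagSqVec (x : unitsQS S) (g : GQ) :
    JSq.val S q (diagSqVec S q x) g = diagSqFun S q x g := rfl

/-- the `q`-component of the diagonal embedding `ℚ_Sˣ → J_{S,q}` -/
def diagSq : unitsS S ⟶ JSq S q :=
  Rep.ofHom
    ⟨(AddMonoidHom.mk' (fun x : Additive (unitsQS S) => diagSqVec S q x.toMul) (fun x y => by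
        apply JSq.ext_val
        intro g
        rw [JSq.val_add, val_diagSqVec, val_diagSqVec, val_diagSqVec]
        exact diagSqFun_mul S q x.toMul y.toMul g)).toIntLinearMap,
     fun σ => by
       ext x g
       rfl⟩

lemma val_diagSq (x : unitsS S) (g : GQ) :
    ((JSq.val S q ((diagSq S q).hom x) g : (PadicAlgCl q)ˣ) : PadicAlgCl q) =
      padicEmbedding q (g ((((Additive.toMul (show Additive (unitsQS S) from x) : unitsQS S) :
        Qbˣ) : Qb))) := rfl

lemma diagSq_injective : Function.Injective (diagSq S q).hom := by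
  intro x y h
  have h1 := congrArg (fun F : JSq S q => ((JSq.val S q F 1 : (PadicAlgCl q)ˣ) : PadicAlgCl q)) h
  simp only [val_diagSq, AlgEquiv.one_apply] at h1
  have h2 := (padicEmbedding q).toRingHom.injective h1
  exact Additive.toMul.injective (Subtype.ext (Units.ext h2))

end DiagQ

/-! ### The `S`-idele module and the `S`-idele class module -/

section Product

/-- the **`S`-idele module of `ℚ_S`**, a discrete `G_ℚ`-module for `levelS S` -/
def JS : Rep ℤ GQ := piRep (fun q : S => JSq S ((q : Nat.Primes) : ℕ))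

instance isDiscrete_JS : IsDiscrete (levelS S) (JS S) :=
  isDiscrete_piRep (levelS S) (fun q : S => JSq S ((q : Nat.Primes) : ℕ))

/-- the projection to the `q`-component -/
def JSproj (q : S) : JS S ⟶ JSq S ((q : Nat.Primes) : ℕ) :=
  piProj (fun q : S => JSq S ((q : Nat.Primes) : ℕ)) q

/-- the **diagonal embedding** `ℚ_Sˣ → J_S` -/
def diagS : unitsS S ⟶ JS S :=
  Rep.ofHom
    ⟨LinearMap.pi fun q : S => (diagSq S ((q : Nat.Primes) : ℕ)).hom.toLinearMap, fun σ => by
      ext x q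
      exact congrArg (fun f => f x) ((diagSq S ((q : Nat.Primes) : ℕ)).hom.isIntertwining' σ)⟩

lemma diagS_apply (x : unitsS S) (q : S) :
    (diagS S).hom x q = (diagSq S ((q : Nat.Primes) : ℕ)).hom x := rfl

lemma diagS_injective (hS : S.Nonempty) : Function.Injective (diagS S).hom := by
  obtain ⟨q, hq⟩ := hS
  intro x y h
  exact diagSq_injective S (q : ℕ) (congrFun h ⟨q, hq⟩)

/-- the inclusion `O_Sˣ → ℚ_Sˣ` -/
def sUnitsSι : sUnitsS S ⟶ unitsS S :=
  Rep.ofHom
    ⟨(AddMonoidHom.mk' (fun x : Additive (sUnitsQS S) =>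
        (Additive.ofMul (Subgroup.inclusion (sUnitsQS_le S) x.toMul) : Additive (unitsQS S)))
        (fun _ _ => rfl)).toIntLinearMap,
     fun σ => by
       ext x
       rfl⟩

lemma sUnitsSι_injective : Function.Injective (sUnitsSι S).hom := by
  intro x y h
  have h1 : Subgroup.inclusion (sUnitsQS_le S) (Additive.toMul (show Additive (sUnitsQS S) from x))
      = Subgroup.inclusion (sUnitsQS_le S) (Additive.toMul (show Additive (sUnitsQS S) from y)) :=
    Additive.ofMul.injective h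
  exact Additive.toMul.injective (Subgroup.inclusion_injective _ h1)

/-- the embedding `O_Sˣ → J_S` -/
def EStoJS : sUnitsS S ⟶ JS S := sUnitsSι S ≫ diagS S

lemma EStoJS_injective (hS : S.Nonempty) : Function.Injective (EStoJS S).hom := by
  intro x y h
  exact sUnitsSι_injective S (diagS_injective S hS h)

/-- the image of `O_Sˣ` in `J_S` -/
def diagSUnits : Submodule ℤ (JS S) := LinearMap.range (EStoJS S).hom.toLinearMap

lemma diagSUnits_le_comap (σ : GQ) : diagSUnits S ≤ (diagSUnits S).comap ((JS S).ρ σ) := by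
  rintro _ ⟨x, rfl⟩
  exact ⟨(sUnitsS S).ρ σ x, Rep.hom_comm_apply (EStoJS S) σ x⟩

/-- the **`S`-idele class module** `D_S = J_S / O_Sˣ` of `ℚ_S` -/
def DS : Rep ℤ GQ := Rep.quotient (JS S) (diagSUnits S) (diagSUnits_le_comap S)

/-- the projection `J_S → D_S` -/
def JStoDS : JS S ⟶ DS S := Rep.mkQ (JS S) (diagSUnits S) (diagSUnits_le_comap S)

lemma JStoDS_surjective : Function.Surjective (JStoDS S).hom := Submodule.mkQ_surjective _

instance isDiscrete_DS : IsDiscrete (levelS S) (DS S) :=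
  IsDiscrete.of_surjective (JStoDS S) (JStoDS_surjective S)

lemma JStoDS_eq_zero_iff (y : JS S) : (JStoDS S).hom y = 0 ↔ ∃ x, (EStoJS S).hom x = y :=
  Submodule.Quotient.mk_eq_zero _

lemma EStoJS_comp_JStoDS : EStoJS S ≫ JStoDS S = 0 := by
  ext x
  exact (JStoDS_eq_zero_iff S _).2 ⟨x, rfl⟩

/-- the short complex `O_Sˣ ⟶ J_S ⟶ D_S` of discrete `G_ℚ`-modules -/
def ideleSShortComplex : ShortComplex (Rep ℤ GQ) where
  X₁ := sUnitsS S
  X₂ := JS S
  X₃ := DS S
  f := EStoJS S
  g := JStoDS S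
  zero := EStoJS_comp_JStoDS S

/-- `0 → O_Sˣ → J_S → D_S → 0` is short exact (for `S ≠ ∅`) -/
theorem ideleSShortComplex_shortExact (hS : S.Nonempty) : (ideleSShortComplex S).ShortExact :=
  Fermat.Agent.GC.Global.shortExact_of_forget _ (EStoJS_injective S hS) (JStoDS_surjective S)
    fun y hy => (JStoDS_eq_zero_iff S y).1 hy

instance : IsDiscrete (levelS S) (ideleSShortComplex S).X₁ :=
  inferInstanceAs (IsDiscrete (levelS S) (sUnitsS S))

instance : IsDiscrete (levelS S) (ideleSShortComplex S).X₂ :=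
  inferInstanceAs (IsDiscrete (levelS S) (JS S))

instance : IsDiscrete (levelS S) (ideleSShortComplex S).X₃ :=
  inferInstanceAs (IsDiscrete (levelS S) (DS S))

end Product

end Fermat.Agent.GC.LimJ
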