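/-
GATE-C / C4 (LM-J), part 2 (helper71): **Shapiro's lemma for level-constant coinduction along an
arbitrary homomorphism** `r : D →* G` (closed subgroups, e.g. decomposition groups).

`𝒰` a level system on `G`, `𝒰.comap r` the induced level system on `D`, `A : Rep k D` discrete for
`𝒰.comap r`, `lcCoind 𝒰 r A` the level-constant coinduction (`LcCoind.lean`).
* `HlcShapiroLC 𝒰 r A n : Hlc 𝒰 (lcCoind 𝒰 r A) n ⟶ Hlc (𝒰.comap r) A n`
  := `HlcPull (isContHom_comap r 𝒰) (lcCoindEv 𝒰 r A) n` (pull back along `r`, evaluate at `1`);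
* naturality in `A`, compatibility with connecting homomorphisms, value on representatives;
* **`HlcShapiroLC_bijective`** in every degree (degree `0` by hand, then dimension shifting through
  helper5's acyclic envelope, exactly as helper20's `HlcShapiro_bijective` for open subgroups).
-/
import Fermat.Agent.GC.Global.Limit.LcCoind

set_option autoImplicit false
set_option linter.unusedSectionVars false

open CategoryTheory

noncomputable section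

namespace Fermat.Agent.GC.LimJ

open Fermat.Agent.GC.Prof

universe u

variable {k G D : Type u} [CommRing k] [Group G] [Group D]

section Shapiro

/-- the Shapiro map `Hlc 𝒰 (lcCoind 𝒰 r A) n ⟶ Hlc 𝒰_D A n` (pull back along `r`, then evaluate
at `1`) -/
def HlcShapiroLC (𝒰 : LevelSystem G) (r : D →* G) (A : Rep.{u} k D)
    [IsDiscrete (𝒰.comap r) A] (n : ℕ) :
    Hlc 𝒰 (lcCoind 𝒰 r A) n ⟶ Hlc (𝒰.comap r) A n :=
  HlcPull (isContHom_comap r 𝒰) (lcCoindEv 𝒰 r A) n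

variable {𝒰 : LevelSystem G} {r : D →* G}

theorem HlcShapiroLC_naturality {A B : Rep.{u} k D}
    [IsDiscrete (𝒰.comap r) A] [IsDiscrete (𝒰.comap r) B] (φ : A ⟶ B) (n : ℕ) :
    HlcMap 𝒰 (lcCoindMap 𝒰 r φ) n ≫ HlcShapiroLC 𝒰 r B n =
      HlcShapiroLC 𝒰 r A n ≫ HlcMap (𝒰.comap r) φ n := by
  unfold HlcShapiroLC
  rw [HlcMap_comp_HlcPull, HlcPull_comp_HlcMap]
  exact congrArg (fun ψ => HlcPull (isContHom_comap r 𝒰) ψ n) (lcCoindEv_naturality 𝒰 r φ)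

/-- the Shapiro map commutes with the connecting homomorphisms -/
theorem Hlcδ_comp_HlcShapiroLC {Y : ShortComplex (Rep.{u} k D)} (hY : Y.ShortExact)
    [IsDiscrete (𝒰.comap r) Y.X₁] [IsDiscrete (𝒰.comap r) Y.X₂] [IsDiscrete (𝒰.comap r) Y.X₃]
    [IsDiscrete 𝒰 (lcCoindSC 𝒰 r Y).X₁] [IsDiscrete 𝒰 (lcCoindSC 𝒰 r Y).X₂]
    [IsDiscrete 𝒰 (lcCoindSC 𝒰 r Y).X₃] (i j : ℕ) (hij : i + 1 = j) :
    Hlcδ 𝒰 (lcCoindSC_shortExact 𝒰 r hY) i j hij ≫ HlcShapiroLC 𝒰 r Y.X₁ j =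
      HlcShapiroLC 𝒰 r Y.X₃ i ≫ Hlcδ (𝒰.comap r) hY i j hij :=
  Hlcδ_comp_HlcPull (isContHom_comap r 𝒰) (lcCoindSC_shortExact 𝒰 r hY) hY
    (lcCoindEv 𝒰 r Y.X₁) (lcCoindEv 𝒰 r Y.X₂) (lcCoindEv 𝒰 r Y.X₃)
    (lcCoindEv_naturality 𝒰 r Y.f).symm (lcCoindEv_naturality 𝒰 r Y.g).symm i j hij

instance (Y : ShortComplex (Rep.{u} k D)) : IsDiscrete 𝒰 (lcCoindSC 𝒰 r Y).X₁ :=
  inferInstanceAs (IsDiscrete 𝒰 (lcCoind 𝒰 r Y.X₁))

instance (Y : ShortComplex (Rep.{u} k D)) : IsDiscrete 𝒰 (lcCoindSC 𝒰 r Y).X₂ :=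
  inferInstanceAs (IsDiscrete 𝒰 (lcCoind 𝒰 r Y.X₂))

instance (Y : ShortComplex (Rep.{u} k D)) : IsDiscrete 𝒰 (lcCoindSC 𝒰 r Y).X₃ :=
  inferInstanceAs (IsDiscrete 𝒰 (lcCoind 𝒰 r Y.X₃))

section Zero

variable (A : Rep.{u} k D) [IsDiscrete (𝒰.comap r) A]

theorem HlcShapiroLC_zero_injective : Function.Injective (HlcShapiroLC 𝒰 r A 0) := by
  rw [injective_iff_map_eq_zero]
  intro x hx
  obtain ⟨f, hf, rfl⟩ := Hlc_exists_mk 𝒰 (lcCoind 𝒰 r A) x
  unfold HlcShapiroLC at hx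
  rw [HlcPull_mk, HlcMk_zero_eq_zero_iff] at hx
  rw [HlcMk_zero_eq_zero_iff]
  have hinv := (lcD_zero_eq_zero_iff 𝒰 (lcCoind 𝒰 r A) f).1 hf
  rw [lcEquiv₀_apply] at hinv
  -- the value at `1` vanishes
  have h1 : lcCoindFun ((f : (Fin 0 → G) → lcCoind 𝒰 r A) default) 1 = 0 := by
    have := congrFun (congrArg Subtype.val hx) default
    rw [lcPullLin_coe] at this
    have hd : (r ∘ (default : Fin 0 → D)) = (default : Fin 0 → G) :=
      Subsingleton.elim _ _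
    rw [hd] at this
    exact this
  have h2 : (f : (Fin 0 → G) → lcCoind 𝒰 r A) default = 0 := by
    apply lcCoind_ext
    intro g
    have := congrArg (fun F : lcCoind 𝒰 r A => lcCoindFun F 1) (hinv g)
    have h3 : lcCoindFun ((f : (Fin 0 → G) → lcCoind 𝒰 r A) default) (1 * g) =
        lcCoindFun ((f : (Fin 0 → G) → lcCoind 𝒰 r A) default) 1 := this
    rw [one_mul] at h3
    rw [h3, h1]
    rfl
  apply Subtype.ext
  funext c
  rw [Subsingleton.elim c default, h2]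
  rfl

theorem HlcShapiroLC_zero_surjective : Function.Surjective (HlcShapiroLC 𝒰 r A 0) := by
  intro y
  obtain ⟨b, hb, rfl⟩ := Hlc_exists_mk (𝒰.comap r) A y
  have hinv := (lcD_zero_eq_zero_iff (𝒰.comap r) A b).1 hb
  rw [lcEquiv₀_apply] at hinv
  set b₀ : A := (b : (Fin 0 → D) → A) default with hb₀
  -- the constant function with value `b₀`
  let F₀ : lcCoind 𝒰 r A := lcCoindMk (fun _ => b₀) (fun d _ => (hinv d).symm) (by
    obtain ⟨U, hU⟩ := 𝒰.nonempty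
    exact ⟨U, hU, fun _ _ _ => rfl⟩)
  let f : lcSub 𝒰 (lcCoind 𝒰 r A) 0 := ⟨fun _ => F₀, IsLC.const F₀⟩
  have hf : lcD 𝒰 (lcCoind 𝒰 r A) 0 f = 0 := by
    rw [lcD_zero_eq_zero_iff, lcEquiv₀_apply]
    intro g
    apply lcCoind_ext
    intro x
    rfl
  refine ⟨HlcMk 𝒰 (lcCoind 𝒰 r A) f hf, ?_⟩
  unfold HlcShapiroLC
  rw [HlcPull_mk]
  refine HlcMk_congr (𝒰.comap r) A ?_ _
  apply Subtype.ext
  funext c
  rw [lcPullLin_coe, Subsingleton.elim c default]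
  rfl

theorem HlcShapiroLC_zero_bijective : Function.Bijective (HlcShapiroLC 𝒰 r A 0) :=
  ⟨HlcShapiroLC_zero_injective A, HlcShapiroLC_zero_surjective A⟩

end Zero

/-- **Shapiro's lemma for level-constant coinduction**: for every homomorphism `r : D →* G` and
every `A : Rep k D` discrete for the induced level system, the Shapiro map
`Hlc 𝒰 (lcCoind 𝒰 r A) n ⟶ Hlc 𝒰_D A n` is bijective in every degree. -/
theorem HlcShapiroLC_bijective (n : ℕ) (A : Rep.{u} k D) [IsDiscrete (𝒰.comap r) A] :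
    Function.Bijective (HlcShapiroLC 𝒰 r A n) := by
  induction n generalizing A with
  | zero => exact HlcShapiroLC_zero_bijective A
  | succ n ih =>
    set Y := lcIndSES (𝒰.comap r) A with hYdef
    have hY : Y.ShortExact := lcIndSES_shortExact (𝒰.comap r) A
    have hcY := lcCoindSC_shortExact 𝒰 r hY
    -- vanishing of the middle terms
    have hzG : ∀ z : Hlc 𝒰 (lcCoindSC 𝒰 r Y).X₂ (n + 1), z = 0 :=
      fun z => Hlc_lcCoind_lcInd_eq_zero 𝒰 r A n z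
    have hδS : Function.Surjective (Hlcδ (𝒰.comap r) hY n (n + 1) rfl) :=
      Hlcδ_lcIndSES_surjective (𝒰.comap r) A n
    have hδG : Function.Surjective (Hlcδ 𝒰 hcY n (n + 1) rfl) := by
      intro w
      have hex := Hlc_exact₁ 𝒰 hcY n (n + 1) rfl
      rw [ShortComplex.moduleCat_exact_iff] at hex
      exact hex w (hzG _)
    have hcomm := Hlcδ_comp_HlcShapiroLC (𝒰 := 𝒰) (r := r) hY n (n + 1) rfl
    have hcomm' : ∀ y, HlcShapiroLC 𝒰 r Y.X₁ (n + 1) (Hlcδ 𝒰 hcY n (n + 1) rfl y) =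
        Hlcδ (𝒰.comap r) hY n (n + 1) rfl (HlcShapiroLC 𝒰 r Y.X₃ n y) := fun y =>
      congr($hcomm y)
    constructor
    · rw [injective_iff_map_eq_zero]
      intro x hx
      obtain ⟨y, rfl⟩ := hδG x
      have h1 : Hlcδ (𝒰.comap r) hY n (n + 1) rfl (HlcShapiroLC 𝒰 r Y.X₃ n y) = 0 := by
        rw [← hcomm' y]
        exact hx
      have hex := Hlc_exact₃ (𝒰.comap r) hY n (n + 1) rfl
      rw [ShortComplex.moduleCat_exact_iff] at hex
      obtain ⟨z, hz⟩ := hex _ h1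
      obtain ⟨z', rfl⟩ := (ih Y.X₂).2 z
      have hnat := HlcShapiroLC_naturality (𝒰 := 𝒰) (r := r) Y.g n
      have hnat' : HlcShapiroLC 𝒰 r Y.X₃ n (HlcMap 𝒰 (lcCoindMap 𝒰 r Y.g) n z') =
          HlcMap (𝒰.comap r) Y.g n (HlcShapiroLC 𝒰 r Y.X₂ n z') := congr($hnat z')
      have h2 : HlcMap 𝒰 (lcCoindMap 𝒰 r Y.g) n z' = y :=
        (ih Y.X₃).1 (hnat'.trans hz)
      rw [← h2]
      have hzero : HlcMap 𝒰 (lcCoindSC 𝒰 r Y).g n ≫ Hlcδ 𝒰 hcY n (n + 1) rfl = 0 :=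
        (lcShortComplex_shortExact 𝒰 hcY).comp_δ n (n + 1) rfl
      exact congr($hzero z')
    · intro w
      obtain ⟨v, rfl⟩ := hδS w
      obtain ⟨y, rfl⟩ := (ih Y.X₃).2 v
      exact ⟨Hlcδ 𝒰 hcY n (n + 1) rfl y, hcomm' y⟩

/-- the Shapiro isomorphism as a linear equivalence -/
def HlcShapiroLCEquiv (𝒰 : LevelSystem G) (r : D →* G) (n : ℕ) (A : Rep.{u} k D)
    [IsDiscrete (𝒰.comap r) A] :
    Hlc 𝒰 (lcCoind 𝒰 r A) n ≃ₗ[k] Hlc (𝒰.comap r) A n :=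
  LinearEquiv.ofBijective (HlcShapiroLC 𝒰 r A n).hom (HlcShapiroLC_bijective n A)

@[simp]
theorem HlcShapiroLCEquiv_apply (n : ℕ) (A : Rep.{u} k D) [IsDiscrete (𝒰.comap r) A]
    (x : Hlc 𝒰 (lcCoind 𝒰 r A) n) :
    HlcShapiroLCEquiv 𝒰 r n A x = HlcShapiroLC 𝒰 r A n x := rfl

/-- the Shapiro map on the class of a level-constant cocycle `x`: the class of
`d ↦ x (r ∘ d) 1` -/
theorem HlcShapiroLC_mk (A : Rep.{u} k D) [IsDiscrete (𝒰.comap r) A] {n : ℕ}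
    (x : lcSub 𝒰 (lcCoind 𝒰 r A) n) (hx : lcD 𝒰 (lcCoind 𝒰 r A) n x = 0) :
    HlcShapiroLC 𝒰 r A n (HlcMk 𝒰 (lcCoind 𝒰 r A) x hx) =
      HlcMk (𝒰.comap r) A
        (lcPullLin (isContHom_comap r 𝒰) (lcCoindEv 𝒰 r A) n x)
        (lcD_lcPullLin (isContHom_comap r 𝒰) (lcCoindEv 𝒰 r A) x hx) :=
  HlcPull_mk _ _ x hx

end Shapiro

end Fermat.Agent.GC.LimJ
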