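/-
GATE-C / C4 (LM-J), part 3 (helper71): **Mackey decomposition of a level-constant coinduction
restricted to an open subgroup, on `Hlc`**.

`r : D →* G` any homomorphism, `𝒰` a level system on `G`, `H ≤ G` containing a member of `𝒰`,
`A : Rep k D` discrete for `𝒰.comap r`.  A *Mackey point* `P : LcMackeyPt r H` is an element
`s : G` together with the subgroup `Ds = r⁻¹ (s H s⁻¹) ≤ D` and the homomorphism
`φ : Ds →* H`, `d ↦ s⁻¹ * r d * s` (kept abstract: helper69's `locGroup q K s`, `locHom q K s`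
fit directly).
* `lcMackeyP P : Res_H (lcCoind 𝒰 r A) ⟶ lcCoind 𝒰_H P.φ (Res_{Ds} A)`, `F ↦ (h ↦ F (s * h))`;
* `lcMackeyEv P : Res_{P.φ} Res_H (lcCoind 𝒰 r A) ⟶ Res_{Ds} A`, `F ↦ F s`;
* `HlcLcMackeyLoc P n := HlcPull P.φ (lcMackeyEv P)` — the **localisation map** at `P`;
  `HlcLcMackeyLoc_eq : HlcLcMackeyLoc P n = HlcMap (lcMackeyP P) ≫ HlcShapiroLC`;
* `lcMackeyσ P` : extension by zero outside the double coset `r(D) s H`;
* for a family of Mackey points representing `r(D) \ G / H` (finite):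
  **`HlcLcMackey : Hlc 𝒰_H (Res_H (lcCoind 𝒰 r A)) n ≃ₗ[k] ∀ i, Hlc 𝒰_{Ds i} (Res_{Ds i} A) n`**,
  whose `i`-th component is the localisation map `HlcLcMackeyLoc (pt i) n`.
-/
import Fermat.Agent.GC.Global.Limit.LcShapiro
import Fermat.Agent.GC.Prof.Prod

set_option autoImplicit false
set_option linter.unusedSectionVars false

open CategoryTheory

noncomputable section

namespace Fermat.Agent.GC.LimJ

open Fermat.Agent.GC.Prof

universe u

variable {k G D : Type u} [CommRing k] [Group G] [Group D]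

/-- A point of the Mackey decomposition of `Res_H (coind_r A)`: an element `s : G`, the subgroup
`Ds = r⁻¹ (s H s⁻¹)` of `D` and the homomorphism `φ : Ds →* H`, `d ↦ s⁻¹ * r d * s`. -/
structure LcMackeyPt (r : D →* G) (H : Subgroup G) where
  /-- the representative of the double coset `r(D) s H` -/
  s : G
  /-- the subgroup `r⁻¹ (s H s⁻¹)` -/
  Ds : Subgroup D
  /-- the homomorphism `d ↦ s⁻¹ * r d * s` -/
  φ : Ds →* H
  hφ : ∀ d : Ds, s * ((φ d : H) : G) = r (d : D) * s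
  hfull : ∀ d : D, s⁻¹ * r d * s ∈ H → d ∈ Ds

namespace LcMackeyPt

variable {r : D →* G} {H : Subgroup G} (P : LcMackeyPt r H)

lemma coe_φ (d : P.Ds) : ((P.φ d : H) : G) = P.s⁻¹ * r (d : D) * P.s := by
  rw [mul_assoc, ← P.hφ d, inv_mul_cancel_left]

/-- the canonical Mackey point attached to `s : G` -/
def ofElt (r : D →* G) (H : Subgroup G) (s : G) : LcMackeyPt r H where
  s := s
  Ds := (H.comap (MulAut.conj s⁻¹).toMonoidHom).comap r
  φ :=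
    { toFun := fun d => ⟨s⁻¹ * r (d : D) * s, by
        have := d.2
        simpa [Subgroup.mem_comap, MulAut.conj_apply] using this⟩
      map_one' := by
        apply Subtype.ext
        simp
      map_mul' := fun a b => by
        apply Subtype.ext
        simp only [Subgroup.coe_mul, map_mul]
        group }
  hφ d := by
    show s * (s⁻¹ * r (d : D) * s) = r (d : D) * s
    group
  hfull d hd := by
    simpa [Subgroup.mem_comap, MulAut.conj_apply] using hd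

@[simp] lemma ofElt_s (s : G) : (ofElt r H s).s = s := rfl

/-- the coefficient module at a Mackey point -/
abbrev coeff (A : Rep.{u} k D) : Rep.{u} k P.Ds := Rep.res P.Ds.subtype A

/-- the level system at a Mackey point -/
abbrev level (𝒰 : LevelSystem G) : LevelSystem P.Ds := (𝒰.comap H.subtype).comap P.φ

/-- two presentations of the same element of the double coset differ by an element of `Ds` -/
lemma mem_Ds_of_eq {d d' : D} {x x' : H}
    (e : r d * P.s * (x : G) = r d' * P.s * (x' : G)) : d'⁻¹ * d ∈ P.Ds := by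
  apply P.hfull
  have h1 : P.s⁻¹ * r (d'⁻¹ * d) * P.s = (x' : G) * (x : G)⁻¹ := by
    have h2 : r d * P.s = r d' * P.s * (x' : G) * (x : G)⁻¹ := by
      rw [← e]; group
    rw [map_mul, map_inv, mul_assoc, mul_assoc, h2]
    group
  rw [h1]
  exact H.mul_mem x'.2 (H.inv_mem x.2)

lemma φ_of_eq {d d' : D} {x x' : H}
    (e : r d * P.s * (x : G) = r d' * P.s * (x' : G)) :
    P.φ ⟨d'⁻¹ * d, P.mem_Ds_of_eq e⟩ = x' * x⁻¹ := by
  apply Subtype.ext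
  rw [P.coe_φ]
  show P.s⁻¹ * r (d'⁻¹ * d) * P.s = (x' : G) * (x : G)⁻¹
  have h2 : r d * P.s = r d' * P.s * (x' : G) * (x : G)⁻¹ := by
    rw [← e]; group
  rw [map_mul, map_inv, mul_assoc, mul_assoc, h2]
  group

end LcMackeyPt

/-! ### Discreteness of the restricted coefficient modules -/

section Disc

variable (𝒰 : LevelSystem G) {r : D →* G} {H : Subgroup G} (A : Rep.{u} k D)

instance isDiscrete_res_lcCoind :
    IsDiscrete (𝒰.comap H.subtype) (Rep.res H.subtype (lcCoind 𝒰 r A)) :=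
  IsDiscrete.res (isContHom_comap H.subtype 𝒰) (lcCoind 𝒰 r A)

instance isDiscrete_coeff (P : LcMackeyPt r H) [IsDiscrete (𝒰.comap r) A] :
    IsDiscrete (P.level 𝒰) (P.coeff A) where
  exists_fix a := by
    obtain ⟨_, ⟨U, hU, rfl⟩, hfix⟩ := IsDiscrete.exists_fix (𝒰 := 𝒰.comap r) (M := A) a
    obtain ⟨V, hV, hVU, hn, -⟩ := 𝒰.normal_below U hU
    refine ⟨(V.comap H.subtype).comap P.φ, ⟨_, ⟨V, hV, rfl⟩, rfl⟩, fun d hd => ?_⟩
    have h1 : ((P.φ d : H) : G) ∈ V := hd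
    rw [P.coe_φ] at h1
    have h2 : r (d : D) ∈ V := by
      have := hn.conj_mem _ h1 P.s
      simpa [mul_assoc] using this
    exact hfix (d : D) (hVU h2)

end Disc

/-! ### The component maps -/

section Comp

variable (𝒰 : LevelSystem G) {r : D →* G} {H : Subgroup G} (A : Rep.{u} k D)
  (P : LcMackeyPt r H)

lemma lcMackeyPFun_equivariant (F : lcCoind 𝒰 r A) (d : P.Ds) (h : H) :
    lcCoindFun F (P.s * ((P.φ d * h : H) : G)) =
      A.ρ (d : D) (lcCoindFun F (P.s * (h : G))) := by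
  show lcCoindFun F (P.s * (((P.φ d : H) : G) * (h : G))) =
    A.ρ (d : D) (lcCoindFun F (P.s * (h : G)))
  rw [← mul_assoc, P.hφ d, mul_assoc, lcCoindFun_equivariant]

lemma lcMackeyPFun_lc (F : lcCoind 𝒰 r A) :
    ∃ U ∈ (𝒰.comap H.subtype).sets, ∀ g u : H, u ∈ U →
      lcCoindFun F (P.s * ((g * u : H) : G)) = lcCoindFun F (P.s * (g : G)) := by
  obtain ⟨U, hU, -, -, h⟩ := lcCoindFun_lc F
  refine ⟨U.comap H.subtype, ⟨U, hU, rfl⟩, fun g u hu => ?_⟩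
  show lcCoindFun F (P.s * ((g : G) * (u : G))) = lcCoindFun F (P.s * (g : G))
  rw [← mul_assoc]
  exact h _ _ hu

/-- `F ↦ (h ↦ F (s * h))`, on vectors -/
def lcMackeyPFun (F : lcCoind 𝒰 r A) : lcCoind (𝒰.comap H.subtype) P.φ (P.coeff A) :=
  lcCoindMk (fun h : H => lcCoindFun (𝒰 := 𝒰) (r := r) (A := A) F (P.s * (h : G)))
    (lcMackeyPFun_equivariant 𝒰 A P F) (lcMackeyPFun_lc 𝒰 A P F)

@[simp]
lemma lcCoindFun_lcMackeyPFun (F : lcCoind 𝒰 r A) (h : H) :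
    lcCoindFun (lcMackeyPFun 𝒰 A P F) h = lcCoindFun F (P.s * (h : G)) := rfl

/-- `F ↦ (h ↦ F (s * h))` -/
def lcMackeyP :
    Rep.res H.subtype (lcCoind 𝒰 r A) ⟶ lcCoind (𝒰.comap H.subtype) P.φ (P.coeff A) :=
  Rep.ofHom
    ⟨{ toFun := fun F : lcCoind 𝒰 r A => lcMackeyPFun 𝒰 A P F
       map_add' := fun (F F' : lcCoind 𝒰 r A) => by
         apply lcCoind_ext
         intro g
         rfl
       map_smul' := fun c (F : lcCoind 𝒰 r A) => by
         apply lcCoind_ext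
         intro g
         rfl },
     fun h' => by
       ext (F : lcCoind 𝒰 r A) x
       show lcCoindFun F (P.s * (x : G) * (h' : G)) = lcCoindFun F (P.s * ((x : G) * (h' : G)))
       rw [mul_assoc]⟩

@[simp]
lemma lcCoindFun_lcMackeyP (F : lcCoind 𝒰 r A) (h : H) :
    lcCoindFun ((lcMackeyP 𝒰 A P).hom F) h = lcCoindFun F (P.s * (h : G)) := rfl

/-- evaluation at `s` -/
def lcMackeyEv :
    Rep.res P.φ (Rep.res H.subtype (lcCoind 𝒰 r A)) ⟶ P.coeff A :=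
  Rep.ofHom
    ⟨{ toFun := fun F : lcCoind 𝒰 r A => lcCoindFun F P.s
       map_add' := fun _ _ => rfl
       map_smul' := fun _ _ => rfl },
     fun d => by
       ext (F : lcCoind 𝒰 r A)
       show lcCoindFun F (P.s * ((P.φ d : H) : G)) = A.ρ (d : D) (lcCoindFun F P.s)
       rw [P.hφ d, lcCoindFun_equivariant]⟩

lemma lcMackeyEv_hom_apply (F : lcCoind 𝒰 r A) :
    (lcMackeyEv 𝒰 A P).hom F = lcCoindFun F P.s := rfl

lemma res_lcMackeyP_comp_lcCoindEv :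
    (Rep.resFunctor P.φ).map (lcMackeyP 𝒰 A P) ≫
      lcCoindEv (𝒰.comap H.subtype) P.φ (P.coeff A) = lcMackeyEv 𝒰 A P := by
  ext (F : lcCoind 𝒰 r A)
  show lcCoindFun F (P.s * ((1 : H) : G)) = lcCoindFun F P.s
  rw [Subgroup.coe_one, mul_one]

variable {A} in
lemma lcMackeyP_naturality {B : Rep.{u} k D} (ψ : A ⟶ B) :
    (Rep.resFunctor H.subtype).map (lcCoindMap 𝒰 r ψ) ≫ lcMackeyP 𝒰 B P =
      lcMackeyP 𝒰 A P ≫
        lcCoindMap (𝒰.comap H.subtype) P.φ ((Rep.resFunctor P.Ds.subtype).map ψ) := by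
  ext (F : lcCoind 𝒰 r A)
  apply lcCoind_ext
  intro x
  rfl

variable {A} in
lemma lcMackeyEv_naturality {B : Rep.{u} k D} (ψ : A ⟶ B) :
    (Rep.resFunctor P.φ).map ((Rep.resFunctor H.subtype).map (lcCoindMap 𝒰 r ψ)) ≫
        lcMackeyEv 𝒰 B P =
      lcMackeyEv 𝒰 A P ≫ (Rep.resFunctor P.Ds.subtype).map ψ := by
  ext (F : lcCoind 𝒰 r A)
  rfl

/-- the **localisation map** at the Mackey point `P`: pull back along `P.φ : Ds →* H` and
evaluate at `s` -/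
def HlcLcMackeyLoc [IsDiscrete (𝒰.comap r) A] (n : ℕ) :
    Hlc (𝒰.comap H.subtype) (Rep.res H.subtype (lcCoind 𝒰 r A)) n ⟶
      Hlc (P.level 𝒰) (P.coeff A) n :=
  HlcPull (isContHom_comap P.φ (𝒰.comap H.subtype)) (lcMackeyEv 𝒰 A P) n

theorem HlcLcMackeyLoc_eq [IsDiscrete (𝒰.comap r) A] (n : ℕ) :
    HlcLcMackeyLoc 𝒰 A P n =
      HlcMap (𝒰.comap H.subtype) (lcMackeyP 𝒰 A P) n ≫
        HlcShapiroLC (𝒰.comap H.subtype) P.φ (P.coeff A) n := by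
  unfold HlcLcMackeyLoc HlcShapiroLC
  rw [HlcMap_comp_HlcPull, res_lcMackeyP_comp_lcCoindEv]

end Comp

/-! ### Extension by zero -/

section Sigma

variable (𝒰 : LevelSystem G) {r : D →* G} {H : Subgroup G} (A : Rep.{u} k D)
  (P : LcMackeyPt r H)

/-- membership in the double coset `r(D) s H` -/
def LcMackeyPt.InDC (g : G) : Prop := ∃ d : D, ∃ x : H, g = r d * P.s * (x : G)

lemma LcMackeyPt.inDC_mul_left_iff (d₀ : D) (g : G) : P.InDC (r d₀ * g) ↔ P.InDC g := by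
  constructor
  · rintro ⟨d, x, e⟩
    refine ⟨d₀⁻¹ * d, x, ?_⟩
    rw [map_mul, map_inv, mul_assoc, mul_assoc, ← mul_assoc (r d), ← e]
    group
  · rintro ⟨d, x, e⟩
    exact ⟨d₀ * d, x, by rw [e, map_mul]; group⟩

lemma LcMackeyPt.inDC_mul_right_iff (g : G) {h : G} (hh : h ∈ H) : P.InDC (g * h) ↔ P.InDC g := by
  constructor
  · rintro ⟨d, x, e⟩
    refine ⟨d, x * ⟨h, hh⟩⁻¹, ?_⟩
    have : g = g * h * h⁻¹ := by group
    rw [this, e]
    push_cast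
    group
  · rintro ⟨d, x, e⟩
    exact ⟨d, x * ⟨h, hh⟩, by rw [e]; push_cast; group⟩

lemma LcMackeyPt.inDC_s_mul (h : H) : P.InDC (P.s * (h : G)) := ⟨1, h, by simp⟩

open Classical in
/-- extension by zero of a function on `H` to the double coset `r(D) s H` -/
def lcMackeyExt (F' : lcCoind (𝒰.comap H.subtype) P.φ (P.coeff A)) (g : G) : A :=
  if h : P.InDC g then A.ρ h.choose (lcCoindFun F' h.choose_spec.choose : P.coeff A) else 0

lemma lcMackeyExt_eq (F' : lcCoind (𝒰.comap H.subtype) P.φ (P.coeff A)) {g : G} {d : D} {x : H}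
    (e : g = r d * P.s * (x : G)) :
    lcMackeyExt 𝒰 A P F' g = A.ρ d (lcCoindFun F' x : P.coeff A) := by
  have h : P.InDC g := ⟨d, x, e⟩
  rw [lcMackeyExt, dif_pos h]
  have e' : g = r h.choose * P.s * (h.choose_spec.choose : G) := h.choose_spec.choose_spec
  set d' := h.choose
  set x' := h.choose_spec.choose
  have e2 : r d * P.s * (x : G) = r d' * P.s * (x' : G) := e.symm.trans e'
  have hφ := P.φ_of_eq e2
  have hx' : x' = P.φ ⟨d'⁻¹ * d, P.mem_Ds_of_eq e2⟩ * x := by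
    rw [hφ, inv_mul_cancel_right]
  have h1 : (lcCoindFun F' x' : P.coeff A) = A.ρ (d'⁻¹ * d) (lcCoindFun F' x : P.coeff A) := by
    rw [hx', lcCoindFun_equivariant]
    rfl
  rw [h1, ← Module.End.mul_apply, ← map_mul, mul_inv_cancel_left]

lemma lcMackeyExt_eq_zero (F' : lcCoind (𝒰.comap H.subtype) P.φ (P.coeff A)) {g : G}
    (hg : ¬ P.InDC g) : lcMackeyExt 𝒰 A P F' g = 0 := by
  rw [lcMackeyExt, dif_neg hg]

lemma lcMackeyExt_equivariant (F' : lcCoind (𝒰.comap H.subtype) P.φ (P.coeff A)) (d₀ : D)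
    (g : G) : lcMackeyExt 𝒰 A P F' (r d₀ * g) = A.ρ d₀ (lcMackeyExt 𝒰 A P F' g) := by
  by_cases hg : P.InDC g
  · obtain ⟨d, x, e⟩ := hg
    rw [lcMackeyExt_eq 𝒰 A P F' e,
      lcMackeyExt_eq 𝒰 A P F' (d := d₀ * d) (x := x) (by rw [e, map_mul]; group), map_mul]
    rfl
  · rw [lcMackeyExt_eq_zero 𝒰 A P F' hg,
      lcMackeyExt_eq_zero 𝒰 A P F' (fun h => hg ((P.inDC_mul_left_iff d₀ g).1 h)), map_zero]

lemma lcMackeyExt_lc (hH : ∃ W ∈ 𝒰.sets, W ≤ H)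
    (F' : lcCoind (𝒰.comap H.subtype) P.φ (P.coeff A)) :
    ∃ U ∈ 𝒰.sets, ∀ g u, u ∈ U → lcMackeyExt 𝒰 A P F' (g * u) = lcMackeyExt 𝒰 A P F' g := by
  obtain ⟨W, hW, hWH⟩ := hH
  obtain ⟨_, ⟨V, hV, rfl⟩, -, -, hF⟩ := lcCoindFun_lc F'
  obtain ⟨U, hU, hUle⟩ := 𝒰.directed V hV W hW
  refine ⟨U, hU, fun g u hu => ?_⟩
  have huV : u ∈ V := hUle.trans inf_le_left hu
  have huH : u ∈ H := hWH (hUle.trans inf_le_right hu)
  by_cases hg : P.InDC g
  · obtain ⟨d, x, e⟩ := hg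
    rw [lcMackeyExt_eq 𝒰 A P F' e,
      lcMackeyExt_eq 𝒰 A P F' (d := d) (x := x * ⟨u, huH⟩) (by rw [e]; push_cast; group)]
    congr 1
    exact hF x ⟨u, huH⟩ huV
  · rw [lcMackeyExt_eq_zero 𝒰 A P F' hg,
      lcMackeyExt_eq_zero 𝒰 A P F' (fun h => hg ((P.inDC_mul_right_iff g huH).1 h))]

/-- extension by zero, on vectors -/
def lcMackeyσFun (hH : ∃ W ∈ 𝒰.sets, W ≤ H)
    (F' : lcCoind (𝒰.comap H.subtype) P.φ (P.coeff A)) : lcCoind 𝒰 r A :=
  lcCoindMk (lcMackeyExt 𝒰 A P F') (lcMackeyExt_equivariant 𝒰 A P F') (lcMackeyExt_lc 𝒰 A P hH F')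

@[simp]
lemma lcCoindFun_lcMackeyσFun (hH : ∃ W ∈ 𝒰.sets, W ≤ H)
    (F' : lcCoind (𝒰.comap H.subtype) P.φ (P.coeff A)) (g : G) :
    lcCoindFun (lcMackeyσFun 𝒰 A P hH F') g = lcMackeyExt 𝒰 A P F' g := rfl

lemma lcMackeyExt_add (F' F'' : lcCoind (𝒰.comap H.subtype) P.φ (P.coeff A)) (g : G) :
    lcMackeyExt 𝒰 A P (F' + F'') g = lcMackeyExt 𝒰 A P F' g + lcMackeyExt 𝒰 A P F'' g := by
  by_cases hg : P.InDC g
  · obtain ⟨d, x, e⟩ := hg
    rw [lcMackeyExt_eq 𝒰 A P _ e, lcMackeyExt_eq 𝒰 A P _ e, lcMackeyExt_eq 𝒰 A P _ e,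
      lcCoindFun_add, map_add]
  · rw [lcMackeyExt_eq_zero 𝒰 A P _ hg, lcMackeyExt_eq_zero 𝒰 A P _ hg,
      lcMackeyExt_eq_zero 𝒰 A P _ hg, add_zero]

lemma lcMackeyExt_smul (c : k) (F' : lcCoind (𝒰.comap H.subtype) P.φ (P.coeff A)) (g : G) :
    lcMackeyExt 𝒰 A P (c • F') g = c • lcMackeyExt 𝒰 A P F' g := by
  by_cases hg : P.InDC g
  · obtain ⟨d, x, e⟩ := hg
    rw [lcMackeyExt_eq 𝒰 A P _ e, lcMackeyExt_eq 𝒰 A P _ e]
    show A.ρ d (c • (lcCoindFun F' x : P.coeff A)) = c • A.ρ d (lcCoindFun F' x : P.coeff A)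
    rw [map_smul]
  · rw [lcMackeyExt_eq_zero 𝒰 A P _ hg, lcMackeyExt_eq_zero 𝒰 A P _ hg, smul_zero]

lemma lcMackeyExt_ρ (h' : H) (F' : lcCoind (𝒰.comap H.subtype) P.φ (P.coeff A)) (g : G) :
    lcMackeyExt 𝒰 A P ((lcCoind (𝒰.comap H.subtype) P.φ (P.coeff A)).ρ h' F') g =
      lcMackeyExt 𝒰 A P F' (g * (h' : G)) := by
  by_cases hg : P.InDC g
  · obtain ⟨d, x, e⟩ := hg
    rw [lcMackeyExt_eq 𝒰 A P _ e,
      lcMackeyExt_eq 𝒰 A P F' (d := d) (x := x * h') (by rw [e]; push_cast; group),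
      lcCoindFun_smul]
  · rw [lcMackeyExt_eq_zero 𝒰 A P _ hg,
      lcMackeyExt_eq_zero 𝒰 A P F' (fun h => hg ((P.inDC_mul_right_iff g h'.2).1 h))]

/-- extension by zero outside the double coset `r(D) s H` -/
def lcMackeyσ (hH : ∃ W ∈ 𝒰.sets, W ≤ H) :
    lcCoind (𝒰.comap H.subtype) P.φ (P.coeff A) ⟶ Rep.res H.subtype (lcCoind 𝒰 r A) :=
  Rep.ofHom
    ⟨{ toFun := fun F' : lcCoind (𝒰.comap H.subtype) P.φ (P.coeff A) =>
          lcMackeyσFun 𝒰 A P hH F'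
       map_add' := fun (F' F'' : lcCoind (𝒰.comap H.subtype) P.φ (P.coeff A)) => by
         apply lcCoind_ext
         intro g
         exact lcMackeyExt_add 𝒰 A P F' F'' g
       map_smul' := fun c (F' : lcCoind (𝒰.comap H.subtype) P.φ (P.coeff A)) => by
         apply lcCoind_ext
         intro g
         exact lcMackeyExt_smul 𝒰 A P c F' g },
     fun h' => by
       ext (F' : lcCoind (𝒰.comap H.subtype) P.φ (P.coeff A))
       apply lcCoind_ext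
       intro g
       exact lcMackeyExt_ρ 𝒰 A P h' F' g⟩

@[simp]
lemma lcCoindFun_lcMackeyσ (hH : ∃ W ∈ 𝒰.sets, W ≤ H)
    (F' : lcCoind (𝒰.comap H.subtype) P.φ (P.coeff A)) (g : G) :
    lcCoindFun (((lcMackeyσ 𝒰 A P hH).hom F' : Rep.res H.subtype (lcCoind 𝒰 r A)) :
      lcCoind 𝒰 r A) g = lcMackeyExt 𝒰 A P F' g := rfl

lemma lcMackeyσ_comp_lcMackeyP (hH : ∃ W ∈ 𝒰.sets, W ≤ H) :
    lcMackeyσ 𝒰 A P hH ≫ lcMackeyP 𝒰 A P = 𝟙 _ := by
  ext (F' : lcCoind (𝒰.comap H.subtype) P.φ (P.coeff A))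
  apply lcCoind_ext
  intro h
  show lcMackeyExt 𝒰 A P F' (P.s * (h : G)) = lcCoindFun F' h
  rw [lcMackeyExt_eq 𝒰 A P F' (d := 1) (x := h) (by simp), map_one]
  rfl

lemma lcMackeyσ_comp_lcMackeyP_of_not_inDC (hH : ∃ W ∈ 𝒰.sets, W ≤ H) (Q : LcMackeyPt r H)
    (hQ : ¬ P.InDC Q.s) : lcMackeyσ 𝒰 A P hH ≫ lcMackeyP 𝒰 A Q = 0 := by
  ext (F' : lcCoind (𝒰.comap H.subtype) P.φ (P.coeff A))
  apply lcCoind_ext
  intro h
  show lcMackeyExt 𝒰 A P F' (Q.s * (h : G)) = 0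
  exact lcMackeyExt_eq_zero 𝒰 A P F' (fun hh => hQ ((P.inDC_mul_right_iff Q.s h.2).1 hh))

end Sigma

/-! ### The decomposition -/

section Decomp

universe v

/-- A family of Mackey points representing the double cosets `r(D) \ G / H`. -/
structure LcMackeyFam (r : D →* G) (H : Subgroup G) (ι : Type v) : Type (max u v) where
  /-- the Mackey points -/
  pt : ι → LcMackeyPt r H
  cover : ∀ g : G, ∃ i, (pt i).InDC g
  disj : ∀ i j, (pt i).InDC (pt j).s → i = j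

variable (𝒰 : LevelSystem G) {r : D →* G} {H : Subgroup G} (A : Rep.{u} k D)
  {ι : Type v} (ℱ : LcMackeyFam r H ι)

lemma LcMackeyFam.eq_of_inDC {i j : ι} {g : G} (hi : (ℱ.pt i).InDC g) (hj : (ℱ.pt j).InDC g) :
    i = j := by
  obtain ⟨d, x, e⟩ := hj
  apply ℱ.disj
  rw [e, mul_assoc, LcMackeyPt.inDC_mul_left_iff, LcMackeyPt.inDC_mul_right_iff _ _ x.2] at hi
  exact hi

lemma lcCoindFun_sum {B : Rep.{u} k D} {J : Type*} (t : Finset J) (F : J → lcCoind 𝒰 r B)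
    (g : G) : lcCoindFun (∑ j ∈ t, F j) g = ∑ j ∈ t, lcCoindFun (F j) g := by
  classical
  induction t using Finset.induction_on with
  | empty => simp [lcCoindFun_zero]
  | insert a t ha ih => rw [Finset.sum_insert ha, Finset.sum_insert ha, lcCoindFun_add, ih]

variable [Fintype ι]

lemma sum_lcMackeyP_comp_lcMackeyσ (hH : ∃ W ∈ 𝒰.sets, W ≤ H) :
    ∑ i, lcMackeyP 𝒰 A (ℱ.pt i) ≫ lcMackeyσ 𝒰 A (ℱ.pt i) hH =
      𝟙 (Rep.res H.subtype (lcCoind 𝒰 r A)) := by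
  classical
  refine Rep.hom_ext (Representation.IntertwiningMap.ext (LinearMap.ext fun F => ?_))
  show (∑ i, lcMackeyP 𝒰 A (ℱ.pt i) ≫ lcMackeyσ 𝒰 A (ℱ.pt i) hH).hom F = F
  rw [Rep.sum_hom, Representation.IntertwiningMap.sum_apply]
  change lcCoind 𝒰 r A at F
  apply lcCoind_ext
  intro g
  have hsum := lcCoindFun_sum 𝒰 (B := A) Finset.univ
    (fun i => lcMackeyσFun 𝒰 A (ℱ.pt i) hH (lcMackeyPFun 𝒰 A (ℱ.pt i) F)) g
  refine Eq.trans hsum ?_
  obtain ⟨i₀, hi₀⟩ := ℱ.cover g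
  rw [Finset.sum_eq_single i₀]
  · obtain ⟨d, x, e⟩ := hi₀
    rw [lcCoindFun_lcMackeyσFun, lcMackeyExt_eq 𝒰 A (ℱ.pt i₀) _ e, lcCoindFun_lcMackeyPFun,
      ← lcCoindFun_equivariant, ← mul_assoc, ← e]
  · intro i _ hi
    rw [lcCoindFun_lcMackeyσFun]
    exact lcMackeyExt_eq_zero 𝒰 A (ℱ.pt i) _ (fun h => hi (ℱ.eq_of_inDC h hi₀))
  · intro h
    exact absurd (Finset.mem_univ i₀) h

variable [IsDiscrete (𝒰.comap r) A]

/-- **Mackey decomposition on `Hlc`**: for an open subgroup `H` and a finite family of Mackey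
points representing `r(D) \ G / H`,
`Hlc 𝒰_H (Res_H (lcCoind 𝒰 r A)) n ≃ ∏ i, Hlc 𝒰_{Ds i} (Res_{Ds i} A) n`; the `i`-th component is
the localisation map `HlcLcMackeyLoc 𝒰 A (ℱ.pt i) n` (`HlcLcMackey_apply`). -/
def HlcLcMackey (hH : ∃ W ∈ 𝒰.sets, W ≤ H) (n : ℕ) :
    Hlc (𝒰.comap H.subtype) (Rep.res H.subtype (lcCoind 𝒰 r A)) n ≃ₗ[k]
      ∀ i, Hlc ((ℱ.pt i).level 𝒰) ((ℱ.pt i).coeff A) n :=
  (HlcDecomp (𝒰.comap H.subtype) (fun i => lcMackeyP 𝒰 A (ℱ.pt i))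
    (fun i => lcMackeyσ 𝒰 A (ℱ.pt i) hH) (sum_lcMackeyP_comp_lcMackeyσ 𝒰 A ℱ hH)
    (fun i => lcMackeyσ_comp_lcMackeyP 𝒰 A (ℱ.pt i) hH)
    (fun i j hij => lcMackeyσ_comp_lcMackeyP_of_not_inDC 𝒰 A (ℱ.pt i) hH (ℱ.pt j)
      (fun h => hij (ℱ.disj i j h))) n).trans
    (LinearEquiv.piCongrRight fun i =>
      HlcShapiroLCEquiv (𝒰.comap H.subtype) (ℱ.pt i).φ n ((ℱ.pt i).coeff A))

theorem HlcLcMackey_apply (hH : ∃ W ∈ 𝒰.sets, W ≤ H) (n : ℕ)
    (x : Hlc (𝒰.comap H.subtype) (Rep.res H.subtype (lcCoind 𝒰 r A)) n) (i : ι) :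
    HlcLcMackey 𝒰 A ℱ hH n x i = HlcLcMackeyLoc 𝒰 A (ℱ.pt i) n x := by
  rw [HlcLcMackeyLoc_eq]
  rfl

/-- a class vanishes iff all its localisations vanish -/
theorem eq_zero_iff_forall_HlcLcMackeyLoc (hH : ∃ W ∈ 𝒰.sets, W ≤ H) (n : ℕ)
    (x : Hlc (𝒰.comap H.subtype) (Rep.res H.subtype (lcCoind 𝒰 r A)) n) :
    x = 0 ↔ ∀ i, HlcLcMackeyLoc 𝒰 A (ℱ.pt i) n x = 0 := by
  rw [← (HlcLcMackey 𝒰 A ℱ hH n).map_eq_zero_iff, funext_iff]
  simp only [HlcLcMackey_apply]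
  rfl

/-- every family of local classes is the family of localisations of a unique class -/
theorem existsUnique_HlcLcMackeyLoc (hH : ∃ W ∈ 𝒰.sets, W ≤ H) (n : ℕ)
    (y : ∀ i, Hlc ((ℱ.pt i).level 𝒰) ((ℱ.pt i).coeff A) n) :
    ∃! x : Hlc (𝒰.comap H.subtype) (Rep.res H.subtype (lcCoind 𝒰 r A)) n,
      ∀ i, HlcLcMackeyLoc 𝒰 A (ℱ.pt i) n x = y i := by
  refine ⟨(HlcLcMackey 𝒰 A ℱ hH n).symm y, fun i => ?_, fun x hx => ?_⟩
  · rw [← HlcLcMackey_apply 𝒰 A ℱ hH, LinearEquiv.apply_symm_apply]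
  · rw [LinearEquiv.eq_symm_apply]
    funext i
    rw [HlcLcMackey_apply, hx]

end Decomp

end Fermat.Agent.GC.LimJ
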