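/-
GATE-C / C4 (LM-J), part 9 (helper71): **the cohomology of the `S`-idele module is the product of
the local cohomologies**.

`K ⊂ Qbar` finite over `ℚ`, unramified outside `S`; `G_K = K.fixingSubgroup` with helper69's level
system `levelK S K`; places `w : placeIdx q K` above `q ∈ S` with representatives
`s_w = placeRep q K w`, local groups `locGroup q K s_w ≤ G_{ℚ_q}` and localisation maps
`locHom q K s_w : locGroup q K s_w →* G_K`.
* `placeFam q K : LcMackeyFam (localGaloisToGlobal q) K.fixingSubgroup (placeIdx q K)` — helper69's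
  places as a family of Mackey points;
* `levelLocS S q K s := (levelK S K).comap (locHom q K s)`, `locCoeffS S q K s := Res (locUnitsS S q)`;
* `JSlocEv S K q s : Res_{locHom} Res_{G_K} (JS S) ⟶ locCoeffS S q K s`, `F ↦ F_q (s)`;
  `HlcJSLoc S K q s n := HlcPull (locHom) (JSlocEv)` — the **localisation map** of `J_S` at the place
  `ι_q ∘ s` of `K`;
* **`HlcJS S K hK n : Hlc (levelK S K) (Res_{G_K} (JS S)) n ≃ₗ[ℤ] ∀ q : S, ∀ w, Hlc (levelLocS …)
  (locCoeffS …) n`** with components `HlcJSLoc` (`HlcJS_apply`);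
* `locSUnitsS S K q s : Res_{locHom} Res_{G_K} (sUnitsS S) ⟶ locCoeffS S q K s`, `u ↦ ι_q (s u)` and
  `res_EStoJS_comp_JSlocEv`: localisation of `J_S` composed with the diagonal embedding of `O_Sˣ` is
  the localisation of `S`-units (same for `ℚ_Sˣ`).
-/
import Fermat.Agent.GC.Global.Limit.IdeleS
import Fermat.Agent.GC.Global.Limit.LcMackey
import Fermat.Agent.GC.Places.MackeyH

set_option autoImplicit false
set_option linter.unusedSectionVars false

open CategoryTheory
open scoped Padic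

noncomputable section

namespace Fermat.Agent.GC.LimJ

open Fermat.Agent.GC.Prof Fermat.Agent.GC.C0 Fermat.Agent.GC.Local.KR Fermat.Agent.GC.Local.Abs
  Fermat.Agent.GC.KumH Fermat.Agent.GC.Global.Mackey Fermat.Agent.GC.Places

local notation "Qb" => AlgebraicClosure ℚ
local notation "GQ" => (AlgebraicClosure ℚ ≃ₐ[ℚ] AlgebraicClosure ℚ)

/-! ### helper69's places as Mackey points -/

section Places

variable (q : ℕ) [Fact q.Prime] (K : IntermediateField ℚ Qb)

/-- the Mackey point of the place `ι_q ∘ s` of `K` -/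
def placePt (s : GQ) : LcMackeyPt (localGaloisToGlobal q) K.fixingSubgroup where
  s := s
  Ds := locGroup q K s
  φ := locHom q K s
  hφ d := by
    rw [coe_locHom]
    group
  hfull d hd := (mem_locGroup_iff q K s d).2 hd

@[simp] lemma placePt_s (s : GQ) : (placePt q K s).s = s := rfl

/-- the places of `K` above `q` as a family of Mackey points -/
def placeFam : LcMackeyFam (localGaloisToGlobal q) K.fixingSubgroup (placeIdx q K) where
  pt w := placePt q K (placeRep q K w)
  cover g := by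
    obtain ⟨τ₀, h, hh, e⟩ := exists_eq_mul_placeRep_mul q K g
    exact ⟨placeMk q K g, τ₀, ⟨h, hh⟩, e⟩
  disj i j := by
    rintro ⟨d, x, e⟩
    have h1 : placeMk q K (placeRep q K i) = placeMk q K (placeRep q K j) :=
      (placeMk_eq_iff q K _ _).2 ⟨d, x, x.2, e⟩
    rwa [placeMk_placeRep, placeMk_placeRep] at h1

end Places

/-! ### The local data at a place -/

section LocalData

variable (S : Finset Nat.Primes) (q : ℕ) [Fact q.Prime] (K : IntermediateField ℚ Qb) (s : GQ)

/-- the level system induced by `levelK S K` on the local group at the place `ι_q ∘ s` -/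
abbrev levelLocS : LevelSystem (locGroup q K s) := (levelK S K).comap (locHom q K s)

/-- the local coefficient module `((ℚ_S)_q)ˣ` restricted to the local group at `ι_q ∘ s` -/
abbrev locCoeffS : Rep ℤ (locGroup q K s) := Rep.res (locGroup q K s).subtype (locUnitsS S q)

instance isDiscrete_locCoeffS : IsDiscrete (levelLocS S q K s) (locCoeffS S q K s) :=
  isDiscrete_coeff (levelS S) (locUnitsS S q) (placePt q K s)

end LocalData

/-! ### Localisation of `J_S` -/

section Loc

variable (S : Finset Nat.Primes) (K : IntermediateField ℚ Qb)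

/-- `J_S` restricted to `G_K` -/
abbrev JSK : Rep ℤ K.fixingSubgroup := Rep.res K.fixingSubgroup.subtype (JS S)

instance isDiscrete_JSK : IsDiscrete (levelK S K) (JSK S K) :=
  isDiscrete_res_levelK S K (JS S)

variable (q : S) (s : GQ)

/-- evaluation of the `q`-component at `s` -/
def JSlocEv :
    Rep.res (locHom ((q : Nat.Primes) : ℕ) K s) (JSK S K) ⟶
      locCoeffS S ((q : Nat.Primes) : ℕ) K s :=
  (Rep.resFunctor (locHom ((q : Nat.Primes) : ℕ) K s)).map
      ((Rep.resFunctor K.fixingSubgroup.subtype).map (JSproj S q)) ≫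
    lcMackeyEv (levelS S) (locUnitsS S ((q : Nat.Primes) : ℕ))
      (placePt ((q : Nat.Primes) : ℕ) K s)

lemma unit_JSlocEv (F : JS S) :
    locUnitsS.unit S ((q : Nat.Primes) : ℕ) ((JSlocEv S K q s).hom F) =
      JSq.val S ((q : Nat.Primes) : ℕ) (F q) s := rfl

/-- the **localisation map** of `J_S` at the place `ι_q ∘ s` of `K` -/
def HlcJSLoc (n : ℕ) :
    Hlc (levelK S K) (JSK S K) n ⟶
      Hlc (levelLocS S ((q : Nat.Primes) : ℕ) K s) (locCoeffS S ((q : Nat.Primes) : ℕ) K s) n :=
  HlcPull (isContHom_comap (locHom ((q : Nat.Primes) : ℕ) K s) (levelK S K)) (JSlocEv S K q s) n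

end Loc

/-! ### The decomposition -/

section Main

attribute [-instance] AddCommGroup.toIntModule

variable (S : Finset Nat.Primes) (K : IntermediateField ℚ Qb) [FiniteDimensional ℚ K]
  (hK : K.IsUnramifiedOutside S)

/-- the `q`-component of `J_S` restricted to `G_K` -/
abbrev JSqK (q : S) : Rep ℤ K.fixingSubgroup :=
  Rep.res K.fixingSubgroup.subtype (JSq S ((q : Nat.Primes) : ℕ))

instance isDiscrete_JSqK (q : S) : IsDiscrete (levelK S K) (JSqK S K q) :=
  isDiscrete_res_levelK S K (JSq S ((q : Nat.Primes) : ℕ))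

/-- Mackey + Shapiro for the `q`-component: `Hlc(G_K, J_{S,q}) ≃ ∏_{w ∣ q} Hlc(G_{K_w}, ((ℚ_S)_q)ˣ)` -/
def HlcJSq (q : S) (n : ℕ) :
    Hlc (levelK S K) (JSqK S K q) n ≃ₗ[ℤ]
      ∀ w : placeIdx ((q : Nat.Primes) : ℕ) K,
        Hlc (levelLocS S ((q : Nat.Primes) : ℕ) K (placeRep ((q : Nat.Primes) : ℕ) K w))
          (locCoeffS S ((q : Nat.Primes) : ℕ) K (placeRep ((q : Nat.Primes) : ℕ) K w)) n :=
  haveI := Fintype.ofFinite (placeIdx ((q : Nat.Primes) : ℕ) K)
  HlcLcMackey (levelS S) (locUnitsS S ((q : Nat.Primes) : ℕ)) (placeFam ((q : Nat.Primes) : ℕ) K)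
    (isOpenSub_fixingSubgroup S K hK) n

/-- **the cohomology of `J_S` over `G_K` is the product of the local cohomologies over the places
of `K` above `S`** -/
def HlcJS (n : ℕ) :
    Hlc (levelK S K) (JSK S K) n ≃ₗ[ℤ]
      ∀ q : S, ∀ w : placeIdx ((q : Nat.Primes) : ℕ) K,
        Hlc (levelLocS S ((q : Nat.Primes) : ℕ) K (placeRep ((q : Nat.Primes) : ℕ) K w))
          (locCoeffS S ((q : Nat.Primes) : ℕ) K (placeRep ((q : Nat.Primes) : ℕ) K w)) n :=
  (HlcPi (levelK S K) (fun q : S => JSqK S K q) n).trans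
    (LinearEquiv.piCongrRight fun q => HlcJSq S K hK q n)

/-- the components of `HlcJS` are the localisation maps -/
theorem HlcJS_apply (n : ℕ) (x : Hlc (levelK S K) (JSK S K) n) (q : S)
    (w : placeIdx ((q : Nat.Primes) : ℕ) K) :
    HlcJS S K hK n x q w = HlcJSLoc S K q (placeRep ((q : Nat.Primes) : ℕ) K w) n x := by
  have := Fintype.ofFinite (placeIdx ((q : Nat.Primes) : ℕ) K)
  have h1 : HlcJS S K hK n x q w =
      HlcLcMackeyLoc (levelS S) (locUnitsS S ((q : Nat.Primes) : ℕ))
        ((placeFam ((q : Nat.Primes) : ℕ) K).pt w) n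
        (HlcMap (levelK S K) (piProj (fun q : S => JSqK S K q) q) n x) :=
    HlcLcMackey_apply (levelS S) (locUnitsS S ((q : Nat.Primes) : ℕ))
      (placeFam ((q : Nat.Primes) : ℕ) K) (isOpenSub_fixingSubgroup S K hK) n _ w
  rw [h1]
  unfold HlcLcMackeyLoc HlcJSLoc
  have hdisc : IsDiscrete
      (LevelSystem.comap (locHom ((q : Nat.Primes) : ℕ) K (placeRep ((q : Nat.Primes) : ℕ) K w))
        (levelK S K))
      ((placePt ((q : Nat.Primes) : ℕ) K (placeRep ((q : Nat.Primes) : ℕ) K w)).coeff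
        (locUnitsS S ((q : Nat.Primes) : ℕ))) :=
    isDiscrete_locCoeffS S ((q : Nat.Primes) : ℕ) K (placeRep ((q : Nat.Primes) : ℕ) K w)
  have h2 := HlcMap_comp_HlcPull
    (isContHom_comap (locHom ((q : Nat.Primes) : ℕ) K (placeRep ((q : Nat.Primes) : ℕ) K w))
      (levelK S K))
    (piProj (fun q : S => JSqK S K q) q)
    (lcMackeyEv (levelS S) (locUnitsS S ((q : Nat.Primes) : ℕ))
      (placePt ((q : Nat.Primes) : ℕ) K (placeRep ((q : Nat.Primes) : ℕ) K w))) n
  exact congr($h2 x)

include hK in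
/-- a class of `J_S` vanishes iff all its localisations vanish -/
theorem eq_zero_iff_forall_HlcJSLoc (n : ℕ) (x : Hlc (levelK S K) (JSK S K) n) :
    x = 0 ↔ ∀ (q : S) (w : placeIdx ((q : Nat.Primes) : ℕ) K),
      HlcJSLoc S K q (placeRep ((q : Nat.Primes) : ℕ) K w) n x = 0 := by
  rw [← (HlcJS S K hK n).map_eq_zero_iff]
  constructor
  · intro h q w
    rw [← HlcJS_apply S K hK, h]
    rfl
  · intro h
    funext q w
    rw [HlcJS_apply, h]
    rfl

include hK in
/-- every family of local classes is the family of localisations of a unique class of `J_S` -/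
theorem existsUnique_HlcJSLoc (n : ℕ)
    (y : ∀ q : S, ∀ w : placeIdx ((q : Nat.Primes) : ℕ) K,
      Hlc (levelLocS S ((q : Nat.Primes) : ℕ) K (placeRep ((q : Nat.Primes) : ℕ) K w))
        (locCoeffS S ((q : Nat.Primes) : ℕ) K (placeRep ((q : Nat.Primes) : ℕ) K w)) n) :
    ∃! x : Hlc (levelK S K) (JSK S K) n, ∀ (q : S) (w : placeIdx ((q : Nat.Primes) : ℕ) K),
      HlcJSLoc S K q (placeRep ((q : Nat.Primes) : ℕ) K w) n x = y q w := by
  refine ⟨(HlcJS S K hK n).symm y, fun q w => ?_, fun x hx => ?_⟩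
  · rw [← HlcJS_apply S K hK, LinearEquiv.apply_symm_apply]
  · rw [LinearEquiv.eq_symm_apply]
    funext q w
    rw [HlcJS_apply, hx]

end Main

/-! ### Localisation of the diagonal embedding -/

section Diag

variable (S : Finset Nat.Primes) (K : IntermediateField ℚ Qb) (q : S) (s : GQ)

/-- `ℚ_Sˣ` restricted to `G_K` -/
abbrev unitsSK : Rep ℤ K.fixingSubgroup := Rep.res K.fixingSubgroup.subtype (unitsS S)

/-- `O_Sˣ` restricted to `G_K` -/
abbrev sUnitsSK : Rep ℤ K.fixingSubgroup := Rep.res K.fixingSubgroup.subtype (sUnitsS S)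

instance isDiscrete_unitsSK : IsDiscrete (levelK S K) (unitsSK S K) :=
  isDiscrete_res_levelK S K (unitsS S)

instance isDiscrete_sUnitsSK : IsDiscrete (levelK S K) (sUnitsSK S K) :=
  isDiscrete_res_levelK S K (sUnitsS S)

/-- the localisation of `ℚ_Sˣ` at the place `ι_q ∘ s` of `K`: `x ↦ ι_q (s x)` -/
def locUnitsSHom :
    Rep.res (locHom ((q : Nat.Primes) : ℕ) K s) (unitsSK S K) ⟶
      locCoeffS S ((q : Nat.Primes) : ℕ) K s :=
  (Rep.resFunctor (locHom ((q : Nat.Primes) : ℕ) K s)).map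
      ((Rep.resFunctor K.fixingSubgroup.subtype).map (diagS S)) ≫ JSlocEv S K q s

lemma coe_unit_locUnitsSHom (x : unitsS S) :
    ((locUnitsS.unit S ((q : Nat.Primes) : ℕ) ((locUnitsSHom S K q s).hom x) :
      (PadicAlgCl ((q : Nat.Primes) : ℕ))ˣ) : PadicAlgCl ((q : Nat.Primes) : ℕ)) =
    padicEmbedding ((q : Nat.Primes) : ℕ)
      (s ((((Additive.toMul (show Additive (unitsQS S) from x) : unitsQS S) : Qbˣ) : Qb))) := rfl

/-- the localisation of `O_Sˣ` at the place `ι_q ∘ s` of `K`: `u ↦ ι_q (s u)` -/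
def locSUnitsSHom :
    Rep.res (locHom ((q : Nat.Primes) : ℕ) K s) (sUnitsSK S K) ⟶
      locCoeffS S ((q : Nat.Primes) : ℕ) K s :=
  (Rep.resFunctor (locHom ((q : Nat.Primes) : ℕ) K s)).map
      ((Rep.resFunctor K.fixingSubgroup.subtype).map (EStoJS S)) ≫ JSlocEv S K q s

lemma coe_unit_locSUnitsSHom (u : sUnitsS S) :
    ((locUnitsS.unit S ((q : Nat.Primes) : ℕ) ((locSUnitsSHom S K q s).hom u) :
      (PadicAlgCl ((q : Nat.Primes) : ℕ))ˣ) : PadicAlgCl ((q : Nat.Primes) : ℕ)) =
    padicEmbedding ((q : Nat.Primes) : ℕ)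
      (s ((((Additive.toMul (show Additive (sUnitsQS S) from u) : sUnitsQS S) : Qbˣ) : Qb))) := rfl

/-- localisation of `J_S` after the diagonal embedding of `ℚ_Sˣ` is the localisation of `ℚ_Sˣ` -/
theorem HlcMap_diagS_comp_HlcJSLoc (n : ℕ) :
    HlcMap (levelK S K) ((Rep.resFunctor K.fixingSubgroup.subtype).map (diagS S)) n ≫
        HlcJSLoc S K q s n =
      HlcPull (isContHom_comap (locHom ((q : Nat.Primes) : ℕ) K s) (levelK S K))
        (locUnitsSHom S K q s) n :=
  HlcMap_comp_HlcPull _ _ _ n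

/-- localisation of `J_S` after the diagonal embedding of `O_Sˣ` is the localisation of `O_Sˣ` -/
theorem HlcMap_EStoJS_comp_HlcJSLoc (n : ℕ) :
    HlcMap (levelK S K) ((Rep.resFunctor K.fixingSubgroup.subtype).map (EStoJS S)) n ≫
        HlcJSLoc S K q s n =
      HlcPull (isContHom_comap (locHom ((q : Nat.Primes) : ℕ) K s) (levelK S K))
        (locSUnitsSHom S K q s) n :=
  HlcMap_comp_HlcPull _ _ _ n

end Diag

end Fermat.Agent.GC.LimJ
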