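/-
GATE-C / C4 (LM-J)=(A7), part 10 (helper71): **(D)-INST, first half** — the comparison of the
coarse local data `(levelLocS S q K s, locCoeffS S q K s)` (through which `Hlc(G_K, J_S)`
decomposes, `IdeleSCoh.lean`) with the full local data `(levelLoc q K s, Ω_q^×)`.

* `locFullCoeff q K s` : `(PadicAlgCl q)ˣ` as a module over the local group `locGroup q K s`;
* `locFullHom S q K s : locCoeffS S q K s ⟶ locFullCoeff q K s`, the inclusion of `((ℚ_S)_q)ˣ`;
  `locFullHom_injective`;
* `isContHom_id_levelLoc_levelLocS` : the full level system refines the coarse one;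
* `locFullHom_hdisc` : the units fixed by a member of the coarse level system are in
  `((ℚ_S)_q)ˣ` (the hypothesis `hdisc` of helper78's `Prof/LevelInfl.lean`);
* `HlcLocFull S q K s n : Hlc (levelLocS …) (locCoeffS …) n ⟶ Hlc (levelLoc …) (locFullCoeff …) n`,
  the comparison map; injective for `n = 1` (`HlcLocFull_one_injective`), and for `n = 2` under
  Hilbert 90 on the normal members of the coarse level system (`HlcLocFull_two_injective_of_h90`);
* `JSlocFull S K q s : Res_{locHom} J_S|G_K ⟶ Ω_q^×` the `w`-component of an idele, with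
  `HlcJSLoc ≫ HlcLocFull = HlcPull locHom JSlocFull` and the same for the diagonal embedding of
  the `S`-units.
-/
import Fermat.Agent.GC.Global.Limit.IdeleSCoh
import Fermat.Agent.GC.Prof.LevelInfl

set_option autoImplicit false
set_option linter.unusedSectionVars false

open CategoryTheory
open scoped Padic

noncomputable section

namespace Fermat.Agent.GC.LimJ

open Fermat.Agent.GC.Prof Fermat.Agent.GC.C0 Fermat.Agent.GC.Local.KR Fermat.Agent.GC.Local.Abs
  Fermat.Agent.GC.KumH Fermat.Agent.GC.Global.Mackey Fermat.Agent.GC.Places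

local notation "Qb" => AlgebraicClosure ℚ
local notation "GQ" => (AlgebraicClosure ℚ ≃ₐ[ℚ] AlgebraicClosure ℚ)

section Full

variable (S : Finset Nat.Primes) (q : ℕ) [Fact q.Prime] (K : IntermediateField ℚ Qb) (s : GQ)

/-- `(PadicAlgCl q)ˣ` as a module over the local group at the place `ι_q ∘ s` of `K` -/
abbrev locFullCoeff : Rep ℤ (locGroup q K s) :=
  Rep.res (locGroup q K s).subtype (unitsRep ℚ_[q] (PadicAlgCl q))

instance isDiscrete_locFullCoeff : IsDiscrete (levelLoc q K s) (locFullCoeff q K s) :=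
  IsDiscrete.res (isContHom_subtype_levelLoc q K s) (unitsRep ℚ_[q] (PadicAlgCl q))

/-- the inclusion `((ℚ_S)_q)ˣ ⟶ (PadicAlgCl q)ˣ` over the local group -/
def locFullHom : locCoeffS S q K s ⟶ locFullCoeff q K s :=
  (Rep.resFunctor (locGroup q K s).subtype).map (locUnitsSι S q)

lemma locFullHom_hom_apply (a : locUnitsS S q) :
    (locFullHom S q K s).hom a = Additive.ofMul (locUnitsS.unit S q a) := rfl

lemma locFullHom_injective : Function.Injective (locFullHom S q K s).hom :=
  discPartι_injective (𝒱 := levelSq S q) (A := unitsRep ℚ_[q] (PadicAlgCl q))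

/-- the full level system on the local group refines the coarse one -/
theorem isContHom_id_levelLoc_levelLocS :
    IsContHom (levelLoc q K s) (levelLocS S q K s) (MonoidHom.id (locGroup q K s)) :=
  isContHom_iff_comap.1 (isContHom_locHom S q K s)

variable [FiniteDimensional ℚ K] (hK : K.IsUnramifiedOutside S)

include hK in
/-- the units fixed by a member of the coarse level system lie in `((ℚ_S)_q)ˣ` -/
theorem locFullHom_hdisc (a : locFullCoeff q K s)
    (ha : ∃ U ∈ (levelLocS S q K s).sets, ∀ u ∈ U, (locFullCoeff q K s).ρ u a = a) :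
    ∃ b : locCoeffS S q K s, (locFullHom S q K s).hom b = a := by
  obtain ⟨_, ⟨_, ⟨V, hV, rfl⟩, rfl⟩, h⟩ := ha
  obtain ⟨V₁, hV₁, hV₁K⟩ := isOpenSub_fixingSubgroup S K hK
  obtain ⟨W, hW, hWV, hWV₁, hn, -⟩ := (levelS S).exists_normal_le_inf hV hV₁
  have hmem : a ∈ discSub (levelSq S q) (unitsRep ℚ_[q] (PadicAlgCl q)) := by
    refine ⟨W.comap (localGaloisToGlobal q), ⟨W, hW, rfl⟩, fun τ hτ => ?_⟩
    have h1 : s⁻¹ * localGaloisToGlobal q τ * s ∈ W := by
      have := hn.conj_mem _ hτ s⁻¹
      simpa using this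
    have hτloc : τ ∈ locGroup q K s := (mem_locGroup_iff q K s τ).2 (hV₁K (hWV₁ h1))
    exact h ⟨τ, hτloc⟩ (hWV h1)
  exact ⟨discPartMk (𝒱 := levelSq S q) (A := unitsRep ℚ_[q] (PadicAlgCl q)) a hmem, rfl⟩

/-- the comparison map from the coarse local cohomology to the full local cohomology -/
def HlcLocFull (n : ℕ) :
    Hlc (levelLocS S q K s) (locCoeffS S q K s) n ⟶ Hlc (levelLoc q K s) (locFullCoeff q K s) n :=
  HlcPull (isContHom_id_levelLoc_levelLocS S q K s) (A := locCoeffS S q K s)
    (B := locFullCoeff q K s) (locFullHom S q K s) n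

include hK in
/-- **(D)-INJ in degree 1** -/
theorem HlcLocFull_one_injective : Function.Injective (HlcLocFull S q K s 1) :=
  HlcPull_one_injective_of_discPart (locFullHom S q K s)
    (isContHom_id_levelLoc_levelLocS S q K s) (locFullHom_injective S q K s)
    (locFullHom_hdisc S q K s hK)

include hK in
/-- **(D)-INJ in degree 2**, under Hilbert 90 on the normal members of the coarse level system -/
theorem HlcLocFull_two_injective_of_h90
    (h90 : ∀ U ∈ (levelLocS S q K s).sets, U.Normal → ∀ x : locGroup q K s → locFullCoeff q K s,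
      IsLC₁ (levelLoc q K s) x →
      (∀ σ ∈ U, ∀ τ ∈ U, x (σ * τ) = (locFullCoeff q K s).ρ σ (x τ) + x σ) →
      ∃ a : locFullCoeff q K s, ∀ σ ∈ U, x σ = (locFullCoeff q K s).ρ σ a - a) :
    Function.Injective (HlcLocFull S q K s 2) :=
  HlcPull_two_injective_of_discPart (locFullHom S q K s)
    (isContHom_id_levelLoc_levelLocS S q K s) (locFullHom_injective S q K s)
    (locFullHom_hdisc S q K s hK) h90

end Full

/-! ### The `w`-component of an idele -/

section Comp

variable (S : Finset Nat.Primes) (K : IntermediateField ℚ Qb) (q : S) (s : GQ)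

/-- the `w`-component `J_S|G_K ⟶ Ω_q^×` of an idele, `w = ι_q ∘ s` -/
def JSlocFull :
    Rep.res (locHom ((q : Nat.Primes) : ℕ) K s) (JSK S K) ⟶
      locFullCoeff ((q : Nat.Primes) : ℕ) K s :=
  JSlocEv S K q s ≫ locFullHom S ((q : Nat.Primes) : ℕ) K s

/-- the localisation `O_S^× ⟶ Ω_q^×`, `u ↦ ι_q (s u)` over the local group -/
def locSUnitsFull :
    Rep.res (locHom ((q : Nat.Primes) : ℕ) K s) (sUnitsSK S K) ⟶
      locFullCoeff ((q : Nat.Primes) : ℕ) K s :=
  locSUnitsSHom S K q s ≫ locFullHom S ((q : Nat.Primes) : ℕ) K s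

variable [FiniteDimensional ℚ K]

/-- localisation of `J_S` followed by the comparison map is the pull-back along the
`w`-component -/
theorem HlcJSLoc_comp_HlcLocFull (n : ℕ) :
    HlcJSLoc S K q s n ≫ HlcLocFull S ((q : Nat.Primes) : ℕ) K s n =
      HlcPull (isContHom_locHom S ((q : Nat.Primes) : ℕ) K s) (JSlocFull S K q s) n := by
  unfold HlcJSLoc HlcLocFull JSlocFull
  rw [← HlcPull_comp]
  rfl

end Comp

end Fermat.Agent.GC.LimJ
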