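/-
GATE-C / C4 (LM-J) = (A7), part 6 (helper71): **finite-level comparison maps `J(L,S) → J_S`**.

`L ⊂ Qbar` a finite Galois layer unramified outside `S`, `resQ L : G_ℚ →* Gal(L/ℚ)` the
restriction.  helper14's finite-level `S`-idele module `J L S` (functions `G_L → L_qˣ`) maps to the
limit module `JS S` by `f ↦ (g ↦ f (g|_L))`, values in `L_qˣ ⊆ (PadicAlgCl q)ˣ`:
* `ΦJq`, `ΦJ L hL : Rep.res (resQ L) (J L S) ⟶ JS S`, injective;
* compatibility with helper80's inflation `inflJ` and with the diagonal embeddings;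
* every element of `JS S` comes from a finite Galois layer (`exists_ΦJ_eq`).
-/
import Fermat.Agent.GC.Global.Limit.IdeleS
import Fermat.Agent.GC.Global.Funct.ClassFunct

set_option autoImplicit false
set_option linter.unusedSectionVars false

open CategoryTheory
open scoped Padic

noncomputable section

namespace Fermat.Agent.GC.LimJ

open Fermat.Agent.GC.Prof Fermat.Agent.GC.C0 Fermat.Agent.GC.Local.KR Fermat.Agent.GC.Local.Abs
  Fermat.Agent.GC.KumH Fermat.Agent.GC.Global Fermat.Agent.GC.Global.Adapter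
  Fermat.Agent.GC.Global.Funct

local notation "Qb" => AlgebraicClosure ℚ
local notation "GQ" => (AlgebraicClosure ℚ ≃ₐ[ℚ] AlgebraicClosure ℚ)

/-! ### Restriction maps from the absolute Galois groups -/

section Res

instance normal_Qb_limJ : Normal ℚ Qb := isGalois_Qb.to_normal

variable (L : IntermediateField ℚ Qb) [Normal ℚ L]

/-- the inclusion `L → Qbar` as a `ℚ`-algebra map (for the `ℚ`-algebra instances in force) -/
def qIncl : L →ₐ[ℚ] Qb := (L.val.toRingHom).toRatAlgHom

@[simp] lemma qIncl_apply (x : L) : qIncl L x = (x : Qb) := rfl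

/-- restriction `G_ℚ → Gal(L/ℚ)` -/
def resQ : GQ →* (L ≃ₐ[ℚ] L) := GalRes.res (qIncl L)

lemma coe_resQ_apply (g : GQ) (x : L) : ((resQ L g x : L) : Qb) = g (x : Qb) :=
  GalRes.apply_res (qIncl L) g x

lemma resQ_surjective : Function.Surjective (resQ L) := GalRes.res_surjective (qIncl L)

lemma resQ_eq_one_iff (g : GQ) : resQ L g = 1 ↔ g ∈ L.fixingSubgroup := by
  rw [resQ, GalRes.res_eq_one_iff, IntermediateField.mem_fixingSubgroup_iff]
  constructor
  · intro h x hx
    exact h ⟨x, hx⟩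
  · intro h x
    exact h x x.2

lemma resQ_mul_of_mem (g : GQ) {u : GQ} (hu : u ∈ L.fixingSubgroup) :
    resQ L (g * u) = resQ L g := by
  rw [map_mul, (resQ_eq_one_iff L u).2 hu, mul_one]

lemma resQ_eq_iff (g g' : GQ) : resQ L g = resQ L g' ↔ g⁻¹ * g' ∈ L.fixingSubgroup := by
  rw [← resQ_eq_one_iff, map_mul, map_inv, inv_mul_eq_one]

lemma gRes_resQ {L' : IntermediateField ℚ Qb} [Normal ℚ L'] (h : L ≤ L') (g : GQ) :
    gRes h (resQ L' g) = resQ L g := by
  unfold resQ
  rw [gRes, GalRes.res_res]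
  rfl

variable (q : ℕ) [Fact q.Prime]

/-- restriction `G_{ℚ_q} → Gal(L_q/ℚ_q)` -/
def resLoc : Gq q →* (locField q L ≃ₐ[ℚ_[q]] locField q L) := GalRes.res (locField q L).val

lemma coe_resLoc_apply (τ : Gq q) (x : locField q L) :
    ((resLoc L q τ x : locField q L) : PadicAlgCl q) = τ (x : PadicAlgCl q) :=
  GalRes.apply_res (locField q L).val τ x

lemma resLoc_surjective : Function.Surjective (resLoc L q) :=
  GalRes.res_surjective (locField q L).val

/-- the decomposition maps at finite and infinite level are compatible -/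
lemma decHom_resLoc (τ : Gq q) :
    decHom q L (resLoc L q τ) = resQ L (localGaloisToGlobal q τ) := by
  refine AlgEquiv.ext fun x => ?_
  apply locEmb_injective q L
  apply Subtype.ext
  rw [locEmb_decHom, coe_resLoc_apply, coe_locEmb, coe_locEmb, coe_resQ_apply,
    padicEmbedding_localGaloisToGlobal]

/-- the inclusion `L_qˣ → (PadicAlgCl q)ˣ` -/
def locInclU : (locField q L)ˣ →* (PadicAlgCl q)ˣ :=
  Units.map ((locField q L).val : locField q L →* PadicAlgCl q)

@[simp] lemma coe_locInclU (u : (locField q L)ˣ) :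
    ((locInclU L q u : (PadicAlgCl q)ˣ) : PadicAlgCl q) = ((u : locField q L) : PadicAlgCl q) := rfl

lemma locInclU_injective : Function.Injective (locInclU L q) := by
  intro u v h
  apply Units.ext
  apply Subtype.ext
  exact congrArg (fun w : (PadicAlgCl q)ˣ => (w : PadicAlgCl q)) h

end Res

/-! ### The comparison map on the `q`-component -/

section Jq

variable (S : Finset Nat.Primes) (L : IntermediateField ℚ Qb) [FiniteDimensional ℚ L]
  [IsGalois ℚ L] (hL : L.IsUnramifiedOutside S) (q : Nat.Primes)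

/-- `f ↦ (g ↦ f (g|_L))` -/
def ΦJqFun (f : JqCarrier L q) (g : GQ) : (PadicAlgCl (q : ℕ))ˣ :=
  locInclU L (q : ℕ) (JqCarrier.val L q f (resQ L g))

lemma ΦJqFun_equivariant (f : JqCarrier L q) (τ : Gq (q : ℕ)) (g : GQ) :
    ((ΦJqFun L q f (localGaloisToGlobal (q : ℕ) τ * g) : (PadicAlgCl (q : ℕ))ˣ) :
      PadicAlgCl (q : ℕ)) = τ (ΦJqFun L q f g) := by
  unfold ΦJqFun
  rw [coe_locInclU, coe_locInclU, map_mul, ← decHom_resLoc, JqCarrier.val_decHom,
    coe_resLoc_apply]

lemma ΦJqFun_lc (f : JqCarrier L q) (g u : GQ) (hu : u ∈ L.fixingSubgroup) :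
    ΦJqFun L q f (g * u) = ΦJqFun L q f g := by
  unfold ΦJqFun
  rw [resQ_mul_of_mem L g hu]

/-- the comparison map `Jq(L) → J_{S,q}` on vectors -/
def ΦJq (f : JqCarrier L q) : JSq S (q : ℕ) :=
  JSq.ofFamily (ΦJqFun L q f) (ΦJqFun_equivariant L q f) L hL (ΦJqFun_lc L q f)

@[simp] lemma val_ΦJq (f : JqCarrier L q) (g : GQ) :
    JSq.val S (q : ℕ) (ΦJq S L hL q f) g =
      locInclU L (q : ℕ) (JqCarrier.val L q f (resQ L g)) := rfl

lemma ΦJq_add (f f' : JqCarrier L q) : ΦJq S L hL q (f + f') = ΦJq S L hL q f + ΦJq S L hL q f' := by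
  apply JSq.ext_val
  intro g
  rw [JSq.val_add, val_ΦJq, val_ΦJq, val_ΦJq, JqCarrier.val_add, map_mul]

lemma ΦJq_injective : Function.Injective (ΦJq S L hL q) := by
  intro f f' h
  apply JqCarrier.ext_val
  intro g
  obtain ⟨g', rfl⟩ := resQ_surjective L g
  apply locInclU_injective L (q : ℕ)
  rw [← val_ΦJq S L hL, ← val_ΦJq S L hL, h]

/-- equivariance along `resQ L : G_ℚ → G_L` -/
lemma ΦJq_JqRep (σ : GQ) (f : JqCarrier L q) :
    ΦJq S L hL q (JqRep L q (resQ L σ) f) = (JSq S (q : ℕ)).ρ σ (ΦJq S L hL q f) := by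
  apply JSq.ext_val
  intro g
  rw [JSq.val_ρ, val_ΦJq, val_ΦJq, val_JqRep, map_mul]

/-- compatibility with helper80's inflation -/
lemma ΦJq_inflJq {L' : IntermediateField ℚ Qb} [FiniteDimensional ℚ L'] [IsGalois ℚ L']
    (hL' : L'.IsUnramifiedOutside S) (h : L ≤ L') (f : JqCarrier L q) :
    ΦJq S L' hL' q (inflJq h q f) = ΦJq S L hL q f := by
  apply JSq.ext_val
  intro g
  apply Units.ext
  rw [val_ΦJq, val_ΦJq, val_inflJq, coe_locInclU, coe_locInclU, coe_lInclU, coe_lIncl, gRes_resQ]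

end Jq

/-! ### The comparison map on the `S`-ideles -/

section J

variable (S : Finset Nat.Primes) (L : IntermediateField ℚ Qb) [FiniteDimensional ℚ L]
  [IsGalois ℚ L] (hL : L.IsUnramifiedOutside S)

/-- the comparison map `J(L,S) → J_S` as a `ℤ`-linear map -/
def ΦJLin : J L S →ₗ[ℤ] JS S :=
  LinearMap.pi fun q : S =>
    ((AddMonoidHom.mk' (ΦJq S L hL (q : Nat.Primes)) (ΦJq_add S L hL (q : Nat.Primes))).toIntLinearMap).comp
      (LinearMap.proj q)

@[simp] lemma ΦJLin_apply (y : J L S) (q : S) :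
    ΦJLin S L hL y q = ΦJq S L hL (q : Nat.Primes) (y q) := rfl

lemma ΦJLin_injective : Function.Injective (ΦJLin S L hL) := by
  intro y y' h
  funext q
  exact ΦJq_injective S L hL (q : Nat.Primes) (congrFun h q)

lemma ΦJLin_rho (σ : GQ) (y : J L S) :
    ΦJLin S L hL ((J L S).ρ (resQ L σ) y) = (JS S).ρ σ (ΦJLin S L hL y) := by
  funext q
  exact ΦJq_JqRep S L hL (q : Nat.Primes) σ (y q)

/-- the **comparison map** `J(L,S) → J_S`, equivariant along `resQ L : G_ℚ → Gal(L/ℚ)` -/
def ΦJ : Rep.res (resQ L) (J L S) ⟶ JS S :=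
  Rep.ofHom ⟨ΦJLin S L hL, fun σ => by
    ext y q
    exact congrFun (ΦJLin_rho S L hL σ y) q⟩

lemma ΦJ_hom_apply (y : J L S) : (ΦJ S L hL).hom y = ΦJLin S L hL y := rfl

lemma ΦJ_injective : Function.Injective (ΦJ S L hL).hom := ΦJLin_injective S L hL

/-- compatibility with helper80's inflation `inflJ` -/
lemma ΦJLin_inflJ {L' : IntermediateField ℚ Qb} [FiniteDimensional ℚ L'] [IsGalois ℚ L']
    (hL' : L'.IsUnramifiedOutside S) (h : L ≤ L') (y : J L S) :
    ΦJLin S L' hL' (inflJ h S y) = ΦJLin S L hL y := by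
  funext q
  exact ΦJq_inflJq S L hL (q : Nat.Primes) hL' h (y q)

/-! ### Compatibility with the diagonal embeddings -/

/-- the inclusion `Lˣ → ℚ_Sˣ` -/
def unitsInclS : Additive Lˣ →+ unitsS S :=
  AddMonoidHom.mk' (fun x : Additive Lˣ =>
    (Additive.ofMul (⟨Units.map (qIncl L : L →* Qb) x.toMul, L, hL, (x.toMul : L).2⟩ : unitsQS S) :
      Additive (unitsQS S)))
    (fun x y => by
      apply Additive.toMul.injective
      apply Subtype.ext
      exact map_mul (Units.map (qIncl L : L →* Qb)) x.toMul y.toMul)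

lemma coe_unitsInclS (x : Additive Lˣ) :
    ((((Additive.toMul (show Additive (unitsQS S) from unitsInclS S L hL x) : unitsQS S) : Qbˣ)) :
      Qb) = ((x.toMul : Lˣ) : L) := rfl

lemma unitsInclS_injective : Function.Injective (unitsInclS S L hL) := by
  intro x y h
  apply Additive.toMul.injective
  apply Units.ext
  apply Subtype.ext
  have := congrArg (fun z : unitsS S =>
    ((((Additive.toMul (show Additive (unitsQS S) from z) : unitsQS S) : Qbˣ)) : Qb)) h
  exact this

/-- the comparison maps commute with the diagonal embeddings -/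
lemma ΦJLin_diag (x : Additive Lˣ) :
    ΦJLin S L hL ((diag L S).hom x) = (diagS S).hom (unitsInclS S L hL x) := by
  funext q
  apply JSq.ext_val
  intro g
  apply Units.ext
  rw [ΦJLin_apply, val_ΦJq, coe_locInclU, diag_apply, JqCarrier.val_diagqLin, coe_locEmb,
    coe_resQ_apply, diagS_apply, val_diagSq, coe_unitsInclS]

end J

/-! ### The image of the comparison map: the `Gal(Qbar/L)`-invariants -/

section Range

variable (S : Finset Nat.Primes) (L : IntermediateField ℚ Qb) [FiniteDimensional ℚ L]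
  [IsGalois ℚ L] (hL : L.IsUnramifiedOutside S)

instance isGalois_Qb_limJ : IsGalois ℚ Qb := isGalois_Qb

lemma normal_fixingSubgroup_limJ : (L.fixingSubgroup : Subgroup GQ).Normal := by
  have h : @IsGalois ℚ _ L _ (IntermediateField.algebra' L) := ‹IsGalois ℚ L›
  exact @IsGalois.fixingSubgroup_normal_of_isGalois ℚ Qb _ _ _ L isGalois_Qb h

variable (q : Nat.Primes)

/-- the values of a right-`Gal(Qbar/L)`-invariant element of `J_{S,q}` lie in `L_q` -/
lemma val_mem_locField_of_inv (F : JSq S (q : ℕ))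
    (hF : ∀ g u, u ∈ L.fixingSubgroup → JSq.val S (q : ℕ) F (g * u) = JSq.val S (q : ℕ) F g)
    (g : GQ) :
    ((JSq.val S (q : ℕ) F g : (PadicAlgCl (q : ℕ))ˣ) : PadicAlgCl (q : ℕ)) ∈ locField (q : ℕ) L := by
  have hgal : IsGalois ℚ_[(q : ℕ)] (PadicAlgCl (q : ℕ)) := isGalois_padicAlgCl (q : ℕ)
  rw [← InfiniteGalois.fixedField_fixingSubgroup (locField (q : ℕ) L),
    IntermediateField.mem_fixedField_iff]
  intro τ hτ
  have h1 : localGaloisToGlobal (q : ℕ) τ ∈ L.fixingSubgroup :=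
    (mem_fixingSubgroup_localLevel_iff (q : ℕ) L τ).2 hτ
  have hn := normal_fixingSubgroup_limJ L
  rw [← JSq.val_equivariant]
  have h2 : localGaloisToGlobal (q : ℕ) τ * g = g * (g⁻¹ * localGaloisToGlobal (q : ℕ) τ * g) := by
    group
  rw [h2, hF g _ (by simpa using hn.conj_mem _ h1 g⁻¹)]

/-- a unit of `PadicAlgCl q` lying in `L_q`, as a unit of `L_q` -/
def unitOfMemPadic (u : (PadicAlgCl (q : ℕ))ˣ)
    (hu : (u : PadicAlgCl (q : ℕ)) ∈ locField (q : ℕ) L) : (locField (q : ℕ) L)ˣ :=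
  Units.mk0 ⟨(u : PadicAlgCl (q : ℕ)), hu⟩ (by
    intro h0
    exact u.ne_zero (congrArg (fun w : locField (q : ℕ) L => (w : PadicAlgCl (q : ℕ))) h0))

lemma locInclU_unitOfMemPadic (u : (PadicAlgCl (q : ℕ))ˣ)
    (hu : (u : PadicAlgCl (q : ℕ)) ∈ locField (q : ℕ) L) :
    locInclU L (q : ℕ) (unitOfMemPadic L q u hu) = u := by
  apply Units.ext
  rfl

/-- every right-`Gal(Qbar/L)`-invariant element of `J_{S,q}` comes from `Jq(L)` -/
theorem exists_ΦJq_eq (F : JSq S (q : ℕ))
    (hF : ∀ g u, u ∈ L.fixingSubgroup → JSq.val S (q : ℕ) F (g * u) = JSq.val S (q : ℕ) F g) :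
    ∃ f : JqCarrier L q, ΦJq S L hL q f = F := by
  classical
  have hmem := val_mem_locField_of_inv S L q F hF
  have hsurj := resQ_surjective L
  let lift : (L ≃ₐ[ℚ] L) → GQ := fun h => Classical.choose (hsurj h)
  have hlift : ∀ h, resQ L (lift h) = h := fun h => Classical.choose_spec (hsurj h)
  let r : (L ≃ₐ[ℚ] L) → (locField (q : ℕ) L)ˣ :=
    fun h => unitOfMemPadic L q (JSq.val S (q : ℕ) F (lift h)) (hmem (lift h))
  have hr : ∀ g : GQ, locInclU L (q : ℕ) (r (resQ L g)) = JSq.val S (q : ℕ) F g := by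
    intro g
    change locInclU L (q : ℕ) (unitOfMemPadic L q _ _) = _
    rw [locInclU_unitOfMemPadic]
    have h1 : (lift (resQ L g))⁻¹ * g ∈ L.fixingSubgroup :=
      (resQ_eq_iff L _ _).1 (hlift (resQ L g))
    have h2 : g = lift (resQ L g) * ((lift (resQ L g))⁻¹ * g) := by group
    conv_rhs => rw [h2]
    exact (hF _ _ h1).symm
  have hD : ∀ (d : locField (q : ℕ) L ≃ₐ[ℚ_[(q : ℕ)]] locField (q : ℕ) L) (h : L ≃ₐ[ℚ] L),
      r (decHom (q : ℕ) L d * h)
        = Units.map (d : locField (q : ℕ) L →* locField (q : ℕ) L) (r h) := by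
    intro d h
    obtain ⟨τ, rfl⟩ := resLoc_surjective L (q : ℕ) d
    apply locInclU_injective L (q : ℕ)
    have e1 : decHom (q : ℕ) L (resLoc L (q : ℕ) τ) * h
        = resQ L (localGaloisToGlobal (q : ℕ) τ * lift h) := by
      rw [map_mul, hlift, decHom_resLoc]
    rw [e1, hr]
    apply Units.ext
    rw [JSq.val_equivariant, coe_locInclU]
    change τ _ = ((resLoc L (q : ℕ) τ ((r h : (locField (q : ℕ) L)ˣ) : locField (q : ℕ) L) :
      locField (q : ℕ) L) : PadicAlgCl (q : ℕ))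
    rw [coe_resLoc_apply, ← coe_locInclU, ← hlift h, hr, hlift h]
  refine ⟨JqCarrier.ofFamily L q r hD, ?_⟩
  apply JSq.ext_val
  intro g
  rw [val_ΦJq, JqCarrier.val_ofFamily, hr]

/-- **the image of `J(L,S) → J_S` is the module of `Gal(Qbar/L)`-invariants** -/
theorem mem_range_ΦJLin_iff (F : JS S) :
    F ∈ LinearMap.range (ΦJLin S L hL) ↔ ∀ u ∈ L.fixingSubgroup, (JS S).ρ u F = F := by
  constructor
  · rintro ⟨y, rfl⟩ u hu
    rw [← ΦJLin_rho, (resQ_eq_one_iff L u).2 hu, map_one]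
    rfl
  · intro hF
    have hq : ∀ q : S, ∃ f : JqCarrier L (q : Nat.Primes),
        ΦJq S L hL (q : Nat.Primes) f = F q := by
      intro q
      apply exists_ΦJq_eq S L hL (q : Nat.Primes) (F q)
      intro g u hu
      have h1 := congrFun (hF u hu) q
      have h2 := congrArg (fun F' : JSq S ((q : Nat.Primes) : ℕ) =>
        JSq.val S ((q : Nat.Primes) : ℕ) F' g) h1
      exact h2
    choose f hf using hq
    exact ⟨f, funext hf⟩

/-- every element of `J_S` comes from a finite Galois layer unramified outside `S` (which may be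
chosen to contain any given such layer) -/
theorem exists_ΦJLin_eq (L₀ : IntermediateField ℚ Qb) (hL₀ : L₀.IsUnramifiedOutside S) (F : JS S) :
    ∃ (L : IntermediateField ℚ Qb) (_ : FiniteDimensional ℚ L) (_ : IsGalois ℚ L)
      (hL : L.IsUnramifiedOutside S), L₀ ≤ L ∧ ∃ y : J L S, ΦJLin S L hL y = F := by
  obtain ⟨_, ⟨F₁, hF₁, rfl⟩, hfix⟩ := IsDiscrete.exists_fix (𝒰 := levelS S) (M := JS S) F
  have hF₂ : (F₁ ⊔ L₀).IsUnramifiedOutside S := hF₁.sup hL₀
  have hN := isUnramifiedOutside_normalClosure hF₂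
  have hfd : FiniteDimensional ℚ (IntermediateField.normalClosure ℚ (F₁ ⊔ L₀ : IntermediateField ℚ Qb) Qb) :=
    hN.1
  have hnorm : Normal ℚ (IntermediateField.normalClosure ℚ (F₁ ⊔ L₀ : IntermediateField ℚ Qb) Qb) :=
    normalClosure.normal ℚ _ Qb
  have hgal : IsGalois ℚ (IntermediateField.normalClosure ℚ (F₁ ⊔ L₀ : IntermediateField ℚ Qb) Qb) :=
    { to_isSeparable := inferInstance, to_normal := hnorm }
  have hle : (F₁ ⊔ L₀ : IntermediateField ℚ Qb) ≤
      IntermediateField.normalClosure ℚ (F₁ ⊔ L₀ : IntermediateField ℚ Qb) Qb :=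
    IntermediateField.le_normalClosure _
  refine ⟨_, hfd, hgal, hN, le_sup_right.trans hle, ?_⟩
  have := (mem_range_ΦJLin_iff S _ hN F).2 (fun u hu =>
    hfix u (IntermediateField.fixingSubgroup_antitone (le_sup_left.trans hle) hu))
  exact this

end Range

end Fermat.Agent.GC.LimJ
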