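/-
GATE-C / C4 (LM-J) = (A7), part 7 (helper71): **finite-level comparison maps `C(L,S) → D_S`**
(`Tower.φ` of helper12's `ColimVanish`).

`L ⊂ Qbar` finite Galois, unramified outside `S`:
* `mem_tUnits_iff_isSUnit` : helper14's `tUnits L S` = helper78's `IsSUnit S` on `Lˣ`
  (via helper78 `isSUnit_iff_mem_unit` + helper68 `mem_unit_primesDvd_iff`);
* `ΦCLin S L hL : C L S →ₗ[ℤ] DS S`, `ΦC S L hL : Rep.res (resQ L) (C L S) ⟶ DS S`,
  **injective** (`S ≠ ∅`), compatible with helper80's `inflC`, and **jointly surjective**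
  (`exists_ΦCLin_eq`: every element of `D_S` comes from a finite Galois layer).
-/
import Fermat.Agent.GC.Global.Limit.IdeleSLevel
import Fermat.Agent.GC.Kummer.SUnitsDict
import Fermat.Agent.GC.Global.Adapter.TUnitsDict

set_option autoImplicit false
set_option linter.unusedSectionVars false

open CategoryTheory NumberField IsDedekindDomain
open scoped Padic

noncomputable section

namespace Fermat.Agent.GC.LimJ

open Fermat.Agent.GC.Prof Fermat.Agent.GC.C0 Fermat.Agent.GC.Local.KR Fermat.Agent.GC.Local.Abs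
  Fermat.Agent.GC.KumH Fermat.Agent.GC.Global Fermat.Agent.GC.Global.Adapter
  Fermat.Agent.GC.Global.Funct

local notation "Qb" => AlgebraicClosure ℚ
local notation "GQ" => (AlgebraicClosure ℚ ≃ₐ[ℚ] AlgebraicClosure ℚ)

variable (S : Finset Nat.Primes) (L : IntermediateField ℚ Qb) [FiniteDimensional ℚ L]
  [IsGalois ℚ L] (hL : L.IsUnramifiedOutside S)

/-! ### The `S`-unit dictionary -/

section Dict

/-- helper14's `T`-units of a layer are helper78's `S`-units (valuation-subring language). -/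
theorem mem_tUnits_iff_isSUnit (x : Lˣ) : x ∈ tUnits L S ↔ IsSUnit S (((x : L)) : Qb) := by
  have : NumberField L := ⟨⟩
  have hset : sPlaces S L = EH.primesDvd L (Tprod S) := by
    ext v
    rw [mem_sPlaces_iff_prod_mem]
    rfl
  rw [isSUnit_iff_mem_unit, hset, EH.mem_unit_primesDvd_iff, mem_tUnits]
  rfl

end Dict

/-! ### The comparison map on class modules -/

section C

/-- the `S`-unit of `ℚ_S` attached to an `S`-unit of `L` -/
def sUnitsInclS (x : Additive Lˣ) (hx : x ∈ tUnitsSub L S) : sUnitsS S :=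
  (Additive.ofMul (⟨Units.map (qIncl L : L →* Qb) x.toMul,
    ⟨⟨L, hL, (x.toMul : L).2⟩, (mem_tUnits_iff_isSUnit S L x.toMul).1 hx⟩⟩ : sUnitsQS S) :
      Additive (sUnitsQS S))

lemma sUnitsSι_sUnitsInclS (x : Additive Lˣ) (hx : x ∈ tUnitsSub L S) :
    (sUnitsSι S).hom (sUnitsInclS S L hL x hx) = unitsInclS S L hL x := rfl

lemma diagTUnits_le_comap_ΦJLin :
    diagTUnits L S ≤ (diagSUnits S).comap (ΦJLin S L hL) := by
  rintro _ ⟨x, hx, rfl⟩
  have hx' : (show Additive Lˣ from x) ∈ tUnitsSub L S := hx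
  refine ⟨sUnitsInclS S L hL (show Additive Lˣ from x) hx', ?_⟩
  exact (ΦJLin_diag S L hL (show Additive Lˣ from x)).symm

/-- the comparison map `C(L,S) → D_S` as a `ℤ`-linear map -/
def ΦCLin : C L S →ₗ[ℤ] DS S :=
  Submodule.mapQ (diagTUnits L S) (diagSUnits S) (ΦJLin S L hL) (diagTUnits_le_comap_ΦJLin S L hL)

lemma ΦCLin_JtoC (y : J L S) :
    ΦCLin S L hL ((JtoC L S).hom y) = (JStoDS S).hom (ΦJLin S L hL y) := rfl

lemma ΦCLin_rho (σ : GQ) (c : C L S) :
    ΦCLin S L hL ((C L S).ρ (resQ L σ) c) = (DS S).ρ σ (ΦCLin S L hL c) := by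
  obtain ⟨y, rfl⟩ := JtoC_surjective L S c
  have e1 : (C L S).ρ (resQ L σ) ((JtoC L S).hom y)
      = (JtoC L S).hom ((J L S).ρ (resQ L σ) y) := rfl
  have e2 : (DS S).ρ σ ((JStoDS S).hom (ΦJLin S L hL y))
      = (JStoDS S).hom ((JS S).ρ σ (ΦJLin S L hL y)) := rfl
  rw [e1, ΦCLin_JtoC, ΦCLin_JtoC, e2, ΦJLin_rho]

/-- the **comparison map** `C(L,S) → D_S`, equivariant along `resQ L : G_ℚ → Gal(L/ℚ)` -/
def ΦC : Rep.res (resQ L) (C L S) ⟶ DS S :=
  Rep.ofHom (ρ := (Rep.res (resQ L) (C L S)).ρ) (σ := (DS S).ρ)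
    ⟨ΦCLin S L hL, fun σ => LinearMap.ext fun c => ΦCLin_rho S L hL σ c⟩

lemma ΦC_hom_apply (c : C L S) : (ΦC S L hL).hom c = ΦCLin S L hL c := rfl

/-- compatibility with helper80's `inflC` -/
lemma ΦCLin_inflC {L' : IntermediateField ℚ Qb} [FiniteDimensional ℚ L'] [IsGalois ℚ L']
    (hL' : L'.IsUnramifiedOutside S) (h : L ≤ L') (c : C L S) :
    ΦCLin S L' hL' (inflC h S c) = ΦCLin S L hL c := by
  obtain ⟨y, rfl⟩ := JtoC_surjective L S c
  rw [inflC_JtoC, ΦCLin_JtoC, ΦCLin_JtoC, ΦJLin_inflJ S L hL hL' h]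

/-- an `S`-unit of `ℚ_S` whose diagonal image comes from `J(L,S)` is an `S`-unit of `L` -/
lemma exists_tUnit_of_EStoJS_eq (hS : S.Nonempty) (e : sUnitsS S) (y : J L S)
    (he : (EStoJS S).hom e = ΦJLin S L hL y) :
    ∃ x : Additive Lˣ, x ∈ tUnitsSub L S ∧ (diag L S).hom x = y := by
  -- the underlying element of `Qbar`
  set e₀ : sUnitsQS S := Additive.toMul (show Additive (sUnitsQS S) from e) with he₀
  -- `e` is fixed by `Gal(Qbar/L)`
  have hfix : ∀ u ∈ L.fixingSubgroup, (sUnitsS S).ρ u e = e := by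
    intro u hu
    apply EStoJS_injective S hS
    rw [Rep.hom_comm_apply, he]
    exact (mem_range_ΦJLin_iff S L hL _).1 ⟨y, rfl⟩ u hu
  have hmem : ((e₀ : Qbˣ) : Qb) ∈ L := by
    rw [← InfiniteGalois.fixedField_fixingSubgroup L, IntermediateField.mem_fixedField_iff]
    intro u hu
    have h1 := hfix u hu
    have h2 := congrArg (fun z : sUnitsS S =>
      (((Additive.toMul (show Additive (sUnitsQS S) from z) : sUnitsQS S) : Qbˣ) : Qb)) h1
    exact h2
  have hne : (⟨((e₀ : Qbˣ) : Qb), hmem⟩ : L) ≠ 0 := by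
    intro h0
    exact (e₀ : Qbˣ).ne_zero (congrArg (fun z : L => (z : Qb)) h0)
  let x : Lˣ := Units.mk0 ⟨((e₀ : Qbˣ) : Qb), hmem⟩ hne
  have hx : x ∈ tUnits L S := (mem_tUnits_iff_isSUnit S L x).2 e₀.2.2
  refine ⟨Additive.ofMul x, hx, ?_⟩
  apply ΦJLin_injective S L hL
  rw [ΦJLin_diag, ← he]
  show (diagS S).hom _ = (diagS S).hom ((sUnitsSι S).hom e)
  congr 1
  apply Additive.toMul.injective
  apply Subtype.ext
  apply Units.ext
  rfl

/-- **`C(L,S) → D_S` is injective** -/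
theorem ΦCLin_injective (hS : S.Nonempty) : Function.Injective (ΦCLin S L hL) := by
  rw [injective_iff_map_eq_zero]
  intro c hc
  obtain ⟨y, rfl⟩ := JtoC_surjective L S c
  rw [ΦCLin_JtoC, JStoDS_eq_zero_iff] at hc
  obtain ⟨e, he⟩ := hc
  obtain ⟨x, hx, rfl⟩ := exists_tUnit_of_EStoJS_eq S L hL hS e y he
  exact (Submodule.Quotient.mk_eq_zero _).2 ⟨x, hx, rfl⟩

theorem ΦC_injective (hS : S.Nonempty) : Function.Injective (ΦC S L hL).hom :=
  ΦCLin_injective S L hL hS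

/-- the image of `C(L,S)` in `D_S` is contained in the `Gal(Qbar/L)`-invariants -/
lemma ΦCLin_rho_of_mem (c : C L S) {u : GQ} (hu : u ∈ L.fixingSubgroup) :
    (DS S).ρ u (ΦCLin S L hL c) = ΦCLin S L hL c := by
  rw [← ΦCLin_rho, (resQ_eq_one_iff L u).2 hu, map_one]
  rfl

end C

/-- **every element of `D_S` comes from a finite Galois layer** unramified outside `S` (which may
be chosen to contain any given such layer) -/
theorem exists_ΦCLin_eq (L₀ : IntermediateField ℚ Qb) (hL₀ : L₀.IsUnramifiedOutside S) (d : DS S) :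
    ∃ (L : IntermediateField ℚ Qb) (_ : FiniteDimensional ℚ L) (_ : IsGalois ℚ L)
      (hL : L.IsUnramifiedOutside S), L₀ ≤ L ∧ ∃ c : C L S, ΦCLin S L hL c = d := by
  obtain ⟨F, rfl⟩ := JStoDS_surjective S d
  obtain ⟨L, hfd, hgal, hL, hle, y, rfl⟩ := exists_ΦJLin_eq S L₀ hL₀ F
  exact ⟨L, hfd, hgal, hL, hle, (JtoC L S).hom y, rfl⟩

end Fermat.Agent.GC.LimJ
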