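/-
GATE-C / C4 (LM-A) = (A8), part 1 (helper12): the tower of layers over `D_S`.

`towerDS` : helper71's comparison maps `ΦCLin : C(L,S) → D_S` (`IdeleSClass.lean`) make
`{(Gal(L/K), C(L,S))}_L` a `ColimVanish.Tower` over `(G_K, levelK S K, D_S|_{G_K})`; consequently
(`A_of_stage`) `Hlc¹(G_K, D_S)` has no `p`-torsion as soon as every stage `1`-cocycle `f` with
`p ^ m • f` a coboundary becomes a coboundary at a later layer.
-/
import Fermat.Agent.GC.Global.Limit.LayerTower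
import Fermat.Agent.GC.Global.Limit.IdeleSClass

set_option autoImplicit false
set_option linter.unusedSectionVars false

open CategoryTheory groupCohomology

noncomputable section

namespace Fermat.Agent.GC.Global.Limit.TowerDS

open Fermat.Agent.GC.Prof Fermat.Agent.GC.Global Fermat.Agent.GC.Global.Funct
open Fermat.Agent.GC.Global.Limit.ColimVanish Fermat.Agent.GC.Global.Limit.LayerTower
open Fermat.Agent.GC.LimJ Fermat.Agent.GC.Places Fermat.Agent.GC.C0

local notation "GQ" => (Qb ≃ₐ[ℚ] Qb)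

variable {S : Finset Nat.Primes} {K : IntermediateField ℚ Qb}

/-- **The tower of layers over `D_S`.** -/
def towerDS (hK : K.IsUnramifiedOutside S) (hS : S.Nonempty) :
    Tower (levelK S K) (Rep.res K.fixingSubgroup.subtype (DS S)) (Q (S := S) (K := K)) A :=
  mkTower (DS S) hK (fun ℓ => (ΦCLin S ℓ.L ℓ.unram).toAddMonoidHom)
    (fun ℓ g c => ΦCLin_rho S ℓ.L ℓ.unram g c)
    (fun {ℓ ℓ'} h c => ΦCLin_inflC S ℓ.L ℓ.unram ℓ'.unram (Layer.le_def.1 h) c)
    (fun ℓ => ΦCLin_injective S ℓ.L ℓ.unram hS)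
    (fun d => by
      obtain ⟨L, hfd, hgal, hL, hle, c, hc⟩ :=
        exists_ΦCLin_eq S (Layer.ofField hK ⊥ (IntermediateField.isUnramifiedOutside_bot S)).L
          (Layer.ofField hK ⊥ (IntermediateField.isUnramifiedOutside_bot S)).unram d
      exact ⟨⟨L, hL, hgal, (Layer.ofField hK ⊥
        (IntermediateField.isUnramifiedOutside_bot S)).le.trans hle⟩, c, hc⟩)

instance isDiscrete_DS_res : IsDiscrete (levelK S K) (Rep.res K.fixingSubgroup.subtype (DS S)) :=
  isDiscrete_res_levelK S K (DS S)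

/-- **`[A]` from the stage step.** -/
theorem A_of_stage (hK : K.IsUnramifiedOutside S) (hS : S.Nonempty) (p : ℕ)
    (hst : ∀ (ℓ : Layer S K) (f : Q ℓ → A ℓ), f ∈ cocycles₁ (A ℓ) → ∀ (m : ℕ) (a : A ℓ),
      (∀ σ, p ^ m • f σ = (A ℓ).ρ σ a - a) →
      ∃ (ℓ' : Layer S K) (h : ℓ ≤ ℓ') (a' : A ℓ'), ∀ σ : Q ℓ',
        inflC (Layer.le_def.1 h) S (f (tau h σ)) = (A ℓ').ρ σ a' - a')
    (x : Hlc (levelK S K) (Rep.res K.fixingSubgroup.subtype (DS S)) 1) (m : ℕ)
    (hx : p ^ m • x = 0) : x = 0 := by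
  refine (towerDS hK hS).Hlc1_nsmul_torsionFree_of_stage (p ^ m) (fun ℓ f hf ha => ?_) x hx
  obtain ⟨a, ha⟩ := ha
  obtain ⟨ℓ', h, a', ha'⟩ := hst ℓ f hf m a ha
  exact ⟨ℓ', h, a', ha'⟩

end Fermat.Agent.GC.Global.Limit.TowerDS
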