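/-
GATE-C / C4 (LM-A), abstract core (helper7), board "(LM-A) DESIGN ALERT".

`[A]` of the C4 plan is: `Hlc¹(G_{K,S}, D_S)` has no `p`-torsion, `D_S := J_S / E_S`.  The finite
levels of `D_S` are NOT the invariants (`D_S^{G_L} ⊋ C(L,S)`, the defect is `Cl_S(L)`), and the
devissage is available for `C_S(L,T) ⊇ C(L,S)` only.  This file contains the model-free part of the
argument that repairs this:

* `exists_split_cobdry` **(alg)** : `ι : C₀ ⟶ C₁` (`H`-modules), `H¹(H, C₁)` without `p`-torsion (in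
  elementary cocycle form), `C₁ / ι C₀` torsion.  If `f` is a `1`-cocycle of `C₀` with
  `p ^ m • f = d c` (`c ∈ C₀`), then `ι ∘ f = d b₁ + ι ∘ d c₁` with `p ^ k • b₁ ∈ ι C₀`.
* `cobdry_of_split` : the conclusion, once `b₁` has been moved into `C₀` (the (G8)-step, done in
  the model), gives `f = d (a₁ + c₁)` provided `ι` is injective.
* `torsionFree_cocycle_form` : bridge from the output shape of `DevissageP.devissage_sub_P`
  (`∀ x : groupCohomology A 1, p ^ m • x = 0 → x = 0`) to the elementary cocycle form.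
* `hlc_one_torsionFree_of_key` : `Hlc 𝒰 D 1` has no `p`-torsion as soon as every level-constant
  `1`-cocycle `f` with `p ^ m • f` a coboundary is a coboundary.
-/
import Mathlib
import Fermat.Agent.GC.Prof.Low

set_option autoImplicit false

open CategoryTheory groupCohomology

namespace Fermat.Agent.GC.Global.LimA

universe u

section Alg

variable {k H : Type u} [CommRing k] [Group H]

/-- `ι ∘ f` is a `1`-cocycle. -/
theorem comp_mem_cocycles₁ {C₀ C₁ : Rep.{u} k H} (ι : C₀ ⟶ C₁) {f : H → C₀}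
    (hf : f ∈ cocycles₁ C₀) : (fun h => ι.hom (f h)) ∈ cocycles₁ C₁ := by
  rw [mem_cocycles₁_iff] at hf ⊢
  intro g h
  rw [hf g h, map_add]
  congr 1
  exact (Rep.hom_comm_apply ι g (f h))

/-- **(alg)** of the (LM-A) argument. -/
theorem exists_split_cobdry {C₀ C₁ : Rep.{u} k H} (ι : C₀ ⟶ C₁) (p : ℕ) (hp : p.Prime)
    (hH1 : ∀ f : H → C₁, f ∈ cocycles₁ C₁ → ∀ (m : ℕ) (c : C₁),
      (∀ h, p ^ m • f h = C₁.ρ h c - c) → ∃ b : C₁, ∀ h, f h = C₁.ρ h b - b)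
    (htors : ∀ b : C₁, ∃ N : ℕ, 0 < N ∧ ∃ a : C₀, ι.hom a = N • b)
    (f : H → C₀) (hf : f ∈ cocycles₁ C₀) (m : ℕ) (c : C₀)
    (hc : ∀ h, p ^ m • f h = C₀.ρ h c - c) :
    ∃ (b₁ : C₁) (c₁ : C₀) (n : ℕ), (∃ a : C₀, ι.hom a = p ^ n • b₁) ∧
      ∀ h, ι.hom (f h) = (C₁.ρ h b₁ - b₁) + ι.hom (C₀.ρ h c₁ - c₁) := by
  -- `ι ∘ f = d b`
  obtain ⟨b, hb⟩ := hH1 (fun h => ι.hom (f h)) (comp_mem_cocycles₁ ι hf) m (ι.hom c) (by
    intro h
    rw [← map_nsmul, hc h, map_sub]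
    congr 1
    exact (Rep.hom_comm_apply ι h c))
  -- `N • b ∈ ι C₀`
  obtain ⟨N, hN, a, ha⟩ := htors b
  obtain ⟨e, n, hn, rfl⟩ := Nat.exists_eq_pow_mul_and_not_dvd hN.ne' p hp.ne_one
  -- Bezout for `n` and `p ^ (e + m)`
  have hcop : IsCoprime (n : ℤ) ((p : ℤ) ^ (e + m)) := by
    have h1 : Nat.Coprime n p := ((Nat.Prime.coprime_iff_not_dvd hp).2 hn).symm
    exact (Nat.isCoprime_iff_coprime.2 h1).pow_right
  obtain ⟨u, v, huv⟩ := hcop
  refine ⟨(u * n) • b, (v * (p : ℤ) ^ e) • c, e + m, ⟨(u * (p : ℤ) ^ m) • a, ?_⟩, fun h => ?_⟩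
  · rw [map_zsmul, ha]
    simp only [← natCast_zsmul, smul_smul]
    congr 1
    push_cast
    ring
  · have h1 : C₁.ρ h ((u * n) • b) - (u * n) • b = (u * n) • ι.hom (f h) := by
      rw [map_zsmul, ← smul_sub, hb h]
    have h2 : ι.hom (C₀.ρ h ((v * (p : ℤ) ^ e) • c) - (v * (p : ℤ) ^ e) • c) =
        (v * (p : ℤ) ^ (e + m)) • ι.hom (f h) := by
      rw [map_zsmul, ← smul_sub, ← hc h, map_zsmul, map_nsmul, ← natCast_zsmul, smul_smul]
      congr 1
      push_cast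
      ring
    rw [h1, h2, ← add_smul, huv, one_smul]

/-- End of the argument: if `b₁ = ι a₁` then `f = d (a₁ + c₁)` (for injective `ι`). -/
theorem cobdry_of_split {C₀ C₁ : Rep.{u} k H} (ι : C₀ ⟶ C₁) (hι : Function.Injective ι.hom)
    (f : H → C₀) (a₁ c₁ : C₀)
    (h : ∀ h, ι.hom (f h) = (C₁.ρ h (ι.hom a₁) - ι.hom a₁) + ι.hom (C₀.ρ h c₁ - c₁)) :
    ∀ h, f h = C₀.ρ h (a₁ + c₁) - (a₁ + c₁) := by
  intro g
  apply hι
  have h1 := Rep.hom_comm_apply ι g a₁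
  rw [h g]
  simp only [map_add, map_sub]
  rw [h1]
  abel

/-- From the output shape of `DevissageP.devissage_sub_P` to the elementary cocycle form. -/
theorem torsionFree_cocycle_form (A : Rep.{u} k H) (p : ℕ)
    (hA : ∀ (x : groupCohomology A 1) (m : ℕ), p ^ m • x = 0 → x = 0)
    (f : H → A) (hf : f ∈ cocycles₁ A) (m : ℕ) (c : A)
    (hc : ∀ h, p ^ m • f h = A.ρ h c - c) : ∃ b : A, ∀ h, f h = A.ρ h b - b := by
  have hx : H1π A ⟨f, hf⟩ = 0 := by
    apply hA _ m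
    rw [← map_nsmul, H1π_eq_zero_iff]
    refine ⟨c, ?_⟩
    funext h
    simp only [d₀₁_hom_apply]
    exact (hc h).symm
  rw [H1π_eq_zero_iff] at hx
  obtain ⟨b, hb⟩ := hx
  refine ⟨b, fun h => ?_⟩
  have := congrFun hb h
  simp only [d₀₁_hom_apply] at this
  exact this.symm

end Alg

section Lim

open Fermat.Agent.GC.Prof

variable {k G : Type u} [CommRing k] [Group G] (𝒰 : LevelSystem G)
variable (D : Rep.{u} k G) [IsDiscrete 𝒰 D]

/-- `Hlc 𝒰 D 1` has no `p`-torsion as soon as every level-constant `1`-cocycle `f` such that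
`p ^ m • f` is a coboundary is itself a coboundary. -/
theorem hlc_one_torsionFree_of_key (p : ℕ)
    (key : ∀ f : G → D, f ∈ cocycles₁ D → IsLC₁ 𝒰 f → ∀ (m : ℕ) (c : D),
      (∀ g, p ^ m • f g = D.ρ g c - c) → ∃ b : D, ∀ g, f g = D.ρ g b - b)
    (x : Hlc 𝒰 D 1) (m : ℕ) (hx : p ^ m • x = 0) : x = 0 := by
  obtain ⟨z, rfl⟩ := Hlc1π_surjective 𝒰 D x
  rw [← map_nsmul, Hlc1π_eq_zero_iff] at hx
  obtain ⟨c, hc⟩ := hx
  rw [Hlc1π_eq_zero_iff]
  obtain ⟨b, hb⟩ := key z.1 z.2.1 z.2.2 m c (by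
    intro g
    have := congrFun hc g
    simp only [d₀₁_hom_apply] at this
    rw [this]
    rfl)
  refine ⟨b, ?_⟩
  funext g
  simp only [d₀₁_hom_apply]
  exact (hb g).symm

end Lim

end Fermat.Agent.GC.Global.LimA
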