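/-
GATE-C / C4 (LM-A), the two-stage closing step (helper12), on top of helper7's `AAbs.lean`.

Stage `L` : `H`-modules `ι : C₀ ⟶ C₁` (`C₀ = C(L,S)`, `C₁ = C_S(L,T)`); stage `L' ⊇ L` : `H'`-modules
`ι' : C₀' ⟶ C₁'` (`C₀' = C(L',S)`, `C₁' = C_S(L',T)`, SAME `T`), `ι'` injective; `τ : H' →* H` the
restriction and `t₀ : C₀ → C₀'`, `t₁ : C₁ → C₁'` the inflations, `ι' ∘ t₀ = t₁ ∘ ι`.

* `stage_close` : if `ι ∘ f = d b₁ + ι ∘ d c₁` (output of `exists_split_cobdry`) and `t₁ b₁ = ι' a₁`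
  (the capitulation step), then the inflated cocycle `t₀ ∘ f ∘ τ` is the coboundary of
  `a₁ + t₀ c₁`.
* `stage_step` : the two combined, in the shape of the hypothesis `hst` of
  `ColimVanish.Tower.Hlc1_nsmul_torsionFree_of_stage`.
-/
import Fermat.Agent.GC.Global.Limit.AAbs

set_option autoImplicit false

open CategoryTheory groupCohomology

namespace Fermat.Agent.GC.Global.LimA

universe u

variable {k H H' : Type u} [CommRing k] [Group H] [Group H']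

/-- Closing step at the later stage. -/
theorem stage_close (τ : H' →* H) {C₀ C₁ : Rep.{u} k H} {C₀' C₁' : Rep.{u} k H'}
    (ι : C₀ ⟶ C₁) (ι' : C₀' ⟶ C₁') (hι' : Function.Injective ι'.hom)
    (t₀ : Rep.res τ C₀ ⟶ C₀') (t₁ : Rep.res τ C₁ ⟶ C₁')
    (hsq : ∀ a : C₀, ι'.hom (t₀.hom a) = t₁.hom (ι.hom a))
    (f : H → C₀) (b₁ : C₁) (c₁ : C₀)
    (hsplit : ∀ h, ι.hom (f h) = (C₁.ρ h b₁ - b₁) + ι.hom (C₀.ρ h c₁ - c₁))
    (a₁ : C₀') (ha₁ : ι'.hom a₁ = t₁.hom b₁) :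
    ∀ h' : H', t₀.hom (f (τ h')) =
      C₀'.ρ h' (a₁ + t₀.hom c₁) - (a₁ + t₀.hom c₁) := by
  refine cobdry_of_split ι' hι' (fun h' => t₀.hom (f (τ h'))) a₁ (t₀.hom c₁) fun h' => ?_
  have e₀ : ∀ a : C₀, t₀.hom (C₀.ρ (τ h') a) = C₀'.ρ h' (t₀.hom a) :=
    fun a => Rep.hom_comm_apply t₀ h' a
  have e₁ : ∀ b : C₁, t₁.hom (C₁.ρ (τ h') b) = C₁'.ρ h' (t₁.hom b) :=
    fun b => Rep.hom_comm_apply t₁ h' b
  rw [hsq, hsplit (τ h'), map_add, map_sub, e₁, ← hsq, map_sub, e₀, ha₁]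

/-- **The stage step of `[A]`.**  Stage data `ι : C₀ ⟶ C₁` with `H¹(H, C₁)` without `p`-torsion and
`C₁ / ι C₀` torsion; `cap` : every `b₁ ∈ C₁` with `p ^ n • b₁ ∈ ι C₀` moves into `C₀'` at some later
stage (given with all its compatibilities).  Then every `1`-cocycle `f` of `C₀` with `p ^ m • f` a
coboundary becomes a coboundary at a later stage. -/
theorem stage_step {C₀ C₁ : Rep.{u} k H} (ι : C₀ ⟶ C₁) (p : ℕ) (hp : p.Prime)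
    (hH1 : ∀ (x : groupCohomology C₁ 1) (m : ℕ), p ^ m • x = 0 → x = 0)
    (htors : ∀ b : C₁, ∃ N : ℕ, 0 < N ∧ ∃ a : C₀, ι.hom a = N • b)
    (P : ∀ (H' : Type u) [Group H'] (_ : H' →* H) (C₀' : Rep.{u} k H'),
      (C₀ → C₀') → Prop)
    (cap : ∀ (b₁ : C₁) (n : ℕ), (∃ a : C₀, ι.hom a = p ^ n • b₁) →
      ∃ (H' : Type u) (_ : Group H') (τ : H' →* H) (C₀' C₁' : Rep.{u} k H')
        (ι' : C₀' ⟶ C₁') (t₀ : Rep.res τ C₀ ⟶ C₀') (t₁ : Rep.res τ C₁ ⟶ C₁'),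
        Function.Injective ι'.hom ∧ (∀ a : C₀, ι'.hom (t₀.hom a) = t₁.hom (ι.hom a)) ∧
        (∃ a₁ : C₀', ι'.hom a₁ = t₁.hom b₁) ∧ P H' τ C₀' t₀.hom)
    (f : H → C₀) (hf : f ∈ cocycles₁ C₀) (m : ℕ) (c : C₀)
    (hc : ∀ h, p ^ m • f h = C₀.ρ h c - c) :
    ∃ (H' : Type u) (_ : Group H') (τ : H' →* H) (C₀' : Rep.{u} k H') (t₀ : C₀ → C₀'),
      P H' τ C₀' t₀ ∧ ∃ a' : C₀', ∀ h' : H', t₀ (f (τ h')) = C₀'.ρ h' a' - a' := by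
  obtain ⟨b₁, c₁, n, hb₁, hsplit⟩ := exists_split_cobdry ι p hp
    (fun f' hf' m' c' hc' => torsionFree_cocycle_form C₁ p hH1 f' hf' m' c' hc')
    htors f hf m c hc
  obtain ⟨H', _, τ, C₀', C₁', ι', t₀, t₁, hι', hsq, ⟨a₁, ha₁⟩, hP⟩ := cap b₁ n hb₁
  exact ⟨H', _, τ, C₀', t₀.hom, hP, a₁ + t₀.hom c₁,
    stage_close τ ι ι' hι' t₀ t₁ hsq f b₁ c₁ hsplit a₁ ha₁⟩

end Fermat.Agent.GC.Global.LimA
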