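/-
GATE-C / C4 (A5) CAP-M (helper79): capitulation in the idele model.

`L` a layer (finite Galois over `ℚ`, unramified outside `S ∋ p`), `S ⊆ T`.  If a `T`-idele `y ∈ J(L,T)` has
`p^k • y ≡ diag γ` modulo local units at all `q ∈ T ∖ S`, for a `T`-unit `γ` of `L`, then there is a bigger
layer `L'` (finite Galois over `ℚ`, unramified outside `S`) and a `T`-unit `γ'` of `L'` with
`infl y ≡ diag γ'` modulo local units at all `q ∈ T ∖ S`:  the `p`-part of `colim_L Cl_S(L)` vanishes.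
(`γ' = γ^(1/p^k)`, `L' =` normal closure of `L(γ')`; Kummer theory inside `ℚ̄`, `Capit/QbarUnramPow.lean`.)
-/
import Mathlib
import Fermat.Agent.GC.Global.Funct.ModelFunct
import Fermat.Agent.GC.Global.Adapter.ValDictSurj
import Fermat.Agent.GC.Global.Adapter.ValDictSI
import Fermat.Agent.GC.Global.Adapter.Dense
import Fermat.Agent.GC.Global.Adapter.H1Units
import Fermat.Agent.GC.Capit.QbarUnramPow

set_option autoImplicit false
set_option linter.unusedSectionVars false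

open scoped Padic
open NumberField IsDedekindDomain

noncomputable section

namespace Fermat.Agent.GC.Global.Limit.ClassColim

open Fermat.Agent.GC.Global Fermat.Agent.GC.Global.Adapter Fermat.Agent.GC.Global.Funct
open Fermat.Agent.S14 Fermat.Agent.S14.SI

/-! ### norm one ⟹ unit at the place -/

section W

variable (q : ℕ) [Fact q.Prime] {K : Type*} [Field K] [NumberField K] (σ : K →+* PadicAlgCl q)

theorem multiplicity_eq_of_norm_eq {a b : 𝓞 K} (ha : a ≠ 0) (hb : b ≠ 0)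
    (h : ‖σ (a : K)‖ = ‖σ (b : K)‖) :
    multiplicity (placeIdeal q σ) (Ideal.span {a}) = multiplicity (placeIdeal q σ) (Ideal.span {b}) := by
  rw [norm_eq_placeConst_pow_multiplicity q σ ha, norm_eq_placeConst_pow_multiplicity q σ hb] at h
  exact (pow_right_injective₀ (placeConst_pos q σ) (placeConst_lt_one q σ).ne) h

/-- **(W)** an element of norm one at `σ` is a unit at the place of `σ`. -/
theorem isUnitAt_of_norm_eq_one (x : Kˣ) (h : ‖σ (x : K)‖ = 1) : IsUnitAt (placeIdeal q σ) x := by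
  have hv : IsUnitAt (placeOf q σ).asIdeal x := by
    rw [Bridge.isUnitAt_iff]
    obtain ⟨a, b, hb, hx⟩ := IsFractionRing.div_surjective (A := 𝓞 K) (x : K)
    have hb0 : b ≠ 0 := nonZeroDivisors.ne_zero hb
    have hbK : (algebraMap (𝓞 K) K b) ≠ 0 := by
      rwa [Ne, map_eq_zero_iff _ (IsFractionRing.injective (𝓞 K) K)]
    have ha0 : a ≠ 0 := by
      rintro rfl
      rw [map_zero, zero_div] at hx
      exact x.ne_zero hx.symm
    have hab : ‖σ (a : K)‖ = ‖σ (b : K)‖ := by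
      have h1 : (a : K) = (x : K) * (b : K) := by
        rw [← hx]
        exact (div_mul_cancel₀ _ hbK).symm
      rw [h1, map_mul, norm_mul, h, one_mul]
    have hm := multiplicity_eq_of_norm_eq q σ ha0 hb0 hab
    rw [← hx, map_div₀, HeightOneSpectrum.valuation_of_algebraMap,
      HeightOneSpectrum.valuation_of_algebraMap,
      HeightOneSpectrum.intValuation_eq_exp_neg_multiplicity _ ha0,
      HeightOneSpectrum.intValuation_eq_exp_neg_multiplicity _ hb0]
    have : (placeOf q σ).asIdeal = placeIdeal q σ := rfl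
    rw [this, hm]
    exact div_self (WithZero.exp_ne_zero)
  exact hv

end W

/-! ### the embeddings `ι ∘ g` of a layer -/

section Sig

variable (L : IntermediateField ℚ Qb) [FiniteDimensional ℚ L] [IsGalois ℚ L]
  (q : ℕ) [Fact q.Prime]

/-- the embedding `ι ∘ g : L → ℚ̄_q`. -/
def sig (g : L ≃ₐ[ℚ] L) : L →+* PadicAlgCl q :=
  ((padicEmbedding q : Qb →ₐ[ℚ] PadicAlgCl q) : Qb →+* PadicAlgCl q).comp
    ((L.val : L →+* Qb).comp (g : L →+* L))

theorem sig_apply (g : L ≃ₐ[ℚ] L) (x : L) :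
    sig L q g x = padicEmbedding q ((g x : L) : Qb) := rfl

theorem sig_eq_comp (g : L ≃ₐ[ℚ] L) :
    sig L q g = (sig L q 1).comp (g : L →+* L) := rfl

theorem locField_le_sigField (g : L ≃ₐ[ℚ] L) : locField q L ≤ sigField q (sig L q g) := by
  rw [locField, IntermediateField.adjoin_le_iff]
  rintro _ ⟨x, hx, rfl⟩
  have h1 : padicEmbedding q x = sig L q g (g⁻¹ ⟨x, hx⟩) := by
    rw [sig_apply]
    have : g (g⁻¹ (⟨x, hx⟩ : L)) = ⟨x, hx⟩ := by
      show (g * g⁻¹) (⟨x, hx⟩ : L) = _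
      rw [mul_inv_cancel]; rfl
    rw [this]
  rw [h1]
  exact map_mem_sigField q (sig L q g) _

/-- the value group of `L_q` is the value group of `(ι ∘ g)(L)`. -/
theorem exists_norm_eq_sig (g : L ≃ₐ[ℚ] L) (z : (locField q L)ˣ) :
    ∃ x : Lˣ, ‖((z : locField q L) : PadicAlgCl q)‖ = ‖sig L q g (x : L)‖ := by
  have hz : ((z : locField q L) : PadicAlgCl q) ∈ sigField q (sig L q g) :=
    locField_le_sigField L q g (z : locField q L).2
  have hz0 : ((z : locField q L) : PadicAlgCl q) ≠ 0 := by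
    have := z.ne_zero
    exact_mod_cast this
  obtain ⟨x, hx0, hx, -⟩ := exists_norm_div_map_sub_one_lt q (sig L q g) hz hz0 one_pos
  exact ⟨Units.mk0 x hx0, hx⟩

end Sig

/-! ### local units in the model -/

section Main

variable (L : IntermediateField ℚ Qb) [FiniteDimensional ℚ L] [IsGalois ℚ L]

/-- the component `f ∈ Jq(L)` consists of local units (all values have norm one) -/
def IsLocUnit (q : Nat.Primes) (f : JqCarrier L q) : Prop :=
  ∀ g : L ≃ₐ[ℚ] L,
    ‖(((JqCarrier.val L q f g : (locField (q : ℕ) L)ˣ) : locField (q : ℕ) L) : PadicAlgCl (q : ℕ))‖ = 1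

theorem norm_val_diagqLin (q : Nat.Primes) (x : Lˣ) (g : L ≃ₐ[ℚ] L) :
    ‖(((JqCarrier.val L q (diagqLin L q (Additive.ofMul x)) g : (locField (q : ℕ) L)ˣ) :
      locField (q : ℕ) L) : PadicAlgCl (q : ℕ))‖ = ‖sig L (q : ℕ) g (x : L)‖ := by
  rw [JqCarrier.val_diagqLin]
  rfl

/-- `f - diag x` is a local unit iff `‖f g‖ = ‖ι (g x)‖` for all `g`. -/
theorem isLocUnit_sub_diagqLin_iff (q : Nat.Primes) (f : JqCarrier L q) (x : Lˣ) :
    IsLocUnit L q (f - diagqLin L q (Additive.ofMul x)) ↔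
      ∀ g : L ≃ₐ[ℚ] L, ‖(((JqCarrier.val L q f g : (locField (q : ℕ) L)ˣ) :
        locField (q : ℕ) L) : PadicAlgCl (q : ℕ))‖ = ‖sig L (q : ℕ) g (x : L)‖ := by
  have key : ∀ g : L ≃ₐ[ℚ] L,
      ‖(((JqCarrier.val L q (f - diagqLin L q (Additive.ofMul x)) g : (locField (q : ℕ) L)ˣ) :
        locField (q : ℕ) L) : PadicAlgCl (q : ℕ))‖ =
      ‖(((JqCarrier.val L q f g : (locField (q : ℕ) L)ˣ) :
        locField (q : ℕ) L) : PadicAlgCl (q : ℕ))‖ / ‖sig L (q : ℕ) g (x : L)‖ := by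
    intro g
    rw [sub_eq_add_neg, JqCarrier.val_add, JqCarrier.val_neg, ← norm_val_diagqLin L q x g,
      ← norm_div]
    congr 1
    push_cast
    rw [div_eq_mul_inv]
  have hpos : ∀ g : L ≃ₐ[ℚ] L, ‖sig L (q : ℕ) g (x : L)‖ ≠ 0 := by
    intro g
    rw [norm_ne_zero_iff, Ne, map_eq_zero_iff _ (sig L (q : ℕ) g).injective]
    exact x.ne_zero
  constructor
  · intro h g
    have := h g
    rw [key g, div_eq_one_iff_eq (hpos g)] at this
    exact this
  · intro h g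
    rw [key g, h g, div_self (hpos g)]

/-- a `T`-unit is a unit at every prime not above `T` -/
theorem isUnitAt_of_mem_tUnits (T : Finset Nat.Primes) {γ : Lˣ} (hγ : γ ∈ tUnits L T)
    (v : Ideal (𝓞 L)) [v.IsPrime] (hv0 : v ≠ ⊥) (hvT : ∀ q ∈ T, (((q : ℕ) : ℕ) : 𝓞 L) ∉ v) :
    IsUnitAt v γ := by
  have h1 := (H1U.mem_tUnits_iff_mem_unit L T γ).1 hγ
  set w : HeightOneSpectrum (𝓞 L) := ⟨v, inferInstance, hv0⟩ with hw
  have hw' : w ∉ EH.primesDvd L (Tprod T) := by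
    intro hmem
    have h2 : ((Tprod T : ℕ) : 𝓞 L) ∈ v := hmem
    unfold Tprod at h2
    rw [Nat.cast_prod] at h2
    obtain ⟨q, hq, hqv⟩ := Ideal.IsPrime.prod_mem_iff.1 h2
    exact hvT q hq hqv
  have h3 : w.valuation L (γ : L) = 1 := h1 w hw'
  exact (Bridge.isUnitAt_iff w γ).2 h3

/-- **(A5) CAP-M.**  Capitulation in the idele model: see the file header. -/
theorem cap_model {p : ℕ} (hp : p.Prime) (S T : Finset Nat.Primes)
    (hpS : (⟨p, hp⟩ : Nat.Primes) ∈ S) (hL : L.IsUnramifiedOutside S) (k : ℕ)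
    (y : J L T) (γ : Lˣ) (hγ : γ ∈ tUnits L T)
    (h : ∀ q : T, (q : Nat.Primes) ∉ S →
      IsLocUnit L q (p ^ k • (y q) - diagqLin L q (Additive.ofMul γ))) :
    ∃ L' : IntermediateField ℚ Qb, L ≤ L' ∧ L'.IsUnramifiedOutside S ∧ IsGalois ℚ L' ∧
      ∀ [FiniteDimensional ℚ L'] [IsGalois ℚ L'] (hle : L ≤ L'),
        ∃ γ' : L'ˣ, γ' ∈ tUnits L' T ∧ (((γ' : L') : Qb)) ^ (p ^ k) = ((γ : L) : Qb) ∧
          ∀ q : T, (q : Nat.Primes) ∉ S →
            IsLocUnit L' q (inflJ hle T y q - diagqLin L' q (Additive.ofMul γ')) := by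
  have hpk : p ^ k ≠ 0 := pow_ne_zero k hp.ne_zero
  -- the norm form of the hypothesis
  have hnorm : ∀ q : T, (q : Nat.Primes) ∉ S → ∀ g : L ≃ₐ[ℚ] L,
      ‖(((JqCarrier.val L q (y q) g : (locField ((q : Nat.Primes) : ℕ) L)ˣ) :
        locField ((q : Nat.Primes) : ℕ) L) : PadicAlgCl ((q : Nat.Primes) : ℕ))‖ ^ (p ^ k)
        = ‖sig L ((q : Nat.Primes) : ℕ) g (γ : L)‖ := by
    intro q hq g
    have h1 := (isLocUnit_sub_diagqLin_iff L q (p ^ k • (y q)) γ).1 (h q hq) g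
    rw [JqCarrier.val_nsmul] at h1
    rw [← h1]
    push_cast
    rw [norm_pow]
  -- the Kummer hypothesis
  have hα : ∀ v : Ideal (𝓞 L), v.IsPrime → v ≠ ⊥ → v ∉ Capit.primesOver L S →
      ∃ y' : Lˣ, IsUnitAt v (γ / y' ^ (p ^ k)) := by
    intro v hvp hv0 hvS
    by_cases hvT : ∃ q ∈ T, (((q : ℕ) : ℕ) : 𝓞 L) ∈ v
    · obtain ⟨q, hqT, hqv⟩ := hvT
      have hqS : q ∉ S := fun hqS => hvS ⟨q, hqS, hqv⟩
      obtain ⟨g, hg⟩ := exists_algEquiv_placeIdeal_eq (q : ℕ) (sig L (q : ℕ) 1) v hqv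
      have hg' : placeIdeal (q : ℕ) (sig L (q : ℕ) g) = v := hg
      obtain ⟨x, hx⟩ := exists_norm_eq_sig L (q : ℕ) g (JqCarrier.val L q (y ⟨q, hqT⟩) g)
      refine ⟨x, ?_⟩
      rw [← hg']
      apply isUnitAt_of_norm_eq_one
      have h1 := hnorm ⟨q, hqT⟩ hqS g
      rw [hx] at h1
      rw [Units.val_div_eq_div_val, Units.val_pow_eq_pow_val, map_div₀, map_pow, norm_div,
        norm_pow, ← h1]
      apply div_self
      apply pow_ne_zero
      rw [norm_ne_zero_iff, Ne, map_eq_zero_iff _ (sig L (q : ℕ) g).injective]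
      exact x.ne_zero
    · push Not at hvT
      refine ⟨1, ?_⟩
      rw [one_pow, div_one]
      have := hvp
      exact isUnitAt_of_mem_tUnits L T hγ v hv0 hvT
  obtain ⟨L', hle, hL', hgal, β, hβL', hβ⟩ :=
    Capit.exists_galois_layer_root hp S hpS k L hL γ hα
  refine ⟨L', hle, hL', hgal, ?_⟩
  intro _ _ hle'
  have hγ0 : ((γ : L) : Qb) ≠ 0 := by
    have := γ.ne_zero
    exact_mod_cast this
  have hβ0 : β ≠ 0 := by
    rintro rfl
    rw [zero_pow hpk] at hβ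
    exact hγ0 hβ.symm
  have hβ0' : (⟨β, hβL'⟩ : L') ≠ 0 := by
    intro h0
    exact hβ0 (congrArg (fun z : L' => (z : Qb)) h0)
  set γ' : L'ˣ := Units.mk0 ⟨β, hβL'⟩ hβ0' with hγ'
  have hpowL' : ((γ' : L') ^ (p ^ k) : L') = gIncl hle' (γ : L) := by
    apply Subtype.ext
    rw [coe_gIncl]
    push_cast
    exact hβ
  -- `T`-integrality passes to `p^k`-th roots
  have hint : ∀ (z : L) (z' : L'), z' ^ (p ^ k) = gIncl hle' z → IsTIntegral L T z →
      IsTIntegral L' T z' := by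
    rintro z z' hzz' ⟨n, hn⟩
    refine ⟨n, ?_⟩
    apply IsIntegral.of_pow (Nat.pos_of_ne_zero hpk)
    obtain ⟨r, hr⟩ : ∃ r, n * p ^ k = r + n :=
      ⟨n * p ^ k - n, by
        have : n ≤ n * p ^ k := Nat.le_mul_of_pos_right n (Nat.pos_of_ne_zero hpk)
        omega⟩
    have e : (((Tprod T : ℕ) : L') ^ n * z') ^ (p ^ k)
        = ((Tprod T : ℕ) : L') ^ r * gIncl hle' (((Tprod T : ℕ) : L) ^ n * z) := by
      rw [mul_pow, ← pow_mul, hr, pow_add, hzz', map_mul, map_pow, map_natCast]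
      ring
    rw [e]
    exact (IsIntegral.pow (isIntegral_natCast _) r).mul (hn.map ((gIncl hle').restrictScalars ℤ))
  refine ⟨γ', ⟨hint (γ : L) (γ' : L') hpowL' hγ.1, ?_⟩, ?_, ?_⟩
  · refine hint ((γ⁻¹ : Lˣ) : L) ((γ'⁻¹ : L'ˣ) : L') ?_ hγ.2
    rw [Units.val_inv_eq_inv_val, Units.val_inv_eq_inv_val, inv_pow, hpowL', map_inv₀]
  · exact hβ
  · intro q hq
    rw [isLocUnit_sub_diagqLin_iff]
    intro g'
    rw [inflJ_apply, val_inflJq, coe_lInclU, coe_lIncl]
    apply (pow_left_inj₀ (norm_nonneg _) (norm_nonneg _) hpk).1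
    rw [hnorm q hq (gRes hle' g'), ← norm_pow, ← map_pow, hpowL', sig_apply, sig_apply]
    have h2 : g' (gIncl hle' (γ : L)) = gIncl hle' (gRes hle' g' (γ : L)) :=
      (GalRes.apply_res (gIncl hle') g' (γ : L)).symm
    rw [h2, coe_gIncl]

/-- **(A5) CAP-M**, stated on `J L T` with `diag`. -/
theorem cap_model_J {p : ℕ} (hp : p.Prime) (S T : Finset Nat.Primes)
    (hpS : (⟨p, hp⟩ : Nat.Primes) ∈ S) (hL : L.IsUnramifiedOutside S) (k : ℕ)
    (y : J L T) (γ : Lˣ) (hγ : γ ∈ tUnits L T)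
    (h : ∀ q : T, (q : Nat.Primes) ∉ S →
      IsLocUnit L q ((p ^ k • y - (diag L T).hom (Additive.ofMul γ) : J L T) q)) :
    ∃ L' : IntermediateField ℚ Qb, L ≤ L' ∧ L'.IsUnramifiedOutside S ∧ IsGalois ℚ L' ∧
      ∀ [FiniteDimensional ℚ L'] [IsGalois ℚ L'] (hle : L ≤ L'),
        ∃ γ' : L'ˣ, γ' ∈ tUnits L' T ∧ (((γ' : L') : Qb)) ^ (p ^ k) = ((γ : L) : Qb) ∧
          ∀ q : T, (q : Nat.Primes) ∉ S →
            IsLocUnit L' q
              ((inflJ hle T y - (diag L' T).hom (Additive.ofMul γ') : J L' T) q) :=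
  cap_model L hp S T hpS hL k y γ hγ h

end Main

end Fermat.Agent.GC.Global.Limit.ClassColim
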