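/-
GATE-C / C4 (A5) CAP-M, range form (helper79).

`InS L S T y` : the `T`-idele `y ∈ J(L,T)` lies in `J(L,S) · U_{T∖S} · E(L,T)`, i.e. its class in
`C_S(L,T) = C(L,T)/U_{T∖S}` (helper52 `LMU.CS`) comes from `J(L,S)` (helper80 `Funct.extJ`).
* `inS_iff_exists`     : `InS y ↔ ∃ x u e, e ∈ tUnitsSub ∧ y = extJ x + UtoJ u + diag e`;
* `inS_iff_CtoCS`      : `InS y ↔ ∃ x : J L S, CtoCS (JtoC y) = CtoCS (JtoC (extJ x))`;
* `InS.infl`           : stable under inflation to a bigger layer;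
* `cap_model_inS`      : **CAP-M**: `InS (p^k • y)` ⟹ `InS (infl y)` in a bigger layer `L'`
                         (finite Galois over `ℚ`, unramified outside `S`);
* `cap_model_CS`       : the same in the language of `CtoCS ∘ JtoC`;
* `cap_model_finset`   : finite families.
-/
import Mathlib
import Fermat.Agent.GC.Global.Limit.ClassColim
import Fermat.Agent.GC.Global.Funct.TChange
import Fermat.Agent.GC.Global.Funct.ClassFunct
import Fermat.Agent.GC.Global.Adapter.UnramLocal

set_option autoImplicit false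
set_option linter.unusedSectionVars false

open scoped Padic
open NumberField IsDedekindDomain

noncomputable section

namespace Fermat.Agent.GC.Global.Limit.CapRange

open Fermat.Agent.GC.Global Fermat.Agent.GC.Global.Adapter Fermat.Agent.GC.Global.Funct
open Fermat.Agent.GC.Global.LMU Fermat.Agent.GC.Global.Limit.ClassColim
open Fermat.Agent.GC.Local Fermat.Agent.GC.Local.Unram

/-! ### `IsLocUnit` calculus -/

section LocUnit

variable (L : IntermediateField ℚ Qb) [FiniteDimensional ℚ L] [IsGalois ℚ L] (q : Nat.Primes)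

theorem isLocUnit_zero : IsLocUnit L q 0 := by
  intro g
  have : JqCarrier.val L q 0 g = 1 := rfl
  rw [this]
  push_cast
  exact norm_one

variable {L q}

theorem isLocUnit_add {f f' : JqCarrier L q} (h : IsLocUnit L q f) (h' : IsLocUnit L q f') :
    IsLocUnit L q (f + f') := by
  intro g
  rw [JqCarrier.val_add]
  push_cast
  rw [norm_mul, h g, h' g, one_mul]

theorem isLocUnit_neg {f : JqCarrier L q} (h : IsLocUnit L q f) : IsLocUnit L q (-f) := by
  intro g
  rw [JqCarrier.val_neg]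
  push_cast
  rw [norm_inv, h g, inv_one]

theorem isLocUnit_sub {f f' : JqCarrier L q} (h : IsLocUnit L q f) (h' : IsLocUnit L q f') :
    IsLocUnit L q (f - f') := by
  rw [sub_eq_add_neg]
  exact isLocUnit_add h (isLocUnit_neg h')

theorem isLocUnit_inflJq {L' : IntermediateField ℚ Qb} [FiniteDimensional ℚ L'] [IsGalois ℚ L']
    (hle : L ≤ L') {f : JqCarrier L q} (h : IsLocUnit L q f) :
    IsLocUnit L' q (Funct.inflJq hle q f) := by
  intro g'
  rw [val_inflJq, coe_lInclU, coe_lIncl]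
  exact h (gRes hle g')

variable (L q)

/-- norm one ⟺ integral local unit. -/
theorem mem_intUnitsSub_locO_iff (x : Additive (locField (q : ℕ) L)ˣ) :
    x ∈ intUnitsSub (locO L q) ↔
      ‖(((Additive.toMul x : (locField (q : ℕ) L)ˣ) : locField (q : ℕ) L) : PadicAlgCl (q : ℕ))‖ = 1 := by
  rw [mem_intUnitsSub, ValuationSubring.mem_unitGroup_iff]
  constructor
  · intro h
    have h1 : ((Additive.toMul x : (locField (q : ℕ) L)ˣ) : locField (q : ℕ) L) ∈ locO L q :=
      ((locO L q).valuation_le_one_iff _).1 h.le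
    have h2 : ((Additive.toMul x : (locField (q : ℕ) L)ˣ) : locField (q : ℕ) L) ∉ (locO L q).nonunits := by
      rw [ValuationSubring.mem_nonunits_iff, h]
      exact lt_irrefl _
    rw [mem_locO_iff] at h1
    rw [mem_nonunits_locO_iff] at h2
    exact le_antisymm h1 (not_lt.1 h2)
  · intro h
    have h1 : ((Additive.toMul x : (locField (q : ℕ) L)ˣ) : locField (q : ℕ) L) ∈ locO L q := by
      rw [mem_locO_iff, h]
    have h2 : ((Additive.toMul x : (locField (q : ℕ) L)ˣ) : locField (q : ℕ) L) ∉ (locO L q).nonunits := by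
      rw [mem_nonunits_locO_iff, h]
      exact lt_irrefl _
    rw [ValuationSubring.mem_nonunits_iff] at h2
    exact le_antisymm (((locO L q).valuation_le_one_iff _).2 h1) (not_lt.1 h2)

end LocUnit

/-! ### the unit ideles `U_{T∖S}` and `IsLocUnit` -/

section UJ

variable (L : IntermediateField ℚ Qb) [FiniteDimensional ℚ L] [IsGalois ℚ L]
  (S T : Finset Nat.Primes)

theorem isLocUnit_UtoJ (u : U L S T) (q : T) (hq : (q : Nat.Primes) ∉ S) :
    IsLocUnit L q ((UtoJ L S T).hom u q) := by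
  intro g
  rw [UtoJ_apply]
  have h := vVal_mem L S q ((u q).1 g)
  rw [vSub_of_not_mem L S hq, mem_intUnitsSub_locO_iff] at h
  exact h

/-- the `q`-component of `U_{T∖S}` with prescribed unit values. -/
def uqOfLocUnit (q : Nat.Primes) (hq : q ∉ S) (f : JqCarrier L q) (hf : IsLocUnit L q f) :
    UqCarrier L S q :=
  ⟨fun g => (⟨f.1 g, by
      rw [vSub_of_not_mem L S hq, mem_intUnitsSub_locO_iff]
      exact hf g⟩ : vSub L S q), fun d g => by
    apply vVal_injective L S q
    exact f.2 d g⟩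

theorem vIncl_uqOfLocUnit (q : Nat.Primes) (hq : q ∉ S) (f : JqCarrier L q)
    (hf : IsLocUnit L q f) : vIncl L S q (uqOfLocUnit L S q hq f hf) = f := by
  apply Subtype.ext
  funext g
  rfl

/-- an idele which is a local unit at every `q ∈ T ∖ S` agrees there with an element of `U_{T∖S}`. -/
def uOfLocUnit (y : J L T) (h : ∀ q : T, (q : Nat.Primes) ∉ S → IsLocUnit L q (y q)) :
    U L S T :=
  fun q : T => if hq : (q : Nat.Primes) ∈ S then (0 : UqCarrier L S q) else
    uqOfLocUnit L S q hq (y q) (h q hq)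

theorem uOfLocUnit_apply (y : J L T) (h : ∀ q : T, (q : Nat.Primes) ∉ S → IsLocUnit L q (y q))
    (q : T) (hq : (q : Nat.Primes) ∉ S) :
    uOfLocUnit L S T y h q = uqOfLocUnit L S q hq (y q) (h q hq) := dif_neg hq

theorem exists_UtoJ_eq (y : J L T) (h : ∀ q : T, (q : Nat.Primes) ∉ S → IsLocUnit L q (y q)) :
    ∃ u : U L S T, ∀ q : T, (q : Nat.Primes) ∉ S → (UtoJ L S T).hom u q = y q := by
  refine ⟨uOfLocUnit L S T y h, ?_⟩
  intro q hq
  rw [UtoJ_apply, uOfLocUnit_apply L S T y h q hq, vIncl_uqOfLocUnit]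

end UJ

/-! ### the predicate `InS` -/

section InS

variable (L : IntermediateField ℚ Qb) [FiniteDimensional ℚ L] [IsGalois ℚ L]
  (S T : Finset Nat.Primes)

/-- `y ∈ J(L,T)` lies in `J(L,S) · U_{T∖S} · E(L,T)`. -/
def InS (y : J L T) : Prop :=
  ∃ e : Additive Lˣ, e ∈ tUnitsSub L T ∧ ∀ q : T, (q : Nat.Primes) ∉ S →
    IsLocUnit L q ((y - (diag L T).hom e : J L T) q)

theorem inS_iff_exists (hST : S ⊆ T) (y : J L T) :
    InS L S T y ↔ ∃ (x : J L S) (u : U L S T) (e : Additive Lˣ), e ∈ tUnitsSub L T ∧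
      y = extJ L S T x + (UtoJ L S T).hom u + (diag L T).hom e := by
  constructor
  · rintro ⟨e, he, h⟩
    obtain ⟨u, hu⟩ := exists_UtoJ_eq L S T (y - (diag L T).hom e) h
    refine ⟨resJ L hST (y - (diag L T).hom e), u, e, he, ?_⟩
    rw [← sub_eq_iff_eq_add]
    funext q
    by_cases hq : (q : Nat.Primes) ∈ S
    · have e1 : (extJ L S T (resJ L hST (y - (diag L T).hom e)) + (UtoJ L S T).hom u : J L T) q
          = extJ L S T (resJ L hST (y - (diag L T).hom e)) q + (UtoJ L S T).hom u q := rfl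
      rw [e1, extJ_apply_of_mem L _ q hq, resJ_apply, UtoJ_apply_of_mem L S T u q hq, add_zero]
    · have e1 : (extJ L S T (resJ L hST (y - (diag L T).hom e)) + (UtoJ L S T).hom u : J L T) q
          = extJ L S T (resJ L hST (y - (diag L T).hom e)) q + (UtoJ L S T).hom u q := rfl
      rw [e1, extJ_apply_of_not_mem L _ q hq, hu q hq, zero_add]
  · rintro ⟨x, u, e, he, rfl⟩
    refine ⟨e, he, fun q hq => ?_⟩
    rw [add_sub_cancel_right]
    have e1 : (extJ L S T x + (UtoJ L S T).hom u : J L T) q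
        = extJ L S T x q + (UtoJ L S T).hom u q := rfl
    rw [e1, extJ_apply_of_not_mem L _ q hq, zero_add]
    exact isLocUnit_UtoJ L S T u q hq

/-- `InS` in the language of `C_S(L,T) = C(L,T)/U_{T∖S}`: the class of `y` comes from `J(L,S)`. -/
theorem inS_iff_CtoCS (hST : S ⊆ T) (y : J L T) :
    InS L S T y ↔ ∃ x : J L S, (CtoCS L S T).hom ((JtoC L T).hom y) =
      (CtoCS L S T).hom ((JtoC L T).hom (extJ L S T x)) := by
  rw [inS_iff_exists L S T hST]
  constructor
  · rintro ⟨x, u, e, he, rfl⟩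
    refine ⟨x, ?_⟩
    rw [map_add, map_add, map_add, map_add]
    have h1 : (JtoC L T).hom ((diag L T).hom e) = 0 :=
      (Submodule.Quotient.mk_eq_zero _).2 ⟨e, he, rfl⟩
    have h2 : (CtoCS L S T).hom ((JtoC L T).hom ((UtoJ L S T).hom u)) = 0 :=
      (Submodule.Quotient.mk_eq_zero _).2 ⟨u, rfl⟩
    rw [h1, h2, map_zero, add_zero, add_zero]
  · rintro ⟨x, hx⟩
    have h0 : (CtoCS L S T).hom ((JtoC L T).hom (y - extJ L S T x)) = 0 := by
      rw [map_sub, map_sub, hx, sub_self]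
    obtain ⟨u, hu⟩ := (Submodule.Quotient.mk_eq_zero _).1 h0
    have hu' : (JtoC L T).hom ((UtoJ L S T).hom u) = (JtoC L T).hom (y - extJ L S T x) := hu
    have h1 : (JtoC L T).hom (y - extJ L S T x - (UtoJ L S T).hom u) = 0 := by
      rw [map_sub, hu', sub_self]
    obtain ⟨e, he, hee⟩ := (Submodule.Quotient.mk_eq_zero _).1 h1
    have hee' : (diag L T).hom e = y - extJ L S T x - (UtoJ L S T).hom u := hee
    refine ⟨x, u, e, he, ?_⟩
    rw [hee']
    abel

variable {L S T}

/-- `InS` is stable under inflation. -/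
theorem InS.infl {L' : IntermediateField ℚ Qb} [FiniteDimensional ℚ L'] [IsGalois ℚ L']
    (hle : L ≤ L') {y : J L T} (h : InS L S T y) : InS L' S T (inflJ hle T y) := by
  obtain ⟨e, he, h⟩ := h
  refine ⟨gInclA hle e, (gInclA_mem_tUnitsSub_iff hle T e).2 he, fun q hq => ?_⟩
  rw [← inflJ_diag, ← map_sub, inflJ_apply]
  exact isLocUnit_inflJq hle (h q hq)

variable (L S T)

/-- **(A5) CAP-M**, `InS` form. -/
theorem cap_model_inS {p : ℕ} (hp : p.Prime) (hpS : (⟨p, hp⟩ : Nat.Primes) ∈ S)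
    (hL : L.IsUnramifiedOutside S) (k : ℕ) (y : J L T) (h : InS L S T (p ^ k • y)) :
    ∃ L' : IntermediateField ℚ Qb, L ≤ L' ∧ L'.IsUnramifiedOutside S ∧ IsGalois ℚ L' ∧
      ∀ [FiniteDimensional ℚ L'] [IsGalois ℚ L'] (hle : L ≤ L'), InS L' S T (inflJ hle T y) := by
  obtain ⟨e, he, h⟩ := h
  obtain ⟨L', hle, hL', hgal, hγ'⟩ :=
    cap_model_J L hp S T hpS hL k y (Additive.toMul e) ((mem_tUnitsSub L T).1 he) h
  refine ⟨L', hle, hL', hgal, ?_⟩
  intro _ _ hle'
  obtain ⟨γ', hγ', -, h'⟩ := hγ' hle'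
  exact ⟨Additive.ofMul γ', (mem_tUnitsSub L' T).2 hγ', h'⟩

/-- **(A5) CAP-M**, in the language of `C_S(L,T)`: if `p^k •` (the class of `y`) comes from `J(L,S)`,
then the class of `infl y` comes from `J(L',S)` for a bigger layer `L'`. -/
theorem cap_model_CS {p : ℕ} (hp : p.Prime) (hpS : (⟨p, hp⟩ : Nat.Primes) ∈ S) (hST : S ⊆ T)
    (hL : L.IsUnramifiedOutside S) (k : ℕ) (y : J L T) (x : J L S)
    (h : p ^ k • (CtoCS L S T).hom ((JtoC L T).hom y) =
      (CtoCS L S T).hom ((JtoC L T).hom (extJ L S T x))) :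
    ∃ L' : IntermediateField ℚ Qb, L ≤ L' ∧ L'.IsUnramifiedOutside S ∧ IsGalois ℚ L' ∧
      ∀ [FiniteDimensional ℚ L'] [IsGalois ℚ L'] (hle : L ≤ L'),
        ∃ x' : J L' S, (CtoCS L' S T).hom ((JtoC L' T).hom (inflJ hle T y)) =
          (CtoCS L' S T).hom ((JtoC L' T).hom (extJ L' S T x')) := by
  have h1 : InS L S T (p ^ k • y) := by
    rw [inS_iff_CtoCS L S T hST]
    refine ⟨x, ?_⟩
    rw [← h, map_nsmul, map_nsmul]
  obtain ⟨L', hle, hL', hgal, h2⟩ := cap_model_inS L S T hp hpS hL k y h1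
  refine ⟨L', hle, hL', hgal, ?_⟩
  intro _ _ hle'
  exact (inS_iff_CtoCS L' S T hST _).1 (h2 hle')

/-- **(A5) CAP-M**, finite families. -/
theorem cap_model_finset {p : ℕ} (hp : p.Prime) (hpS : (⟨p, hp⟩ : Nat.Primes) ∈ S)
    (hL : L.IsUnramifiedOutside S) (F : Finset (J L T))
    (hF : ∀ y ∈ F, ∃ k : ℕ, InS L S T (p ^ k • y)) :
    ∃ L' : IntermediateField ℚ Qb, L ≤ L' ∧ L'.IsUnramifiedOutside S ∧ IsGalois ℚ L' ∧
      ∀ [FiniteDimensional ℚ L'] [IsGalois ℚ L'] (hle : L ≤ L'),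
        ∀ y ∈ F, InS L' S T (inflJ hle T y) := by
  classical
  induction F using Finset.induction_on with
  | empty =>
    refine ⟨L, le_refl L, hL, inferInstance, ?_⟩
    intro _ _ _ y hy
    exact absurd hy (Finset.notMem_empty y)
  | insert a F _ ih =>
    obtain ⟨L₁, hle₁, hL₁, hgal₁, h₁⟩ := ih (fun y hy => hF y (Finset.mem_insert_of_mem hy))
    haveI : FiniteDimensional ℚ L₁ := hL₁.1
    haveI : IsGalois ℚ L₁ := hgal₁
    obtain ⟨k, hk⟩ := hF a (Finset.mem_insert_self a F)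
    have hk₁ : InS L₁ S T (p ^ k • inflJ hle₁ T a) := by
      rw [← map_nsmul]
      exact hk.infl hle₁
    obtain ⟨L₂, hle₂, hL₂, hgal₂, h₂⟩ := cap_model_inS L₁ S T hp hpS hL₁ k (inflJ hle₁ T a) hk₁
    refine ⟨L₂, hle₁.trans hle₂, hL₂, hgal₂, ?_⟩
    intro _ _ hle y hy
    rcases Finset.mem_insert.1 hy with rfl | hy
    · have := h₂ hle₂
      rw [inflJ_inflJ] at this
      exact this
    · have := (h₁ hle₁ y hy).infl hle₂
      rw [inflJ_inflJ] at this
      exact this

end InS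

end Fermat.Agent.GC.Global.Limit.CapRange
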