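/-
GATE-C / C4 (LM-A) = (A8), FINAL (helper12): **`[A]` : `Hlc¹(G_K, D_S)` has no `p`-torsion.**

`p` an odd prime in `S`, `K ⊂ ℚ̄` finite, unramified outside `S`, `ζ_p ∈ K`.  Then for
`D_S = J_S / O_Sˣ` (helper71 `IdeleS.lean`), `G_K = K.fixingSubgroup`, `levelK S K` (helper69):
`∀ x : Hlc (levelK S K) (D_S|_{G_K}) 1, p ^ m • x = 0 → x = 0`.

Assembly of: (A1) `ColimVanish` + `LayerTower`/`TowerDS` (mine), (A2) helper7 `AAbs`
(`exists_split_cobdry`) + `AStage.stage_close`, (A3) helper80 `TChangeCS` (`extC`, `inflCS`),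
(A4) helper68 `ClassFiniteCS`, (A5) helper79 `CapRange.cap_model_CS`, (A6) helper97 `LayerCS`
(`cocycle_form_CS`, on helper14's LAYER theorem), (A7) helper71 `IdeleSClass`.
-/
import Fermat.Agent.GC.Global.Limit.TowerDS
import Fermat.Agent.GC.Global.Limit.AStage
import Fermat.Agent.GC.Global.Limit.CapRange
import Fermat.Agent.GC.Global.Funct.TChangeCS
import Fermat.Agent.GC.Global.Adapter.ClassFiniteCS
import Fermat.Agent.GC.Global.Adapter.LayerCS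
import Fermat.Agent.GC.Global.Adapter.PrimesOver

set_option autoImplicit false
set_option linter.unusedSectionVars false

open CategoryTheory groupCohomology

noncomputable section

namespace Fermat.Agent.GC.Global.Limit.AFinal

open Fermat.Agent.GC.Prof Fermat.Agent.GC.Global Fermat.Agent.GC.Global.Funct
open Fermat.Agent.GC.Global.Adapter Fermat.Agent.GC.Global.LMU
open Fermat.Agent.GC.Global.Limit.ColimVanish Fermat.Agent.GC.Global.Limit.LayerTower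
open Fermat.Agent.GC.Global.Limit.TowerDS Fermat.Agent.GC.Global.LimA
open Fermat.Agent.GC.LimJ Fermat.Agent.GC.Places Fermat.Agent.GC.C0

local notation "GQ" => (Qb ≃ₐ[ℚ] Qb)

variable {S : Finset Nat.Primes} {K : IntermediateField ℚ Qb}

/-! ### The ambient stage modules -/

section Ambient

variable (ℓ : Layer S K) (T : Finset Nat.Primes)

/-- the ambient stage module `C_S(L,T)` restricted to `Gal(L/K)` -/
def B : Rep ℤ (Q ℓ) := Rep.res (galK K ℓ.L).subtype (CS ℓ.L S T)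

lemma B_ρ (σ : Q ℓ) (b : CS ℓ.L S T) :
    (B ℓ T).ρ σ b = (CS ℓ.L S T).ρ (σ : ℓ.L ≃ₐ[ℚ] ℓ.L) b := rfl

/-- `extC` restricted to `Gal(L/K)` -/
def inc (hST : S ⊆ T) : A ℓ ⟶ B ℓ T :=
  Rep.ofHom (ρ := (A ℓ).ρ) (σ := (B ℓ T).ρ)
    { toLinearMap := extC ℓ.L S hST
      isIntertwining' := fun σ => LinearMap.ext fun c =>
        extC_rho ℓ.L S hST (σ : ℓ.L ≃ₐ[ℚ] ℓ.L) c }

@[simp] lemma inc_hom (hST : S ⊆ T) (c : C ℓ.L S) : (inc ℓ T hST).hom c = extC ℓ.L S hST c := rfl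

lemma inc_injective (hST : S ⊆ T) : Function.Injective (inc ℓ T hST).hom :=
  extC_injective ℓ.L S hST

variable {ℓ} in
/-- `inflCS` restricted to `Gal(L'/K)` -/
def sB {ℓ' : Layer S K} (h : ℓ ≤ ℓ') : Rep.res (tau h) (B ℓ T) ⟶ B ℓ' T :=
  Rep.ofHom (ρ := (Rep.res (tau h) (B ℓ T)).ρ) (σ := (B ℓ' T).ρ)
    { toLinearMap := inflCS (Layer.le_def.1 h) S T
      isIntertwining' := fun σ => LinearMap.ext fun c =>
        inflCS_rho (Layer.le_def.1 h) S T (σ : ℓ'.L ≃ₐ[ℚ] ℓ'.L) c }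

@[simp] lemma sB_hom {ℓ' : Layer S K} (h : ℓ ≤ ℓ') (b : CS ℓ.L S T) :
    (sB T h).hom b = inflCS (Layer.le_def.1 h) S T b := rfl

end Ambient

/-! ### The stage step in the model -/

section Stage

variable {p : ℕ}

/-- a primitive `p`-th root of unity of `K` lies in every layer -/
lemma exists_zeta (ℓ : Layer S K) {ζ : Qb} (hζ : IsPrimitiveRoot ζ p) (hζK : ζ ∈ K) :
    ∃ ζL : ℓ.L, IsPrimitiveRoot ζL p :=
  ⟨⟨ζ, ℓ.le hζK⟩, IsPrimitiveRoot.coe_submonoidClass_iff.1 hζ⟩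

/-- **The stage step of `[A]` in the model.**  A `1`-cocycle `f` of `Gal(L/K)` in `C(L,S)` with
`p ^ m • f` a coboundary becomes a coboundary in `C(L',S)` for a bigger layer `L'`. -/
theorem stage (hp : p.Prime) (hp2 : p ≠ 2) (hpS : (⟨p, hp⟩ : Nat.Primes) ∈ S)
    {ζ : Qb} (hζ : IsPrimitiveRoot ζ p) (hζK : ζ ∈ K)
    (ℓ : Layer S K) (f : Q ℓ → A ℓ) (hf : f ∈ cocycles₁ (A ℓ)) (m : ℕ) (a : A ℓ)
    (ha : ∀ σ, p ^ m • f σ = (A ℓ).ρ σ a - a) :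
    ∃ (ℓ' : Layer S K) (h : ℓ ≤ ℓ') (a' : A ℓ'), ∀ σ : Q ℓ',
      inflC (Layer.le_def.1 h) S (f (tau h σ)) = (A ℓ').ρ σ a' - a' := by
  obtain ⟨ζL, hζL⟩ := exists_zeta ℓ hζ hζK
  obtain ⟨T, hST, hg⟩ := exists_goodT ℓ.L S ℓ.unram hp
  have hST' : ∃ q ∈ T, q ∈ S := ⟨_, hST hpS, hpS⟩
  -- (A2) + (A4) + (A6): the splitting in the ambient module `C_S(L,T)`
  obtain ⟨b₁, c₁, n, ⟨a₀, ha₀⟩, hsplit⟩ := exists_split_cobdry (inc ℓ T hST) p hp
    (fun f' hf' m' c' hc' => LayerCS.cocycle_form_CS ℓ.L S T hg hp hp2 ζL hζL ℓ.unram hST'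
      (galK K ℓ.L) f' hf' m' c' hc')
    (by
      obtain ⟨N, hN, hNb⟩ := CF.exists_pos_smul_eq_class_extJ ℓ.L S T hST
      intro b
      obtain ⟨x, hx⟩ := hNb b
      exact ⟨N, hN, (JtoC ℓ.L S).hom x, hx⟩)
    f hf m a ha
  -- (A5): capitulation of `b₁` in a bigger layer
  obtain ⟨y, rfl⟩ := JtoCS_surjective ℓ.L S T b₁
  obtain ⟨x, rfl⟩ := JtoC_surjective ℓ.L S a₀
  have hcapin : p ^ n • (CtoCS ℓ.L S T).hom ((JtoC ℓ.L T).hom y) =
      (CtoCS ℓ.L S T).hom ((JtoC ℓ.L T).hom (extJ ℓ.L S T x)) := ha₀.symm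
  obtain ⟨L', hle, hL', hgal', hcap⟩ :=
    CapRange.cap_model_CS ℓ.L S T hp hpS hST ℓ.unram n y x hcapin
  obtain ⟨ℓ', rfl⟩ : ∃ ℓ' : Layer S K, ℓ'.L = L' := ⟨⟨L', hL', hgal', ℓ.le.trans hle⟩, rfl⟩
  have h : ℓ ≤ ℓ' := hle
  obtain ⟨x', hx'⟩ := hcap hle
  refine ⟨ℓ', h, (JtoC ℓ'.L S).hom x' + inflC (Layer.le_def.1 h) S c₁, ?_⟩
  exact stage_close (tau h) (inc ℓ T hST) (inc ℓ' T hST) (inc_injective ℓ' T hST) (tr h) (sB T h)
    (fun c => (inflCS_extC (Layer.le_def.1 h) S hST c).symm) f (JtoCS ℓ.L S T y) c₁ hsplit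
    ((JtoC ℓ'.L S).hom x') hx'.symm

end Stage

/-! ### `[A]` -/

/-- **`[A]`** : for an odd prime `p ∈ S` and a finite extension `K ⊂ ℚ̄` of `ℚ` unramified outside `S`
containing the `p`-th roots of unity, `Hlc¹(G_K, D_S)` has no `p`-torsion. -/
theorem A_noPTorsion {p : ℕ} (hp : p.Prime) (hp2 : p ≠ 2) (hpS : (⟨p, hp⟩ : Nat.Primes) ∈ S)
    (hK : K.IsUnramifiedOutside S) {ζ : Qb} (hζ : IsPrimitiveRoot ζ p) (hζK : ζ ∈ K)
    (x : Hlc (levelK S K) (Rep.res K.fixingSubgroup.subtype (DS S)) 1) (m : ℕ)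
    (hx : p ^ m • x = 0) : x = 0 :=
  A_of_stage hK ⟨_, hpS⟩ p (fun ℓ f hf m a ha => stage hp hp2 hpS hζ hζK ℓ f hf m a ha) x m hx

end Fermat.Agent.GC.Global.Limit.AFinal
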