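/-
GATE-C / C4 (LM-A)/[B'], abstract core in ALL degrees (helper7).

`D_S := J_S / E_S` has finite levels `C(L,S) ⊂ C_S(L,T)` with torsion cokernel `Cl_S(L)` whose
`p`-part dies at later levels (G8).  On `p`-primary parts the cohomology of `D_S` is therefore the
colimit of the cohomology of the `C_S(L,T)`.  This file contains the two model-free finite-level
steps of that comparison, for inhomogeneous cochains `(Fin n → H) → C` of a FINITE group `H`
(Mathlib's `inhomogeneousCochains.d`), `ι : C₀ ⟶ C₁`, `C₁ / ι C₀` torsion: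

* `exists_split_cobdry_n` **(injectivity step)** : `u` a cochain of `C₀` with `ι u = d w` (`w` a
  cochain of `C₁`) and `p ^ m • u = d y` (`y` a cochain of `C₀`).  Then `ι u = d w₁ + ι (d y₁)` with
  all values of `p ^ k • w₁` in `ι C₀` — so once (G8) has moved the finitely many values of `w₁`
  into `C₀` at a later level, `u` is a coboundary there.
* `exists_adjust_cochain_n` **(surjectivity step)** : `x` a cochain of `C₁` with `p ^ m • x = d y`.
  Then `x - d y₁` has all values `p`-power torsion modulo `ι C₀` — so (G8) moves `x - d y₁` into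
  `C₀` at a later level.
* `d_compC` : post-composition with `ι` commutes with `d`.
-/
import Mathlib

set_option autoImplicit false

open CategoryTheory groupCohomology

namespace Fermat.Agent.GC.Global.LimA

universe u

variable {k H : Type u} [CommRing k] [Group H]

/-- post-composition of cochains with a morphism of representations -/
def compC {C₀ C₁ : Rep.{u} k H} (ι : C₀ ⟶ C₁) (n : ℕ) (f : (Fin n → H) → C₀) :
    (Fin n → H) → C₁ := fun g => ι.hom (f g)

@[simp] theorem compC_apply {C₀ C₁ : Rep.{u} k H} (ι : C₀ ⟶ C₁) (n : ℕ)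
    (f : (Fin n → H) → C₀) (g : Fin n → H) : compC ι n f g = ι.hom (f g) := rfl

theorem compC_zsmul {C₀ C₁ : Rep.{u} k H} (ι : C₀ ⟶ C₁) (n : ℕ) (c : ℤ)
    (f : (Fin n → H) → C₀) : compC ι n (c • f) = c • compC ι n f := by
  funext g
  simp [compC]

theorem compC_nsmul {C₀ C₁ : Rep.{u} k H} (ι : C₀ ⟶ C₁) (n : ℕ) (c : ℕ)
    (f : (Fin n → H) → C₀) : compC ι n (c • f) = c • compC ι n f := by
  funext g
  simp [compC]

/-- post-composition commutes with the inhomogeneous differential -/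
theorem d_compC {C₀ C₁ : Rep.{u} k H} (ι : C₀ ⟶ C₁) (n : ℕ) (f : (Fin n → H) → C₀) :
    (inhomogeneousCochains.d C₁ n).hom (compC ι n f) =
      compC ι (n + 1) ((inhomogeneousCochains.d C₀ n).hom f) := by
  funext g
  simp only [inhomogeneousCochains.d_hom_apply, compC_apply, map_add, map_sum, map_smul]
  congr 1
  exact (Rep.hom_comm_apply ι (g 0) _).symm

section Finite

variable [Finite H]

/-- a common multiplier for the finitely many values of a cochain -/
theorem exists_common_mul {C₀ C₁ : Rep.{u} k H} (ι : C₀ ⟶ C₁)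
    (htors : ∀ b : C₁, ∃ N : ℕ, 0 < N ∧ ∃ a : C₀, ι.hom a = N • b)
    (n : ℕ) (w : (Fin n → H) → C₁) :
    ∃ N : ℕ, 0 < N ∧ ∀ g, ∃ a : C₀, ι.hom a = N • w g := by
  classical
  have : Fintype H := Fintype.ofFinite H
  choose Nf hNpos af haf using fun g => htors (w g)
  refine ⟨∏ g, Nf g, Finset.prod_pos fun g _ => hNpos g, fun g => ?_⟩
  obtain ⟨c, hc⟩ : Nf g ∣ ∏ g', Nf g' := Finset.dvd_prod_of_mem Nf (Finset.mem_univ g)
  refine ⟨c • af g, ?_⟩
  rw [map_nsmul, haf g, hc, mul_comm, mul_smul]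

/-- Bezout data: `N = p ^ e * n'`, `k = e + m`, `a * n' + b * p ^ k = 1`. -/
theorem exists_bezout (p : ℕ) (hp : p.Prime) (N : ℕ) (hN : 0 < N) (m : ℕ) :
    ∃ (e n' : ℕ) (a b : ℤ), N = p ^ e * n' ∧ a * n' + b * (p : ℤ) ^ (e + m) = 1 := by
  obtain ⟨e, n', hn', rfl⟩ := Nat.exists_eq_pow_mul_and_not_dvd hN.ne' p hp.ne_one
  have hcop : IsCoprime (n' : ℤ) ((p : ℤ) ^ (e + m)) := by
    have h1 : Nat.Coprime n' p := ((Nat.Prime.coprime_iff_not_dvd hp).2 hn').symm
    exact (Nat.isCoprime_iff_coprime.2 h1).pow_right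
  obtain ⟨a, b, hab⟩ := hcop
  exact ⟨e, n', a, b, rfl, hab⟩

/-- **Injectivity step** of the comparison `Hⁿ(D_S)(p) = colim Hⁿ(C_S(L,T))(p)`. -/
theorem exists_split_cobdry_n {C₀ C₁ : Rep.{u} k H} (ι : C₀ ⟶ C₁) (p : ℕ) (hp : p.Prime)
    (htors : ∀ b : C₁, ∃ N : ℕ, 0 < N ∧ ∃ a : C₀, ι.hom a = N • b)
    (n : ℕ) (u : (Fin (n + 1) → H) → C₀) (w : (Fin n → H) → C₁)
    (hw : compC ι (n + 1) u = (inhomogeneousCochains.d C₁ n).hom w)
    (m : ℕ) (y : (Fin n → H) → C₀) (hy : p ^ m • u = (inhomogeneousCochains.d C₀ n).hom y) :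
    ∃ (w₁ : (Fin n → H) → C₁) (y₁ : (Fin n → H) → C₀) (r : ℕ),
      (∀ g, ∃ a : C₀, ι.hom a = p ^ r • w₁ g) ∧
      compC ι (n + 1) u = (inhomogeneousCochains.d C₁ n).hom w₁ +
        compC ι (n + 1) ((inhomogeneousCochains.d C₀ n).hom y₁) := by
  obtain ⟨N, hN, hNw⟩ := exists_common_mul ι htors n w
  obtain ⟨e, n', a, b, rfl, hab⟩ := exists_bezout p hp N hN m
  refine ⟨(a * n') • w, (b * (p : ℤ) ^ e) • y, e + m, fun g => ?_, ?_⟩
  · obtain ⟨c, hc⟩ := hNw g
    refine ⟨(a * (p : ℤ) ^ m) • c, ?_⟩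
    rw [map_zsmul, hc]
    simp only [Pi.smul_apply, ← natCast_zsmul, smul_smul]
    congr 1
    push_cast
    ring
  · rw [map_zsmul, map_zsmul, ← hw, ← hy, compC_zsmul, compC_nsmul, ← natCast_zsmul, smul_smul,
      ← add_smul]
    have : a * (n' : ℤ) + b * (p : ℤ) ^ e * ((p ^ m : ℕ) : ℤ) = 1 := by
      rw [← hab]
      push_cast
      ring
    rw [this, one_smul]

/-- **Surjectivity step** of the comparison `Hⁿ(D_S)(p) = colim Hⁿ(C_S(L,T))(p)`. -/
theorem exists_adjust_cochain_n {C₀ C₁ : Rep.{u} k H} (ι : C₀ ⟶ C₁) (p : ℕ) (hp : p.Prime)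
    (htors : ∀ b : C₁, ∃ N : ℕ, 0 < N ∧ ∃ a : C₀, ι.hom a = N • b)
    (n : ℕ) (x : (Fin (n + 1) → H) → C₁)
    (m : ℕ) (y : (Fin n → H) → C₁) (hy : p ^ m • x = (inhomogeneousCochains.d C₁ n).hom y) :
    ∃ (y₁ : (Fin n → H) → C₁) (r : ℕ),
      ∀ g, ∃ a : C₀, ι.hom a = p ^ r • (x g - (inhomogeneousCochains.d C₁ n).hom y₁ g) := by
  obtain ⟨N, hN, hNx⟩ := exists_common_mul ι htors (n + 1) x
  obtain ⟨e, n', a, b, rfl, hab⟩ := exists_bezout p hp N hN m
  refine ⟨(b * (p : ℤ) ^ e) • y, e + m, fun g => ?_⟩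
  obtain ⟨c, hc⟩ := hNx g
  refine ⟨(a * (p : ℤ) ^ m) • c, ?_⟩
  rw [map_zsmul, hc, map_zsmul, ← hy]
  have h2 : ((b * (p : ℤ) ^ e) • (p ^ m • x)) g = (b * (p : ℤ) ^ (e + m)) • x g := by
    simp only [Pi.smul_apply, ← natCast_zsmul, smul_smul]
    congr 1
    push_cast
    ring
  have hsub : x g - (b * (p : ℤ) ^ (e + m)) • x g = (a * (n' : ℤ)) • x g := by
    have h3 : (a * (n' : ℤ)) • x g + (b * (p : ℤ) ^ (e + m)) • x g = x g := by
      rw [← add_smul, hab, one_smul]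
    rw [sub_eq_iff_eq_add]
    exact h3.symm
  rw [h2, hsub]
  simp only [← natCast_zsmul, smul_smul]
  congr 1
  push_cast
  ring

end Finite

end Fermat.Agent.GC.Global.LimA
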