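/-
GATE-C / C4 leaf (LM-A), abstract part (helper12): level-constant cohomology of a discrete module
which is the union of a TOWER of finite-level modules.

`𝒰` a level system on `G`, `D` a `𝒰`-discrete representation.  A `Tower` consists of finite stages
`Q i` (quotients of `G` through which the level system factors), representations `A i` of `Q i`,
compatible pairs `(π i, φ i) : (Q i, A i) → (G, D)` and transitive transition pairs
`(τ h, t h) : (Q i, A i) → (Q j, A j)` for `h : i ≤ j`, such that `D` is the union of the images of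
the `A i` and an element of `A i` dying in `D` dies at a later stage.  It is NOT required that
`A i` be the invariants of `D`.

Then `Hlc 𝒰 D n = colim_i Hⁿ(Q i, A i)`, in cocycle form, for all `n`:
* `exists_lift_cochain`, `exists_lift_cocycle` : level-constant cochains/cocycles of `(G, D)` are
  pulled back from arbitrarily late stages;
* `exists_kill_cochain`, `exists_kill_cocycle` : a stage cochain dying in `D` dies at a later stage;
  a stage cochain whose pull-back is a level-constant coboundary becomes a coboundary at a later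
  stage;
* `Hlc_exists_stage`, `stageClass_eq_zero_iff`;
* `Hlc_torsionFree_of_stage` : if every stage cocycle `x` with `c • x` a coboundary becomes a
  coboundary at a LATER stage, then `Hlc 𝒰 D (n+1)` has no `c`-torsion; corollaries
  `Hlc_torsionFree_of_groupCohomology`, `Hlc_nsmul_torsionFree_of_stage`, `Hlc_subsingleton_of_stage`.
-/
import Fermat.Agent.GC.Prof.Low
import Fermat.Agent.GC.Prof.Res
import Fermat.Agent.GC.Prof.FiniteLevelC

set_option autoImplicit false
set_option linter.unusedSectionVars false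

open CategoryTheory groupCohomology

noncomputable section

namespace Fermat.Agent.GC.Global.Limit.ColimVanish

open Fermat.Agent.GC.Prof

universe u w

variable {k G : Type u} [CommRing k] [Group G]

/-! ### Pull-back of plain cochains along a compatible pair -/

section PullC

variable {H : Type u} [Group H] (f : G →* H) {A : Rep.{u} k H} {B : Rep.{u} k G}
  (φ : Rep.res f A ⟶ B)

/-- Pull-back of a plain cochain along a compatible pair `(f, φ)`. -/
def pullC {n : ℕ} (x : (Fin n → H) → A) : (Fin n → G) → B :=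
  fun g => φ.hom (x (f ∘ g))

@[simp] lemma pullC_apply {n : ℕ} (x : (Fin n → H) → A) (g : Fin n → G) :
    pullC f φ x g = φ.hom (x (f ∘ g)) := rfl

lemma pullC_add {n : ℕ} (x y : (Fin n → H) → A) :
    pullC f φ (x + y) = pullC f φ x + pullC f φ y := by
  funext g
  simp only [pullC_apply, Pi.add_apply]
  exact map_add φ.hom _ _

lemma pullC_sub {n : ℕ} (x y : (Fin n → H) → A) :
    pullC f φ (x - y) = pullC f φ x - pullC f φ y := by
  funext g
  simp only [pullC_apply, Pi.sub_apply]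
  exact map_sub φ.hom _ _

lemma pullC_smul {n : ℕ} (c : k) (x : (Fin n → H) → A) :
    pullC f φ (c • x) = c • pullC f φ x := by
  funext g
  simp only [pullC_apply, Pi.smul_apply]
  exact map_smul φ.hom c _

lemma pullC_zero {n : ℕ} : pullC f φ (0 : (Fin n → H) → A) = 0 := by
  funext g
  simp only [pullC_apply, Pi.zero_apply]
  exact map_zero φ.hom

/-- The pull-back commutes with the inhomogeneous differentials. -/
lemma d_pullC {n : ℕ} (x : (Fin n → H) → A) :
    inhomogeneousCochains.d B n (pullC f φ x) = pullC f φ (inhomogeneousCochains.d A n x) :=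
  d_pull φ n x

end PullC

lemma d_smul_eq_zero {H : Type u} [Group H] {B : Rep.{u} k H} {n : ℕ} (c : k)
    {x : (Fin n → H) → B} (hx : inhomogeneousCochains.d B n x = 0) :
    inhomogeneousCochains.d B n (c • x) = 0 := by
  rw [map_smul, hx, smul_zero]

/-- The class of `c • x` in abstract group cohomology. -/
lemma π_cocyclesMk_smul {H : Type u} [Group H] (B : Rep.{u} k H) {n : ℕ} (c : k)
    (x : (Fin n → H) → B) (hx : inhomogeneousCochains.d B n x = 0) :
    groupCohomology.π B n (groupCohomology.cocyclesMk (c • x) (d_smul_eq_zero c hx)) =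
      c • groupCohomology.π B n (groupCohomology.cocyclesMk x hx) := by
  have h1 := hMk_inhomogeneousCochains_eq_π B (c • x) (d_smul_eq_zero c hx)
  have h2 := hMk_inhomogeneousCochains_eq_π B x hx
  refine h1.symm.trans (Eq.trans ?_ (congrArg (c • ·) h2))
  exact (Elt.hMk (groupCohomology.inhomogeneousCochains B) n).map_smul c
    ⟨x, (mem_zSub_inhomogeneousCochains_iff B x).2 hx⟩

/-! ### Low-degree dictionary -/

section LowDegree

variable {H : Type u} [Group H] (B : Rep.{u} k H)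

lemma fin_one_fun_eq (g : Fin 1 → H) : g = fun _ => g 0 := by
  funext m
  rw [Subsingleton.elim m 0]

/-- The differential in degree `0`, evaluated. -/
lemma d_zero_apply (b : (Fin 0 → H) → B) (g : Fin 1 → H) :
    inhomogeneousCochains.d B 0 b g = B.ρ (g 0) (b default) - b default := by
  have h := congr($(comp_d₀₁_eq B) b)
  rw [inhomogeneousCochains.d_def] at h
  have h2 := congrFun h (g 0)
  rw [fin_one_fun_eq g]
  exact h2.symm

/-- A plain `1`-cochain is a cocycle iff the corresponding function is in Mathlib's `cocycles₁`. -/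
lemma d_one_eq_zero_iff (x : (Fin 1 → H) → B) :
    inhomogeneousCochains.d B 1 x = 0 ↔ (fun q : H => x (fun _ => q)) ∈ cocycles₁ B := by
  have h : d₁₂ B (fun q : H => x (fun _ => q)) =
      (cochainsIso₂ B).hom (inhomogeneousCochains.d B 1 x) := by
    have h := congr($(comp_d₁₂_eq B) x)
    rw [inhomogeneousCochains.d_def] at h
    exact h
  rw [cocycles₁, LinearMap.mem_ker]
  constructor
  · intro h0
    rw [h0] at h
    exact h.trans (map_zero _)
  · intro h0
    have h1 : (cochainsIso₂ B).hom (inhomogeneousCochains.d B 1 x) = 0 := h.symm.trans h0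
    have hinj : Function.Injective (cochainsIso₂ B).hom :=
      (ModuleCat.mono_iff_injective _).1 inferInstance
    exact hinj (h1.trans (map_zero _).symm)

end LowDegree

/-! ### Towers -/

/-- A tower of finite-level modules over a discrete representation `D` of `(G, 𝒰)`. -/
structure Tower {ι : Type w} [Preorder ι] (𝒰 : LevelSystem G) (D : Rep.{u} k G)
    (Q : ι → Type u) [∀ i, Group (Q i)] (A : ∀ i, Rep.{u} k (Q i)) where
  /-- the projections to the finite stages -/
  π : ∀ i, G →* Q i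
  /-- the comparison maps of the coefficients -/
  φ : ∀ i, Rep.res (π i) (A i) ⟶ D
  /-- the transition maps of the groups -/
  τ : ∀ {i j : ι}, i ≤ j → (Q j →* Q i)
  /-- the transition maps of the coefficients -/
  t : ∀ {i j : ι} (h : i ≤ j), Rep.res (τ h) (A i) ⟶ A j
  π_surjective : ∀ i, Function.Surjective (π i)
  exists_le_ker : ∀ i, ∃ U ∈ 𝒰.sets, U ≤ (π i).ker
  cofinal : ∀ U ∈ 𝒰.sets, ∃ i, (π i).ker ≤ U
  τ_π : ∀ {i j : ι} (h : i ≤ j) (g : G), τ h (π j g) = π i g
  φ_t : ∀ {i j : ι} (h : i ≤ j) (a : A i), (φ j).hom ((t h).hom a) = (φ i).hom a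
  t_trans : ∀ {i j l : ι} (h : i ≤ j) (h' : j ≤ l) (a : A i),
    (t h').hom ((t h).hom a) = (t (h.trans h')).hom a
  union : ∀ d : D, ∃ i, ∃ a : A i, (φ i).hom a = d
  ker_stage : ∀ i (a : A i), (φ i).hom a = 0 → ∃ j, ∃ h : i ≤ j, (t h).hom a = 0

namespace Tower

variable {ι : Type w} [Preorder ι] {𝒰 : LevelSystem G} {D : Rep.{u} k G}
  {Q : ι → Type u} [∀ i, Group (Q i)] {A : ∀ i, Rep.{u} k (Q i)} (T : Tower 𝒰 D Q A)

lemma τ_comp_π {i j : ι} (h : i ≤ j) {n : ℕ} (g : Fin n → G) :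
    T.τ h ∘ (T.π j ∘ g) = T.π i ∘ g := by
  funext m
  exact T.τ_π h (g m)

lemma τ_trans {i j l : ι} (h : i ≤ j) (h' : j ≤ l) (q : Q l) :
    T.τ h (T.τ h' q) = T.τ (h.trans h') q := by
  obtain ⟨g, rfl⟩ := T.π_surjective l q
  rw [T.τ_π, T.τ_π, T.τ_π]

lemma τ_comp_τ {i j l : ι} (h : i ≤ j) (h' : j ≤ l) {n : ℕ} (q : Fin n → Q l) :
    T.τ h ∘ (T.τ h' ∘ q) = T.τ (h.trans h') ∘ q := by
  funext m
  exact T.τ_trans h h' (q m)

lemma ker_mono {i j : ι} (h : i ≤ j) : (T.π j).ker ≤ (T.π i).ker := by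
  intro g hg
  rw [MonoidHom.mem_ker] at hg ⊢
  rw [← T.τ_π h, hg, map_one]

include T in
lemma finite_Q (i : ι) : Finite (Q i) := by
  obtain ⟨U, hU, hle⟩ := T.exists_le_ker i
  have h1 : U.FiniteIndex := 𝒰.finiteIndex_of_mem hU
  have h2 : (T.π i).ker.FiniteIndex := Subgroup.finiteIndex_of_le hle
  have h3 : Finite (G ⧸ (T.π i).ker) := Subgroup.finite_quotient_of_finiteIndex
  exact Finite.of_equiv _
    (QuotientGroup.quotientKerEquivOfSurjective (T.π i) (T.π_surjective i)).toEquiv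

lemma exists_eq_π_comp (i : ι) {n : ℕ} (q : Fin n → Q i) : ∃ g : Fin n → G, T.π i ∘ g = q :=
  ⟨fun m => Function.surjInv (T.π_surjective i) (q m), by
    funext m; exact Function.surjInv_eq (T.π_surjective i) (q m)⟩

/-- The pull-back of a stage cochain to `G`. -/
def pullG (i : ι) {n : ℕ} (x : (Fin n → Q i) → A i) : (Fin n → G) → D :=
  pullC (T.π i) (T.φ i) x

/-- The pull-back of a stage cochain to a later stage. -/
def pullT {i j : ι} (h : i ≤ j) {n : ℕ} (x : (Fin n → Q i) → A i) : (Fin n → Q j) → A j :=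
  pullC (T.τ h) (T.t h) x

@[simp] lemma pullG_apply (i : ι) {n : ℕ} (x : (Fin n → Q i) → A i) (g : Fin n → G) :
    T.pullG i x g = (T.φ i).hom (x (T.π i ∘ g)) := rfl

@[simp] lemma pullT_apply {i j : ι} (h : i ≤ j) {n : ℕ} (x : (Fin n → Q i) → A i)
    (q : Fin n → Q j) : T.pullT h x q = (T.t h).hom (x (T.τ h ∘ q)) := rfl

lemma pullG_sub (i : ι) {n : ℕ} (x y : (Fin n → Q i) → A i) :
    T.pullG i (x - y) = T.pullG i x - T.pullG i y := pullC_sub _ _ x y

lemma pullG_add (i : ι) {n : ℕ} (x y : (Fin n → Q i) → A i) :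
    T.pullG i (x + y) = T.pullG i x + T.pullG i y := pullC_add _ _ x y

lemma pullG_smul (i : ι) {n : ℕ} (c : k) (x : (Fin n → Q i) → A i) :
    T.pullG i (c • x) = c • T.pullG i x := pullC_smul _ _ c x

lemma pullG_zero (i : ι) {n : ℕ} : T.pullG i (0 : (Fin n → Q i) → A i) = 0 := pullC_zero _ _

lemma pullT_sub {i j : ι} (h : i ≤ j) {n : ℕ} (x y : (Fin n → Q i) → A i) :
    T.pullT h (x - y) = T.pullT h x - T.pullT h y := pullC_sub _ _ x y

lemma pullT_add {i j : ι} (h : i ≤ j) {n : ℕ} (x y : (Fin n → Q i) → A i) :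
    T.pullT h (x + y) = T.pullT h x + T.pullT h y := pullC_add _ _ x y

lemma pullT_smul {i j : ι} (h : i ≤ j) {n : ℕ} (c : k) (x : (Fin n → Q i) → A i) :
    T.pullT h (c • x) = c • T.pullT h x := pullC_smul _ _ c x

lemma pullT_zero {i j : ι} (h : i ≤ j) {n : ℕ} : T.pullT h (0 : (Fin n → Q i) → A i) = 0 :=
  pullC_zero _ _

lemma d_pullG (i : ι) {n : ℕ} (x : (Fin n → Q i) → A i) :
    inhomogeneousCochains.d D n (T.pullG i x) = T.pullG i (inhomogeneousCochains.d (A i) n x) :=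
  d_pullC _ _ x

lemma d_pullT {i j : ι} (h : i ≤ j) {n : ℕ} (x : (Fin n → Q i) → A i) :
    inhomogeneousCochains.d (A j) n (T.pullT h x) =
      T.pullT h (inhomogeneousCochains.d (A i) n x) :=
  d_pullC _ _ x

lemma pullG_pullT {i j : ι} (h : i ≤ j) {n : ℕ} (x : (Fin n → Q i) → A i) :
    T.pullG j (T.pullT h x) = T.pullG i x := by
  funext g
  simp only [pullG_apply, pullT_apply]
  rw [T.φ_t, T.τ_comp_π]

lemma pullT_pullT {i j l : ι} (h : i ≤ j) (h' : j ≤ l) {n : ℕ} (x : (Fin n → Q i) → A i) :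
    T.pullT h' (T.pullT h x) = T.pullT (h.trans h') x := by
  funext q
  simp only [pullT_apply]
  rw [T.t_trans, T.τ_comp_τ]

lemma isLC_pullG (i : ι) {n : ℕ} (x : (Fin n → Q i) → A i) : IsLC 𝒰 (T.pullG i x) := by
  obtain ⟨U, hU, hle⟩ := T.exists_le_ker i
  refine ⟨U, hU, fun g s hs => ?_⟩
  simp only [pullG_apply]
  have : T.π i ∘ (g * s) = T.π i ∘ g := by
    funext m
    have hm : T.π i (s m) = 1 := hle (hs m)
    simp [hm]
  rw [this]

lemma pullG_eq_zero_iff (i : ι) {n : ℕ} (x : (Fin n → Q i) → A i) :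
    T.pullG i x = 0 ↔ ∀ q, (T.φ i).hom (x q) = 0 := by
  constructor
  · intro h q
    obtain ⟨g, rfl⟩ := T.exists_eq_π_comp i q
    exact congrFun h g
  · intro h
    funext g
    exact h _

/-! ### Lifting and killing cochains -/

section Directed

variable [IsDirected ι (· ≤ ·)]

/-- Every level-constant cochain of `(G, D)` is the pull-back of a cochain at an arbitrarily late
stage. -/
theorem exists_lift_cochain {n : ℕ} {f : (Fin n → G) → D} (hf : IsLC 𝒰 f) (i₀ : ι) :
    ∃ i, i₀ ≤ i ∧ ∃ x : (Fin n → Q i) → A i, T.pullG i x = f := by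
  have hne : Nonempty ι := ⟨i₀⟩
  obtain ⟨U, hU, hfU⟩ := hf
  obtain ⟨i₁, hi₁⟩ := T.cofinal U hU
  obtain ⟨i₂, h02, h12⟩ := exists_ge_ge i₀ i₁
  have hker : (T.π i₂).ker ≤ U := (T.ker_mono h12).trans hi₁
  -- `f` factors through the stage `i₂`
  have hfac : ∀ g g' : Fin n → G, T.π i₂ ∘ g = T.π i₂ ∘ g' → f g = f g' := by
    intro g g' hgg'
    have h1 : g' = g * (g⁻¹ * g') := by simp
    rw [h1]
    refine (hfU g _ fun m => hker ?_).symm
    rw [MonoidHom.mem_ker, Pi.mul_apply, Pi.inv_apply, map_mul, map_inv]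
    have := congrFun hgg' m
    simp only [Function.comp_apply] at this
    rw [this, inv_mul_cancel]
  have hfin : Finite (Q i₂) := T.finite_Q i₂
  let sec : (Fin n → Q i₂) → (Fin n → G) := fun q m => Function.surjInv (T.π_surjective i₂) (q m)
  have hsec : ∀ q, T.π i₂ ∘ sec q = q := fun q => by
    funext m; exact Function.surjInv_eq (T.π_surjective i₂) (q m)
  choose st a ha using fun q : Fin n → Q i₂ => T.union (f (sec q))
  obtain ⟨M, hM⟩ := Finite.exists_le st
  obtain ⟨i, h2i, hMi⟩ := exists_ge_ge i₂ M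
  refine ⟨i, h02.trans h2i, fun q' => (T.t ((hM (T.τ h2i ∘ q')).trans hMi)).hom (a (T.τ h2i ∘ q')), ?_⟩
  funext g
  simp only [pullG_apply]
  rw [T.φ_t, ha]
  apply hfac
  rw [hsec, T.τ_comp_π]

/-- A stage cochain dying in `D` dies at a later stage. -/
theorem exists_kill_cochain (i : ι) {n : ℕ} (x : (Fin n → Q i) → A i) (hx : T.pullG i x = 0) :
    ∃ j, ∃ h : i ≤ j, T.pullT h x = 0 := by
  have hx' := (T.pullG_eq_zero_iff i x).1 hx
  have hfin : Finite (Q i) := T.finite_Q i
  have hne : Nonempty ι := ⟨i⟩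
  choose st hst hkill using fun q : Fin n → Q i => T.ker_stage i (x q) (hx' q)
  obtain ⟨M, hM⟩ := Finite.exists_le st
  obtain ⟨j, hij, hMj⟩ := exists_ge_ge i M
  refine ⟨j, hij, ?_⟩
  funext q'
  simp only [pullT_apply, Pi.zero_apply]
  have := T.t_trans (hst (T.τ hij ∘ q')) ((hM (T.τ hij ∘ q')).trans hMj) (x (T.τ hij ∘ q'))
  rw [hkill] at this
  rw [← this]
  exact map_zero _

variable [IsDiscrete 𝒰 D]

/-- Every level-constant cocycle of `(G, D)` is the pull-back of a cocycle at an arbitrarily late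
stage. -/
theorem exists_lift_cocycle {n : ℕ} {f : (Fin n → G) → D} (hf : IsLC 𝒰 f)
    (hdf : inhomogeneousCochains.d D n f = 0) (i₀ : ι) :
    ∃ i, i₀ ≤ i ∧ ∃ x : (Fin n → Q i) → A i,
      inhomogeneousCochains.d (A i) n x = 0 ∧ T.pullG i x = f := by
  obtain ⟨i₁, h01, x₁, hx₁⟩ := T.exists_lift_cochain hf i₀
  have h0 : T.pullG i₁ (inhomogeneousCochains.d (A i₁) n x₁) = 0 := by
    rw [← d_pullG, hx₁, hdf]
  obtain ⟨j, h1j, hj⟩ := T.exists_kill_cochain i₁ _ h0
  refine ⟨j, h01.trans h1j, T.pullT h1j x₁, ?_, ?_⟩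
  · rw [d_pullT, hj]
  · rw [T.pullG_pullT, hx₁]

/-- A stage cochain whose pull-back to `G` is the coboundary of a level-constant cochain `b`
becomes, at a later stage, the coboundary of a lift of `b`. -/
theorem exists_kill_cocycle (i : ι) {n : ℕ} (x : (Fin (n + 1) → Q i) → A i)
    {b : (Fin n → G) → D} (hb : IsLC 𝒰 b)
    (hxb : T.pullG i x = inhomogeneousCochains.d D n b) :
    ∃ j, ∃ h : i ≤ j, ∃ y : (Fin n → Q j) → A j,
      T.pullT h x = inhomogeneousCochains.d (A j) n y ∧ T.pullG j y = b := by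
  obtain ⟨j₁, hij₁, y₁, hy₁⟩ := T.exists_lift_cochain hb i
  have h0 : T.pullG j₁ (T.pullT hij₁ x - inhomogeneousCochains.d (A j₁) n y₁) = 0 := by
    rw [pullG_sub, T.pullG_pullT, ← d_pullG, hy₁, hxb, sub_self]
  obtain ⟨j, hj₁j, hj⟩ := T.exists_kill_cochain j₁ _ h0
  refine ⟨j, hij₁.trans hj₁j, T.pullT hj₁j y₁, ?_, ?_⟩
  · rw [pullT_sub, T.pullT_pullT, sub_eq_zero] at hj
    rw [hj, d_pullT]
  · rw [T.pullG_pullT, hy₁]

/-! ### Classes -/

/-- The pull-back of a stage cochain, as a level-constant cochain. -/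
def pullLC (i : ι) {n : ℕ} (x : (Fin n → Q i) → A i) : lcSub 𝒰 D n :=
  ⟨T.pullG i x, T.isLC_pullG i x⟩

@[simp] lemma pullLC_coe (i : ι) {n : ℕ} (x : (Fin n → Q i) → A i) :
    ((T.pullLC i x : lcSub 𝒰 D n) : (Fin n → G) → D) = T.pullG i x := rfl

lemma lcD_pullLC (i : ι) {n : ℕ} (x : (Fin n → Q i) → A i) :
    lcD 𝒰 D n (T.pullLC i x) = T.pullLC i (inhomogeneousCochains.d (A i) n x) :=
  Subtype.ext (T.d_pullG i x)

lemma pullLC_smul (i : ι) {n : ℕ} (c : k) (x : (Fin n → Q i) → A i) :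
    T.pullLC i (c • x) = c • T.pullLC i x := Subtype.ext (T.pullG_smul i c x)

lemma pullLC_zero (i : ι) {n : ℕ} : T.pullLC i (0 : (Fin n → Q i) → A i) = 0 :=
  Subtype.ext (T.pullG_zero i)

lemma pullLC_pullT {i j : ι} (h : i ≤ j) {n : ℕ} (x : (Fin n → Q i) → A i) :
    T.pullLC j (T.pullT h x) = T.pullLC i x := Subtype.ext (T.pullG_pullT h x)

lemma lcD_pullLC_eq_zero (i : ι) {n : ℕ} {x : (Fin n → Q i) → A i}
    (hx : inhomogeneousCochains.d (A i) n x = 0) : lcD 𝒰 D n (T.pullLC i x) = 0 := by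
  rw [lcD_pullLC, hx, pullLC_zero]

/-- The class in `Hlc 𝒰 D n` of a stage cocycle. -/
def stageClass (i : ι) {n : ℕ} (x : (Fin n → Q i) → A i)
    (hx : inhomogeneousCochains.d (A i) n x = 0) : Hlc 𝒰 D n :=
  HlcMk 𝒰 D (T.pullLC i x) (T.lcD_pullLC_eq_zero i hx)

lemma d_pullT_eq_zero {i j : ι} (h : i ≤ j) {n : ℕ} {x : (Fin n → Q i) → A i}
    (hx : inhomogeneousCochains.d (A i) n x = 0) :
    inhomogeneousCochains.d (A j) n (T.pullT h x) = 0 := by
  rw [d_pullT, hx, pullT_zero]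

lemma stageClass_pullT {i j : ι} (h : i ≤ j) {n : ℕ} (x : (Fin n → Q i) → A i)
    (hx : inhomogeneousCochains.d (A i) n x = 0) :
    T.stageClass j (T.pullT h x) (T.d_pullT_eq_zero h hx) = T.stageClass i x hx :=
  HlcMk_congr 𝒰 D (T.pullLC_pullT h x) _

lemma stageClass_smul (i : ι) {n : ℕ} (c : k) (x : (Fin n → Q i) → A i)
    (hx : inhomogeneousCochains.d (A i) n x = 0) :
    T.stageClass i (c • x) (d_smul_eq_zero c hx) = c • T.stageClass i x hx := by
  rw [stageClass, stageClass, ← HlcMk_smul]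
  exact HlcMk_congr 𝒰 D (T.pullLC_smul i c x) _

/-- Every class of `Hlc 𝒰 D n` is the class of a cocycle at an arbitrarily late stage. -/
theorem Hlc_exists_stage {n : ℕ} (y : Hlc 𝒰 D n) (i₀ : ι) :
    ∃ i, i₀ ≤ i ∧ ∃ (x : (Fin n → Q i) → A i) (hx : inhomogeneousCochains.d (A i) n x = 0),
      T.stageClass i x hx = y := by
  obtain ⟨f, hf, rfl⟩ := Hlc_exists_mk 𝒰 D y
  obtain ⟨i, hi, x, hx, hxf⟩ := T.exists_lift_cocycle f.2 (congrArg Subtype.val hf) i₀
  refine ⟨i, hi, x, hx, ?_⟩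
  exact (HlcMk_congr 𝒰 D (Subtype.ext hxf : T.pullLC i x = f) _)

/-- The class of a stage cocycle vanishes iff the cocycle becomes a coboundary at a later stage. -/
theorem stageClass_eq_zero_iff (i : ι) {n : ℕ} (x : (Fin (n + 1) → Q i) → A i)
    (hx : inhomogeneousCochains.d (A i) (n + 1) x = 0) :
    T.stageClass i x hx = 0 ↔
      ∃ j, ∃ h : i ≤ j, ∃ y : (Fin n → Q j) → A j,
        T.pullT h x = inhomogeneousCochains.d (A j) n y := by
  constructor
  · intro h0
    obtain ⟨b, hb⟩ := (HlcMk_succ_eq_zero_iff 𝒰 D _ _).1 h0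
    have hb' : T.pullG i x = inhomogeneousCochains.d D n (b : (Fin n → G) → D) :=
      (congrArg Subtype.val hb).symm
    obtain ⟨j, h, y, hy, -⟩ := T.exists_kill_cocycle i x b.2 hb'
    exact ⟨j, h, y, hy⟩
  · rintro ⟨j, h, y, hy⟩
    rw [← T.stageClass_pullT h x hx]
    refine (HlcMk_succ_eq_zero_iff 𝒰 D _ _).2 ⟨T.pullLC j y, ?_⟩
    rw [lcD_pullLC, hy]

/-! ### Torsion-freeness and vanishing -/

/-- **Torsion-freeness from the stages (weak form).**  If every stage cocycle `x` with `c • x` a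
coboundary becomes a coboundary at a LATER stage, then `Hlc 𝒰 D (n + 1)` has no `c`-torsion. -/
theorem Hlc_torsionFree_of_stage {n : ℕ} (c : k)
    (hst : ∀ i (x : (Fin (n + 1) → Q i) → A i), inhomogeneousCochains.d (A i) (n + 1) x = 0 →
      (∃ b : (Fin n → Q i) → A i, inhomogeneousCochains.d (A i) n b = c • x) →
      ∃ j, ∃ h : i ≤ j, ∃ y : (Fin n → Q j) → A j,
        T.pullT h x = inhomogeneousCochains.d (A j) n y)
    (y : Hlc 𝒰 D (n + 1)) (hy : c • y = 0) : y = 0 := by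
  obtain ⟨i₀, -, -⟩ := T.union 0
  obtain ⟨i, -, x, hx, rfl⟩ := T.Hlc_exists_stage y i₀
  rw [← T.stageClass_smul i c x hx, T.stageClass_eq_zero_iff] at hy
  obtain ⟨j, h, b, hb⟩ := hy
  rw [pullT_smul] at hb
  obtain ⟨l, h', y', hy'⟩ := hst j (T.pullT h x) (T.d_pullT_eq_zero h hx) ⟨b, hb.symm⟩
  rw [← T.stageClass_pullT h x hx]
  exact (T.stageClass_eq_zero_iff j _ _).2 ⟨l, h', y', hy'⟩

/-- The same for multiplication by a natural number. -/
theorem Hlc_nsmul_torsionFree_of_stage {n : ℕ} (m : ℕ)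
    (hst : ∀ i (x : (Fin (n + 1) → Q i) → A i), inhomogeneousCochains.d (A i) (n + 1) x = 0 →
      (∃ b : (Fin n → Q i) → A i, inhomogeneousCochains.d (A i) n b = m • x) →
      ∃ j, ∃ h : i ≤ j, ∃ y : (Fin n → Q j) → A j,
        T.pullT h x = inhomogeneousCochains.d (A j) n y)
    (y : Hlc 𝒰 D (n + 1)) (hy : m • y = 0) : y = 0 := by
  refine T.Hlc_torsionFree_of_stage (m : k) (fun i x hx hb => hst i x hx ?_) y ?_
  · obtain ⟨b, hb⟩ := hb
    exact ⟨b, by rw [hb, Nat.cast_smul_eq_nsmul]⟩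
  · rw [Nat.cast_smul_eq_nsmul, hy]

/-- If every stage cocycle becomes a coboundary at a later stage, `Hlc 𝒰 D (n + 1)` vanishes. -/
theorem Hlc_eq_zero_of_stage {n : ℕ}
    (hst : ∀ i (x : (Fin (n + 1) → Q i) → A i), inhomogeneousCochains.d (A i) (n + 1) x = 0 →
      ∃ j, ∃ h : i ≤ j, ∃ y : (Fin n → Q j) → A j,
        T.pullT h x = inhomogeneousCochains.d (A j) n y)
    (y : Hlc 𝒰 D (n + 1)) : y = 0 := by
  obtain ⟨i₀, -, -⟩ := T.union 0
  obtain ⟨i, -, x, hx, rfl⟩ := T.Hlc_exists_stage y i₀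
  exact (T.stageClass_eq_zero_iff i x hx).2 (hst i x hx)

include T in
/-- **Torsion-freeness from the stages (strong form)**: if no `Hⁿ⁺¹(Q i, A i)` has `c`-torsion,
then `Hlc 𝒰 D (n + 1)` has no `c`-torsion. -/
theorem Hlc_torsionFree_of_groupCohomology {n : ℕ} (c : k)
    (hgc : ∀ i, ∀ z : groupCohomology (A i) (n + 1), c • z = 0 → z = 0)
    (y : Hlc 𝒰 D (n + 1)) (hy : c • y = 0) : y = 0 := by
  refine T.Hlc_torsionFree_of_stage c (fun i x hx hb => ?_) y hy
  obtain ⟨b, hb⟩ := hb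
  have h1 : groupCohomology.π (A i) (n + 1) (groupCohomology.cocyclesMk x hx) = 0 := by
    apply hgc
    rw [← π_cocyclesMk_smul]
    exact (π_cocyclesMk_eq_zero_iff (A i) _ _).2 ⟨b, hb⟩
  obtain ⟨b', hb'⟩ := (π_cocyclesMk_eq_zero_iff (A i) x hx).1 h1
  exact ⟨i, le_rfl, T.pullT le_rfl b', by rw [d_pullT, hb']⟩

include T in
/-- The same for multiplication by a natural number. -/
theorem Hlc_nsmul_torsionFree_of_groupCohomology {n : ℕ} (m : ℕ)
    (hgc : ∀ i, ∀ z : groupCohomology (A i) (n + 1), m • z = 0 → z = 0)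
    (y : Hlc 𝒰 D (n + 1)) (hy : m • y = 0) : y = 0 := by
  refine T.Hlc_torsionFree_of_groupCohomology (m : k) (fun i z hz => hgc i z ?_) y ?_
  · rwa [Nat.cast_smul_eq_nsmul] at hz
  · rw [Nat.cast_smul_eq_nsmul, hy]

include T in
/-- If all `Hⁿ⁺¹(Q i, A i)` vanish, so does `Hlc 𝒰 D (n + 1)`. -/
theorem Hlc_eq_zero_of_groupCohomology {n : ℕ}
    (hgc : ∀ i, ∀ z : groupCohomology (A i) (n + 1), z = 0) (y : Hlc 𝒰 D (n + 1)) : y = 0 := by
  refine T.Hlc_eq_zero_of_stage (fun i x hx => ?_) y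
  obtain ⟨b', hb'⟩ := (π_cocyclesMk_eq_zero_iff (A i) x hx).1 (hgc i _)
  exact ⟨i, le_rfl, T.pullT le_rfl b', by rw [d_pullT, hb']⟩

/-- **Degree `1`, plain functions**: if every stage `1`-cocycle `f : Q i → A i` with `m • f` a
coboundary becomes a coboundary at a later stage, then `Hlc 𝒰 D 1` has no `m`-torsion. -/
theorem Hlc1_nsmul_torsionFree_of_stage (m : ℕ)
    (hst : ∀ i (f : Q i → A i), f ∈ cocycles₁ (A i) →
      (∃ a : A i, ∀ q, m • f q = (A i).ρ q a - a) →
      ∃ j, ∃ h : i ≤ j, ∃ a' : A j, ∀ q : Q j, (T.t h).hom (f (T.τ h q)) = (A j).ρ q a' - a')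
    (y : Hlc 𝒰 D 1) (hy : m • y = 0) : y = 0 := by
  refine T.Hlc_nsmul_torsionFree_of_stage m (fun i x hx hb => ?_) y hy
  obtain ⟨b, hb⟩ := hb
  obtain ⟨j, h, a', ha'⟩ := hst i (fun q => x (fun _ => q)) ((d_one_eq_zero_iff (A i) x).1 hx)
    ⟨b default, fun q => by
      have := congrFun hb (fun _ => q)
      rw [d_zero_apply] at this
      exact this.symm⟩
  refine ⟨j, h, fun _ => a', ?_⟩
  funext g
  rw [d_zero_apply, pullT_apply, ← ha' (g 0)]
  congr 2
  funext m'
  have hm' : m' = 0 := Fin.eq_zero m'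
  rw [hm']
  rfl

end Directed

end Tower

end Fermat.Agent.GC.Global.Limit.ColimVanish
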