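/-
GATE-C / C4 [B']-LIM (helper7): comparison of the level-constant cohomology of a discrete module
`D`, union of a `Tower` of finite-level modules `A i` (helper12's `ColimVanish`), with the
cohomology of finite-level AMBIENT modules `B i ⊇ A i` such that `B i / A i` is torsion and its
`p`-primary part dies at later stages.

Application: `D = D_S = J_S / E_S`, `A i = C(L,S)`, `B i = CS L S T` (`T ⊇ S` good for `L`), the
defect `B i / A i = Cl_S(L)`; `tors` = finiteness of the class group, `capM` = `p`-capitulation (G8).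
Then on `p`-primary parts `Hlc^n(D) = colim_i H^n(Q i, B i)`:

* `Ambient` : the structure (`inc`, `s`, `tors`, `capM`);
* `capM_cochain` : `capM` for the finitely many values of a cochain at once;
* `compare_inj`, `compare_surj` : the two halves of the comparison, at cochain level, all degrees;
* `stageClass_eq_zero_of_ambient`, `Hlc_pTorsionFree_of_ambient` : consequences for `Hlc 𝒰 D`.
-/
import Fermat.Agent.GC.Global.Limit.ColimVanish
import Fermat.Agent.GC.Global.Limit.AAbsN

set_option autoImplicit false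
set_option linter.unusedSectionVars false

open CategoryTheory groupCohomology

noncomputable section

namespace Fermat.Agent.GC.Global.Limit.CompareCS

open Fermat.Agent.GC.Prof Fermat.Agent.GC.Global.Limit.ColimVanish Fermat.Agent.GC.Global.LimA

universe u w

variable {k G : Type u} [CommRing k] [Group G]
variable {ι : Type w} [Preorder ι] {𝒰 : LevelSystem G} {D : Rep.{u} k G}
  {Q : ι → Type u} [∀ i, Group (Q i)] {A : ∀ i, Rep.{u} k (Q i)}

/-- Ambient finite-level modules `B i ⊇ A i` over a tower: `B i / A i` is torsion (`tors`) and its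
`p`-primary part dies at later stages (`capM`). -/
structure Ambient (T : Tower 𝒰 D Q A) (p : ℕ) (B : ∀ i, Rep.{u} k (Q i)) where
  /-- the inclusions -/
  inc : ∀ i, A i ⟶ B i
  inc_injective : ∀ i, Function.Injective (inc i).hom
  /-- the transition maps of the ambient modules -/
  s : ∀ {i j : ι} (h : i ≤ j), Rep.res (T.τ h) (B i) ⟶ B j
  s_inc : ∀ {i j : ι} (h : i ≤ j) (a : A i),
    (s h).hom ((inc i).hom a) = (inc j).hom ((T.t h).hom a)
  s_trans : ∀ {i j l : ι} (h : i ≤ j) (h' : j ≤ l) (b : B i),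
    (s h').hom ((s h).hom b) = (s (h.trans h')).hom b
  tors : ∀ i (b : B i), ∃ N : ℕ, 0 < N ∧ ∃ a : A i, (inc i).hom a = N • b
  capM : ∀ i (b : B i) (r : ℕ) (a : A i), (inc i).hom a = p ^ r • b →
    ∃ j, ∃ h : i ≤ j, ∃ a' : A j, (inc j).hom a' = (s h).hom b

namespace Ambient

variable {T : Tower 𝒰 D Q A} {p : ℕ} {B : ∀ i, Rep.{u} k (Q i)} (E : Ambient T p B)

/-- pull-back of an ambient cochain to a later stage -/
def pullS {i j : ι} (h : i ≤ j) {n : ℕ} (x : (Fin n → Q i) → B i) : (Fin n → Q j) → B j :=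
  pullC (T.τ h) (E.s h) x

@[simp] lemma pullS_apply {i j : ι} (h : i ≤ j) {n : ℕ} (x : (Fin n → Q i) → B i)
    (q : Fin n → Q j) : E.pullS h x q = (E.s h).hom (x (T.τ h ∘ q)) := rfl

lemma pullS_add {i j : ι} (h : i ≤ j) {n : ℕ} (x y : (Fin n → Q i) → B i) :
    E.pullS h (x + y) = E.pullS h x + E.pullS h y := pullC_add _ _ x y

lemma pullS_sub {i j : ι} (h : i ≤ j) {n : ℕ} (x y : (Fin n → Q i) → B i) :
    E.pullS h (x - y) = E.pullS h x - E.pullS h y := pullC_sub _ _ x y

lemma pullS_smul {i j : ι} (h : i ≤ j) {n : ℕ} (c : k) (x : (Fin n → Q i) → B i) :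
    E.pullS h (c • x) = c • E.pullS h x := pullC_smul _ _ c x

lemma pullS_zero {i j : ι} (h : i ≤ j) {n : ℕ} : E.pullS h (0 : (Fin n → Q i) → B i) = 0 :=
  pullC_zero _ _

lemma pullS_nsmul {i j : ι} (h : i ≤ j) {n : ℕ} (c : ℕ) (x : (Fin n → Q i) → B i) :
    E.pullS h (c • x) = c • E.pullS h x := by
  funext q
  simp only [pullS_apply, Pi.smul_apply]
  exact map_nsmul (E.s h).hom c _

lemma pullS_zsmul {i j : ι} (h : i ≤ j) {n : ℕ} (c : ℤ) (x : (Fin n → Q i) → B i) :
    E.pullS h (c • x) = c • E.pullS h x := by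
  funext q
  simp only [pullS_apply, Pi.smul_apply]
  exact map_zsmul (E.s h).hom c _

lemma d_pullS {i j : ι} (h : i ≤ j) {n : ℕ} (x : (Fin n → Q i) → B i) :
    inhomogeneousCochains.d (B j) n (E.pullS h x) =
      E.pullS h (inhomogeneousCochains.d (B i) n x) :=
  d_pullC _ _ x

lemma pullS_pullS {i j l : ι} (h : i ≤ j) (h' : j ≤ l) {n : ℕ} (x : (Fin n → Q i) → B i) :
    E.pullS h' (E.pullS h x) = E.pullS (h.trans h') x := by
  funext q
  simp only [pullS_apply]
  rw [E.s_trans, T.τ_comp_τ]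

/-- the square `pullS ∘ inc = inc ∘ pullT` -/
lemma pullS_compC {i j : ι} (h : i ≤ j) {n : ℕ} (x : (Fin n → Q i) → A i) :
    E.pullS h (compC (E.inc i) n x) = compC (E.inc j) n (T.pullT h x) := by
  funext q
  simp only [pullS_apply, compC_apply, Tower.pullT_apply]
  exact E.s_inc h _

lemma compC_injective (i : ι) (n : ℕ) : Function.Injective (compC (E.inc i) n) := by
  intro x y hxy
  funext g
  exact E.inc_injective i (congrFun hxy g)

lemma compC_add (i : ι) (n : ℕ) (x y : (Fin n → Q i) → A i) :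
    compC (E.inc i) n (x + y) = compC (E.inc i) n x + compC (E.inc i) n y := by
  funext g
  simp [compC]

lemma compC_sub (i : ι) (n : ℕ) (x y : (Fin n → Q i) → A i) :
    compC (E.inc i) n (x - y) = compC (E.inc i) n x - compC (E.inc i) n y := by
  funext g
  simp [compC]

lemma compC_zero (i : ι) (n : ℕ) : compC (E.inc i) n (0 : (Fin n → Q i) → A i) = 0 := by
  funext g
  simp [compC]

/-- `d` commutes with `compC`, in the coercion form used by `ColimVanish`. -/
lemma d_compC' (i : ι) (n : ℕ) (x : (Fin n → Q i) → A i) :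
    inhomogeneousCochains.d (B i) n (compC (E.inc i) n x) =
      compC (E.inc i) (n + 1) (inhomogeneousCochains.d (A i) n x) :=
  d_compC (E.inc i) n x

section Directed

variable [IsDirected ι (· ≤ ·)]

/-- monotonicity of "lies in `A`" along the tower -/
lemma exists_inc_of_le {i j l : ι} (h : i ≤ j) (h' : j ≤ l) (b : B i) (a' : A j)
    (ha' : (E.inc j).hom a' = (E.s h).hom b) :
    ∃ a'' : A l, (E.inc l).hom a'' = (E.s (h.trans h')).hom b :=
  ⟨(T.t h').hom a', by rw [← E.s_inc, ha', E.s_trans]⟩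

/-- **`capM` for cochains**: finitely many values at once. -/
theorem capM_cochain (i : ι) {n : ℕ} (w : (Fin n → Q i) → B i) (r : ℕ)
    (hw : ∀ g, ∃ a : A i, (E.inc i).hom a = p ^ r • w g) :
    ∃ j, ∃ h : i ≤ j, ∃ a' : (Fin n → Q j) → A j, compC (E.inc j) n a' = E.pullS h w := by
  have hfin : Finite (Q i) := T.finite_Q i
  have hne : Nonempty ι := ⟨i⟩
  choose a ha using hw
  choose st hst a' ha' using fun g : Fin n → Q i => E.capM i (w g) r (a g) (ha g)
  obtain ⟨M, hM⟩ := Finite.exists_le st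
  obtain ⟨j, hij, hMj⟩ := exists_ge_ge i M
  have key : ∀ g : Fin n → Q i, ∃ a'' : A j, (E.inc j).hom a'' = (E.s hij).hom (w g) := fun g =>
    E.exists_inc_of_le (hst g) ((hM g).trans hMj) (w g) (a' g) (ha' g)
  choose a'' ha'' using key
  refine ⟨j, hij, fun q => a'' (T.τ hij ∘ q), ?_⟩
  funext q
  simp only [compC_apply, pullS_apply]
  exact ha'' _

/-- **Injectivity half of the comparison.**  A stage cochain `u` of `A i` which is a coboundary in
`B i` and `p ^ m`-torsion modulo coboundaries in `A i` becomes a coboundary at a later stage. -/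
theorem compare_inj (hp : p.Prime) (i : ι) {n : ℕ} (u : (Fin (n + 1) → Q i) → A i)
    (w : (Fin n → Q i) → B i)
    (hw : compC (E.inc i) (n + 1) u = inhomogeneousCochains.d (B i) n w)
    (m : ℕ) (y : (Fin n → Q i) → A i)
    (hy : p ^ m • u = inhomogeneousCochains.d (A i) n y) :
    ∃ j, ∃ h : i ≤ j, ∃ y' : (Fin n → Q j) → A j,
      T.pullT h u = inhomogeneousCochains.d (A j) n y' := by
  have hfin : Finite (Q i) := T.finite_Q i
  obtain ⟨w₁, y₁, r, hw₁, hsplit⟩ :=
    exists_split_cobdry_n (E.inc i) p hp (E.tors i) n u w hw m y hy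
  obtain ⟨j, h, a', ha'⟩ := E.capM_cochain i w₁ r hw₁
  refine ⟨j, h, a' + T.pullT h y₁, ?_⟩
  apply E.compC_injective j (n + 1)
  rw [← E.pullS_compC, hsplit, pullS_add]
  have h1 : E.pullS h ((inhomogeneousCochains.d (B i) n).hom w₁) =
      inhomogeneousCochains.d (B j) n (compC (E.inc j) n a') := by
    rw [ha']
    exact (E.d_pullS h w₁).symm
  have h2 : E.pullS h (compC (E.inc i) (n + 1) ((inhomogeneousCochains.d (A i) n).hom y₁)) =
      compC (E.inc j) (n + 1) (inhomogeneousCochains.d (A j) n (T.pullT h y₁)) := by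
    rw [E.pullS_compC, T.d_pullT]
  rw [h1, h2, map_add, E.compC_add, E.d_compC']

/-- **Surjectivity half of the comparison.**  A cochain `x` of `B i` which is `p ^ m`-torsion
modulo coboundaries is, at a later stage and modulo a coboundary, a cochain `u` of `A j`, again
`p`-power torsion modulo coboundaries (and a cocycle if `x` is one). -/
theorem compare_surj (hp : p.Prime) (i : ι) {n : ℕ} (x : (Fin (n + 1) → Q i) → B i)
    (m : ℕ) (y : (Fin n → Q i) → B i)
    (hy : p ^ m • x = inhomogeneousCochains.d (B i) n y) :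
    ∃ j, ∃ h : i ≤ j, ∃ (u : (Fin (n + 1) → Q j) → A j) (w : (Fin n → Q j) → B j),
      compC (E.inc j) (n + 1) u = E.pullS h x - inhomogeneousCochains.d (B j) n w ∧
      (inhomogeneousCochains.d (B i) (n + 1) x = 0 →
        inhomogeneousCochains.d (A j) (n + 1) u = 0) ∧
      ∃ (m' : ℕ) (y' : (Fin n → Q j) → A j),
        p ^ m' • u = inhomogeneousCochains.d (A j) n y' := by
  have hfin : Finite (Q i) := T.finite_Q i
  -- step 1: adjust `x` by a coboundary so that its values are `p`-power torsion modulo `A i`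
  obtain ⟨y₁, r, hx₁⟩ := exists_adjust_cochain_n (E.inc i) p hp (E.tors i) n x m y hy
  obtain ⟨j, h, u₀, hu₀⟩ := E.capM_cochain i
    (x - inhomogeneousCochains.d (B i) n y₁) r (fun g => hx₁ g)
  have hfinj : Finite (Q j) := T.finite_Q j
  -- `inc u₀ = pullS x - d (pullS y₁)`
  have hu₀' : compC (E.inc j) (n + 1) u₀ =
      E.pullS h x - inhomogeneousCochains.d (B j) n (E.pullS h y₁) := by
    rw [hu₀, pullS_sub, E.d_pullS]
  -- `inc (p ^ m • u₀) = d w₂`
  set w₂ : (Fin n → Q j) → B j := E.pullS h y - p ^ m • E.pullS h y₁ with hw₂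
  have hdy : inhomogeneousCochains.d (B j) n (E.pullS h y) = p ^ m • E.pullS h x := by
    rw [E.d_pullS, ← hy, pullS_nsmul]
  have hdw₂ : compC (E.inc j) (n + 1) (p ^ m • u₀) = inhomogeneousCochains.d (B j) n w₂ := by
    rw [compC_nsmul, hu₀', smul_sub, hw₂, map_sub, map_nsmul, hdy]
  -- `N • w₂` has values in `A j`
  obtain ⟨N, hN, hNw⟩ := exists_common_mul (E.inc j) (E.tors j) n w₂
  choose a₂ ha₂ using hNw
  have hNu : (N * p ^ m) • u₀ = inhomogeneousCochains.d (A j) n a₂ := by
    apply E.compC_injective j (n + 1)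
    rw [mul_smul, compC_nsmul, hdw₂, ← E.d_compC', ← map_nsmul]
    congr 1
    funext g
    exact (ha₂ g).symm
  -- Bezout
  obtain ⟨e, n', α, β, rfl, hαβ⟩ := exists_bezout p hp N hN m
  refine ⟨j, h, (α * n') • u₀, (β * (p : ℤ) ^ e) • E.pullS h y + (α * n') • E.pullS h y₁,
    ?_, ?_, e + m, α • a₂, ?_⟩
  · -- the equation
    rw [compC_zsmul, hu₀', map_add, map_zsmul, map_zsmul, hdy]
    have hone : (α * (n' : ℤ)) • E.pullS h x =
        E.pullS h x - (β * (p : ℤ) ^ (e + m)) • E.pullS h x := by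
      refine eq_sub_of_add_eq ?_
      rw [← add_smul, hαβ, one_smul]
    have h3 : (β * (p : ℤ) ^ e) • (p ^ m • E.pullS h x) =
        (β * (p : ℤ) ^ (e + m)) • E.pullS h x := by
      rw [← natCast_zsmul, smul_smul]
      congr 1
      push_cast
      ring
    rw [h3, smul_sub, hone]
    abel
  · -- cocycle
    intro hdx
    have h0 : compC (E.inc j) (n + 2) (inhomogeneousCochains.d (A j) (n + 1) u₀) = 0 := by
      rw [← E.d_compC', hu₀', map_sub, E.d_pullS, hdx, pullS_zero]
      have := congr($(inhomogeneousCochains.d_comp_d n (B j)) (E.pullS h y₁))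
      simp only [ModuleCat.hom_comp, LinearMap.comp_apply] at this
      rw [this]
      simp
    have h1 : inhomogeneousCochains.d (A j) (n + 1) u₀ = 0 :=
      E.compC_injective j (n + 2) (h0.trans (E.compC_zero j (n + 2)).symm)
    rw [map_zsmul, h1, smul_zero]
  · -- `p`-power torsion
    rw [map_zsmul, ← hNu, ← natCast_zsmul, smul_smul, ← natCast_zsmul, smul_smul]
    congr 1
    push_cast
    ring

/-! ### Consequences for `Hlc 𝒰 D` -/

variable [IsDiscrete 𝒰 D]

/-- `inc u = d w` is transported to later stages. -/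
lemma compC_pullT_eq_d {i j : ι} (h : i ≤ j) {n : ℕ} (u : (Fin (n + 1) → Q i) → A i)
    (w : (Fin n → Q i) → B i)
    (hw : compC (E.inc i) (n + 1) u = inhomogeneousCochains.d (B i) n w) :
    compC (E.inc j) (n + 1) (T.pullT h u) = inhomogeneousCochains.d (B j) n (E.pullS h w) := by
  rw [← E.pullS_compC, hw, E.d_pullS]

/-- A stage cocycle of `A i` whose class in `Hlc 𝒰 D` is `p`-power torsion and which is a
coboundary in the ambient module `B i` has trivial class. -/
theorem stageClass_eq_zero_of_ambient (hp : p.Prime) (i : ι) {n : ℕ}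
    (u : (Fin (n + 1) → Q i) → A i) (hu : inhomogeneousCochains.d (A i) (n + 1) u = 0)
    (w : (Fin n → Q i) → B i)
    (hw : compC (E.inc i) (n + 1) u = inhomogeneousCochains.d (B i) n w)
    (m : ℕ) (htor : p ^ m • T.stageClass i u hu = 0) : T.stageClass i u hu = 0 := by
  rw [← Nat.cast_smul_eq_nsmul k, ← T.stageClass_smul i _ u hu, T.stageClass_eq_zero_iff] at htor
  obtain ⟨j, h, y, hy⟩ := htor
  rw [T.pullT_smul, Nat.cast_smul_eq_nsmul] at hy
  obtain ⟨l, h', y', hy'⟩ := E.compare_inj hp j (T.pullT h u) (E.pullS h w)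
    (E.compC_pullT_eq_d h u w hw) m y hy
  rw [T.pullT_pullT] at hy'
  exact (T.stageClass_eq_zero_iff i u hu).2 ⟨l, h.trans h', y', hy'⟩

include E in
/-- **No `p`-torsion in `Hlc 𝒰 D (n + 1)`** as soon as the ambient finite-level modules have no
`p`-torsion in `H^{n+1}` (cochain form).  For `n = 0` this is `[A]`. -/
theorem Hlc_pTorsionFree_of_ambient (hp : p.Prime) {n : ℕ}
    (hB : ∀ i (x : (Fin (n + 1) → Q i) → B i), inhomogeneousCochains.d (B i) (n + 1) x = 0 →
      ∀ (m : ℕ) (b : (Fin n → Q i) → B i), inhomogeneousCochains.d (B i) n b = p ^ m • x →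
      ∃ w : (Fin n → Q i) → B i, x = inhomogeneousCochains.d (B i) n w)
    (y : Hlc 𝒰 D (n + 1)) (m : ℕ) (hy : p ^ m • y = 0) : y = 0 := by
  refine T.Hlc_nsmul_torsionFree_of_stage (p ^ m) (fun i x hx hb => ?_) y hy
  obtain ⟨b, hb⟩ := hb
  have h1 : inhomogeneousCochains.d (B i) (n + 1) (compC (E.inc i) (n + 1) x) = 0 := by
    rw [E.d_compC', hx, E.compC_zero]
  have h2 : inhomogeneousCochains.d (B i) n (compC (E.inc i) n b) =
      p ^ m • compC (E.inc i) (n + 1) x := by
    rw [E.d_compC', hb, compC_nsmul]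
  obtain ⟨w, hw⟩ := hB i _ h1 m _ h2
  exact E.compare_inj hp i x w hw m b hb.symm

end Directed

end Ambient

end Fermat.Agent.GC.Global.Limit.CompareCS
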