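/-
GATE-C / C4 [B']-LIM part 4 (helper7): the `[B']` fields of helper77's `EJDHyp` (`bontop`, `bdivp`)
and the count `hD2`, for `g : J ⟶ D`, from FINITE-LEVEL hypotheses in the language of the ambient
modules `B i` of `CompareCS.Ambient` (`B i = CS L S T'`, cohomologically `C(L,T')`, `T'` good).

* `TowerMap TJ TD g` : two towers over the same finite stages, with stage maps `gst i : JA i ⟶ A i`;
  `stageClass_map : HlcMap g (TJ.stageClass ζ) = TD.stageClass (gst ∘ ζ)`.
* `bontop_of_fin` (`FIN-onto`), `bdivp_of_fin` (`FIN-div`), `torsion_card_of_fin` (`FIN-cyc`).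
-/
import Fermat.Agent.GC.Global.Limit.CompareCS
import Fermat.Agent.GC.Global.KummerBridgeZ

set_option autoImplicit false
set_option linter.unusedSectionVars false

open CategoryTheory groupCohomology

noncomputable section

namespace Fermat.Agent.GC.Global.Limit.CompareCS

open Fermat.Agent.GC.Prof Fermat.Agent.GC.Global.Limit.ColimVanish Fermat.Agent.GC.Global.LimA

universe u w

variable {k G : Type u} [CommRing k] [Group G]
variable {ι : Type w} [Preorder ι] {𝒰 : LevelSystem G} {J D : Rep.{u} k G}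
  {Q : ι → Type u} [∀ i, Group (Q i)] {JA A : ∀ i, Rep.{u} k (Q i)}

/-! ### Additivity of `stageClass` -/

section StageClass

variable (T : Tower 𝒰 D Q A) [IsDirected ι (· ≤ ·)] [IsDiscrete 𝒰 D]

lemma stageClass_congr (i : ι) {n : ℕ} {x x' : (Fin n → Q i) → A i} (h : x = x')
    (hx : inhomogeneousCochains.d (A i) n x = 0) :
    T.stageClass i x hx = T.stageClass i x' (h ▸ hx) := by
  subst h; rfl

lemma d_add_eq_zero (i : ι) {n : ℕ} {x x' : (Fin n → Q i) → A i}
    (hx : inhomogeneousCochains.d (A i) n x = 0) (hx' : inhomogeneousCochains.d (A i) n x' = 0) :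
    inhomogeneousCochains.d (A i) n (x + x') = 0 := by
  rw [map_add, hx, hx', add_zero]

lemma d_sub_eq_zero (i : ι) {n : ℕ} {x x' : (Fin n → Q i) → A i}
    (hx : inhomogeneousCochains.d (A i) n x = 0) (hx' : inhomogeneousCochains.d (A i) n x' = 0) :
    inhomogeneousCochains.d (A i) n (x - x') = 0 := by
  rw [map_sub, hx, hx', sub_zero]

lemma stageClass_add (i : ι) {n : ℕ} (x x' : (Fin n → Q i) → A i)
    (hx : inhomogeneousCochains.d (A i) n x = 0) (hx' : inhomogeneousCochains.d (A i) n x' = 0) :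
    T.stageClass i (x + x') (d_add_eq_zero i hx hx') =
      T.stageClass i x hx + T.stageClass i x' hx' := by
  rw [Tower.stageClass, Tower.stageClass, Tower.stageClass, ← HlcMk_add]
  exact HlcMk_congr 𝒰 D (Subtype.ext (T.pullG_add i x x')) _

lemma stageClass_sub (i : ι) {n : ℕ} (x x' : (Fin n → Q i) → A i)
    (hx : inhomogeneousCochains.d (A i) n x = 0) (hx' : inhomogeneousCochains.d (A i) n x' = 0) :
    T.stageClass i (x - x') (d_sub_eq_zero i hx hx') =
      T.stageClass i x hx - T.stageClass i x' hx' := by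
  rw [eq_sub_iff_add_eq, ← stageClass_add T i (x - x') x' (d_sub_eq_zero i hx hx') hx']
  exact stageClass_congr T i (sub_add_cancel x x') _

lemma d_d_eq_zero (i : ι) {n : ℕ} (y : (Fin n → Q i) → A i) :
    inhomogeneousCochains.d (A i) (n + 1) (inhomogeneousCochains.d (A i) n y) = 0 := by
  have := congr($(inhomogeneousCochains.d_comp_d n (A i)) y)
  simp only [ModuleCat.hom_comp, LinearMap.comp_apply] at this
  rw [this]
  simp

/-- the class of a stage coboundary vanishes -/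
lemma stageClass_d (i : ι) {n : ℕ} (y : (Fin n → Q i) → A i) :
    T.stageClass i (inhomogeneousCochains.d (A i) n y) (d_d_eq_zero i y) = 0 := by
  refine (HlcMk_succ_eq_zero_iff 𝒰 D _ _).2 ⟨T.pullLC i y, ?_⟩
  rw [T.lcD_pullLC]

lemma stageClass_nsmul (i : ι) {n : ℕ} (c : ℕ) (x : (Fin n → Q i) → A i)
    (hx : inhomogeneousCochains.d (A i) n x = 0) :
    T.stageClass i (c • x) (by rw [map_nsmul, hx, smul_zero]) = c • T.stageClass i x hx := by
  rw [← Nat.cast_smul_eq_nsmul k c (T.stageClass i x hx), ← T.stageClass_smul i (c : k) x hx]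
  exact stageClass_congr T i (Nat.cast_smul_eq_nsmul k c x).symm _

lemma stageClass_zsmul (i : ι) {n : ℕ} (c : ℤ) (x : (Fin n → Q i) → A i)
    (hx : inhomogeneousCochains.d (A i) n x = 0) :
    T.stageClass i (c • x) (by rw [map_zsmul, hx, smul_zero]) = c • T.stageClass i x hx := by
  rw [← Int.cast_smul_eq_zsmul k c (T.stageClass i x hx), ← T.stageClass_smul i (c : k) x hx]
  exact stageClass_congr T i (Int.cast_smul_eq_zsmul k c x).symm _

/-- a `p ^ a`-torsion stage class is `p ^ a`-torsion at the cochain level at a later stage -/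
lemma exists_stage_torsion (i : ι) {n : ℕ} (u : (Fin (n + 1) → Q i) → A i)
    (hu : inhomogeneousCochains.d (A i) (n + 1) u = 0) (c : ℕ)
    (htor : c • T.stageClass i u hu = 0) :
    ∃ j, ∃ h : i ≤ j, ∃ y : (Fin n → Q j) → A j,
      c • T.pullT h u = inhomogeneousCochains.d (A j) n y := by
  rw [← stageClass_nsmul T i c u hu, T.stageClass_eq_zero_iff] at htor
  obtain ⟨j, h, y, hy⟩ := htor
  refine ⟨j, h, y, ?_⟩
  rw [← hy]
  funext q
  simp only [Tower.pullT_apply, Pi.smul_apply]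
  exact (map_nsmul (T.t h).hom c _).symm

end StageClass

/-! ### Maps of towers -/

/-- A morphism of towers over the same finite stages, covering `g : J ⟶ D`. -/
structure TowerMap (TJ : Tower 𝒰 J Q JA) (TD : Tower 𝒰 D Q A) (g : J ⟶ D) where
  /-- the stage maps -/
  gst : ∀ i, JA i ⟶ A i
  π_eq : ∀ i (γ : G), TJ.π i γ = TD.π i γ
  φ_comm : ∀ i (a : JA i), g.hom ((TJ.φ i).hom a) = (TD.φ i).hom ((gst i).hom a)
  t_comm : ∀ {i j : ι} (h : i ≤ j) (a : JA i),
    (gst j).hom ((TJ.t h).hom a) = (TD.t h).hom ((gst i).hom a)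

namespace TowerMap

variable {TJ : Tower 𝒰 J Q JA} {TD : Tower 𝒰 D Q A} {g : J ⟶ D} (M : TowerMap TJ TD g)

include M in
lemma τ_eq {i j : ι} (h : i ≤ j) (q : Q j) : TJ.τ h q = TD.τ h q := by
  obtain ⟨γ, rfl⟩ := TJ.π_surjective j q
  rw [TJ.τ_π, M.π_eq j γ, TD.τ_π, M.π_eq i γ]

lemma compC_pullT {i j : ι} (h : i ≤ j) {n : ℕ} (ζ : (Fin n → Q i) → JA i) :
    compC (M.gst j) n (TJ.pullT h ζ) = TD.pullT h (compC (M.gst i) n ζ) := by
  funext q
  simp only [compC_apply, Tower.pullT_apply]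
  have hτ : ⇑(TJ.τ h) ∘ q = ⇑(TD.τ h) ∘ q := funext fun m => M.τ_eq h (q m)
  rw [M.t_comm, hτ]

lemma d_compC_gst (i : ι) (n : ℕ) (ζ : (Fin n → Q i) → JA i) :
    inhomogeneousCochains.d (A i) n (compC (M.gst i) n ζ) =
      compC (M.gst i) (n + 1) (inhomogeneousCochains.d (JA i) n ζ) :=
  d_compC (M.gst i) n ζ

lemma d_compC_gst_eq_zero (i : ι) {n : ℕ} {ζ : (Fin n → Q i) → JA i}
    (hζ : inhomogeneousCochains.d (JA i) n ζ = 0) :
    inhomogeneousCochains.d (A i) n (compC (M.gst i) n ζ) = 0 := by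
  rw [M.d_compC_gst, hζ]
  funext q
  exact map_zero (M.gst i).hom

variable [IsDirected ι (· ≤ ·)] [IsDiscrete 𝒰 J] [IsDiscrete 𝒰 D]

/-- `HlcMap g` on stage classes. -/
theorem stageClass_map (i : ι) {n : ℕ} (ζ : (Fin n → Q i) → JA i)
    (hζ : inhomogeneousCochains.d (JA i) n ζ = 0) :
    HlcMap 𝒰 g n (TJ.stageClass i ζ hζ) =
      TD.stageClass i (compC (M.gst i) n ζ) (M.d_compC_gst_eq_zero i hζ) := by
  rw [Tower.stageClass, HlcMap_mk]
  refine HlcMk_congr 𝒰 D (Subtype.ext ?_) _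
  funext γ
  simp only [lcMapLin_coe, Tower.pullLC_coe, Tower.pullG_apply, compC_apply]
  rw [M.φ_comm]
  congr 3
  funext m
  exact M.π_eq i (γ m)

end TowerMap

/-! ### `[B']` in the limit -/

namespace Ambient

variable {TJ : Tower 𝒰 J Q JA} {T : Tower 𝒰 D Q A} {g : J ⟶ D} {p : ℕ}
  {B : ∀ i, Rep.{u} k (Q i)} (E : Ambient T p B) (M : TowerMap TJ T g)
  [IsDirected ι (· ≤ ·)] [IsDiscrete 𝒰 J] [IsDiscrete 𝒰 D]

/-- **`bontop`** from `FIN-onto`. -/
theorem bontop_of_fin (hp : p.Prime) {n : ℕ}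
    (hfin : ∀ i (x : (Fin (n + 1) → Q i) → B i), inhomogeneousCochains.d (B i) (n + 1) x = 0 →
      ∀ (a : ℕ) (y : (Fin n → Q i) → B i), inhomogeneousCochains.d (B i) n y = p ^ a • x →
      ∃ j, ∃ h : i ≤ j, ∃ (ζ : (Fin (n + 1) → Q j) → JA j) (w : (Fin n → Q j) → B j),
        inhomogeneousCochains.d (JA j) (n + 1) ζ = 0 ∧
        E.pullS h x = compC (E.inc j) (n + 1) (compC (M.gst j) (n + 1) ζ) +
          inhomogeneousCochains.d (B j) n w)
    (z : Hlc 𝒰 D (n + 1)) (hz : ∃ a : ℕ, p ^ a • z = 0) :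
    ∃ x : Hlc 𝒰 J (n + 1), HlcMap 𝒰 g (n + 1) x = z := by
  obtain ⟨a, hza⟩ := hz
  obtain ⟨i₀, -, -⟩ := T.union 0
  obtain ⟨i, -, u, hu, rfl⟩ := T.Hlc_exists_stage z i₀
  -- move to a stage where `p ^ a • u` is a coboundary
  obtain ⟨j, hij, y, hy⟩ := exists_stage_torsion T i u hu (p ^ a) hza
  have huj := T.d_pullT_eq_zero hij hu
  -- apply FIN-onto to `inc (pullT u)`
  have hx0 : inhomogeneousCochains.d (B j) (n + 1) (compC (E.inc j) (n + 1) (T.pullT hij u)) = 0 := by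
    rw [E.d_compC', huj, E.compC_zero]
  have hy0 : inhomogeneousCochains.d (B j) n (compC (E.inc j) n y) =
      p ^ a • compC (E.inc j) (n + 1) (T.pullT hij u) := by
    rw [E.d_compC', ← hy, compC_nsmul]
  obtain ⟨l, hjl, ζ, w, hζ, hζw⟩ := hfin j _ hx0 a _ hy0
  -- the difference `u' = pullT u - gst ζ` is a coboundary in `B l`
  set ul := T.pullT hjl (T.pullT hij u) with hul
  have hul0 : inhomogeneousCochains.d (A l) (n + 1) ul = 0 := T.d_pullT_eq_zero hjl huj
  have hgζ := M.d_compC_gst_eq_zero l hζ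
  have hincul : compC (E.inc l) (n + 1) ul =
      compC (E.inc l) (n + 1) (compC (M.gst l) (n + 1) ζ) + inhomogeneousCochains.d (B l) n w := by
    rw [hul, ← E.pullS_compC, hζw]
  have hu'w : compC (E.inc l) (n + 1) (ul - compC (M.gst l) (n + 1) ζ) =
      inhomogeneousCochains.d (B l) n w := by
    rw [E.compC_sub, hincul, add_sub_cancel_left]
  have hu'0 := d_sub_eq_zero l hul0 hgζ
  -- classes
  set X : Hlc 𝒰 J (n + 1) := TJ.stageClass l ζ hζ with hX
  have hgX : HlcMap 𝒰 g (n + 1) X = T.stageClass l (compC (M.gst l) (n + 1) ζ) hgζ :=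
    M.stageClass_map l ζ hζ
  have hzl : T.stageClass l ul hul0 = T.stageClass i u hu := by
    rw [T.stageClass_pullT hjl _ huj, T.stageClass_pullT hij u hu]
  set z := T.stageClass i u hu with hz
  have hz' : T.stageClass l (ul - compC (M.gst l) (n + 1) ζ) hu'0 =
      z - HlcMap 𝒰 g (n + 1) X := by
    rw [stageClass_sub T l ul _ hul0 hgζ, hzl, hgX]
  set z' := T.stageClass l (ul - compC (M.gst l) (n + 1) ζ) hu'0 with hz'def
  -- torsion of `X`
  obtain ⟨N, hN0, hNX⟩ := Fermat.Agent.GC.Global.KummerBridge.hlc_torsion 𝒰 J n X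
  obtain ⟨e, n', α, β, rfl, hαβ⟩ := exists_bezout p hp N (Nat.pos_of_ne_zero hN0) a
  -- `(α n') • z' = 0`
  have hcz' : (α * (n' : ℤ)) • z' = 0 := by
    have hcu'0 : inhomogeneousCochains.d (A l) (n + 1)
        ((α * (n' : ℤ)) • (ul - compC (M.gst l) (n + 1) ζ)) = 0 := by
      rw [map_zsmul, hu'0, smul_zero]
    have hcls : T.stageClass l ((α * (n' : ℤ)) • (ul - compC (M.gst l) (n + 1) ζ)) hcu'0 =
        (α * (n' : ℤ)) • z' := stageClass_zsmul T l _ _ hu'0
    rw [← hcls]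
    refine E.stageClass_eq_zero_of_ambient hp l _ hcu'0 ((α * (n' : ℤ)) • w) ?_ (e + a) ?_
    · rw [compC_zsmul, hu'w, map_zsmul]
    · rw [hcls, hz']
      have h1 : (p ^ e * n') • HlcMap 𝒰 g (n + 1) X = 0 := by
        rw [← map_nsmul, hNX, map_zero]
      have h2 : (p ^ (e + a)) • ((α * (n' : ℤ)) • (z - HlcMap 𝒰 g (n + 1) X)) =
          α • ((p ^ e * n') • (p ^ a • z) - p ^ a • ((p ^ e * n') • HlcMap 𝒰 g (n + 1) X)) := by
        simp only [← natCast_zsmul, smul_smul, smul_sub]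
        congr 1 <;> congr 1 <;> push_cast <;> ring
      rw [h2, hza, h1, smul_zero, smul_zero, sub_zero, smul_zero]
  -- conclusion
  refine ⟨(α * (n' : ℤ)) • X, ?_⟩
  rw [map_zsmul]
  have h3 : HlcMap 𝒰 g (n + 1) X = z - z' := by rw [hz']; abel
  rw [h3, smul_sub, hcz', sub_zero]
  have h4 : (α * (n' : ℤ)) • z = z - (β * (p : ℤ) ^ (e + a)) • z := by
    refine eq_sub_of_add_eq ?_
    rw [← add_smul, hαβ, one_smul]
  have h5 : (β * (p : ℤ) ^ (e + a)) • z = 0 := by
    have : (β * (p : ℤ) ^ (e + a)) • z = (β * (p : ℤ) ^ e) • (p ^ a • z) := by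
      rw [← natCast_zsmul, smul_smul]
      congr 1
      push_cast
      ring
    rw [this, hza, smul_zero]
  rw [h4, h5, sub_zero]

/-- **`bdivp`** from `FIN-div`. -/
theorem bdivp_of_fin (hp : p.Prime) {n : ℕ}
    (hfin : ∀ i (ξ : (Fin (n + 1) → Q i) → JA i), inhomogeneousCochains.d (JA i) (n + 1) ξ = 0 →
      ∀ (a : ℕ) (η : (Fin n → Q i) → JA i), inhomogeneousCochains.d (JA i) n η = p ^ a • ξ →
      ∀ w : (Fin n → Q i) → B i,
        compC (E.inc i) (n + 1) (compC (M.gst i) (n + 1) ξ) = inhomogeneousCochains.d (B i) n w →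
      ∃ j, ∃ h : i ≤ j, ∃ (ξ' : (Fin (n + 1) → Q j) → JA j) (η' : (Fin n → Q j) → JA j)
        (w' : (Fin n → Q j) → B j),
        inhomogeneousCochains.d (JA j) (n + 1) ξ' = 0 ∧
        TJ.pullT h ξ = p • ξ' + inhomogeneousCochains.d (JA j) n η' ∧
        compC (E.inc j) (n + 1) (compC (M.gst j) (n + 1) ξ') =
          inhomogeneousCochains.d (B j) n w')
    (x : Hlc 𝒰 J (n + 1)) (hgx : HlcMap 𝒰 g (n + 1) x = 0) (hx : ∃ a : ℕ, p ^ a • x = 0) :
    ∃ x' : Hlc 𝒰 J (n + 1), HlcMap 𝒰 g (n + 1) x' = 0 ∧ (p : k) • x' = x := by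
  obtain ⟨a, hxa⟩ := hx
  obtain ⟨i₀, -, -⟩ := TJ.union 0
  obtain ⟨i, -, ξ, hξ, rfl⟩ := TJ.Hlc_exists_stage x i₀
  -- stage where `p ^ a • ξ` is a coboundary
  obtain ⟨j₁, h₁, η₁, hη₁⟩ := exists_stage_torsion TJ i ξ hξ (p ^ a) hxa
  -- stage where `gst ξ` is a coboundary
  rw [M.stageClass_map i ξ hξ, T.stageClass_eq_zero_iff] at hgx
  obtain ⟨j₂, h₂, v, hv⟩ := hgx
  obtain ⟨j, h₁j, h₂j⟩ := exists_ge_ge j₁ j₂
  have hij : i ≤ j := h₁.trans h₁j
  have hξj : inhomogeneousCochains.d (JA j) (n + 1) (TJ.pullT hij ξ) = 0 :=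
    TJ.d_pullT_eq_zero hij hξ
  have hηj : inhomogeneousCochains.d (JA j) n (TJ.pullT h₁j η₁) = p ^ a • TJ.pullT hij ξ := by
    rw [TJ.d_pullT, ← hη₁]
    have : TJ.pullT h₁j (p ^ a • TJ.pullT h₁ ξ) = p ^ a • TJ.pullT h₁j (TJ.pullT h₁ ξ) := by
      funext q
      simp only [Tower.pullT_apply, Pi.smul_apply]
      exact map_nsmul (TJ.t h₁j).hom _ _
    rw [this, TJ.pullT_pullT]
  have hwj : compC (E.inc j) (n + 1) (compC (M.gst j) (n + 1) (TJ.pullT hij ξ)) =
      inhomogeneousCochains.d (B j) n (compC (E.inc j) n (T.pullT h₂j v)) := by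
    rw [E.d_compC', T.d_pullT, ← hv, T.pullT_pullT, M.compC_pullT]
  obtain ⟨l, hjl, ξ', η', w', hξ', heq, hw'⟩ := hfin j _ hξj a _ hηj _ hwj
  have hpx' : p • TJ.stageClass l ξ' hξ' = TJ.stageClass i ξ hξ := by
    have hpξ' : inhomogeneousCochains.d (JA l) (n + 1) (p • ξ') = 0 := by
      rw [map_nsmul, hξ', smul_zero]
    have e1 : TJ.stageClass i ξ hξ =
        TJ.stageClass l (TJ.pullT hjl (TJ.pullT hij ξ)) (TJ.d_pullT_eq_zero hjl hξj) := by
      rw [TJ.stageClass_pullT hjl _ hξj, TJ.stageClass_pullT hij ξ hξ]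
    have e2 := stageClass_congr TJ l heq (TJ.d_pullT_eq_zero hjl hξj)
    have e3 := stageClass_add TJ l (p • ξ') (inhomogeneousCochains.d (JA l) n η') hpξ'
      (d_d_eq_zero l η')
    rw [e1, e2]
    refine Eq.trans ?_ e3.symm
    rw [stageClass_d TJ l η', add_zero]
    exact (stageClass_nsmul TJ l p ξ' hξ').symm
  refine ⟨TJ.stageClass l ξ' hξ', ?_, ?_⟩
  · -- `g_* x' = 0`
    rw [M.stageClass_map l ξ' hξ']
    refine E.stageClass_eq_zero_of_ambient hp l _ (M.d_compC_gst_eq_zero l hξ') w' hw' 1 ?_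
    rw [← M.stageClass_map l ξ' hξ', ← map_nsmul, pow_one, hpx', M.stageClass_map i ξ hξ]
    exact (T.stageClass_eq_zero_iff i _ _).2 ⟨j₂, h₂, v, hv⟩
  · rw [Nat.cast_smul_eq_nsmul]
    exact hpx'

end Ambient

/-! ### The count `hD2` -/

namespace Ambient

variable {T : Tower 𝒰 D Q A} {p : ℕ} {B : ∀ i, Rep.{u} k (Q i)} (E : Ambient T p B)
  [IsDirected ι (· ≤ ·)] [IsDiscrete 𝒰 D]

open Fermat.Agent.GC.Global.KummerBridge in
/-- **`hD2`** from `FIN-cyc`: if the ambient modules carry a `p`-torsion class `x₀` (degree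
`n + 1`) which stays non-trivial at all later stages and of which every `p`-torsion class becomes
a multiple at a later stage, then the `p`-torsion of `Hlc 𝒰 D (n + 1)` has exactly `p` elements. -/
theorem torsion_card_of_fin (hp : p.Prime) {n : ℕ}
    (i₀ : ι) (x₀ : (Fin (n + 1) → Q i₀) → B i₀)
    (hx₀ : inhomogeneousCochains.d (B i₀) (n + 1) x₀ = 0)
    (y₀ : (Fin n → Q i₀) → B i₀) (hy₀ : inhomogeneousCochains.d (B i₀) n y₀ = p • x₀)
    (hne : ∀ j (h : i₀ ≤ j) (w : (Fin n → Q j) → B j),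
      E.pullS h x₀ ≠ inhomogeneousCochains.d (B j) n w)
    (hspan : ∀ i (x : (Fin (n + 1) → Q i) → B i), inhomogeneousCochains.d (B i) (n + 1) x = 0 →
      ∀ y : (Fin n → Q i) → B i, inhomogeneousCochains.d (B i) n y = p • x →
      ∃ j, ∃ (hi : i ≤ j) (h0 : i₀ ≤ j) (c : ℕ) (w : (Fin n → Q j) → B j),
        E.pullS hi x = c • E.pullS h0 x₀ + inhomogeneousCochains.d (B j) n w) :
    Nat.card (torsC (p : k) (Hlc 𝒰 D (n + 1))) = p := by
  -- Step A: the generator `z₀`
  obtain ⟨j₀, h₀, u, w₀, hinc, hcoc, m', y', hy'⟩ :=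
    E.compare_surj hp i₀ x₀ 1 y₀ (by rw [pow_one]; exact hy₀.symm)
  have hu := hcoc hx₀
  set z₀ := T.stageClass j₀ u hu with hz₀
  have hpz₀ : p • z₀ = 0 := by
    have hpu : inhomogeneousCochains.d (A j₀) (n + 1) (p • u) = 0 := by
      rw [map_nsmul, hu, smul_zero]
    rw [← stageClass_nsmul T j₀ p u hu]
    refine E.stageClass_eq_zero_of_ambient hp j₀ _ hpu (E.pullS h₀ y₀ - p • w₀) ?_ m' ?_
    · rw [compC_nsmul, hinc, smul_sub, map_sub, map_nsmul, E.d_pullS, hy₀, pullS_nsmul]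
    · rw [stageClass_nsmul T j₀ p u hu, smul_comm, ← stageClass_nsmul T j₀ (p ^ m') u hu]
      have : T.stageClass j₀ (p ^ m' • u) (by rw [map_nsmul, hu, smul_zero]) = 0 := by
        rw [stageClass_congr T j₀ hy' _]
        exact stageClass_d T j₀ y'
      rw [this, smul_zero]
  have hz₀ne : z₀ ≠ 0 := by
    intro h0
    obtain ⟨l, h, y'', hy''⟩ := (T.stageClass_eq_zero_iff j₀ u hu).1 h0
    refine hne l (h₀.trans h) (compC (E.inc l) n y'' + E.pullS h w₀) ?_
    have e1 : compC (E.inc l) (n + 1) (T.pullT h u) =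
        E.pullS (h₀.trans h) x₀ - inhomogeneousCochains.d (B l) n (E.pullS h w₀) := by
      rw [← E.pullS_compC, hinc, pullS_sub, E.pullS_pullS, E.d_pullS]
    rw [hy'', ← E.d_compC'] at e1
    rw [map_add, e1, sub_add_cancel]
  -- Step B: every `p`-torsion class is a multiple of `z₀`
  have hB : ∀ z : Hlc 𝒰 D (n + 1), p • z = 0 → ∃ c : ℕ, z = c • z₀ := by
    intro z hz
    obtain ⟨i, -, v, hv, rfl⟩ := T.Hlc_exists_stage z i₀
    obtain ⟨j, hij, y, hy⟩ := exists_stage_torsion T i v hv p hz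
    have hvj := T.d_pullT_eq_zero hij hv
    have hx0 : inhomogeneousCochains.d (B j) (n + 1)
        (compC (E.inc j) (n + 1) (T.pullT hij v)) = 0 := by
      rw [E.d_compC', hvj, E.compC_zero]
    have hy0 : inhomogeneousCochains.d (B j) n (compC (E.inc j) n y) =
        p • compC (E.inc j) (n + 1) (T.pullT hij v) := by
      rw [E.d_compC', ← hy, compC_nsmul]
    obtain ⟨l, hjl, h0l, c, w, hcw⟩ := hspan j _ hx0 _ hy0
    obtain ⟨r, hlr, hj₀r⟩ := exists_ge_ge l j₀
    have hir : i ≤ r := (hij.trans hjl).trans hlr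
    refine ⟨c, ?_⟩
    -- the two classes at stage `r`
    have hVr := T.d_pullT_eq_zero hir hv
    have hUr := T.d_pullT_eq_zero hj₀r hu
    have hcUr : inhomogeneousCochains.d (A r) (n + 1) (c • T.pullT hj₀r u) = 0 := by
      rw [map_nsmul, hUr, smul_zero]
    have eV : compC (E.inc r) (n + 1) (T.pullT hir v) =
        c • E.pullS (h0l.trans hlr) x₀ + inhomogeneousCochains.d (B r) n (E.pullS hlr w) := by
      have : T.pullT hir v = T.pullT hlr (T.pullT hjl (T.pullT hij v)) := by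
        rw [T.pullT_pullT, T.pullT_pullT]
      rw [this, ← E.pullS_compC, ← E.pullS_compC, hcw, pullS_add, pullS_nsmul, E.pullS_pullS,
        E.d_pullS]
    have eU : compC (E.inc r) (n + 1) (T.pullT hj₀r u) =
        E.pullS (h₀.trans hj₀r) x₀ - inhomogeneousCochains.d (B r) n (E.pullS hj₀r w₀) := by
      rw [← E.pullS_compC, hinc, pullS_sub, E.pullS_pullS, E.d_pullS]
    have hdiff : T.stageClass r (T.pullT hir v - c • T.pullT hj₀r u)
        (d_sub_eq_zero r hVr hcUr) = 0 := by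
      refine E.stageClass_eq_zero_of_ambient hp r _ _
        (E.pullS hlr w + c • E.pullS hj₀r w₀) ?_ 1 ?_
      · rw [E.compC_sub, compC_nsmul, eV, eU, map_add, map_nsmul, smul_sub]
        abel
      · rw [pow_one, stageClass_sub T r _ _ hVr hcUr, stageClass_nsmul T r c _ hUr,
          T.stageClass_pullT hir v hv, T.stageClass_pullT hj₀r u hu, smul_sub, hz, smul_comm,
          hpz₀, smul_zero, sub_zero]
    rw [stageClass_sub T r _ _ hVr hcUr, stageClass_nsmul T r c _ hUr,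
      T.stageClass_pullT hir v hv, T.stageClass_pullT hj₀r u hu, sub_eq_zero] at hdiff
    exact hdiff
  -- Step C: count
  have hfact : Fact p.Prime := ⟨hp⟩
  have hord : addOrderOf z₀ = p := addOrderOf_eq_prime hpz₀ hz₀ne
  have hset : ∀ z : Hlc 𝒰 D (n + 1), z ∈ torsC (p : k) (Hlc 𝒰 D (n + 1)) ↔
      z ∈ AddSubgroup.zmultiples z₀ := by
    intro z
    rw [mem_torsC, Nat.cast_smul_eq_nsmul]
    constructor
    · intro hz
      obtain ⟨c, rfl⟩ := hB z hz
      exact AddSubgroup.nsmul_mem_zmultiples z₀ c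
    · rintro ⟨c, rfl⟩
      show p • (c • z₀) = 0
      rw [smul_comm, hpz₀, smul_zero]
  have hcard : Nat.card (torsC (p : k) (Hlc 𝒰 D (n + 1))) =
      Nat.card (AddSubgroup.zmultiples z₀) := Nat.card_congr (Equiv.subtypeEquivRight hset)
  rw [hcard, Nat.card_zmultiples, hord]

end Ambient

end Fermat.Agent.GC.Global.Limit.CompareCS
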