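/-
GATE-C / C4 [B']-LIM, the tower side (helper12).

* `Tower.reindex` / `reindexMap` : a `ColimVanish.Tower` (resp. helper7's `CompareCS.TowerMap`) may be
  re-indexed along a monotone cofinal map `f : ι' → ι` of directed index sets.
* `AJ ℓ`, `trJ h`, `towerJS hK` : the tower of layers over the `S`-idele module `J_S` restricted to
  `G_K`, stages `(Gal(L/K), J(L,S))`, comparison maps helper71's `ΦJLin`, transitions helper80's
  `inflJ`.
* `gstJC ℓ`, `towerMapJD hK hS` : the map of towers `towerJS → towerDS` over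
  `Res_{G_K} (JStoDS S)`, stage maps `JtoC`.
* `LT S K` : the PAIR index `(layer, T ⊇ S)`; `towerDS2`, `towerJS2`, `towerMap2` : the same towers
  over the pair index (for helper7's `Ambient` with `B (ℓ,T) := BS ℓ T`).
-/
import Fermat.Agent.GC.Global.Limit.TowerDS
import Fermat.Agent.GC.Global.Limit.CompareEJD

set_option autoImplicit false
set_option linter.unusedSectionVars false

open CategoryTheory groupCohomology

noncomputable section

/-! ### Re-indexing towers -/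

namespace Fermat.Agent.GC.Global.Limit.ColimVanish

open Fermat.Agent.GC.Prof

universe u w w'

variable {k G : Type u} [CommRing k] [Group G]
variable {ι : Type w} [Preorder ι] {𝒰 : LevelSystem G} {D : Rep.{u} k G}
  {Q : ι → Type u} [∀ i, Group (Q i)] {A : ∀ i, Rep.{u} k (Q i)}

/-- Re-indexing a tower along a monotone cofinal map of index sets. -/
def Tower.reindex (T : Tower 𝒰 D Q A) {ι' : Type w'} [Preorder ι'] [IsDirected ι' (· ≤ ·)]
    (f : ι' → ι) (hf : Monotone f) (hcof : ∀ i, ∃ i', i ≤ f i') :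
    Tower 𝒰 D (fun i' => Q (f i')) (fun i' => A (f i')) where
  π i' := T.π (f i')
  φ i' := T.φ (f i')
  τ h := T.τ (hf h)
  t h := T.t (hf h)
  π_surjective i' := T.π_surjective (f i')
  exists_le_ker i' := T.exists_le_ker (f i')
  cofinal U hU := by
    obtain ⟨i, hi⟩ := T.cofinal U hU
    obtain ⟨i', hi'⟩ := hcof i
    exact ⟨i', (T.ker_mono hi').trans hi⟩
  τ_π h g := T.τ_π (hf h) g
  φ_t h a := T.φ_t (hf h) a
  t_trans h h' a := T.t_trans (hf h) (hf h') a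
  union d := by
    obtain ⟨i, a, ha⟩ := T.union d
    obtain ⟨i', hi'⟩ := hcof i
    exact ⟨i', (T.t hi').hom a, by rw [T.φ_t, ha]⟩
  ker_stage i' a ha := by
    obtain ⟨j, h, hj⟩ := T.ker_stage (f i') a ha
    obtain ⟨j'', hj''⟩ := hcof j
    obtain ⟨j', h1, h2⟩ := exists_ge_ge i' j''
    refine ⟨j', h1, ?_⟩
    have h3 := T.t_trans h (hj''.trans (hf h2)) a
    rw [hj, map_zero] at h3
    exact h3.symm

section ReindexLemmas

variable (T : Tower 𝒰 D Q A) {ι' : Type w'} [Preorder ι'] [IsDirected ι' (· ≤ ·)]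
  (f : ι' → ι) (hf : Monotone f) (hcof : ∀ i, ∃ i', i ≤ f i')

@[simp] lemma Tower.reindex_π (i' : ι') : (T.reindex f hf hcof).π i' = T.π (f i') := rfl
@[simp] lemma Tower.reindex_φ (i' : ι') : (T.reindex f hf hcof).φ i' = T.φ (f i') := rfl
@[simp] lemma Tower.reindex_τ {i' j' : ι'} (h : i' ≤ j') :
    (T.reindex f hf hcof).τ h = T.τ (hf h) := rfl
@[simp] lemma Tower.reindex_t {i' j' : ι'} (h : i' ≤ j') :
    (T.reindex f hf hcof).t h = T.t (hf h) := rfl

lemma Tower.reindex_pullG (i' : ι') {n : ℕ} (x : (Fin n → Q (f i')) → A (f i')) :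
    (T.reindex f hf hcof).pullG i' x = T.pullG (f i') x := rfl

lemma Tower.reindex_pullT {i' j' : ι'} (h : i' ≤ j') {n : ℕ}
    (x : (Fin n → Q (f i')) → A (f i')) :
    (T.reindex f hf hcof).pullT h x = T.pullT (hf h) x := rfl

lemma Tower.reindex_stageClass [IsDirected ι (· ≤ ·)] [IsDiscrete 𝒰 D] (i' : ι') {n : ℕ}
    (x : (Fin n → Q (f i')) → A (f i'))
    (hx : inhomogeneousCochains.d (A (f i')) n x = 0) :
    (T.reindex f hf hcof).stageClass i' x hx = T.stageClass (f i') x hx := rfl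

end ReindexLemmas

end Fermat.Agent.GC.Global.Limit.ColimVanish

namespace Fermat.Agent.GC.Global.Limit.TowerJS

open Fermat.Agent.GC.Prof Fermat.Agent.GC.Global Fermat.Agent.GC.Global.Funct
open Fermat.Agent.GC.Global.Limit.ColimVanish Fermat.Agent.GC.Global.Limit.LayerTower
open Fermat.Agent.GC.Global.Limit.CompareCS
open Fermat.Agent.GC.LimJ Fermat.Agent.GC.Places Fermat.Agent.GC.C0

section ReindexMap

universe u w w'

variable {k G : Type u} [CommRing k] [Group G]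
variable {ι : Type w} [Preorder ι] {𝒰 : LevelSystem G} {J D : Rep.{u} k G}
  {Q : ι → Type u} [∀ i, Group (Q i)] {JA A : ∀ i, Rep.{u} k (Q i)}

/-- Re-indexing a map of towers. -/
def reindexMap {TJ : Tower 𝒰 J Q JA} {TD : Tower 𝒰 D Q A} {g : J ⟶ D} (M : TowerMap TJ TD g)
    {ι' : Type w'} [Preorder ι'] [IsDirected ι' (· ≤ ·)]
    (f : ι' → ι) (hf : Monotone f) (hcof : ∀ i, ∃ i', i ≤ f i') :
    TowerMap (TJ.reindex f hf hcof) (TD.reindex f hf hcof) g where
  gst i' := M.gst (f i')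
  π_eq i' γ := M.π_eq (f i') γ
  φ_comm i' a := M.φ_comm (f i') a
  t_comm h a := M.t_comm (hf h) a

end ReindexMap

local notation "GQ" => (Qb ≃ₐ[ℚ] Qb)

variable {S : Finset Nat.Primes} {K : IntermediateField ℚ Qb}

/-! ### The tower of layers over `J_S` -/

/-- the stage module `J(L,S)` restricted to `Gal(L/K)` -/
def AJ (ℓ : Layer S K) : Rep ℤ (Q ℓ) := Rep.res (galK K ℓ.L).subtype (J ℓ.L S)

lemma AJ_ρ (ℓ : Layer S K) (σ : Q ℓ) (y : J ℓ.L S) :
    (AJ ℓ).ρ σ y = (J ℓ.L S).ρ (σ : ℓ.L ≃ₐ[ℚ] ℓ.L) y := rfl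

/-- the transition maps of the stage modules: helper80's `inflJ` -/
def trJ {ℓ ℓ' : Layer S K} (h : ℓ ≤ ℓ') : Rep.res (tau h) (AJ ℓ) ⟶ AJ ℓ' :=
  Rep.ofHom (ρ := (Rep.res (tau h) (AJ ℓ)).ρ) (σ := (AJ ℓ').ρ)
    { toLinearMap := inflJ (Layer.le_def.1 h) S
      isIntertwining' := fun σ => LinearMap.ext fun y =>
        inflJ_rho (Layer.le_def.1 h) S (σ : ℓ'.L ≃ₐ[ℚ] ℓ'.L) y }

@[simp] lemma trJ_hom {ℓ ℓ' : Layer S K} (h : ℓ ≤ ℓ') (y : J ℓ.L S) :
    (trJ h).hom y = inflJ (Layer.le_def.1 h) S y := rfl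

/-- the comparison map `J(L,S) → J_S` over `G_K` -/
def phiJ (ℓ : Layer S K) :
    Rep.res (piK K ℓ.L) (AJ ℓ) ⟶ Rep.res K.fixingSubgroup.subtype (JS S) :=
  Rep.ofHom (ρ := (Rep.res (piK K ℓ.L) (AJ ℓ)).ρ)
    (σ := (Rep.res K.fixingSubgroup.subtype (JS S)).ρ)
    { toLinearMap := ΦJLin S ℓ.L ℓ.unram
      isIntertwining' := fun g => LinearMap.ext fun y =>
        ΦJLin_rho S ℓ.L ℓ.unram g.1 y }

@[simp] lemma phiJ_hom (ℓ : Layer S K) (y : J ℓ.L S) :
    (phiJ ℓ).hom y = ΦJLin S ℓ.L ℓ.unram y := rfl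

/-- **The tower of layers over `J_S`.** -/
def towerJS (hK : K.IsUnramifiedOutside S) :
    Tower (levelK S K) (Rep.res K.fixingSubgroup.subtype (JS S)) (Q (S := S) (K := K)) AJ where
  π ℓ := piK K ℓ.L
  φ ℓ := phiJ ℓ
  τ h := tau h
  t h := trJ h
  π_surjective ℓ := piK_surjective K ℓ.L ℓ.le
  exists_le_ker ℓ :=
    ⟨_, ⟨ℓ.L.fixingSubgroup, ⟨ℓ.L, ℓ.unram, rfl⟩, rfl⟩, (ker_piK K ℓ.L).ge⟩
  cofinal := by
    rintro _ ⟨_, ⟨F, hF, rfl⟩, rfl⟩
    refine ⟨Layer.ofField hK F hF, ?_⟩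
    rw [ker_piK]
    exact Subgroup.comap_mono (IntermediateField.fixingSubgroup_antitone
      (Layer.le_ofField hK F hF))
  τ_π h g := tau_piK h g
  φ_t {ℓ ℓ'} h y := ΦJLin_inflJ S ℓ.L ℓ.unram ℓ'.unram (Layer.le_def.1 h) y
  t_trans h h' y := inflJ_inflJ (Layer.le_def.1 h) S (Layer.le_def.1 h') y
  union F := by
    obtain ⟨L, hfd, hgal, hL, hle, y, hy⟩ :=
      exists_ΦJLin_eq S (Layer.ofField hK ⊥ (IntermediateField.isUnramifiedOutside_bot S)).L
        (Layer.ofField hK ⊥ (IntermediateField.isUnramifiedOutside_bot S)).unram F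
    exact ⟨⟨L, hL, hgal, (Layer.ofField hK ⊥
      (IntermediateField.isUnramifiedOutside_bot S)).le.trans hle⟩, y, hy⟩
  ker_stage ℓ y hy := ⟨ℓ, le_rfl, by
    have : y = 0 := ΦJLin_injective S ℓ.L ℓ.unram (hy.trans (map_zero _).symm)
    rw [this]
    exact map_zero _⟩

/-! ### The map of towers `J_S → D_S` -/

/-- the stage maps `JtoC` restricted to `Gal(L/K)` -/
def gstJC (ℓ : Layer S K) : AJ ℓ ⟶ A ℓ :=
  (Rep.resFunctor (galK K ℓ.L).subtype).map (JtoC ℓ.L S)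

@[simp] lemma gstJC_hom (ℓ : Layer S K) (y : J ℓ.L S) :
    (gstJC ℓ).hom y = (JtoC ℓ.L S).hom y := rfl

lemma gstJC_surjective (ℓ : Layer S K) : Function.Surjective (gstJC ℓ).hom :=
  JtoC_surjective ℓ.L S

/-- `Res_{G_K} (J_S → D_S)` -/
def gJD (S : Finset Nat.Primes) (K : IntermediateField ℚ Qb) :
    Rep.res K.fixingSubgroup.subtype (JS S) ⟶ Rep.res K.fixingSubgroup.subtype (DS S) :=
  (Rep.resFunctor K.fixingSubgroup.subtype).map (JStoDS S)

@[simp] lemma gJD_hom (F : JS S) : (gJD S K).hom F = (JStoDS S).hom F := rfl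

/-- **The map of towers `towerJS → towerDS`.** -/
def towerMapJD (hK : K.IsUnramifiedOutside S) (hS : S.Nonempty) :
    TowerMap (towerJS hK) (TowerDS.towerDS hK hS) (gJD S K) where
  gst ℓ := gstJC ℓ
  π_eq _ _ := rfl
  φ_comm ℓ y := (ΦCLin_JtoC S ℓ.L ℓ.unram y).symm
  t_comm h y := (inflC_JtoC (Layer.le_def.1 h) S y).symm

/-! ### The pair index -/

/-- the index set of pairs `(layer, T ⊇ S)` -/
abbrev LT (S : Finset Nat.Primes) (K : IntermediateField ℚ Qb) : Type :=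
  Layer S K × {T : Finset Nat.Primes // S ⊆ T}

instance isDirected_LT : IsDirected (LT S K) (· ≤ ·) :=
  ⟨fun i j => by
    obtain ⟨ℓ, hℓ1, hℓ2⟩ := exists_ge_ge i.1 j.1
    exact ⟨(ℓ, ⟨i.2.1 ∪ j.2.1, i.2.2.trans Finset.subset_union_left⟩),
      ⟨hℓ1, Finset.subset_union_left⟩, ⟨hℓ2, Finset.subset_union_right⟩⟩⟩

lemma LT_le_def {i j : LT S K} : i ≤ j ↔ i.1 ≤ j.1 ∧ i.2.1 ⊆ j.2.1 := Iff.rfl

lemma monotone_fst_LT : Monotone (Prod.fst : LT S K → Layer S K) := fun _ _ h => h.1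

lemma cofinal_fst_LT (ℓ : Layer S K) : ∃ i : LT S K, ℓ ≤ i.1 :=
  ⟨(ℓ, ⟨S, Finset.Subset.refl S⟩), le_rfl⟩

lemma nonempty_layer (hK : K.IsUnramifiedOutside S) : Nonempty (Layer S K) :=
  ⟨Layer.ofField hK ⊥ (IntermediateField.isUnramifiedOutside_bot S)⟩

lemma nonempty_LT (hK : K.IsUnramifiedOutside S) : Nonempty (LT S K) :=
  ⟨(Layer.ofField hK ⊥ (IntermediateField.isUnramifiedOutside_bot S),
    ⟨S, Finset.Subset.refl S⟩)⟩

/-- the tower over `D_S`, pair index -/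
def towerDS2 (hK : K.IsUnramifiedOutside S) (hS : S.Nonempty) :
    Tower (levelK S K) (Rep.res K.fixingSubgroup.subtype (DS S))
      (fun i : LT S K => Q i.1) (fun i : LT S K => A i.1) :=
  (TowerDS.towerDS hK hS).reindex Prod.fst monotone_fst_LT cofinal_fst_LT

/-- the tower over `J_S`, pair index -/
def towerJS2 (hK : K.IsUnramifiedOutside S) :
    Tower (levelK S K) (Rep.res K.fixingSubgroup.subtype (JS S))
      (fun i : LT S K => Q i.1) (fun i : LT S K => AJ i.1) :=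
  (towerJS hK).reindex Prod.fst monotone_fst_LT cofinal_fst_LT

/-- the map of towers, pair index -/
def towerMap2 (hK : K.IsUnramifiedOutside S) (hS : S.Nonempty) :
    TowerMap (towerJS2 hK) (towerDS2 hK hS) (gJD S K) :=
  reindexMap (towerMapJD hK hS) Prod.fst monotone_fst_LT cofinal_fst_LT

section PairLemmas

variable (hK : K.IsUnramifiedOutside S) (hS : S.Nonempty)

@[simp] lemma towerDS2_π (i : LT S K) : (towerDS2 hK hS).π i = piK K i.1.L := rfl
@[simp] lemma towerDS2_τ {i j : LT S K} (h : i ≤ j) : (towerDS2 hK hS).τ h = tau h.1 := rfl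
@[simp] lemma towerDS2_t {i j : LT S K} (h : i ≤ j) : (towerDS2 hK hS).t h = tr h.1 := rfl
@[simp] lemma towerJS2_π (i : LT S K) : (towerJS2 hK).π i = piK K i.1.L := rfl
@[simp] lemma towerJS2_τ {i j : LT S K} (h : i ≤ j) : (towerJS2 hK).τ h = tau h.1 := rfl
@[simp] lemma towerJS2_t {i j : LT S K} (h : i ≤ j) : (towerJS2 hK).t h = trJ h.1 := rfl
@[simp] lemma towerMap2_gst (i : LT S K) : (towerMap2 hK hS).gst i = gstJC i.1 := rfl

lemma towerDS2_φ_hom (i : LT S K) (c : C i.1.L S) :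
    ((towerDS2 hK hS).φ i).hom c = ΦCLin S i.1.L i.1.unram c := rfl

lemma towerJS2_φ_hom (i : LT S K) (y : J i.1.L S) :
    ((towerJS2 hK).φ i).hom y = ΦJLin S i.1.L i.1.unram y := rfl

end PairLemmas

instance isDiscrete_JS_res : IsDiscrete (levelK S K) (Rep.res K.fixingSubgroup.subtype (JS S)) :=
  isDiscrete_res_levelK S K (JS S)

end Fermat.Agent.GC.Global.Limit.TowerJS
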