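/-
GATE-C / C4 final glue on the limit side (helper12): **`EJDHyp (levelK S K) p (ideleSK S K)`**
(helper77's hypothesis package for KUMMER-BRIDGE, at the restricted `S`-idele class sequence
`0 → O_Sˣ → J_S → D_S → 0` over `G_K`) from

* `[A]` (`AFinal.A_noPTorsion`, unconditional) — the field `atf`;
* `j1`, `j3` (helper71/helper26 (D)-INST) — taken as hypotheses, in the `EJDHyp` shape VERBATIM;
* the FINITE-LEVEL statements `FinOnto`, `FinDiv`, `FinCyc` in helper7's cochain language at the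
  concrete model (helper80 `AmbientModel.ambientDS`, index `LayerT S K p`, ambient modules
  `BS ℓ T = CS(L,S,T)|_{Gal(L/K)}`, `T` good for `L`) — the fields `bontop`, `bdivp` and the count `hD2`.

The towers over `LayerT S K p` are helper80's `towerDST`, `towerJST`, `towerMapT` (re-indexings of
`TowerDS.towerDS`, `TowerJS.towerJS`, `TowerJS.towerMapJD`).
-/
import Fermat.Agent.GC.Global.Limit.TowerJS
import Fermat.Agent.GC.Global.Limit.AmbientModel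
import Fermat.Agent.GC.Global.Limit.AFinal
import Fermat.Agent.GC.Kummer.HlcHasse

set_option autoImplicit false
set_option linter.unusedSectionVars false

open CategoryTheory groupCohomology

noncomputable section

namespace Fermat.Agent.GC.Global.Limit.EJDModel

open Fermat.Agent.GC.Prof Fermat.Agent.GC.Global Fermat.Agent.GC.Global.Funct
open Fermat.Agent.GC.Global.Limit.ColimVanish Fermat.Agent.GC.Global.Limit.LayerTower
open Fermat.Agent.GC.Global.Limit.CompareCS Fermat.Agent.GC.Global.Limit.TowerJS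
open Fermat.Agent.GC.Global.Limit.AmbientModel Fermat.Agent.GC.Global.LimA
open Fermat.Agent.GC.Global.KummerBridge
open Fermat.Agent.GC.LimJ Fermat.Agent.GC.Places Fermat.Agent.GC.C0 Fermat.Agent.GC.KumH

local notation "GQ" => (Qb ≃ₐ[ℚ] Qb)

variable {S : Finset Nat.Primes} {K : IntermediateField ℚ Qb} {p : ℕ}

/-! ### The finite-level statements, in helper7's cochain language at the model -/

section Fin

variable (hK : K.IsUnramifiedOutside S) (hS : S.Nonempty) (hp : p.Prime)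
  (hpS : (⟨p, hp⟩ : Nat.Primes) ∈ S)

/-- the stage map `J(L,S) → C(L,S) → CS(L,S,T)` on cochains -/
abbrev incJ (i : LayerT S K p) (n : ℕ) (ζ : (Fin n → Q i.ℓ) → AJ i.ℓ) :
    (Fin n → Q i.ℓ) → BS i.ℓ i.T :=
  compC ((ambientDS hK hS hp hpS).inc i) n (compC ((towerMapT hK hS hp).gst i) n ζ)

/-- **FIN-onto** (degree `2`): a `p`-power torsion ambient `2`-cocycle becomes, at a later stage,
the image of a `J`-cocycle up to an ambient coboundary. -/
def FinOnto : Prop :=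
  ∀ (i : LayerT S K p) (x : (Fin 2 → Q i.ℓ) → BS i.ℓ i.T),
    inhomogeneousCochains.d (BS i.ℓ i.T) 2 x = 0 →
    ∀ (a : ℕ) (y : (Fin 1 → Q i.ℓ) → BS i.ℓ i.T),
      inhomogeneousCochains.d (BS i.ℓ i.T) 1 y = p ^ a • x →
    ∃ j, ∃ h : i ≤ j, ∃ (ζ : (Fin 2 → Q j.ℓ) → AJ j.ℓ) (w : (Fin 1 → Q j.ℓ) → BS j.ℓ j.T),
      inhomogeneousCochains.d (AJ j.ℓ) 2 ζ = 0 ∧
      (ambientDS hK hS hp hpS).pullS h x = incJ hK hS hp hpS j 2 ζ +
        inhomogeneousCochains.d (BS j.ℓ j.T) 1 w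

/-- **FIN-div** (degree `2`): a `p`-power torsion `J`-cocycle dying in the ambient module is, at a
later stage, `p` times such a cocycle up to a `J`-coboundary. -/
def FinDiv : Prop :=
  ∀ (i : LayerT S K p) (ξ : (Fin 2 → Q i.ℓ) → AJ i.ℓ),
    inhomogeneousCochains.d (AJ i.ℓ) 2 ξ = 0 →
    ∀ (a : ℕ) (η : (Fin 1 → Q i.ℓ) → AJ i.ℓ), inhomogeneousCochains.d (AJ i.ℓ) 1 η = p ^ a • ξ →
    ∀ w : (Fin 1 → Q i.ℓ) → BS i.ℓ i.T,
      incJ hK hS hp hpS i 2 ξ = inhomogeneousCochains.d (BS i.ℓ i.T) 1 w →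
    ∃ j, ∃ h : i ≤ j, ∃ (ξ' : (Fin 2 → Q j.ℓ) → AJ j.ℓ) (η' : (Fin 1 → Q j.ℓ) → AJ j.ℓ)
      (w' : (Fin 1 → Q j.ℓ) → BS j.ℓ j.T),
      inhomogeneousCochains.d (AJ j.ℓ) 2 ξ' = 0 ∧
      (towerJST hK hp).pullT h ξ = p • ξ' + inhomogeneousCochains.d (AJ j.ℓ) 1 η' ∧
      incJ hK hS hp hpS j 2 ξ' = inhomogeneousCochains.d (BS j.ℓ j.T) 1 w'

/-- **FIN-cyc** (degree `2`): there is a `p`-torsion ambient class which stays non-trivial at all
later stages and of which every `p`-torsion ambient class becomes a multiple at a later stage. -/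
def FinCyc : Prop :=
  ∃ (i₀ : LayerT S K p) (x₀ : (Fin 2 → Q i₀.ℓ) → BS i₀.ℓ i₀.T)
    (y₀ : (Fin 1 → Q i₀.ℓ) → BS i₀.ℓ i₀.T),
    inhomogeneousCochains.d (BS i₀.ℓ i₀.T) 2 x₀ = 0 ∧
    inhomogeneousCochains.d (BS i₀.ℓ i₀.T) 1 y₀ = p • x₀ ∧
    (∀ j (h : i₀ ≤ j) (w : (Fin 1 → Q j.ℓ) → BS j.ℓ j.T),
      (ambientDS hK hS hp hpS).pullS h x₀ ≠ inhomogeneousCochains.d (BS j.ℓ j.T) 1 w) ∧
    (∀ (i : LayerT S K p) (x : (Fin 2 → Q i.ℓ) → BS i.ℓ i.T),
      inhomogeneousCochains.d (BS i.ℓ i.T) 2 x = 0 →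
      ∀ y : (Fin 1 → Q i.ℓ) → BS i.ℓ i.T, inhomogeneousCochains.d (BS i.ℓ i.T) 1 y = p • x →
      ∃ j, ∃ (hi : i ≤ j) (h0 : i₀ ≤ j) (c : ℕ) (w : (Fin 1 → Q j.ℓ) → BS j.ℓ j.T),
        (ambientDS hK hS hp hpS).pullS hi x = c • (ambientDS hK hS hp hpS).pullS h0 x₀ +
          inhomogeneousCochains.d (BS j.ℓ j.T) 1 w)

end Fin

/-! ### The fields of `EJDHyp` for the restricted `S`-idele class sequence -/

section EJD

variable [FiniteDimensional ℚ K]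

/-- `[A]` for `(ideleSK S K).X₃ = D_S|_{G_K}`, plain `ℤ`-scalar form (the shape of the hypothesis
`atf` of helper78's `hasse_sUnitsK`). -/
theorem atf_ideleSK (hp : p.Prime) (hp2 : p ≠ 2) (hpS : (⟨p, hp⟩ : Nat.Primes) ∈ S)
    (hK : K.IsUnramifiedOutside S) {ζ : Qb} (hζ : IsPrimitiveRoot ζ p) (hζK : ζ ∈ K)
    (d : Hlc (levelK S K) (ideleSK S K).X₃ 1) (hd : ((p : ℕ) : ℤ) • d = 0) : d = 0 := by
  refine AFinal.A_noPTorsion hp hp2 hpS hK hζ hζK d 1 ?_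
  rw [pow_one]
  exact (natCast_zsmul d p).symm.trans hd

/-- `bontop` from `FinOnto` (the field `EJDHyp.bontop` VERBATIM). -/
theorem bontop_ideleSK (hp : p.Prime) (hpS : (⟨p, hp⟩ : Nat.Primes) ∈ S)
    (hK : K.IsUnramifiedOutside S) (hS : S.Nonempty) (hfin : FinOnto hK hS hp hpS)
    (z : Hlc (levelK S K) (ideleSK S K).X₃ 2) (hz : ∃ a : ℕ, p ^ a • z = 0) :
    ∃ x : Hlc (levelK S K) (ideleSK S K).X₂ 2, HlcMap (levelK S K) (ideleSK S K).g 2 x = z := by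
  have : Fact p.Prime := ⟨hp⟩
  exact (ambientDS hK hS hp hpS).bontop_of_fin (towerMapT hK hS hp) hp (n := 1) hfin z hz

/-- `hD2` from `FinCyc` (the hypothesis `hD2` of helper77's `EJDHyp.euler` / `na_card` VERBATIM). -/
theorem hD2_ideleSK (hp : p.Prime) (hpS : (⟨p, hp⟩ : Nat.Primes) ∈ S)
    (hK : K.IsUnramifiedOutside S) (hS : S.Nonempty) (hfin : FinCyc hK hS hp hpS) :
    Nat.card (torsC ((p : ℕ) : ℤ) (Hlc (levelK S K) (ideleSK S K).X₃ 2)) = p := by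
  have : Fact p.Prime := ⟨hp⟩
  obtain ⟨i₀, x₀, y₀, hx₀, hy₀, hne, hspan⟩ := hfin
  exact (ambientDS hK hS hp hpS).torsion_card_of_fin hp (n := 1) i₀ x₀ hx₀ y₀ hy₀ hne hspan

/-- **`EJDHyp` for the restricted `S`-idele class sequence**: `[A]` is discharged; `hJ1`, `hJ3`
(`Hlc¹(G_K, J_S) = 0 = Hlc³(G_K, J_S)`) are the (LM-J)/(D) inputs; `bontop`, `bdivp` come from the
finite-level statements `FinOnto`, `FinDiv`. -/
theorem ejdHyp_ideleSK (hp : p.Prime) (hp2 : p ≠ 2) (hpS : (⟨p, hp⟩ : Nat.Primes) ∈ S)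
    (hK : K.IsUnramifiedOutside S) (hS : S.Nonempty)
    {ζ : Qb} (hζ : IsPrimitiveRoot ζ p) (hζK : ζ ∈ K)
    (hJ1 : ∀ x : Hlc (levelK S K) (ideleSK S K).X₂ 1, x = 0)
    (hJ3 : ∀ x : Hlc (levelK S K) (ideleSK S K).X₂ 3, x = 0)
    (hOnto : FinOnto hK hS hp hpS) (hDiv : FinDiv hK hS hp hpS) :
    EJDHyp (levelK S K) p (ideleSK S K) where
  atf d hd := atf_ideleSK hp hp2 hpS hK hζ hζK d ((int_smul_eq_zsmul _ _ d).symm.trans hd)
  j1 x := by rw [hJ1 x, map_zero]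
  j3 x _ := hJ3 x
  bdivp x hgx hx := by
    have : Fact p.Prime := ⟨hp⟩
    exact (ambientDS hK hS hp hpS).bdivp_of_fin (towerMapT hK hS hp) hp (n := 1) hDiv x hgx hx
  bontop := bontop_ideleSK hp hpS hK hS hOnto

/-- The same with `j1`, `j3` in the `EJDHyp` shape (taken from any partial package `H₀`). -/
theorem ejdHyp_ideleSK' (hp : p.Prime) (hp2 : p ≠ 2) (hpS : (⟨p, hp⟩ : Nat.Primes) ∈ S)
    (hK : K.IsUnramifiedOutside S) (hS : S.Nonempty)
    {ζ : Qb} (hζ : IsPrimitiveRoot ζ p) (hζK : ζ ∈ K)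
    (j1 : ∀ x : Hlc (levelK S K) (ideleSK S K).X₂ 1,
      HlcMap (levelK S K) (ideleSK S K).g 1 x = 0)
    (hJ3 : ∀ x : Hlc (levelK S K) (ideleSK S K).X₂ 3, ((p : ℕ) : ℤ) • x = 0 → x = 0)
    (hOnto : FinOnto hK hS hp hpS) (hDiv : FinDiv hK hS hp hpS) :
    EJDHyp (levelK S K) p (ideleSK S K) where
  atf d hd := atf_ideleSK hp hp2 hpS hK hζ hζK d ((int_smul_eq_zsmul _ _ d).symm.trans hd)
  j1 := j1
  j3 x hx := hJ3 x ((int_smul_eq_zsmul _ _ x).symm.trans hx)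
  bdivp x hgx hx := by
    have : Fact p.Prime := ⟨hp⟩
    exact (ambientDS hK hS hp hpS).bdivp_of_fin (towerMapT hK hS hp) hp (n := 1) hDiv x hgx hx
  bontop := bontop_ideleSK hp hpS hK hS hOnto

end EJD

end Fermat.Agent.GC.Global.Limit.EJDModel
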