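/-
GATE-C / C4 (FIN-BRIDGE = (COCH) of helper14's RULING 8), helper74.

CLASS-LEVEL forms of the finite-level hypotheses of helper7's `CompareEJD` / `CompareCS`
(`FIN-onto`, `FIN-div`, `FIN-cyc`, and the `hB` of `Hlc_pTorsionFree_of_ambient`): the hypotheses
are statements about classes in `groupCohomology (B i) (n + 1)`, `groupCohomology (JA i) (n + 1)`
and Mathlib's `groupCohomology.map`, instead of plain cochains with `inhomogeneousCochains.d`.

* dictionary: `cls B x hx := π B n (cocyclesMk x hx)`; `cls_add/sub/nsmul/zsmul/smul`, `cls_d`,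
  `cls_eq_zero_iff`, `cls_eq_iff` (`[x] = [x'] ↔ ∃ w, x = x' + d w`), `exists_cls_eq`,
  **`map_cls`** : `map f φ n [x] = [pullC f φ x]`, `map_id_cls` : `map id ι n [x] = [compC ι n x]`;
* `Ambient.trB`, `stJB`, `trJ` : the three kinds of class-level maps (ambient transition,
  `inc ∘ gst`, `J`-transition) with their values on classes of cocycles;
* `pTorsionFree_of_classes`, `bontop_of_classes`, `bdivp_of_classes`, `torsion_card_of_classes`,
  `torsion_card_of_mult`.
-/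
import Fermat.Agent.GC.Global.Limit.CompareEJD

set_option autoImplicit false
set_option linter.unusedSectionVars false

open CategoryTheory groupCohomology

noncomputable section

namespace Fermat.Agent.GC.Global.Limit.FinBridge

open Fermat.Agent.GC.Prof Fermat.Agent.GC.Global.Limit.ColimVanish Fermat.Agent.GC.Global.LimA
open Fermat.Agent.GC.Global.Limit.CompareCS

universe u w

/-! ### The class ↔ cochain dictionary -/

section Dict

variable {k : Type u} [CommRing k] {H : Type u} [Group H] (B : Rep.{u} k H)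

/-- The class of a cocycle in Mathlib's group cohomology. -/
abbrev cls {n : ℕ} (x : (Fin n → H) → B) (hx : inhomogeneousCochains.d B n x = 0) :
    groupCohomology B n :=
  groupCohomology.π B n (groupCohomology.cocyclesMk x hx)

/-- `cls` as a linear map on the submodule of cocycles (`Elt.hMk` with codomain written as
`groupCohomology B n`). -/
def clsLin (n : ℕ) :
    Elt.zSub (groupCohomology.inhomogeneousCochains B) n →ₗ[k] groupCohomology B n :=
  Elt.hMk (groupCohomology.inhomogeneousCochains B) n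

lemma cls_eq_hMk {n : ℕ} (x : (Fin n → H) → B) (hx : inhomogeneousCochains.d B n x = 0) :
    cls B x hx = clsLin B n ⟨x, (mem_zSub_inhomogeneousCochains_iff B x).2 hx⟩ :=
  (hMk_inhomogeneousCochains_eq_π B x hx).symm

lemma cls_congr {n : ℕ} {x x' : (Fin n → H) → B} (h : x = x')
    (hx : inhomogeneousCochains.d B n x = 0) :
    cls B x hx = cls B x' (h ▸ hx) := by
  subst h; rfl

lemma d_add_zero {n : ℕ} {x x' : (Fin n → H) → B} (hx : inhomogeneousCochains.d B n x = 0)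
    (hx' : inhomogeneousCochains.d B n x' = 0) : inhomogeneousCochains.d B n (x + x') = 0 := by
  rw [map_add, hx, hx', add_zero]

lemma d_sub_zero {n : ℕ} {x x' : (Fin n → H) → B} (hx : inhomogeneousCochains.d B n x = 0)
    (hx' : inhomogeneousCochains.d B n x' = 0) : inhomogeneousCochains.d B n (x - x') = 0 := by
  rw [map_sub, hx, hx', sub_zero]

lemma d_nsmul_zero {n : ℕ} (c : ℕ) {x : (Fin n → H) → B}
    (hx : inhomogeneousCochains.d B n x = 0) : inhomogeneousCochains.d B n (c • x) = 0 := by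
  rw [map_nsmul, hx, smul_zero]

lemma d_zsmul_zero {n : ℕ} (c : ℤ) {x : (Fin n → H) → B}
    (hx : inhomogeneousCochains.d B n x = 0) : inhomogeneousCochains.d B n (c • x) = 0 := by
  rw [map_zsmul, hx, smul_zero]

lemma d_d_zero {n : ℕ} (y : (Fin n → H) → B) :
    inhomogeneousCochains.d B (n + 1) (inhomogeneousCochains.d B n y) = 0 := by
  have := congr($(inhomogeneousCochains.d_comp_d n B) y)
  simp only [ModuleCat.hom_comp, LinearMap.comp_apply] at this
  rw [this]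
  simp

lemma cls_add {n : ℕ} (x x' : (Fin n → H) → B) (hx : inhomogeneousCochains.d B n x = 0)
    (hx' : inhomogeneousCochains.d B n x' = 0) :
    cls B (x + x') (d_add_zero B hx hx') = cls B x hx + cls B x' hx' := by
  rw [cls_eq_hMk, cls_eq_hMk, cls_eq_hMk, ← map_add]
  rfl

lemma cls_sub {n : ℕ} (x x' : (Fin n → H) → B) (hx : inhomogeneousCochains.d B n x = 0)
    (hx' : inhomogeneousCochains.d B n x' = 0) :
    cls B (x - x') (d_sub_zero B hx hx') = cls B x hx - cls B x' hx' := by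
  rw [cls_eq_hMk, cls_eq_hMk, cls_eq_hMk, ← map_sub]
  rfl

lemma cls_nsmul {n : ℕ} (c : ℕ) (x : (Fin n → H) → B) (hx : inhomogeneousCochains.d B n x = 0) :
    cls B (c • x) (d_nsmul_zero B c hx) = c • cls B x hx := by
  rw [cls_eq_hMk, cls_eq_hMk, ← map_nsmul]
  rfl

lemma cls_zsmul {n : ℕ} (c : ℤ) (x : (Fin n → H) → B) (hx : inhomogeneousCochains.d B n x = 0) :
    cls B (c • x) (d_zsmul_zero B c hx) = c • cls B x hx := by
  rw [cls_eq_hMk, cls_eq_hMk, ← map_zsmul]
  rfl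

lemma cls_smul {n : ℕ} (c : k) (x : (Fin n → H) → B) (hx : inhomogeneousCochains.d B n x = 0) :
    cls B (c • x) (d_smul_eq_zero c hx) = c • cls B x hx :=
  π_cocyclesMk_smul B c x hx

/-- every class is the class of a cocycle -/
lemma exists_cls_eq {n : ℕ} (z : groupCohomology B n) :
    ∃ (x : (Fin n → H) → B) (hx : inhomogeneousCochains.d B n x = 0), cls B x hx = z :=
  π_cocyclesMk_surjective B z

/-- the class of a cocycle vanishes iff it is a coboundary -/
lemma cls_eq_zero_iff {n : ℕ} (x : (Fin (n + 1) → H) → B)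
    (hx : inhomogeneousCochains.d B (n + 1) x = 0) :
    cls B x hx = 0 ↔ ∃ w : (Fin n → H) → B, inhomogeneousCochains.d B n w = x :=
  π_cocyclesMk_eq_zero_iff B x hx

/-- the class of a coboundary vanishes -/
lemma cls_d {n : ℕ} (w : (Fin n → H) → B) :
    cls B (inhomogeneousCochains.d B n w) (d_d_zero B w) = 0 :=
  (cls_eq_zero_iff B _ _).2 ⟨w, rfl⟩

/-- two cocycles have the same class iff they differ by a coboundary -/
lemma cls_eq_iff {n : ℕ} (x x' : (Fin (n + 1) → H) → B)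
    (hx : inhomogeneousCochains.d B (n + 1) x = 0)
    (hx' : inhomogeneousCochains.d B (n + 1) x' = 0) :
    cls B x hx = cls B x' hx' ↔
      ∃ w : (Fin n → H) → B, x = x' + inhomogeneousCochains.d B n w := by
  rw [← sub_eq_zero, ← cls_sub B x x' hx hx', cls_eq_zero_iff]
  constructor
  · rintro ⟨w, hw⟩
    exact ⟨w, by rw [hw]; abel⟩
  · rintro ⟨w, hw⟩
    exact ⟨w, by rw [hw]; abel⟩

/-- a class which is killed by `c` : cochain form -/
lemma nsmul_cls_eq_zero_iff {n : ℕ} (c : ℕ) (x : (Fin (n + 1) → H) → B)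
    (hx : inhomogeneousCochains.d B (n + 1) x = 0) :
    c • cls B x hx = 0 ↔ ∃ y : (Fin n → H) → B, inhomogeneousCochains.d B n y = c • x := by
  rw [← cls_nsmul B c x hx, cls_eq_zero_iff]

end Dict

section DictMap

variable {k : Type u} [CommRing k] {G H : Type u} [Group G] [Group H]

/-- the pull-back of a cocycle is a cocycle -/
lemma d_pullC_zero (f : G →* H) {A : Rep.{u} k H} {B : Rep.{u} k G} (φ : Rep.res f A ⟶ B)
    {n : ℕ} {x : (Fin n → H) → A} (hx : inhomogeneousCochains.d A n x = 0) :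
    inhomogeneousCochains.d B n (pullC f φ x) = 0 := by
  rw [d_pullC, hx, pullC_zero]

/-- **Functoriality on classes**: `map f φ n [x] = [φ ∘ x ∘ f]`. -/
theorem map_cls (f : G →* H) {A : Rep.{u} k H} {B : Rep.{u} k G} (φ : Rep.res f A ⟶ B)
    {n : ℕ} (x : (Fin n → H) → A) (hx : inhomogeneousCochains.d A n x = 0) :
    (groupCohomology.map f φ n).hom (cls A x hx) =
      cls B (pullC f φ x) (d_pullC_zero f φ hx) := by
  rw [cls_eq_hMk, cls_eq_hMk]
  exact Elt.homologyMap_hMk (groupCohomology.cochainsMap f φ) n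
    ⟨x, (mem_zSub_inhomogeneousCochains_iff A x).2 hx⟩

/-- post-composition of a cocycle with a morphism of representations is a cocycle -/
lemma d_compC_zero {A B : Rep.{u} k H} (ι : A ⟶ B) {n : ℕ} {x : (Fin n → H) → A}
    (hx : inhomogeneousCochains.d A n x = 0) :
    inhomogeneousCochains.d B n (compC ι n x) = 0 := by
  have h := d_compC ι n x
  rw [hx] at h
  rw [h]
  funext g
  exact map_zero ι.hom

/-- **Functoriality on classes**, same group: `map id ι n [x] = [ι ∘ x]`. -/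
theorem map_id_cls {A B : Rep.{u} k H} (ι : A ⟶ B) {n : ℕ} (x : (Fin n → H) → A)
    (hx : inhomogeneousCochains.d A n x = 0) :
    (groupCohomology.map (MonoidHom.id H) ι n).hom (cls A x hx) =
      cls B (compC ι n x) (d_compC_zero ι hx) := by
  rw [cls_eq_hMk, cls_eq_hMk]
  exact Elt.homologyMap_hMk (groupCohomology.cochainsMap (MonoidHom.id H) ι) n
    ⟨x, (mem_zSub_inhomogeneousCochains_iff A x).2 hx⟩

end DictMap

/-! ### The class-level maps of an ambient tower -/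

section Bridge

variable {k G : Type u} [CommRing k] [Group G]
variable {ι : Type w} [Preorder ι] {𝒰 : LevelSystem G} {J D : Rep.{u} k G}
  {Q : ι → Type u} [∀ i, Group (Q i)] {JA A : ∀ i, Rep.{u} k (Q i)}

/-- the transition maps of a tower on classes -/
abbrev trT (T : Tower 𝒰 D Q A) {i j : ι} (h : i ≤ j) (n : ℕ) :
    groupCohomology (A i) n ⟶ groupCohomology (A j) n :=
  groupCohomology.map (T.τ h) (T.t h) n

lemma trT_cls (T : Tower 𝒰 D Q A) {i j : ι} (h : i ≤ j) {n : ℕ} (x : (Fin n → Q i) → A i)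
    (hx : inhomogeneousCochains.d (A i) n x = 0) :
    (trT T h n).hom (cls (A i) x hx) =
      cls (A j) (T.pullT h x) (d_pullC_zero (T.τ h) (T.t h) hx) :=
  map_cls (T.τ h) (T.t h) x hx

variable {TJ : Tower 𝒰 J Q JA} {T : Tower 𝒰 D Q A} {g : J ⟶ D} {p : ℕ}
  {B : ∀ i, Rep.{u} k (Q i)}

/-- the transition maps of the ambient modules on classes -/
abbrev trB (E : Ambient T p B) {i j : ι} (h : i ≤ j) (n : ℕ) :
    groupCohomology (B i) n ⟶ groupCohomology (B j) n :=
  groupCohomology.map (T.τ h) (E.s h) n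

lemma d_pullS_zero (E : Ambient T p B) {i j : ι} (h : i ≤ j) {n : ℕ} {x : (Fin n → Q i) → B i}
    (hx : inhomogeneousCochains.d (B i) n x = 0) :
    inhomogeneousCochains.d (B j) n (E.pullS h x) = 0 := by
  rw [E.d_pullS, hx, E.pullS_zero]

lemma trB_cls (E : Ambient T p B) {i j : ι} (h : i ≤ j) {n : ℕ} (x : (Fin n → Q i) → B i)
    (hx : inhomogeneousCochains.d (B i) n x = 0) :
    (trB E h n).hom (cls (B i) x hx) = cls (B j) (E.pullS h x) (d_pullS_zero E h hx) :=
  map_cls (T.τ h) (E.s h) x hx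

/-- the stage maps `JA i ⟶ A i ⟶ B i` on classes -/
abbrev stJB (E : Ambient T p B) (M : TowerMap TJ T g) (i : ι) (n : ℕ) :
    groupCohomology (JA i) n ⟶ groupCohomology (B i) n :=
  groupCohomology.map (MonoidHom.id (Q i)) (M.gst i ≫ E.inc i) n

lemma d_inc_gst_zero (E : Ambient T p B) (M : TowerMap TJ T g) (i : ι) {n : ℕ}
    {ζ : (Fin n → Q i) → JA i} (hζ : inhomogeneousCochains.d (JA i) n ζ = 0) :
    inhomogeneousCochains.d (B i) n (compC (E.inc i) n (compC (M.gst i) n ζ)) = 0 :=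
  d_compC_zero (E.inc i) (d_compC_zero (M.gst i) hζ)

lemma stJB_cls (E : Ambient T p B) (M : TowerMap TJ T g) (i : ι) {n : ℕ}
    (ζ : (Fin n → Q i) → JA i) (hζ : inhomogeneousCochains.d (JA i) n ζ = 0) :
    (stJB E M i n).hom (cls (JA i) ζ hζ) =
      cls (B i) (compC (E.inc i) n (compC (M.gst i) n ζ)) (d_inc_gst_zero E M i hζ) :=
  map_id_cls (M.gst i ≫ E.inc i) ζ hζ

/-- `stJB` is the composite of the maps induced by `gst` and `inc` -/
lemma stJB_apply (E : Ambient T p B) (M : TowerMap TJ T g) (i : ι) (n : ℕ)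
    (ξ : groupCohomology (JA i) n) :
    (stJB E M i n).hom ξ =
      (groupCohomology.map (MonoidHom.id (Q i)) (E.inc i) n).hom
        ((groupCohomology.map (MonoidHom.id (Q i)) (M.gst i) n).hom ξ) := by
  obtain ⟨ζ, hζ, rfl⟩ := exists_cls_eq (JA i) ξ
  rw [stJB_cls, map_id_cls, map_id_cls]

variable [IsDirected ι (· ≤ ·)] [IsDiscrete 𝒰 D]

/-! ### `[A]` -/

/-- **No `p`-torsion in `Hlc 𝒰 D (n + 1)`** if the ambient finite-level cohomology groups
`H^{n+1}(Q i, B i)` have none (class form of `Ambient.Hlc_pTorsionFree_of_ambient`). -/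
theorem pTorsionFree_of_classes (E : Ambient T p B) (hp : p.Prime) {n : ℕ}
    (hB : ∀ i (z : groupCohomology (B i) (n + 1)) (m : ℕ), p ^ m • z = 0 → z = 0)
    (y : Hlc 𝒰 D (n + 1)) (m : ℕ) (hy : p ^ m • y = 0) : y = 0 := by
  refine E.Hlc_pTorsionFree_of_ambient hp (fun i x hx m b hb => ?_) y m hy
  have h0 : cls (B i) x hx = 0 :=
    hB i _ m ((nsmul_cls_eq_zero_iff (B i) (p ^ m) x hx).2 ⟨b, hb⟩)
  obtain ⟨w, hw⟩ := (cls_eq_zero_iff (B i) x hx).1 h0
  exact ⟨w, hw.symm⟩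

/-! ### `FIN-cyc` -/

/-- **`hD2`** from the class form of `FIN-cyc`: a `p`-torsion class `z₀` of `H^{n+1}(Q i₀, B i₀)`
which stays non-trivial at all later stages and of which every `p`-torsion class becomes a
multiple at a later stage. -/
theorem torsion_card_of_classes (E : Ambient T p B) (hp : p.Prime) {n : ℕ} (i₀ : ι)
    (z₀ : groupCohomology (B i₀) (n + 1)) (hz₀ : p • z₀ = 0)
    (hne : ∀ j (h : i₀ ≤ j), (trB E h (n + 1)).hom z₀ ≠ 0)
    (hspan : ∀ i (z : groupCohomology (B i) (n + 1)), p • z = 0 →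
      ∃ j, ∃ (hi : i ≤ j) (h0 : i₀ ≤ j) (c : ℕ),
        (trB E hi (n + 1)).hom z = c • (trB E h0 (n + 1)).hom z₀) :
    Nat.card (Fermat.Agent.GC.Global.KummerBridge.torsC (p : k) (Hlc 𝒰 D (n + 1))) = p := by
  obtain ⟨x₀, hx₀, rfl⟩ := exists_cls_eq (B i₀) z₀
  obtain ⟨y₀, hy₀⟩ := (nsmul_cls_eq_zero_iff (B i₀) p x₀ hx₀).1 hz₀
  refine E.torsion_card_of_fin hp i₀ x₀ hx₀ y₀ hy₀ (fun j h w hw => ?_)
    (fun i x hx y hy => ?_)
  · apply hne j h
    rw [trB_cls, cls_eq_zero_iff]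
    exact ⟨w, hw.symm⟩
  · obtain ⟨j, hi, h0, c, hc⟩ :=
      hspan i (cls (B i) x hx) ((nsmul_cls_eq_zero_iff _ _ x hx).2 ⟨y, hy⟩)
    rw [trB_cls, trB_cls, ← cls_nsmul, cls_eq_iff] at hc
    obtain ⟨w, hw⟩ := hc
    exact ⟨j, hi, h0, c, w, hw⟩

/-- In an additive group: if `p • z = 0` and `z₀ = c • z ≠ 0` then `z` is a multiple of `z₀`. -/
lemma exists_nsmul_of_nsmul_ne_zero {X : Type*} [AddCommGroup X] {q : ℕ} (hq : q.Prime)
    {z z₀ : X} (hz : q • z = 0) (c : ℕ) (hc : z₀ = c • z) (h0 : z₀ ≠ 0) :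
    ∃ c' : ℕ, z = c' • z₀ := by
  have hcop : Nat.Coprime c q := by
    rw [Nat.coprime_comm, Nat.Prime.coprime_iff_not_dvd hq]
    rintro ⟨r, rfl⟩
    apply h0
    rw [hc, mul_comm, mul_smul, hz, smul_zero]
  obtain ⟨m, -, hm⟩ := Nat.exists_mul_mod_eq_one_of_coprime hcop hq.one_lt
  refine ⟨m, ?_⟩
  have hdecomp : c * m = q * (c * m / q) + 1 := by
    rw [← hm]
    exact (Nat.div_add_mod (c * m) q).symm
  rw [hc, ← mul_smul, mul_comm m c, hdecomp, add_smul, mul_comm, mul_smul, hz, smul_zero, zero_add,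
    one_smul]

/-- **`hD2`** from "the `p`-torsion of `H^{n+1}(Q j, B j)` is cyclic" at a cofinal set of stages
`j` (in the form: two `p`-torsion classes are multiples of one another), and a `p`-torsion class
`z₀` which stays non-trivial at all later stages. -/
theorem torsion_card_of_mult (E : Ambient T p B) (hp : p.Prime) {n : ℕ} (i₀ : ι)
    (z₀ : groupCohomology (B i₀) (n + 1)) (hz₀ : p • z₀ = 0)
    (hne : ∀ j (h : i₀ ≤ j), (trB E h (n + 1)).hom z₀ ≠ 0)
    (hmult : ∀ i, ∃ j, ∃ _ : i ≤ j, ∀ z z' : groupCohomology (B j) (n + 1),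
      p • z = 0 → p • z' = 0 → ∃ c : ℕ, z' = c • z ∨ z = c • z') :
    Nat.card (Fermat.Agent.GC.Global.KummerBridge.torsC (p : k) (Hlc 𝒰 D (n + 1))) = p := by
  refine torsion_card_of_classes E hp i₀ z₀ hz₀ hne (fun i z hz => ?_)
  obtain ⟨j₁, hi1, h01⟩ := exists_ge_ge i i₀
  obtain ⟨j, h1j, hm⟩ := hmult j₁
  have hi : i ≤ j := hi1.trans h1j
  have h0 : i₀ ≤ j := h01.trans h1j
  have hzj : p • (trB E hi (n + 1)).hom z = 0 := by rw [← map_nsmul, hz, map_zero]
  have hz0j : p • (trB E h0 (n + 1)).hom z₀ = 0 := by rw [← map_nsmul, hz₀, map_zero]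
  obtain ⟨c, hc | hc⟩ := hm _ _ hz0j hzj
  · exact ⟨j, hi, h0, c, hc⟩
  · obtain ⟨c', hc'⟩ := exists_nsmul_of_nsmul_ne_zero hp hzj c hc (hne j h0)
    exact ⟨j, hi, h0, c', hc'⟩

/-- **`hD2`**, variant: the transition maps are injective on `p`-torsion classes, `z₀ ≠ 0`, and the
cyclicity statement holds at ALL stages. -/
theorem torsion_card_of_mult_of_inj (E : Ambient T p B) (hp : p.Prime) {n : ℕ} (i₀ : ι)
    (z₀ : groupCohomology (B i₀) (n + 1)) (hz₀ : p • z₀ = 0) (hz₀ne : z₀ ≠ 0)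
    (hinj : ∀ j (h : i₀ ≤ j) (z : groupCohomology (B i₀) (n + 1)), p • z = 0 →
      (trB E h (n + 1)).hom z = 0 → z = 0)
    (hmult : ∀ i (z z' : groupCohomology (B i) (n + 1)),
      p • z = 0 → p • z' = 0 → ∃ c : ℕ, z' = c • z ∨ z = c • z') :
    Nat.card (Fermat.Agent.GC.Global.KummerBridge.torsC (p : k) (Hlc 𝒰 D (n + 1))) = p :=
  torsion_card_of_mult E hp i₀ z₀ hz₀ (fun j h h0 => hz₀ne (hinj j h z₀ hz₀ h0))
    (fun i => ⟨i, le_rfl, hmult i⟩)

/-! ### `FIN-onto` and `FIN-div` -/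

variable [IsDiscrete 𝒰 J]

/-- **`bontop`** from the class form of `FIN-onto`: every `p`-power torsion class of
`H^{n+1}(Q i, B i)` comes, at a later stage, from a class of `H^{n+1}(Q j, JA j)`. -/
theorem bontop_of_classes (E : Ambient T p B) (M : TowerMap TJ T g) (hp : p.Prime) {n : ℕ}
    (honto : ∀ i (z : groupCohomology (B i) (n + 1)) (a : ℕ), p ^ a • z = 0 →
      ∃ j, ∃ h : i ≤ j, ∃ ξ : groupCohomology (JA j) (n + 1),
        (trB E h (n + 1)).hom z = (stJB E M j (n + 1)).hom ξ)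
    (z : Hlc 𝒰 D (n + 1)) (hz : ∃ a : ℕ, p ^ a • z = 0) :
    ∃ x : Hlc 𝒰 J (n + 1), HlcMap 𝒰 g (n + 1) x = z := by
  refine E.bontop_of_fin M hp (fun i x hx a y hy => ?_) z hz
  have hz0 : p ^ a • cls (B i) x hx = 0 := (nsmul_cls_eq_zero_iff _ _ x hx).2 ⟨y, hy⟩
  obtain ⟨j, h, ξ, hξ⟩ := honto i _ a hz0
  obtain ⟨ζ, hζ, rfl⟩ := exists_cls_eq (JA j) ξ
  rw [trB_cls, stJB_cls, cls_eq_iff] at hξ
  obtain ⟨w, hw⟩ := hξ
  exact ⟨j, h, ζ, w, hζ, hw⟩

/-- **`bdivp`** from the class form of `FIN-div`: a `p`-power torsion class of `H^{n+1}(Q i, JA i)`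
dying in `H^{n+1}(Q i, B i)` becomes, at a later stage, `p` times a class dying in
`H^{n+1}(Q j, B j)`. -/
theorem bdivp_of_classes (E : Ambient T p B) (M : TowerMap TJ T g) (hp : p.Prime) {n : ℕ}
    (hdiv : ∀ i (ξ : groupCohomology (JA i) (n + 1)) (a : ℕ), p ^ a • ξ = 0 →
      (stJB E M i (n + 1)).hom ξ = 0 →
      ∃ j, ∃ h : i ≤ j, ∃ ξ' : groupCohomology (JA j) (n + 1),
        (trT TJ h (n + 1)).hom ξ = p • ξ' ∧ (stJB E M j (n + 1)).hom ξ' = 0)
    (x : Hlc 𝒰 J (n + 1)) (hgx : HlcMap 𝒰 g (n + 1) x = 0) (hx : ∃ a : ℕ, p ^ a • x = 0) :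
    ∃ x' : Hlc 𝒰 J (n + 1), HlcMap 𝒰 g (n + 1) x' = 0 ∧ (p : k) • x' = x := by
  refine E.bdivp_of_fin M hp (fun i ξ hξ a η hη w hw => ?_) x hgx hx
  have h1 : p ^ a • cls (JA i) ξ hξ = 0 := (nsmul_cls_eq_zero_iff _ _ ξ hξ).2 ⟨η, hη⟩
  have h2 : (stJB E M i (n + 1)).hom (cls (JA i) ξ hξ) = 0 := by
    rw [stJB_cls, cls_eq_zero_iff]
    exact ⟨w, hw.symm⟩
  obtain ⟨j, h, ξc, hdivξ, hst⟩ := hdiv i _ a h1 h2
  obtain ⟨ξ', hξ', rfl⟩ := exists_cls_eq (JA j) ξc
  rw [trT_cls, ← cls_nsmul, cls_eq_iff] at hdivξ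
  obtain ⟨η', hη'⟩ := hdivξ
  rw [stJB_cls, cls_eq_zero_iff] at hst
  obtain ⟨w', hw'⟩ := hst
  exact ⟨j, h, ξ', η', w', hξ', hη', hw'.symm⟩

end Bridge

end Fermat.Agent.GC.Global.Limit.FinBridge
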