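/-
GATE-C / C4 final glue on the limit side, CLASS-LEVEL form (helper12).

`EJDHyp (levelK S K) p (ideleSK S K)` and `hD2` from statements about the FINITE groups
`H²(Gal(L/K), CS(L,S,T))`, `H²(Gal(L/K), J(L,S))` and the maps induced by helper80's `trS`
(`= transCS`), helper12's `trJ` (`= inflJ`) and `incS ∘ gstJC` (`= extC ∘ JtoC`) — no cochains,
no towers, no hypotheses on `K` in the statements `ClsOnto`, `ClsDiv`, `ClsCyc`.
(helper74's `FinBridge` applied to helper80's `ambientDS` / `towerMapT`.)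
-/
import Fermat.Agent.GC.Global.Limit.EJDModel
import Fermat.Agent.GC.Global.Limit.FinBridge

set_option autoImplicit false
set_option linter.unusedSectionVars false

open CategoryTheory groupCohomology

noncomputable section

namespace Fermat.Agent.GC.Global.Limit.EJDModel

open Fermat.Agent.GC.Prof Fermat.Agent.GC.Global Fermat.Agent.GC.Global.Funct
open Fermat.Agent.GC.Global.Limit.ColimVanish Fermat.Agent.GC.Global.Limit.LayerTower
open Fermat.Agent.GC.Global.Limit.CompareCS Fermat.Agent.GC.Global.Limit.TowerJS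
open Fermat.Agent.GC.Global.Limit.AmbientModel Fermat.Agent.GC.Global.Limit.FinBridge
open Fermat.Agent.GC.Global.KummerBridge
open Fermat.Agent.GC.LimJ Fermat.Agent.GC.Places Fermat.Agent.GC.C0 Fermat.Agent.GC.KumH

local notation "GQ" => (Qb ≃ₐ[ℚ] Qb)

variable {S : Finset Nat.Primes} {K : IntermediateField ℚ Qb} {p : ℕ}

/-! ### The class-level maps at the model -/

/-- the transition `H²(Gal(L/K), CS(L,S,T)) → H²(Gal(L'/K), CS(L',S,T'))` -/
abbrev trBS {i j : LayerT S K p} (h : i ≤ j) :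
    groupCohomology (BS i.ℓ i.T) 2 ⟶ groupCohomology (BS j.ℓ j.T) 2 :=
  groupCohomology.map (tau h.1) (trS h.1 i.hST h.2) 2

/-- the transition `H²(Gal(L/K), J(L,S)) → H²(Gal(L'/K), J(L',S))` -/
abbrev trJS {i j : LayerT S K p} (h : i ≤ j) :
    groupCohomology (AJ i.ℓ) 2 ⟶ groupCohomology (AJ j.ℓ) 2 :=
  groupCohomology.map (tau h.1) (trJ h.1) 2

/-- the stage map `H²(Gal(L/K), J(L,S)) → H²(Gal(L/K), CS(L,S,T))` induced by `extC ∘ JtoC` -/
abbrev stJBS (i : LayerT S K p) :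
    groupCohomology (AJ i.ℓ) 2 ⟶ groupCohomology (BS i.ℓ i.T) 2 :=
  groupCohomology.map (MonoidHom.id (Q i.ℓ)) (gstJC i.ℓ ≫ incS i.ℓ i.hST) 2

/-! ### The finite-level statements, class form -/

variable (S K p) in
/-- **FIN-onto**, class form. -/
def ClsOnto : Prop :=
  ∀ (i : LayerT S K p) (z : groupCohomology (BS i.ℓ i.T) 2) (a : ℕ), p ^ a • z = 0 →
    ∃ j, ∃ h : i ≤ j, ∃ ξ : groupCohomology (AJ j.ℓ) 2, (trBS h).hom z = (stJBS j).hom ξ

variable (S K p) in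
/-- **FIN-div**, class form. -/
def ClsDiv : Prop :=
  ∀ (i : LayerT S K p) (ξ : groupCohomology (AJ i.ℓ) 2) (a : ℕ), p ^ a • ξ = 0 →
    (stJBS i).hom ξ = 0 →
    ∃ j, ∃ h : i ≤ j, ∃ ξ' : groupCohomology (AJ j.ℓ) 2,
      (trJS h).hom ξ = p • ξ' ∧ (stJBS j).hom ξ' = 0

variable (S K p) in
/-- **FIN-cyc**, class form: a `p`-torsion ambient class which survives at all later stages, and
cyclicity of the `p`-torsion of `H²(Gal(L/K), CS(L,S,T))` at a cofinal set of stages. -/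
def ClsCyc : Prop :=
  ∃ (i₀ : LayerT S K p) (z₀ : groupCohomology (BS i₀.ℓ i₀.T) 2), p • z₀ = 0 ∧
    (∀ j (h : i₀ ≤ j), (trBS h).hom z₀ ≠ 0) ∧
    (∀ i : LayerT S K p, ∃ j, ∃ _ : i ≤ j, ∀ z z' : groupCohomology (BS j.ℓ j.T) 2,
      p • z = 0 → p • z' = 0 → ∃ c : ℕ, z' = c • z ∨ z = c • z')

/-! ### The fields of `EJDHyp` -/

section EJD

variable [FiniteDimensional ℚ K]

/-- `bontop` from `ClsOnto`. -/
theorem bontop_ideleSK_cls (hp : p.Prime) (hpS : (⟨p, hp⟩ : Nat.Primes) ∈ S)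
    (hK : K.IsUnramifiedOutside S) (hS : S.Nonempty) (hfin : ClsOnto S K p)
    (z : Hlc (levelK S K) (ideleSK S K).X₃ 2) (hz : ∃ a : ℕ, p ^ a • z = 0) :
    ∃ x : Hlc (levelK S K) (ideleSK S K).X₂ 2, HlcMap (levelK S K) (ideleSK S K).g 2 x = z := by
  have : Fact p.Prime := ⟨hp⟩
  exact bontop_of_classes (ambientDS hK hS hp hpS) (towerMapT hK hS hp) hp (n := 1) hfin z hz

/-- `hD2` from `ClsCyc`. -/
theorem hD2_ideleSK_cls (hp : p.Prime) (hpS : (⟨p, hp⟩ : Nat.Primes) ∈ S)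
    (hK : K.IsUnramifiedOutside S) (hS : S.Nonempty) (hfin : ClsCyc S K p) :
    Nat.card (torsC ((p : ℕ) : ℤ) (Hlc (levelK S K) (ideleSK S K).X₃ 2)) = p := by
  have : Fact p.Prime := ⟨hp⟩
  obtain ⟨i₀, z₀, hz₀, hne, hmult⟩ := hfin
  exact torsion_card_of_mult (ambientDS hK hS hp hpS) hp (n := 1) i₀ z₀ hz₀ hne hmult

/-- **`EJDHyp` for the restricted `S`-idele class sequence, from class-level finite statements.** -/
theorem ejdHyp_ideleSK_cls (hp : p.Prime) (hp2 : p ≠ 2) (hpS : (⟨p, hp⟩ : Nat.Primes) ∈ S)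
    (hK : K.IsUnramifiedOutside S) (hS : S.Nonempty)
    {ζ : Qb} (hζ : IsPrimitiveRoot ζ p) (hζK : ζ ∈ K)
    (hJ1 : ∀ x : Hlc (levelK S K) (ideleSK S K).X₂ 1, x = 0)
    (hJ3 : ∀ x : Hlc (levelK S K) (ideleSK S K).X₂ 3, x = 0)
    (hOnto : ClsOnto S K p) (hDiv : ClsDiv S K p) :
    EJDHyp (levelK S K) p (ideleSK S K) where
  atf d hd := atf_ideleSK hp hp2 hpS hK hζ hζK d ((int_smul_eq_zsmul _ _ d).symm.trans hd)
  j1 x := by rw [hJ1 x, map_zero]
  j3 x _ := hJ3 x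
  bdivp x hgx hx := by
    have : Fact p.Prime := ⟨hp⟩
    exact bdivp_of_classes (ambientDS hK hS hp hpS) (towerMapT hK hS hp) hp (n := 1) hDiv x hgx hx
  bontop := bontop_ideleSK_cls hp hpS hK hS hOnto

end EJD

end Fermat.Agent.GC.Global.Limit.EJDModel
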