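/-
GATE-C / C4 (LM-J)=(A7), part 11 (helper71): **(D)-INST, second half** — the coarse local data
of `J_S` transported to the absolute Galois group `GalLoc q K s = Gal(PadicAlgCl q / K_w)` of the
local field, where helper26's `GC/Local/CoarseLevel.lean` applies, and the resulting local and
global statements.
-/
import Fermat.Agent.GC.Global.Limit.IdeleSLocal
import Fermat.Agent.GC.Local.CoarseLevel
import Fermat.Agent.GC.Places.LocIso

set_option autoImplicit false
set_option linter.unusedSectionVars false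

open CategoryTheory
open scoped Padic

noncomputable section

namespace Fermat.Agent.GC.LimJ

open Fermat.Agent.GC.Prof Fermat.Agent.GC.C0 Fermat.Agent.GC.Local.KR Fermat.Agent.GC.Local.Abs
  Fermat.Agent.GC.KumH Fermat.Agent.GC.Global.Mackey Fermat.Agent.GC.Places
  Fermat.Agent.GC.Local.Coarse

local notation "Qb" => AlgebraicClosure ℚ
local notation "GQ" => (AlgebraicClosure ℚ ≃ₐ[ℚ] AlgebraicClosure ℚ)

section Alg

variable (S : Finset Nat.Primes) (q : ℕ) [Fact q.Prime] (K : IntermediateField ℚ Qb) (s : GQ)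

/-- the coarse level system on `Gal(PadicAlgCl q / K_w)` -/
abbrev levelLocSAlg : LevelSystem (GalLoc q K s) := (levelK S K).comap (locHomAlg q K s)

/-- `((ℚ_S)_q)ˣ` as a module over `Gal(PadicAlgCl q / K_w)` -/
abbrev locCoeffSAlg : Rep ℤ (GalLoc q K s) :=
  Rep.res (locGroupEquiv q K s).symm.toMonoidHom (locCoeffS S q K s)

theorem isContHom_locGroupEquiv_symm_coarse :
    IsContHom (levelLocSAlg S q K s) (levelLocS S q K s)
      (locGroupEquiv q K s).symm.toMonoidHom := by
  rintro _ ⟨V, hV, rfl⟩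
  exact ⟨V.comap (locHomAlg q K s), ⟨V, hV, rfl⟩, le_rfl⟩

theorem isContHom_locGroupEquiv_coarse :
    IsContHom (levelLocS S q K s) (levelLocSAlg S q K s)
      (locGroupEquiv q K s).toMonoidHom := by
  rintro _ ⟨V, hV, rfl⟩
  refine ⟨V.comap (locHom q K s), ⟨V, hV, rfl⟩, fun d hd => ?_⟩
  show locHomAlg q K s (locGroupEquiv q K s d) ∈ V
  rw [locHomAlg_apply, MulEquiv.symm_apply_apply]
  exact hd

instance isDiscrete_locCoeffSAlg : IsDiscrete (levelLocSAlg S q K s) (locCoeffSAlg S q K s) :=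
  IsDiscrete.res (isContHom_locGroupEquiv_symm_coarse S q K s) (locCoeffS S q K s)

/-- the full level system of `Gal(PadicAlgCl q / K_w)` refines the coarse one -/
theorem isContHom_id_galLevels_levelLocSAlg [FiniteDimensional ℚ K] :
    IsContHom (levelGalLoc q K s) (levelLocSAlg S q K s) (MonoidHom.id (GalLoc q K s)) :=
  isContHom_iff_comap.1 (isContHom_locHomAlg S q K s)

/-- the inclusion `((ℚ_S)_q)ˣ ⟶ (PadicAlgCl q)ˣ` over `Gal(PadicAlgCl q / K_w)` -/
def locFullHomAlg : locCoeffSAlg S q K s ⟶ unitsRep (locField q K s) (PadicAlgCl q) :=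
  Rep.ofHom
    ⟨{ toFun := fun a => (Additive.ofMul (locUnitsS.unit S q a) : Additive (PadicAlgCl q)ˣ)
       map_add' := fun _ _ => rfl
       map_smul' := fun _ _ => rfl },
     fun σ => by
       ext a
       rfl⟩

lemma locFullHomAlg_hom_apply (a : locUnitsS S q) :
    (locFullHomAlg S q K s).hom a = Additive.ofMul (locUnitsS.unit S q a) := rfl

lemma locFullHomAlg_injective : Function.Injective (locFullHomAlg S q K s).hom := by
  intro a b h
  exact locUnitsS.unit_injective (Additive.ofMul.injective h)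

/-- the hypothesis "the coarse level system is generated by finite Galois levels"
(helper26's `CoarseHyp.gal`; supplied by helper69's `GC/Places/CoarseGal.lean`) -/
def CoarseGalHyp : Prop :=
  ∀ U ∈ (levelLocSAlg S q K s).sets, ∃ N : IntermediateField (locField q K s) (PadicAlgCl q),
    FiniteDimensional (locField q K s) N ∧ IsGalois (locField q K s) N ∧
      N.fixingSubgroup ∈ (levelLocSAlg S q K s).sets ∧ N.fixingSubgroup ≤ U

variable [FiniteDimensional ℚ K] (hK : K.IsUnramifiedOutside S)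

include hK in
/-- the units fixed by a member of the coarse level system lie in `((ℚ_S)_q)ˣ` -/
theorem locFullHomAlg_hdisc (a : unitsRep (locField q K s) (PadicAlgCl q))
    (ha : ∃ U ∈ (levelLocSAlg S q K s).sets,
      ∀ u ∈ U, (unitsRep (locField q K s) (PadicAlgCl q)).ρ u a = a) :
    ∃ b : locCoeffSAlg S q K s, (locFullHomAlg S q K s).hom b = a := by
  obtain ⟨_, ⟨V, hV, rfl⟩, h⟩ := ha
  obtain ⟨b, hb⟩ := locFullHom_hdisc S q K s hK a
    ⟨V.comap (locHom q K s), ⟨V, hV, rfl⟩, fun u hu => by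
      refine h (locGroupEquiv q K s u) ?_
      show locHomAlg q K s (locGroupEquiv q K s u) ∈ V
      rw [locHomAlg_apply, MulEquiv.symm_apply_apply]
      exact hu⟩
  exact ⟨b, hb⟩

include hK in
/-- **helper26's `CoarseHyp` for the coarse local data of `J_S`** -/
theorem coarseHyp_locFullHomAlg (hgal : CoarseGalHyp S q K s) :
    CoarseHyp (levelLocSAlg S q K s) (locFullHomAlg S q K s) :=
  ⟨locFullHomAlg_injective S q K s, locFullHomAlg_hdisc S q K s hK, hgal⟩

/-- subgroup form ↔ absolute form of the coarse local cohomology -/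
def HlcCoarseAlgIso (n : ℕ) :
    Hlc (levelLocS S q K s) (locCoeffS S q K s) n ≅
      Hlc (levelLocSAlg S q K s) (locCoeffSAlg S q K s) n :=
  HlcMulEquivIso (locGroupEquiv q K s).symm (locCoeffS S q K s)
    (isContHom_locGroupEquiv_symm_coarse S q K s) (isContHom_locGroupEquiv_coarse S q K s) n

lemma HlcCoarseAlgIso_hom (n : ℕ) :
    (HlcCoarseAlgIso S q K s n).hom =
      HlcRes (isContHom_locGroupEquiv_symm_coarse S q K s) (locCoeffS S q K s) n := rfl

lemma HlcCoarseAlgIso_hom_injective (n : ℕ) :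
    Function.Injective (HlcCoarseAlgIso S q K s n).hom :=
  (HlcCoarseAlgIso S q K s n).toLinearEquiv.injective

include hK in
/-- **(D)-H1 at the places of `K`**: `Hlc¹(G_{K_w}, ((ℚ_S)_q)ˣ) = 0` -/
theorem hlc_one_locCoeffS_eq_zero (hgal : CoarseGalHyp S q K s)
    (x : Hlc (levelLocS S q K s) (locCoeffS S q K s) 1) : x = 0 := by
  apply HlcCoarseAlgIso_hom_injective S q K s 1
  rw [map_zero]
  exact hlc_one_coarse_eq_zero (coarseHyp_locFullHomAlg S q K s hK hgal) _

include hK in
/-- **(D)-H3 at the places of `K`**: `Hlc³(G_{K_w}, ((ℚ_S)_q)ˣ) = 0` -/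
theorem hlc_three_locCoeffS_eq_zero (hgal : CoarseGalHyp S q K s)
    (x : Hlc (levelLocS S q K s) (locCoeffS S q K s) 3) : x = 0 := by
  apply HlcCoarseAlgIso_hom_injective S q K s 3
  rw [map_zero]
  exact hlc_three_coarse_eq_zero q (coarseHyp_locFullHomAlg S q K s hK hgal) _

/-- the comparison map from the coarse to the full local cohomology, absolute form -/
def HlcLocFullAlg (n : ℕ) :
    Hlc (levelLocSAlg S q K s) (locCoeffSAlg S q K s) n ⟶
      Hlc (levelGalLoc q K s) (unitsRep (locField q K s) (PadicAlgCl q)) n :=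
  HlcPull (isContHom_id_galLevels_levelLocSAlg S q K s) (A := locCoeffSAlg S q K s)
    (B := unitsRep (locField q K s) (PadicAlgCl q)) (locFullHomAlg S q K s) n

include hK in
/-- **(D)-INJ at the places of `K`**: the coarse `Hlc²` injects into the Brauer group of `K_w` -/
theorem HlcLocFullAlg_two_injective (hgal : CoarseGalHyp S q K s) :
    Function.Injective (HlcLocFullAlg S q K s 2) := by
  have H := coarseHyp_locFullHomAlg S q K s hK hgal
  refine (injective_iff_map_eq_zero (HlcLocFullAlg S q K s 2).hom).2 fun x hx => ?_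
  obtain ⟨U₀, hU₀⟩ := (levelLocSAlg S q K s).nonempty
  obtain ⟨N, hfd, hg, hN, -, y, rfl⟩ := exists_inflCoarse_eq H x hU₀
  have h1 := inflCoarse_HlcPull_apply H N hN (isContHom_id_galLevels_levelLocSAlg S q K s) 2 y
  have h2 : inflBr (locField q K s) N (PadicAlgCl q) 2 y = 0 := h1.symm.trans hx
  have h3 : y = 0 := inflBr_two_injective (locField q K s) N (PadicAlgCl q)
    (h2.trans (map_zero _).symm)
  rw [h3, map_zero]

/-- the hypothesis "the coarse level system contains cyclotomic levels of arbitrarily large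
`p`-power order" (helper26's `hcyc`; supplied by helper69's `GC/Places/CoarseGal.lean`) -/
def CoarseCycHyp (p : ℕ) : Prop :=
  ∀ m : ℕ, ∃ m', m ≤ m' ∧ ∃ N : IntermediateField (locField q K s) (PadicAlgCl q),
    FiniteDimensional (locField q K s) N ∧ IsGalois (locField q K s) N ∧
      N.fixingSubgroup ∈ (levelLocSAlg S q K s).sets ∧
        ∃ ζ : PadicAlgCl q, IsPrimitiveRoot ζ (p ^ (m' + 1)) ∧ ζ ∈ N

include hK in
/-- **(D)-SURJ at the places of `K`**: the `p`-primary part of the Brauer group of `K_w` comes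
from the coarse `Hlc²` -/
theorem exists_HlcLocFullAlg_eq_of_pow_nsmul (hgal : CoarseGalHyp S q K s) (p : ℕ)
    [Fact p.Prime] (hcyc : CoarseCycHyp S q K s p) (a : ℕ)
    (y : Hlc (levelGalLoc q K s) (unitsRep (locField q K s) (PadicAlgCl q)) 2)
    (hy : p ^ a • y = 0) :
    ∃ x : Hlc (levelLocSAlg S q K s) (locCoeffSAlg S q K s) 2,
      HlcLocFullAlg S q K s 2 x = y ∧ p ^ a • x = 0 :=
  exists_HlcPull_eq_of_pow_nsmul q (coarseHyp_locFullHomAlg S q K s hK hgal)
    (isContHom_id_galLevels_levelLocSAlg S q K s) p hcyc a y hy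

end Alg

/-! ### The `w`-component of an idele, absolute form -/

section Comp

variable (S : Finset Nat.Primes) (K : IntermediateField ℚ Qb) [FiniteDimensional ℚ K]
  (q : S) (s : GQ)

/-- the `w`-component `J_S|G_K ⟶ (PadicAlgCl q)ˣ` of an idele over `Gal(PadicAlgCl q / K_w)`,
`w = ι_q ∘ s` -/
def JSlocAlg :
    Rep.res (locHomAlg ((q : Nat.Primes) : ℕ) K s) (JSK S K) ⟶
      unitsRep (locField ((q : Nat.Primes) : ℕ) K s) (PadicAlgCl ((q : Nat.Primes) : ℕ)) :=
  (show Rep.res (locHomAlg ((q : Nat.Primes) : ℕ) K s) (JSK S K) ⟶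
      locCoeffSAlg S ((q : Nat.Primes) : ℕ) K s from
    (Rep.resFunctor (locGroupEquiv ((q : Nat.Primes) : ℕ) K s).symm.toMonoidHom).map
      (JSlocEv S K q s)) ≫ locFullHomAlg S ((q : Nat.Primes) : ℕ) K s

lemma JSlocAlg_hom_apply (F : JS S) :
    (JSlocAlg S K q s).hom F =
      Additive.ofMul (JSq.val S ((q : Nat.Primes) : ℕ) (F q) s) := rfl

/-- the **localisation map** of `J_S` at the place `ι_q ∘ s` of `K` with values in the Brauer
group (for `n = 2`) of `K_w` -/
def HlcJSLocAlg (n : ℕ) :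
    Hlc (levelK S K) (JSK S K) n ⟶
      Hlc (levelGalLoc ((q : Nat.Primes) : ℕ) K s)
        (unitsRep (locField ((q : Nat.Primes) : ℕ) K s) (PadicAlgCl ((q : Nat.Primes) : ℕ))) n :=
  HlcPull (isContHom_locHomAlg S ((q : Nat.Primes) : ℕ) K s) (JSlocAlg S K q s) n

/-- the localisation map factors through the coarse local cohomology -/
theorem HlcJSLocAlg_eq (n : ℕ) :
    HlcJSLocAlg S K q s n =
      HlcJSLoc S K q s n ≫ (HlcCoarseAlgIso S ((q : Nat.Primes) : ℕ) K s n).hom ≫
        HlcLocFullAlg S ((q : Nat.Primes) : ℕ) K s n := by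
  rw [HlcCoarseAlgIso_hom]
  unfold HlcJSLoc HlcLocFullAlg HlcRes HlcJSLocAlg
  rw [← HlcPull_comp, ← HlcPull_comp]
  exact HlcPull_congr _ _ rfl rfl n

end Comp

/-! ### Global consequences -/

section Main

variable (S : Finset Nat.Primes) (K : IntermediateField ℚ Qb) [FiniteDimensional ℚ K]
  (hK : K.IsUnramifiedOutside S)
  (hgal : ∀ (q : S) (w : placeIdx ((q : Nat.Primes) : ℕ) K),
    CoarseGalHyp S ((q : Nat.Primes) : ℕ) K (placeRep ((q : Nat.Primes) : ℕ) K w))

include hK hgal in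
/-- **`Hlc¹(G_K, J_S) = 0`** (Hilbert 90 for the `S`-ideles) -/
theorem hlc_one_JSK_eq_zero (x : Hlc (levelK S K) (JSK S K) 1) : x = 0 :=
  (eq_zero_iff_forall_HlcJSLoc S K hK 1 x).2 fun q w =>
    hlc_one_locCoeffS_eq_zero S ((q : Nat.Primes) : ℕ) K _ hK (hgal q w) _

include hK hgal in
/-- **`Hlc³(G_K, J_S) = 0`** -/
theorem hlc_three_JSK_eq_zero (x : Hlc (levelK S K) (JSK S K) 3) : x = 0 :=
  (eq_zero_iff_forall_HlcJSLoc S K hK 3 x).2 fun q w =>
    hlc_three_locCoeffS_eq_zero S ((q : Nat.Primes) : ℕ) K _ hK (hgal q w) _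

include hK hgal in
/-- **Hasse principle for `Hlc²(G_K, J_S)`**: a class all of whose localisations in the Brauer
groups of the `K_w`, `w ∣ S`, vanish is zero -/
theorem eq_zero_of_forall_HlcJSLocAlg_two (x : Hlc (levelK S K) (JSK S K) 2)
    (hx : ∀ (q : S) (w : placeIdx ((q : Nat.Primes) : ℕ) K),
      HlcJSLocAlg S K q (placeRep ((q : Nat.Primes) : ℕ) K w) 2 x = 0) : x = 0 := by
  refine (eq_zero_iff_forall_HlcJSLoc S K hK 2 x).2 fun q w => ?_
  have h1 := hx q w
  rw [HlcJSLocAlg_eq] at h1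
  have h2 := HlcLocFullAlg_two_injective S ((q : Nat.Primes) : ℕ) K _ hK (hgal q w)
    (h1.trans (map_zero _).symm)
  exact HlcCoarseAlgIso_hom_injective S ((q : Nat.Primes) : ℕ) K _ 2 (h2.trans (map_zero _).symm)

include hK hgal in
/-- **`hLJ`**: every family of `p`-power-torsion classes of the Brauer groups of the `K_w`,
`w ∣ S`, is the family of localisations of a class of `Hlc²(G_K, J_S)` killed by the same power
of `p` -/
theorem exists_HlcJSLocAlg_two_eq (p : ℕ) [Fact p.Prime]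
    (hcyc : ∀ (q : S) (w : placeIdx ((q : Nat.Primes) : ℕ) K),
      CoarseCycHyp S ((q : Nat.Primes) : ℕ) K (placeRep ((q : Nat.Primes) : ℕ) K w) p) (a : ℕ)
    (b : ∀ (q : S) (w : placeIdx ((q : Nat.Primes) : ℕ) K),
      Hlc (levelGalLoc ((q : Nat.Primes) : ℕ) K (placeRep ((q : Nat.Primes) : ℕ) K w))
        (unitsRep (locField ((q : Nat.Primes) : ℕ) K (placeRep ((q : Nat.Primes) : ℕ) K w))
          (PadicAlgCl ((q : Nat.Primes) : ℕ))) 2)
    (hb : ∀ q w, p ^ a • b q w = 0) :
    ∃ x : Hlc (levelK S K) (JSK S K) 2, p ^ a • x = 0 ∧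
      ∀ (q : S) (w : placeIdx ((q : Nat.Primes) : ℕ) K),
        HlcJSLocAlg S K q (placeRep ((q : Nat.Primes) : ℕ) K w) 2 x = b q w := by
  choose y hy hy0 using fun (q : S) (w : placeIdx ((q : Nat.Primes) : ℕ) K) =>
    exists_HlcLocFullAlg_eq_of_pow_nsmul S ((q : Nat.Primes) : ℕ) K _ hK (hgal q w) p (hcyc q w) a
      (b q w) (hb q w)
  obtain ⟨x, hx, -⟩ := existsUnique_HlcJSLoc S K hK 2 fun q w =>
    (HlcCoarseAlgIso S ((q : Nat.Primes) : ℕ) K (placeRep ((q : Nat.Primes) : ℕ) K w) 2).inv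
      (y q w)
  refine ⟨x, ?_, fun q w => ?_⟩
  · refine (eq_zero_iff_forall_HlcJSLoc S K hK 2 _).2 fun q w => ?_
    rw [map_nsmul, hx q w, ← map_nsmul, hy0 q w, map_zero]
  · rw [HlcJSLocAlg_eq]
    show HlcLocFullAlg S ((q : Nat.Primes) : ℕ) K _ 2
      ((HlcCoarseAlgIso S ((q : Nat.Primes) : ℕ) K _ 2).hom (HlcJSLoc S K q _ 2 x)) = b q w
    rw [hx q w]
    have h1 : (HlcCoarseAlgIso S ((q : Nat.Primes) : ℕ) K
        (placeRep ((q : Nat.Primes) : ℕ) K w) 2).hom
        ((HlcCoarseAlgIso S ((q : Nat.Primes) : ℕ) K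
          (placeRep ((q : Nat.Primes) : ℕ) K w) 2).inv (y q w)) = y q w :=
      congr($((HlcCoarseAlgIso S ((q : Nat.Primes) : ℕ) K
        (placeRep ((q : Nat.Primes) : ℕ) K w) 2).inv_hom_id) (y q w))
    rw [h1, hy q w]

end Main

end Fermat.Agent.GC.LimJ
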