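/-
GATE-C / C4 (LM-J)=(A7), part 12 (helper71): the `EJDHyp` fields `j1`, `j3` for the exact sequence
`0 → O_S^× → J_S → D_S → 0` restricted to `G_K`, the localisation of the diagonal embedding in
helper78's language (`locSUnitsHom`), and the reduction of the Hasse principle `hHasse` for
`Hlc²(G_K, O_S^×)` to the injectivity of `Hlc²(G_K, O_S^×) → Hlc²(G_K, J_S)`.
-/
import Fermat.Agent.GC.Global.Limit.IdeleSLocalAlg
import Fermat.Agent.GC.Kummer.HlcLocKum
import Fermat.Agent.GC.Global.KummerBridgeZ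

set_option autoImplicit false
set_option linter.unusedSectionVars false

open CategoryTheory
open scoped Padic

noncomputable section

namespace Fermat.Agent.GC.LimJ

open Fermat.Agent.GC.Prof Fermat.Agent.GC.C0 Fermat.Agent.GC.Local.KR Fermat.Agent.GC.Local.Abs
  Fermat.Agent.GC.KumH Fermat.Agent.GC.Global.Mackey Fermat.Agent.GC.Places
  Fermat.Agent.GC.Local.Coarse

local notation "Qb" => AlgebraicClosure ℚ
local notation "GQ" => (AlgebraicClosure ℚ ≃ₐ[ℚ] AlgebraicClosure ℚ)

section Diag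

variable (S : Finset Nat.Primes) (K : IntermediateField ℚ Qb) [FiniteDimensional ℚ K]
  (q : S) (s : GQ)

/-- `O_S^× → J_S` restricted to `G_K` -/
abbrev EStoJSK : sUnitsK S K ⟶ JSK S K :=
  (Rep.resFunctor K.fixingSubgroup.subtype).map (EStoJS S)

/-- the `w`-component of the diagonal embedding of `O_S^×` is helper78's localisation morphism -/
theorem EStoJSK_comp_JSlocAlg :
    (Rep.resFunctor (locHomAlg ((q : Nat.Primes) : ℕ) K s)).map (EStoJSK S K) ≫
        JSlocAlg S K q s =
      locSUnitsHom S ((q : Nat.Primes) : ℕ) K s := by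
  apply Rep.hom_ext
  apply Representation.IntertwiningMap.ext
  apply LinearMap.ext
  intro u
  rfl

/-- localisation of `J_S` after the diagonal embedding of `O_S^×` is helper78's localisation of
`O_S^×` -/
theorem HlcMap_EStoJSK_comp_HlcJSLocAlg (n : ℕ) :
    HlcMap (levelK S K) (EStoJSK S K) n ≫ HlcJSLocAlg S K q s n =
      HlcPull (isContHom_locHomAlg S ((q : Nat.Primes) : ℕ) K s)
        (locSUnitsHom S ((q : Nat.Primes) : ℕ) K s) n := by
  unfold HlcJSLocAlg
  rw [HlcMap_comp_HlcPull, EStoJSK_comp_JSlocAlg]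

end Diag

/-! ### The exact sequence over `G_K` and the fields `j1`, `j3` of `EJDHyp` -/

section Seq

variable (S : Finset Nat.Primes) (K : IntermediateField ℚ Qb)

/-- `D_S` restricted to `G_K` -/
abbrev DSK : Rep ℤ K.fixingSubgroup := Rep.res K.fixingSubgroup.subtype (DS S)

instance isDiscrete_DSK : IsDiscrete (levelK S K) (DSK S K) :=
  isDiscrete_res_levelK S K (DS S)

/-- `J_S → D_S` restricted to `G_K` -/
abbrev JStoDSK : JSK S K ⟶ DSK S K :=
  (Rep.resFunctor K.fixingSubgroup.subtype).map (JStoDS S)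

/-- the short complex `O_Sˣ ⟶ J_S ⟶ D_S` of discrete `G_K`-modules -/
def ideleSKShortComplex : ShortComplex (Rep ℤ K.fixingSubgroup) where
  X₁ := sUnitsK S K
  X₂ := JSK S K
  X₃ := DSK S K
  f := EStoJSK S K
  g := JStoDSK S K
  zero := by
    rw [← Functor.map_comp, EStoJS_comp_JStoDS]
    rfl

/-- `0 → O_Sˣ → J_S → D_S → 0` is short exact over `G_K` (for `S ≠ ∅`) -/
theorem ideleSKShortComplex_shortExact (hS : S.Nonempty) :
    (ideleSKShortComplex S K).ShortExact :=
  Fermat.Agent.GC.Global.shortExact_of_forget _ (EStoJS_injective S hS) (JStoDS_surjective S)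
    fun y hy => (JStoDS_eq_zero_iff S y).1 hy

instance : IsDiscrete (levelK S K) (ideleSKShortComplex S K).X₁ :=
  inferInstanceAs (IsDiscrete (levelK S K) (sUnitsK S K))

instance : IsDiscrete (levelK S K) (ideleSKShortComplex S K).X₂ :=
  inferInstanceAs (IsDiscrete (levelK S K) (JSK S K))

instance : IsDiscrete (levelK S K) (ideleSKShortComplex S K).X₃ :=
  inferInstanceAs (IsDiscrete (levelK S K) (DSK S K))

variable [FiniteDimensional ℚ K] (hK : K.IsUnramifiedOutside S)
  (hgal : ∀ (q : S) (w : placeIdx ((q : Nat.Primes) : ℕ) K),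
    CoarseGalHyp S ((q : Nat.Primes) : ℕ) K (placeRep ((q : Nat.Primes) : ℕ) K w))

include hK hgal in
/-- the field `j1` of `EJDHyp` -/
theorem ejd_j1 (x : Hlc (levelK S K) (ideleSKShortComplex S K).X₂ 1) :
    HlcMap (levelK S K) (ideleSKShortComplex S K).g 1 x = 0 := by
  have h : x = 0 := hlc_one_JSK_eq_zero S K hK hgal x
  subst h
  exact map_zero _

include hK hgal in
/-- the field `j3` of `EJDHyp` -/
theorem ejd_j3 (p : ℕ) (x : Hlc (levelK S K) (ideleSKShortComplex S K).X₂ 3)
    (_hx : (p : ℤ) • x = 0) : x = 0 :=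
  hlc_three_JSK_eq_zero S K hK hgal x

include hK hgal in
/-- **reduction of `hHasse`**: a class of `Hlc²(G_K, O_S^×)` all of whose localisations (helper78's
`locSUnitsHom`) vanish dies in `Hlc²(G_K, J_S)` -/
theorem HlcMap_EStoJSK_eq_zero_of_loc (z : Hlc (levelK S K) (sUnitsK S K) 2)
    (hz : ∀ (q : S) (w : placeIdx ((q : Nat.Primes) : ℕ) K),
      HlcPull (isContHom_locHomAlg S ((q : Nat.Primes) : ℕ) K (placeRep ((q : Nat.Primes) : ℕ) K w))
        (locSUnitsHom S ((q : Nat.Primes) : ℕ) K (placeRep ((q : Nat.Primes) : ℕ) K w)) 2 z = 0) :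
    HlcMap (levelK S K) (EStoJSK S K) 2 z = 0 := by
  refine eq_zero_of_forall_HlcJSLocAlg_two S K hK hgal _ fun q w => ?_
  have h1 := congr($(HlcMap_EStoJSK_comp_HlcJSLocAlg S K q (placeRep ((q : Nat.Primes) : ℕ) K w) 2) z)
  exact h1.trans (hz q w)

end Seq

end Fermat.Agent.GC.LimJ
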