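/-
GATE-C / C4 final glue (helper12): **`EJDHyp (levelK S K) p X`** for the restricted `S`-idele class
sequence `X = (0 → O_Sˣ → J_S → D_S → 0)|_{G_K}` (both presentations on main: helper78's
`KumH.ideleSK S K` and helper71's `LimJ.ideleSKShortComplex S K`) from the two class-level
finite statements `ClsOnto S K p`, `ClsDiv S K p` ONLY:
`[A]` = `AFinal.A_noPTorsion` (helper12), `Hlc¹(J_S) = 0 = Hlc³(J_S)` = helper69/helper71/helper26
`CoarseGalHyp`, the limit passage = helper7/helper74/helper80.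
-/
import Fermat.Agent.GC.Global.Limit.EJDModelCls
import Fermat.Agent.GC.Places.CoarseGalHyp

set_option autoImplicit false
set_option linter.unusedSectionVars false

open CategoryTheory groupCohomology

noncomputable section

namespace Fermat.Agent.GC.Global.Limit.EJDModel

open Fermat.Agent.GC.Prof Fermat.Agent.GC.Global
open Fermat.Agent.GC.Global.KummerBridge
open Fermat.Agent.GC.LimJ Fermat.Agent.GC.Places Fermat.Agent.GC.C0 Fermat.Agent.GC.KumH
open Fermat.Agent.GC.Places.CoarseHyps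

variable {S : Finset Nat.Primes} {K : IntermediateField ℚ Qb} {p : ℕ} [FiniteDimensional ℚ K]

/-- **`EJDHyp` for `ideleSK S K`** from `ClsOnto`, `ClsDiv`. -/
theorem ejdHyp_ideleSK_final (hp : p.Prime) (hp2 : p ≠ 2) (hpS : (⟨p, hp⟩ : Nat.Primes) ∈ S)
    (hK : K.IsUnramifiedOutside S) (hS : S.Nonempty)
    {ζ : Qb} (hζ : IsPrimitiveRoot ζ p) (hζK : ζ ∈ K)
    (hOnto : ClsOnto S K p) (hDiv : ClsDiv S K p) :
    EJDHyp (levelK S K) p (ideleSK S K) :=
  ejdHyp_ideleSK_cls hp hp2 hpS hK hS hζ hζK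
    (fun x => hlc_one_JSK_eq_zero' S K hK x) (fun x => hlc_three_JSK_eq_zero' S K hK x) hOnto hDiv

/-- **`EJDHyp` for `ideleSKShortComplex S K`** from `ClsOnto`, `ClsDiv`. -/
theorem ejdHyp_ideleSKShortComplex_final (hp : p.Prime) (hp2 : p ≠ 2)
    (hpS : (⟨p, hp⟩ : Nat.Primes) ∈ S)
    (hK : K.IsUnramifiedOutside S) (hS : S.Nonempty)
    {ζ : Qb} (hζ : IsPrimitiveRoot ζ p) (hζK : ζ ∈ K)
    (hOnto : ClsOnto S K p) (hDiv : ClsDiv S K p) :
    EJDHyp (levelK S K) p (ideleSKShortComplex S K) :=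
  ejdHyp_ideleSK_final hp hp2 hpS hK hS hζ hζK hOnto hDiv

/-- `hD2` for `ideleSKShortComplex S K` from `ClsCyc`. -/
theorem hD2_ideleSKShortComplex (hp : p.Prime) (hpS : (⟨p, hp⟩ : Nat.Primes) ∈ S)
    (hK : K.IsUnramifiedOutside S) (hS : S.Nonempty) (hfin : ClsCyc S K p) :
    Nat.card (torsC ((p : ℕ) : ℤ) (Hlc (levelK S K) (ideleSKShortComplex S K).X₃ 2)) = p :=
  hD2_ideleSK_cls hp hpS hK hS hfin

end Fermat.Agent.GC.Global.Limit.EJDModel
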