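/-
GATE-C / C4 (LM-J)=(A7), part 13 (helper71): **(D) closed** — with helper69's
`GC/Places/CoarseGal.lean` (`hgal`, `hcyc`) the statements of `IdeleSLocalAlg.lean` /
`IdeleSHasse.lean` become unconditional:

* `hlc_one_JS_eq_zero`, `hlc_three_JS_eq_zero` : `Hlc¹(G_K, J_S) = 0 = Hlc³(G_K, J_S)`;
* `hasse_JS_two` : a class of `Hlc²(G_K, J_S)` vanishes iff all its localisations in the Brauer
  groups of the `K_w`, `w ∣ S`, vanish;
* `exists_JS_two_of_locAlg`, `exists_JS_two_of_locFull` : **`hLJ`** (absolute / subgroup form);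
* `ideleSK_j1`, `ideleSK_j3` : the fields `j1`, `j3` of helper77's `EJDHyp` for helper78's
  `ideleSK S K`.
-/
import Fermat.Agent.GC.Global.Limit.IdeleSHasse
import Fermat.Agent.GC.Places.CoarseLoc
import Fermat.Agent.GC.Kummer.HlcHasse

set_option autoImplicit false
set_option linter.unusedSectionVars false

open CategoryTheory
open scoped Padic

noncomputable section

namespace Fermat.Agent.GC.LimJ

open Fermat.Agent.GC.Prof Fermat.Agent.GC.C0 Fermat.Agent.GC.Local.KR Fermat.Agent.GC.Local.Abs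
  Fermat.Agent.GC.Global.Mackey Fermat.Agent.GC.Places Fermat.Agent.GC.Local.Coarse

local notation "Qb" => AlgebraicClosure ℚ
local notation "GQ" => (AlgebraicClosure ℚ ≃ₐ[ℚ] AlgebraicClosure ℚ)

section Hyp

variable (S : Finset Nat.Primes) (q : ℕ) [Fact q.Prime] (K : IntermediateField ℚ Qb)
  [FiniteDimensional ℚ K] (s : GQ)

/-- helper69: the coarse level system is generated by finite Galois levels -/
theorem coarseGalHyp : CoarseGalHyp S q K s := fun _ hU =>
  exists_isGalois_le_of_mem_levelGalLocS S q K s hU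

/-- helper69: the coarse level system contains the `p`-cyclotomic tower (`p ∈ S`) -/
theorem coarseCycHyp (hK : K.IsUnramifiedOutside S) {p : ℕ} [Fact p.Prime]
    (hpS : (⟨p, Fact.out⟩ : Nat.Primes) ∈ S) : CoarseCycHyp S q K s p := fun m =>
  exists_isGalois_zeta_mem_levelGalLocS S q K s hK hpS m

end Hyp

section Main

variable (S : Finset Nat.Primes) (K : IntermediateField ℚ Qb) [FiniteDimensional ℚ K]
  (hK : K.IsUnramifiedOutside S)

include hK in
/-- **`Hlc¹(G_K, J_S) = 0`** -/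
theorem hlc_one_JS_eq_zero (x : Hlc (levelK S K) (JSK S K) 1) : x = 0 :=
  hlc_one_JSK_eq_zero S K hK (fun _ _ => coarseGalHyp S _ K _) x

include hK in
/-- **`Hlc³(G_K, J_S) = 0`** -/
theorem hlc_three_JS_eq_zero (x : Hlc (levelK S K) (JSK S K) 3) : x = 0 :=
  hlc_three_JSK_eq_zero S K hK (fun _ _ => coarseGalHyp S _ K _) x

include hK in
/-- **Hasse principle for `Hlc²(G_K, J_S)`** -/
theorem hasse_JS_two (x : Hlc (levelK S K) (JSK S K) 2)
    (hx : ∀ (q : S) (w : placeIdx ((q : Nat.Primes) : ℕ) K),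
      HlcJSLocAlg S K q (placeRep ((q : Nat.Primes) : ℕ) K w) 2 x = 0) : x = 0 :=
  eq_zero_of_forall_HlcJSLocAlg_two S K hK (fun _ _ => coarseGalHyp S _ K _) x hx

include hK in
/-- **`hLJ`, absolute form** -/
theorem exists_JS_two_of_locAlg (p : ℕ) [Fact p.Prime] (hpS : (⟨p, Fact.out⟩ : Nat.Primes) ∈ S)
    (a : ℕ)
    (b : ∀ (q : S) (w : placeIdx ((q : Nat.Primes) : ℕ) K),
      Hlc (levelGalLoc ((q : Nat.Primes) : ℕ) K (placeRep ((q : Nat.Primes) : ℕ) K w))
        (unitsRep (locField ((q : Nat.Primes) : ℕ) K (placeRep ((q : Nat.Primes) : ℕ) K w))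
          (PadicAlgCl ((q : Nat.Primes) : ℕ))) 2)
    (hb : ∀ q w, p ^ a • b q w = 0) :
    ∃ x : Hlc (levelK S K) (JSK S K) 2, p ^ a • x = 0 ∧
      ∀ (q : S) (w : placeIdx ((q : Nat.Primes) : ℕ) K),
        HlcJSLocAlg S K q (placeRep ((q : Nat.Primes) : ℕ) K w) 2 x = b q w :=
  exists_HlcJSLocAlg_two_eq S K hK (fun _ _ => coarseGalHyp S _ K _) p
    (fun _ _ => coarseCycHyp S _ K _ hK hpS) a b hb

include hK in
/-- **`hLJ`, subgroup form**: every family of `p`-power-torsion classes of the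
`Hlc²(G_{K_w}, Ω_q^×)` (local groups `locGroup q K s ≤ G_{ℚ_q}`, full level systems) is the
family of localisations of a class of `Hlc²(G_K, J_S)` killed by the same power of `p` -/
theorem exists_JS_two_of_locFull (p : ℕ) [Fact p.Prime] (hpS : (⟨p, Fact.out⟩ : Nat.Primes) ∈ S)
    (a : ℕ)
    (b : ∀ (q : S) (w : placeIdx ((q : Nat.Primes) : ℕ) K),
      Hlc (levelLoc ((q : Nat.Primes) : ℕ) K (placeRep ((q : Nat.Primes) : ℕ) K w))
        (locFullCoeff ((q : Nat.Primes) : ℕ) K (placeRep ((q : Nat.Primes) : ℕ) K w)) 2)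
    (hb : ∀ q w, p ^ a • b q w = 0) :
    ∃ x : Hlc (levelK S K) (JSK S K) 2, p ^ a • x = 0 ∧
      ∀ (q : S) (w : placeIdx ((q : Nat.Primes) : ℕ) K),
        HlcPull (isContHom_locHom S ((q : Nat.Primes) : ℕ) K (placeRep ((q : Nat.Primes) : ℕ) K w))
          (JSlocFull S K q (placeRep ((q : Nat.Primes) : ℕ) K w)) 2 x = b q w := by
  choose y hy hy0 using fun (q : S) (w : placeIdx ((q : Nat.Primes) : ℕ) K) =>
    CoarseLoc.exists_HlcLocFull_eq_of_pow_nsmul S ((q : Nat.Primes) : ℕ) K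
      (placeRep ((q : Nat.Primes) : ℕ) K w) hK p hpS a (b q w) (hb q w)
  obtain ⟨x, hx, -⟩ := existsUnique_HlcJSLoc S K hK 2 y
  refine ⟨x, ?_, fun q w => ?_⟩
  · refine (eq_zero_iff_forall_HlcJSLoc S K hK 2 _).2 fun q w => ?_
    rw [map_nsmul, hx q w, hy0 q w]
  · rw [← HlcJSLoc_comp_HlcLocFull]
    show HlcLocFull S ((q : Nat.Primes) : ℕ) K _ 2 (HlcJSLoc S K q _ 2 x) = b q w
    rw [hx q w, hy q w]

end Main

/-! ### The fields `j1`, `j3` of `EJDHyp` for helper78's `ideleSK S K` -/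

section EJD

variable (S : Finset Nat.Primes) (K : IntermediateField ℚ Qb) [FiniteDimensional ℚ K]
  (hK : K.IsUnramifiedOutside S)

include hK in
theorem ideleSK_j1 (x : Hlc (levelK S K) (Fermat.Agent.GC.KumH.ideleSK S K).X₂ 1) :
    HlcMap (levelK S K) (Fermat.Agent.GC.KumH.ideleSK S K).g 1 x = 0 := by
  have h : x = 0 := hlc_one_JS_eq_zero S K hK x
  subst h
  exact map_zero _

include hK in
theorem ideleSK_j3 (p : ℕ) (x : Hlc (levelK S K) (Fermat.Agent.GC.KumH.ideleSK S K).X₂ 3)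
    (_hx : (p : ℤ) • x = 0) : x = 0 :=
  hlc_three_JS_eq_zero S K hK x

end EJD

/-! ### `hLJ` in the exact shape of helper77's `na_card` -/

section Shape

universe u

/-- the hypothesis `hLJ` of `KummerBridge.na_card`, as a predicate (elaborated over a generic
coefficient ring, so that it is syntactically the binder of `na_card`) -/
def HLJShape {k G : Type u} [CommRing k] [Group G] (𝒰 : LevelSystem G)
    {X : ShortComplex (Rep.{u} k G)} [IsDiscrete 𝒰 X.X₁] [IsDiscrete 𝒰 X.X₂] [IsDiscrete 𝒰 X.X₃]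
    {ι : Type*} {Gv : ι → Type u} [∀ v, Group (Gv v)] (𝒰v : ∀ v, LevelSystem (Gv v))
    {φ : ∀ v, Gv v →* G} (hφ : ∀ v, IsContHom (𝒰v v) 𝒰 (φ v))
    {Ω : ∀ v, Rep.{u} k (Gv v)} [∀ v, IsDiscrete (𝒰v v) (Ω v)]
    (π : ∀ v, Rep.res (φ v) X.X₂ ⟶ Ω v) (c : k) : Prop :=
  ∀ b : (∀ v, Hlc (𝒰v v) (Ω v) 2), c • b = 0 →
    ∃ x : Hlc 𝒰 X.X₂ 2, c • x = 0 ∧
      Fermat.Agent.GC.Global.KummerBridge.locJ 𝒰 𝒰v hφ π 2 x = b

end Shape

section NA

variable (S : Finset Nat.Primes) (K : IntermediateField ℚ Qb) [FiniteDimensional ℚ K]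
  (hK : K.IsUnramifiedOutside S)

include hK in
/-- **`hLJ` of helper77's `na_card`** for the family of all places of `K` above `S`
(index `Σ q : S, placeIdx q K`, groups `locGroup`, level systems `levelLoc`, coefficients
`Ω_q^×`, `π_w` = the `w`-component `JSlocFull`) -/
theorem na_hLJ (p : ℕ) [Fact p.Prime] (hpS : (⟨p, Fact.out⟩ : Nat.Primes) ∈ S) :
    HLJShape (levelK S K) (X := Fermat.Agent.GC.KumH.ideleSK S K)
      (fun i : (Σ q : S, placeIdx ((q : Nat.Primes) : ℕ) K) =>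
        levelLoc ((i.1 : Nat.Primes) : ℕ) K (placeRep ((i.1 : Nat.Primes) : ℕ) K i.2))
      (fun i => isContHom_locHom S ((i.1 : Nat.Primes) : ℕ) K
        (placeRep ((i.1 : Nat.Primes) : ℕ) K i.2))
      (Ω := fun i => locFullCoeff ((i.1 : Nat.Primes) : ℕ) K
        (placeRep ((i.1 : Nat.Primes) : ℕ) K i.2))
      (fun i => JSlocFull S K i.1 (placeRep ((i.1 : Nat.Primes) : ℕ) K i.2)) (p : ℤ) := by
  intro b hb
  obtain ⟨x, hx0, hx⟩ := exists_JS_two_of_locFull S K hK p hpS 1 (fun q w => b ⟨q, w⟩)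
    (fun q w => by
      have h1 := congrFun hb ⟨q, w⟩
      rw [pow_one, ← Nat.cast_smul_eq_nsmul ℤ]
      exact h1)
  refine ⟨x, ?_, ?_⟩
  · rw [pow_one, ← Nat.cast_smul_eq_nsmul ℤ] at hx0
    exact hx0
  · funext i
    obtain ⟨q, w⟩ := i
    exact hx q w

end NA


end Fermat.Agent.GC.LimJ
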