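/-
GATE-C / C4 (LM-A), the tower of layers (helper12).

`S` a finite set of primes, `K ⊂ ℚ̄` a finite extension of `ℚ` unramified outside `S`.  The LAYERS are
the finite Galois extensions `L/ℚ` inside `ℚ̄`, unramified outside `S`, containing `K`.  For a layer
`L`, `galK K L ≤ Gal(L/ℚ)` is `Gal(L/K)`; `G_K = K.fixingSubgroup` maps onto it by restriction, with
kernel `G_L`, a member of helper69's level system `levelK S K`.

`mkTower` : for a `levelS S`-discrete `D : Rep ℤ G_ℚ` and a compatible system of injective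
equivariant maps `φ_L : C(L,S) → D` (helper14's class modules with `T := S`, helper80's inflations)
whose images cover `D`, a `ColimVanish.Tower` over `(G_K, levelK S K, D|_{G_K})` with stages
`(Gal(L/K), C(L,S)|_{Gal(L/K)})`.
-/
import Fermat.Agent.GC.Global.Limit.ColimVanish
import Fermat.Agent.GC.Global.Funct.ClassFunct
import Fermat.Agent.GC.Places.Levels

set_option autoImplicit false
set_option linter.unusedSectionVars false

open CategoryTheory

noncomputable section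

namespace Fermat.Agent.GC.Global.Limit.LayerTower

open Fermat.Agent.GC.Prof Fermat.Agent.GC.Global Fermat.Agent.GC.Global.Funct
open Fermat.Agent.GC.Global.Limit.ColimVanish

local notation "GQ" => (Qb ≃ₐ[ℚ] Qb)

local instance isAlgebraicQbar_lt : Algebra.IsAlgebraic ℚ Qb := AlgebraicClosure.isAlgebraic ℚ
local instance isAlgClosureQbar_lt : IsAlgClosure ℚ Qb := ⟨inferInstance, inferInstance⟩
local instance normalQbar_lt : Normal ℚ Qb := IsAlgClosure.normal ℚ Qb

variable (S : Finset Nat.Primes) (K : IntermediateField ℚ Qb)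

/-- A layer: a finite Galois extension of `ℚ` inside `ℚ̄`, unramified outside `S`, containing `K`. -/
structure Layer where
  /-- the field -/
  L : IntermediateField ℚ Qb
  unram : L.IsUnramifiedOutside S
  gal : IsGalois ℚ L
  le : K ≤ L

namespace Layer

variable {S K}

instance (ℓ : Layer S K) : FiniteDimensional ℚ ℓ.L := ℓ.unram.1
instance (ℓ : Layer S K) : IsGalois ℚ ℓ.L := ℓ.gal

instance : Preorder (Layer S K) := Preorder.lift Layer.L

lemma le_def {ℓ ℓ' : Layer S K} : ℓ ≤ ℓ' ↔ ℓ.L ≤ ℓ'.L := Iff.rfl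

/-- the compositum of two layers -/
def sup (ℓ ℓ' : Layer S K) : Layer S K where
  L := ℓ.L ⊔ ℓ'.L
  unram := ℓ.unram.sup ℓ'.unram
  gal := by
    have n1 : Normal ℚ ℓ.L := ℓ.gal.to_normal
    have n2 : Normal ℚ ℓ'.L := ℓ'.gal.to_normal
    have n3 := @IntermediateField.normal_sup ℚ Qb _ _ _ ℓ.L ℓ'.L n1 n2
    have s3 : Algebra.IsSeparable ℚ ↥(ℓ.L ⊔ ℓ'.L) := by
      have : Algebra.IsAlgebraic ℚ ↥(ℓ.L ⊔ ℓ'.L) := n3.toIsAlgebraic
      infer_instance
    exact { to_isSeparable := s3, to_normal := n3 }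
  le := ℓ.le.trans le_sup_left

instance : IsDirected (Layer S K) (· ≤ ·) :=
  ⟨fun ℓ ℓ' => ⟨sup ℓ ℓ', le_sup_left (a := ℓ.L), le_sup_right (a := ℓ.L)⟩⟩

end Layer

/-! ### Restriction to a layer -/

section Res

variable (L : IntermediateField ℚ Qb) [Normal ℚ L]

/-- restriction `G_ℚ → Gal(L/ℚ)` (helper80's `GalRes.res` along the inclusion `L → ℚ̄`). -/
def resQ : GQ →* (L ≃ₐ[ℚ] L) := GalRes.res (L.val.toRingHom.toRatAlgHom)

lemma coe_resQ (g : GQ) (x : L) : ((resQ L g x : L) : Qb) = g (x : Qb) :=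
  GalRes.apply_res (L.val.toRingHom.toRatAlgHom) g x

lemma resQ_surjective : Function.Surjective (resQ L) :=
  GalRes.res_surjective (L.val.toRingHom.toRatAlgHom)

lemma resQ_eq_one_iff (g : GQ) : resQ L g = 1 ↔ g ∈ L.fixingSubgroup := by
  rw [resQ, GalRes.res_eq_one_iff, IntermediateField.mem_fixingSubgroup_iff]
  constructor
  · intro h x hx
    exact h ⟨x, hx⟩
  · intro h x
    exact h x x.2

variable {L} in
lemma gRes_resQ {L' : IntermediateField ℚ Qb} [Normal ℚ L'] (h : L ≤ L') (g : GQ) :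
    gRes h (resQ L' g) = resQ L g := by
  ext x
  rw [coe_resQ]
  have := GalRes.apply_res (gIncl h) (resQ L' g) x
  have h2 : ((gIncl h (gRes h (resQ L' g) x) : L') : Qb) = ((gRes h (resQ L' g) x : L) : Qb) := rfl
  rw [← h2, this, coe_resQ]
  rfl

/-- `Gal(L/K)` as a subgroup of `Gal(L/ℚ)`. -/
def galK : Subgroup (L ≃ₐ[ℚ] L) where
  carrier := {σ | ∀ x : L, (x : Qb) ∈ K → σ x = x}
  mul_mem' := by
    intro a b ha hb x hx
    rw [AlgEquiv.mul_apply, hb x hx, ha x hx]
  one_mem' := fun x _ => rfl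
  inv_mem' := by
    intro a ha x hx
    have := ha x hx
    show a.symm x = x
    exact (a.symm_apply_eq).2 this.symm

lemma mem_galK {σ : L ≃ₐ[ℚ] L} : σ ∈ galK K L ↔ ∀ x : L, (x : Qb) ∈ K → σ x = x := Iff.rfl

lemma resQ_mem_galK (g : GQ) (hg : g ∈ K.fixingSubgroup) : resQ L g ∈ galK K L := by
  intro x hx
  apply Subtype.ext
  rw [coe_resQ]
  exact (IntermediateField.mem_fixingSubgroup_iff K g).1 hg _ hx

/-- the projection `G_K → Gal(L/K)` -/
def piK : K.fixingSubgroup →* galK K L :=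
  ((resQ L).comp K.fixingSubgroup.subtype).codRestrict (galK K L)
    fun g => resQ_mem_galK K L g.1 g.2

@[simp] lemma coe_piK (g : K.fixingSubgroup) : ((piK K L g : galK K L) : L ≃ₐ[ℚ] L) = resQ L g.1 :=
  rfl

lemma piK_surjective (hKL : K ≤ L) : Function.Surjective (piK K L) := by
  rintro ⟨τ, hτ⟩
  obtain ⟨g, rfl⟩ := resQ_surjective L τ
  refine ⟨⟨g, ?_⟩, rfl⟩
  rw [IntermediateField.mem_fixingSubgroup_iff]
  intro x hx
  have := hτ ⟨x, hKL hx⟩ hx
  have h2 := congrArg (fun y : L => (y : Qb)) this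
  simpa only [coe_resQ] using h2

lemma ker_piK : (piK K L).ker = L.fixingSubgroup.comap K.fixingSubgroup.subtype := by
  ext g
  rw [MonoidHom.mem_ker, Subgroup.mem_comap, ← resQ_eq_one_iff]
  constructor
  · intro h
    exact congrArg Subtype.val h
  · intro h
    exact Subtype.ext h

end Res

/-! ### The stages -/

section Stages

variable {S K}

/-- the stage group `Gal(L/K)` -/
abbrev Q (ℓ : Layer S K) : Type := galK K ℓ.L

/-- the stage module `C(L,S)` restricted to `Gal(L/K)` -/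
def A (ℓ : Layer S K) : Rep ℤ (Q ℓ) := Rep.res (galK K ℓ.L).subtype (C ℓ.L S)

lemma A_ρ (ℓ : Layer S K) (σ : Q ℓ) (c : C ℓ.L S) :
    (A ℓ).ρ σ c = (C ℓ.L S).ρ (σ : ℓ.L ≃ₐ[ℚ] ℓ.L) c := rfl

lemma gRes_mem_galK {ℓ ℓ' : Layer S K} (h : ℓ ≤ ℓ') (σ : ℓ'.L ≃ₐ[ℚ] ℓ'.L)
    (hσ : σ ∈ galK K ℓ'.L) : gRes (Layer.le_def.1 h) σ ∈ galK K ℓ.L := by
  intro x hx
  apply (gIncl (Layer.le_def.1 h)).toRingHom.injective
  change gIncl (Layer.le_def.1 h) (gRes (Layer.le_def.1 h) σ x) = gIncl (Layer.le_def.1 h) x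
  rw [GalRes.apply_res]
  exact hσ (gIncl (Layer.le_def.1 h) x) hx

/-- the transition maps of the stage groups -/
def tau {ℓ ℓ' : Layer S K} (h : ℓ ≤ ℓ') : Q ℓ' →* Q ℓ :=
  ((gRes (Layer.le_def.1 h)).comp (galK K ℓ'.L).subtype).codRestrict (galK K ℓ.L)
    fun σ => gRes_mem_galK h σ.1 σ.2

@[simp] lemma coe_tau {ℓ ℓ' : Layer S K} (h : ℓ ≤ ℓ') (σ : Q ℓ') :
    ((tau h σ : Q ℓ) : ℓ.L ≃ₐ[ℚ] ℓ.L) = gRes (Layer.le_def.1 h) (σ : ℓ'.L ≃ₐ[ℚ] ℓ'.L) := rfl

lemma tau_piK {ℓ ℓ' : Layer S K} (h : ℓ ≤ ℓ') (g : K.fixingSubgroup) :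
    tau h (piK K ℓ'.L g) = piK K ℓ.L g := by
  apply Subtype.ext
  rw [coe_tau, coe_piK, coe_piK, gRes_resQ]

/-- the transition maps of the stage modules: helper80's `inflC` -/
def tr {ℓ ℓ' : Layer S K} (h : ℓ ≤ ℓ') : Rep.res (tau h) (A ℓ) ⟶ A ℓ' :=
  Rep.ofHom
    { toLinearMap := inflC (Layer.le_def.1 h) S
      isIntertwining' := fun σ => by
        ext c
        exact inflC_rho (Layer.le_def.1 h) S (σ : ℓ'.L ≃ₐ[ℚ] ℓ'.L) c }

@[simp] lemma tr_hom {ℓ ℓ' : Layer S K} (h : ℓ ≤ ℓ') (c : C ℓ.L S) :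
    (tr h).hom c = inflC (Layer.le_def.1 h) S c := rfl

end Stages

/-! ### The tower -/

section MkTower

open Fermat.Agent.GC.C0 Fermat.Agent.GC.Places

variable {S K}

/-- The layer generated by a finite extension unramified outside `S` (its normal closure together
with `K`). -/
def Layer.ofField (hK : K.IsUnramifiedOutside S) (F : IntermediateField ℚ Qb)
    (hF : F.IsUnramifiedOutside S) : Layer S K where
  L := IntermediateField.normalClosure ℚ (F ⊔ K : IntermediateField ℚ Qb) Qb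
  unram := isUnramifiedOutside_normalClosure (hF.sup hK)
  gal := by
    have hfd : FiniteDimensional ℚ (F ⊔ K : IntermediateField ℚ Qb) := (hF.sup hK).1
    have hnorm : Normal ℚ (IntermediateField.normalClosure ℚ (F ⊔ K : IntermediateField ℚ Qb) Qb) :=
      normalClosure.normal ℚ _ Qb
    have s3 : Algebra.IsSeparable ℚ
        (IntermediateField.normalClosure ℚ (F ⊔ K : IntermediateField ℚ Qb) Qb) := by
      have := hnorm.toIsAlgebraic
      infer_instance
    exact { to_isSeparable := s3, to_normal := hnorm }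
  le := le_sup_right.trans (IntermediateField.le_normalClosure _)

lemma Layer.le_ofField (hK : K.IsUnramifiedOutside S) (F : IntermediateField ℚ Qb)
    (hF : F.IsUnramifiedOutside S) : F ≤ (Layer.ofField hK F hF).L :=
  le_sup_left.trans (IntermediateField.le_normalClosure _)

variable (D : Rep ℤ GQ)

attribute [-instance] AddCommGroup.toIntModule in
/-- **The tower of layers** over `(G_K, levelK S K, D|_{G_K})` attached to a compatible system of
injective equivariant maps `φ_L : C(L,S) → D` covering `D`. -/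
def mkTower (hK : K.IsUnramifiedOutside S) (φ : ∀ ℓ : Layer S K, C ℓ.L S →+ D)
    (hφρ : ∀ (ℓ : Layer S K) (g : GQ) (c : C ℓ.L S),
      φ ℓ ((C ℓ.L S).ρ (resQ ℓ.L g) c) = D.ρ g (φ ℓ c))
    (hφt : ∀ {ℓ ℓ' : Layer S K} (h : ℓ ≤ ℓ') (c : C ℓ.L S),
      φ ℓ' (inflC (Layer.le_def.1 h) S c) = φ ℓ c)
    (hφinj : ∀ ℓ, Function.Injective (φ ℓ))
    (hunion : ∀ d : D, ∃ ℓ : Layer S K, ∃ c, φ ℓ c = d) :
    Tower (levelK S K) (Rep.res K.fixingSubgroup.subtype D) (Q (S := S) (K := K)) A where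
  π ℓ := piK K ℓ.L
  φ ℓ := ConcreteCategory.ofHom (C := Rep ℤ K.fixingSubgroup)
    { toLinearMap :=
        { toFun := φ ℓ
          map_add' := map_add _
          map_smul' := fun n x => by
            exact map_intCast_smul (φ ℓ) ℤ ℤ n x }
      isIntertwining' := fun g => by
        ext c
        exact hφρ ℓ g.1 c }
  τ h := tau h
  t h := tr h
  π_surjective ℓ := piK_surjective K ℓ.L ℓ.le
  exists_le_ker ℓ :=
    ⟨_, ⟨ℓ.L.fixingSubgroup, ⟨ℓ.L, ℓ.unram, rfl⟩, rfl⟩, (ker_piK K ℓ.L).ge⟩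
  cofinal := by
    rintro _ ⟨_, ⟨F, hF, rfl⟩, rfl⟩
    refine ⟨Layer.ofField hK F hF, ?_⟩
    rw [ker_piK]
    exact Subgroup.comap_mono (IntermediateField.fixingSubgroup_antitone
      (Layer.le_ofField hK F hF))
  τ_π h g := tau_piK h g
  φ_t h a := hφt h a
  t_trans h h' a := inflC_inflC (Layer.le_def.1 h) S (Layer.le_def.1 h') a
  union d := hunion d
  ker_stage ℓ a ha := ⟨ℓ, le_rfl, by
    have : a = 0 := hφinj ℓ (ha.trans (map_zero _).symm)
    rw [this]
    exact map_zero _⟩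

end MkTower

end Fermat.Agent.GC.Global.Limit.LayerTower
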