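/-
GATE-C / C4 `ClsCyc` (helper12): the class-level finite statement **FIN-cyc** at the model,
`EJDModel.ClsCyc S K p`, for `K ∋ ζ_p` finite unramified outside `S ∋ p`, `p` odd — from

* helper14's `FinLevel.fc_level` (`(card)`, `(cyc)` for `H²(Gal(L/K), C(L,T))(p)`, `T` good for
  `L·ℚ(ζ_{p^(k+1)})`, `k` large);
* the general inflation-injectivity on `p`-power torsion in STAGE language (`trCH_injective`:
  helper14 `QuotIso` + helper80 `exists_inflC_eq` + helper97 `h2_zeta` + helper1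
  `inf_injective_of_noTorsion`), valid for ANY pair of layers `ℓ ≤ ℓ'` with `T` good for `ℓ'.L`;
* helper97's `LayerCS.compMap` (`H²(V, C(L,T)) ≅ H²(V, CS(L,S,T))`) and its naturality square;
* the `T`-change: `extCS` is bijective for good `T` — helper80's (T-SURJ) `extCS_surjective`
  (`tSurj`; the intermediate statements take it as the named hypothesis `TSurj S p`).

OUTPUT: `clsCyc_final : ClsCyc S K p` (unconditional) and `hD2_final` (= `hD2` of KUMMER-BRIDGE).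
-/
import Fermat.Agent.GC.Global.Limit.EJDModelCls
import Fermat.Agent.GC.Global.WRec.FinLevelStage
import Fermat.Agent.GC.Global.WRec.DegGrow2
import Fermat.Agent.GC.Global.WRec.GalKUp
import Fermat.Agent.GC.Global.Funct.LayerSup
import Fermat.Agent.GC.Global.Funct.TChangeSurj
import Fermat.Agent.GC.Global.Adapter.LayerCS
import Fermat.Agent.GC.Global.Adapter.CycAbsInputs
import Fermat.Agent.GC.Tate.QuotIso
import Fermat.Agent.GC.Tate.InfRes2P

set_option autoImplicit false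
set_option linter.unusedSectionVars false

open CategoryTheory groupCohomology

noncomputable section

namespace Fermat.Agent.GC.Global.Limit.ClsCycProof

open Fermat.Agent.GC.Prof Fermat.Agent.GC.Global Fermat.Agent.GC.Global.Funct
open Fermat.Agent.GC.Global.Adapter Fermat.Agent.GC.Global.Devissage
open Fermat.Agent.GC.Global.Limit.ColimVanish Fermat.Agent.GC.Global.Limit.LayerTower
open Fermat.Agent.GC.Global.Limit.TowerJS Fermat.Agent.GC.Global.Limit.AmbientModel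
open Fermat.Agent.GC.Global.Limit.FinBridge Fermat.Agent.GC.Global.Limit.EJDModel
open Fermat.Agent.GC.Global.LimA Fermat.Agent.GC.Global.WRec Fermat.Agent.GC.Global.WRec.DegGrow
open Fermat.Agent.GC.Tate.InfRes2 Fermat.Agent.GC.Global.LMU

variable {S : Finset Nat.Primes} {K : IntermediateField ℚ Qb}

/-! ### Stage language for `C(L,T)` -/

/-- `C(L,T)` restricted to `Gal(L/K)` -/
abbrev AC (ℓ : Layer S K) (T : Finset Nat.Primes) : Rep ℤ (Q ℓ) :=
  Rep.res (galK K ℓ.L).subtype (C ℓ.L T)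

/-- inflation `C(L,T) → C(L',T)` over `Gal(L'/K) → Gal(L/K)` -/
def trC {ℓ ℓ' : Layer S K} (h : ℓ ≤ ℓ') (T : Finset Nat.Primes) :
    Rep.res (tau h) (AC ℓ T) ⟶ AC ℓ' T :=
  Rep.ofHom (ρ := (Rep.res (tau h) (AC ℓ T)).ρ) (σ := (AC ℓ' T).ρ)
    { toLinearMap := inflC (Layer.le_def.1 h) T
      isIntertwining' := fun σ => LinearMap.ext fun c =>
        inflC_rho (Layer.le_def.1 h) T (σ : ℓ'.L ≃ₐ[ℚ] ℓ'.L) c }

@[simp] lemma trC_hom {ℓ ℓ' : Layer S K} (h : ℓ ≤ ℓ') (T : Finset Nat.Primes) (c : C ℓ.L T) :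
    (trC h T).hom c = inflC (Layer.le_def.1 h) T c := rfl

/-- the transition `H²(Gal(L/K), C(L,T)) → H²(Gal(L'/K), C(L',T))` -/
abbrev trCH {ℓ ℓ' : Layer S K} (h : ℓ ≤ ℓ') (T : Finset Nat.Primes) :
    groupCohomology (AC ℓ T) 2 ⟶ groupCohomology (AC ℓ' T) 2 :=
  groupCohomology.map (tau h) (trC h T) 2

/-! ### General inflation-injectivity on `p`-power torsion -/

section Inj

variable {p : ℕ}

lemma mem_ker_tau_of_mem_ker_gRes {ℓ ℓ' : Layer S K} (h : ℓ ≤ ℓ') (n : ℓ'.L ≃ₐ[ℚ] ℓ'.L)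
    (hn : n ∈ (gRes (Layer.le_def.1 h)).ker) :
    ∃ hn' : n ∈ galK K ℓ'.L, (⟨n, hn'⟩ : Q ℓ') ∈ (tau h).ker := by
  have hn' : n ∈ galK K ℓ'.L := ker_gRes_le_galK ℓ.le (Layer.le_def.1 h) hn
  refine ⟨hn', ?_⟩
  rw [MonoidHom.mem_ker]
  apply Subtype.ext
  rw [coe_tau]
  exact hn

/-- **(FC-inj), general form in stage language.** -/
theorem trCH_injective {ℓ ℓ' : Layer S K} (h : ℓ ≤ ℓ') (T : Finset Nat.Primes)
    (hg : GoodT ℓ'.L T p) (hp : p.Prime) (hp2 : p ≠ 2) {ζ : Qb} (hζ : IsPrimitiveRoot ζ p)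
    (hζK : ζ ∈ K) (z : groupCohomology (AC ℓ T) 2) (b : ℕ) (hz : p ^ b • z = 0)
    (h0 : (trCH h T).hom z = 0) : z = 0 := by
  have hT : T.Nonempty := hg.nonempty
  have hπ : Function.Surjective (tau h) := tau_surjective h
  have hinj : Function.Injective (trC h T).hom := inflC_injective (Layer.le_def.1 h) T hT
  have hsurj : ∀ a' : AC ℓ' T, (∀ n ∈ (tau h).ker, (AC ℓ' T).ρ n a' = a') →
      ∃ a : AC ℓ T, (trC h T).hom a = a' := by
    intro a' ha'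
    refine exists_inflC_eq (Layer.le_def.1 h) T hT
      (H1U.h1Vanishes_E_of_goodT ℓ'.L T hg (gRes (Layer.le_def.1 h)).ker) a' (fun n hn => ?_)
    obtain ⟨hn', hker⟩ := mem_ker_tau_of_mem_ker_gRes h n hn
    exact ha' ⟨n, hn'⟩ hker
  -- the quotient-stage isomorphism
  set e := Fermat.Agent.GC.Tate.QuotIso.quotIso (AC ℓ T) (AC ℓ' T) (tau h) (trC h T) hπ hinj hsurj 2
    with he
  have hcomp := Fermat.Agent.GC.Tate.QuotIso.quotIso_inv_infl (AC ℓ T) (AC ℓ' T) (tau h) (trC h T)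
    hπ hinj hsurj 2
  -- `ζ` in `ℓ'.L`, fixed by `Gal(L'/K)`
  let ζ' : ℓ'.L := ⟨ζ, ℓ'.le hζK⟩
  have hζ' : IsPrimitiveRoot ζ' p := IsPrimitiveRoot.coe_submonoidClass_iff.1 hζ
  have hVζ : ∀ v ∈ galK K ℓ'.L, v ζ' = ζ' := fun v hv => hv ζ' hζK
  have h2 := CycAbsInputs.h2_zeta ℓ'.L T hg hp hp2 ζ' hζ' (galK K ℓ'.L) hVζ (tau h).ker
  -- the class `e.inv z` of the quotient stage dies under inflation
  have hz' : p ^ b • e.inv.hom z = 0 := by rw [← map_nsmul, hz, map_zero]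
  have h0' : (H2InfRes (AC ℓ' T) (tau h).ker).f.hom (e.inv.hom z) = 0 := by
    have := congr($(hcomp).hom z)
    simp only [ModuleCat.hom_comp, LinearMap.comp_apply] at this
    exact this.trans h0
  have h3 : e.inv.hom z = 0 :=
    inf_injective_of_noTorsion (AC ℓ' T) (tau h).ker p hp h2 (e.inv.hom z) b hz' h0'
  have h4 : e.hom.hom (e.inv.hom z) = z := by
    have := e.inv_hom_id
    exact congr($(this).hom z)
  rw [← h4, h3, map_zero]

end Inj

/-! ### The `CS` side: the comparison `C → CS`, inflation at fixed `T`, the `T`-change -/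

section CSside

variable {T T' : Finset Nat.Primes}

/-- `CtoCS` restricted to `Gal(L/K)` -/
def toBSHom (ℓ : Layer S K) (T : Finset Nat.Primes) : AC ℓ T ⟶ BS ℓ T :=
  (Rep.resFunctor (galK K ℓ.L).subtype).map (CtoCS ℓ.L S T)

@[simp] lemma toBSHom_hom (ℓ : Layer S K) (T : Finset Nat.Primes) (c : C ℓ.L T) :
    (toBSHom ℓ T).hom c = (CtoCS ℓ.L S T).hom c := rfl

/-- the comparison `H²(Gal(L/K), C(L,T)) → H²(Gal(L/K), CS(L,S,T))` (helper97's `compMap`) -/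
abbrev toBS (ℓ : Layer S K) (T : Finset Nat.Primes) :
    groupCohomology (AC ℓ T) 2 ⟶ groupCohomology (BS ℓ T) 2 :=
  groupCohomology.map (MonoidHom.id (Q ℓ)) (toBSHom ℓ T) 2

lemma toBS_eq_compMap (ℓ : Layer S K) (T : Finset Nat.Primes) (z : groupCohomology (AC ℓ T) 2) :
    (toBS ℓ T).hom z = LayerCS.compMap ℓ.L S T (galK K ℓ.L) 1 z := rfl

theorem toBS_bijective (ℓ : Layer S K) (T : Finset Nat.Primes) (hST : ∃ q ∈ T, q ∈ S) :
    Function.Bijective (toBS ℓ T).hom :=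
  LayerCS.compMap_bijective ℓ.L S T ℓ.unram hST (galK K ℓ.L) 1

/-- inflation `CS(L,S,T) → CS(L',S,T)` over `Gal(L'/K) → Gal(L/K)`, fixed `T` -/
def inflBS {ℓ ℓ' : Layer S K} (h : ℓ ≤ ℓ') (T : Finset Nat.Primes) :
    Rep.res (tau h) (BS ℓ T) ⟶ BS ℓ' T :=
  Rep.ofHom (ρ := (Rep.res (tau h) (BS ℓ T)).ρ) (σ := (BS ℓ' T).ρ)
    { toLinearMap := inflCS (Layer.le_def.1 h) S T
      isIntertwining' := fun σ => LinearMap.ext fun c =>
        inflCS_rho (Layer.le_def.1 h) S T (σ : ℓ'.L ≃ₐ[ℚ] ℓ'.L) c }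

@[simp] lemma inflBS_hom {ℓ ℓ' : Layer S K} (h : ℓ ≤ ℓ') (T : Finset Nat.Primes)
    (c : CS ℓ.L S T) : (inflBS h T).hom c = inflCS (Layer.le_def.1 h) S T c := rfl

/-- the `T`-change `CS(L,S,T) → CS(L,S,T')` over `Gal(L/K)` -/
def extBS (ℓ : Layer S K) (hST : S ⊆ T) (hTT : T ⊆ T') : BS ℓ T ⟶ BS ℓ T' :=
  (Rep.resFunctor (galK K ℓ.L).subtype).map (extCSHom ℓ.L S hST hTT)

@[simp] lemma extBS_hom (ℓ : Layer S K) (hST : S ⊆ T) (hTT : T ⊆ T') (c : CS ℓ.L S T) :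
    (extBS ℓ hST hTT).hom c = extCS ℓ.L S hST hTT c := rfl

/-- inflation on `H²`, fixed `T` -/
abbrev inflBSH {ℓ ℓ' : Layer S K} (h : ℓ ≤ ℓ') (T : Finset Nat.Primes) :
    groupCohomology (BS ℓ T) 2 ⟶ groupCohomology (BS ℓ' T) 2 :=
  groupCohomology.map (tau h) (inflBS h T) 2

/-- the `T`-change on `H²` -/
abbrev extBSH (ℓ : Layer S K) (hST : S ⊆ T) (hTT : T ⊆ T') :
    groupCohomology (BS ℓ T) 2 ⟶ groupCohomology (BS ℓ T') 2 :=
  groupCohomology.map (MonoidHom.id (Q ℓ)) (extBS ℓ hST hTT) 2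

/-- **naturality of `C → CS` for inflation at fixed `T`** -/
theorem toBS_trCH {ℓ ℓ' : Layer S K} (h : ℓ ≤ ℓ') (T : Finset Nat.Primes)
    (z : groupCohomology (AC ℓ T) 2) :
    (inflBSH h T).hom ((toBS ℓ T).hom z) =
      (toBS ℓ' T).hom ((trCH h T).hom z) := by
  obtain ⟨x, hx, rfl⟩ := exists_cls_eq (AC ℓ T) z
  rw [map_id_cls, map_cls, map_cls, map_id_cls]
  refine cls_congr (BS ℓ' T) ?_ _
  funext g
  simp only [pullC_apply, compC_apply]
  exact inflCS_CtoCS (Layer.le_def.1 h) S T _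

/-- **the stage transition factors as `T`-change followed by inflation at the bigger `T`** -/
theorem trBS_eq {p : ℕ} {i j : LayerT S K p} (h : i ≤ j) (z : groupCohomology (BS i.ℓ i.T) 2) :
    (trBS h).hom z =
      (inflBSH h.1 j.T).hom ((extBSH i.ℓ i.hST h.2).hom z) := by
  obtain ⟨x, hx, rfl⟩ := exists_cls_eq (BS i.ℓ i.T) z
  rw [map_id_cls, map_cls, map_cls]
  refine cls_congr (BS j.ℓ j.T) ?_ _
  funext g
  simp only [pullC_apply, compC_apply]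
  exact transCS_apply' (Layer.le_def.1 h.1) S i.hST h.2 _

end CSside

/-! ### The `T`-change and the injectivity of the stage transitions -/

section TChange

variable {p : ℕ}

variable (S p) in
/-- **(T-SURJ)** (helper80): for `T` good for `L`, the `T`-change `CS(L,S,T) → CS(L,S,T')` is onto. -/
def TSurj : Prop :=
  ∀ (L : IntermediateField ℚ Qb) [FiniteDimensional ℚ L] [IsGalois ℚ L]
    (T T' : Finset Nat.Primes) (hST : S ⊆ T) (hTT : T ⊆ T'), GoodT L T p →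
    Function.Surjective (extCS L S hST hTT)

/-- a bijective `T`-change is injective on `H²` -/
theorem extBS_map_injective {T T' : Finset Nat.Primes} (ℓ : Layer S K) (hST : S ⊆ T)
    (hTT : T ⊆ T') (hsurj : Function.Surjective (extCS ℓ.L S hST hTT)) :
    Function.Injective (extBSH ℓ hST hTT).hom := by
  set e : CS ℓ.L S T ≃ₗ[ℤ] CS ℓ.L S T' :=
    LinearEquiv.ofBijective (extCS ℓ.L S hST hTT) ⟨extCS_injective ℓ.L S hST hTT, hsurj⟩ with he
  have hee : ∀ c, e c = extCS ℓ.L S hST hTT c := fun c => rfl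
  have hsymm : ∀ (γ : ℓ.L ≃ₐ[ℚ] ℓ.L) (c' : CS ℓ.L S T'),
      e.symm ((CS ℓ.L S T').ρ γ c') = (CS ℓ.L S T).ρ γ (e.symm c') := by
    intro γ c'
    apply e.injective
    rw [e.apply_symm_apply, hee, extCS_rho, ← hee, e.apply_symm_apply]
  let g : BS ℓ T' ⟶ BS ℓ T :=
    Rep.ofHom (ρ := (BS ℓ T').ρ) (σ := (BS ℓ T).ρ)
      { toLinearMap := e.symm.toLinearMap
        isIntertwining' := fun σ => LinearMap.ext fun c' =>
          hsymm (σ : ℓ.L ≃ₐ[ℚ] ℓ.L) c' }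
  have hg : ∀ c, g.hom ((extBS ℓ hST hTT).hom c) = c := fun c => e.symm_apply_apply c
  rw [injective_iff_map_eq_zero]
  intro z hz
  obtain ⟨x, hx, rfl⟩ := exists_cls_eq (BS ℓ T) z
  have h1 := congrArg (groupCohomology.map (A := BS ℓ T') (B := BS ℓ T) (MonoidHom.id (Q ℓ)) g 2).hom hz
  rw [map_id_cls, map_id_cls, map_zero] at h1
  rw [← h1]
  refine cls_congr (BS ℓ T) ?_ _
  funext q
  exact (hg (x q)).symm

/-- **the stage transitions `trBS` are injective on `p`-power torsion** -/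
theorem trBS_injective (hTS : TSurj S p) (hp : p.Prime) (hp2 : p ≠ 2)
    (hpS : (⟨p, hp⟩ : Nat.Primes) ∈ S) {ζ : Qb} (hζ : IsPrimitiveRoot ζ p) (hζK : ζ ∈ K)
    {i j : LayerT S K p} (h : i ≤ j) (z : groupCohomology (BS i.ℓ i.T) 2) (b : ℕ)
    (hz : p ^ b • z = 0) (h0 : (trBS h).hom z = 0) : z = 0 := by
  rw [trBS_eq] at h0
  have hSTj : ∃ q ∈ j.T, q ∈ S := ⟨_, j.hST hpS, hpS⟩
  set z₁ := (extBSH i.ℓ i.hST h.2).hom z with hz₁
  have hz₁p : p ^ b • z₁ = 0 := by rw [hz₁, ← map_nsmul, hz, map_zero]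
  obtain ⟨w, hw⟩ := (toBS_bijective i.ℓ j.T hSTj).2 z₁
  have hwp : p ^ b • w = 0 := by
    apply (toBS_bijective i.ℓ j.T hSTj).1
    rw [map_nsmul, hw, hz₁p, map_zero]
  rw [← hw, toBS_trCH] at h0
  have h1 : (trCH h.1 j.T).hom w = 0 := by
    apply (toBS_bijective j.ℓ j.T hSTj).1
    rw [h0, map_zero]
  have hw0 : w = 0 := trCH_injective h.1 j.T j.good hp hp2 hζ hζK w b hwp h1
  have hz₁0 : z₁ = 0 := by rw [← hw, hw0, map_zero]
  apply extBS_map_injective i.ℓ i.hST h.2 (hTS i.ℓ.L i.T j.T i.hST h.2 i.good)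
  rw [map_zero]
  exact hz₁0

end TChange

/-! ### The good stages (helper14's `fc_level`) -/

section Stages

variable {p : ℕ}

/-- **above every stage there is a stage `(ℓ, T)`, `T` good for `ℓ.L·ℚ(ζ_{p^(k+1)})`, at which
`fc_level` applies**: `(card)` and `(cyc)` for `H²(Gal(L/K), C(L,T))`. -/
theorem exists_good_stage (hp : p.Prime) (hp2 : p ≠ 2) (hpS : (⟨p, hp⟩ : Nat.Primes) ∈ S)
    {ζ : Qb} (hζ : IsPrimitiveRoot ζ p) (hζK : ζ ∈ K) (i : LayerT S K p) :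
    ∃ j : LayerT S K p, ∃ _ : i ≤ j,
      Nat.card (primaryPart p (groupCohomology (AC j.ℓ j.T) 2)) =
        p ^ (Nat.card (Q j.ℓ)).factorization p ∧
      (∀ z z' : groupCohomology (AC j.ℓ j.T) 2, p • z = 0 → p • z' = 0 →
        ∃ n : ℕ, z' = n • z ∨ z = n • z') := by
  have : Fact p.Prime := ⟨hp⟩
  let ζ₀ : i.ℓ.L := ⟨ζ, i.ℓ.le hζK⟩
  have hζ₀ : IsPrimitiveRoot ζ₀ p := IsPrimitiveRoot.coe_submonoidClass_iff.1 hζ
  have hVζ : ∀ v ∈ galK K i.ℓ.L, v ζ₀ = ζ₀ := fun v hv => hv ζ₀ hζK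
  obtain ⟨k, hk⟩ := exists_pow_dvd_card_map_chiLayer_of_zeta p (galK K i.ℓ.L)
    ((Nat.card (galK K i.ℓ.L)).factorization p) ζ₀ hζ₀ hVζ
  obtain ⟨L', h₁, h, hsup, hfd, hgal, hL'⟩ := exists_layer_sup p k (S := S) i.ℓ.unram hpS
  have := hfd
  have := hgal
  obtain ⟨T, hT, hg⟩ := exists_goodT L' i.T (hL'.mono i.hST) hp
  have hpT : pp p ∈ T := hT (i.hST hpS)
  have hbot := ker_gRes_inf_ker_gRes_eq_bot h₁ h hsup
  obtain ⟨c1, c2, -, -⟩ := FinLevel.fc_level T h₁ (galK K i.ℓ.L) p k h hg hp2 hpT ζ₀ hζ₀ hVζ hbot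
    (hk k le_rfl L' h₁ h)
  exact ⟨⟨i.ℓ, T, i.hST.trans hT, i.good.mono hT⟩, ⟨le_rfl, hT⟩, c1, c2⟩

end Stages

/-! ### `ClsCyc` -/

section Main

variable {p : ℕ}

/-- transport of the dependence of `p`-torsion elements along an additive bijection -/
lemma cyc_of_bijective {X Y : Type*} [AddCommGroup X] [AddCommGroup Y] (f : X →+ Y)
    (hf : Function.Bijective f) (p : ℕ)
    (hcyc : ∀ z z' : X, p • z = 0 → p • z' = 0 → ∃ n : ℕ, z' = n • z ∨ z = n • z')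
    (z z' : Y) (hz : p • z = 0) (hz' : p • z' = 0) : ∃ n : ℕ, z' = n • z ∨ z = n • z' := by
  obtain ⟨w, rfl⟩ := hf.2 z
  obtain ⟨w', rfl⟩ := hf.2 z'
  have hw : p • w = 0 := hf.1 (by rw [map_nsmul, hz, map_zero])
  have hw' : p • w' = 0 := hf.1 (by rw [map_nsmul, hz', map_zero])
  obtain ⟨n, hn | hn⟩ := hcyc w w' hw hw'
  · exact ⟨n, Or.inl (by rw [hn, map_nsmul])⟩
  · exact ⟨n, Or.inr (by rw [hn, map_nsmul])⟩

/-- a nonzero `p`-power torsion element yields a nonzero `p`-torsion element -/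
lemma exists_pTorsion_ne_zero {X : Type*} [AddCommGroup X] (p : ℕ) :
    ∀ (m : ℕ) (x : X), x ≠ 0 → p ^ m • x = 0 → ∃ y : X, y ≠ 0 ∧ p • y = 0 := by
  intro m
  induction m with
  | zero =>
    intro x hx h
    rw [pow_zero, one_smul] at h
    exact absurd h hx
  | succ m ih =>
    intro x hx h
    by_cases h' : p ^ m • x = 0
    · exact ih x hx h'
    · exact ⟨p ^ m • x, h', by rw [← mul_smul, ← pow_succ']; exact h⟩

/-- **`ClsCyc S K p`** for `K ∋ ζ_p` finite unramified outside `S ∋ p`, `p` odd (modulo (T-SURJ)). -/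
theorem clsCyc (hTS : TSurj S p) (hp : p.Prime) (hp2 : p ≠ 2) (hpS : (⟨p, hp⟩ : Nat.Primes) ∈ S)
    (hK : K.IsUnramifiedOutside S) {ζ : Qb} (hζ : IsPrimitiveRoot ζ p) (hζK : ζ ∈ K) :
    ClsCyc S K p := by
  have : Fact p.Prime := ⟨hp⟩
  -- a stage with `p ∣ [L : K]` at which `fc_level` applies
  obtain ⟨ℓ₀, hℓ₀⟩ := exists_layer_dvd_card p hK hpS hζ hζK
  obtain ⟨i₁, hi₁, -⟩ := LayerT.exists_ge (p := p) hp ℓ₀ S (Finset.Subset.refl S)
  obtain ⟨i₀, h10, hcard, -⟩ := exists_good_stage hp hp2 hpS hζ hζK i₁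
  have hle : ℓ₀ ≤ i₀.ℓ := hi₁ ▸ h10.1
  have hdvd : p ∣ Nat.card (Q i₀.ℓ) := dvd_card_Q_of_le p hle hℓ₀
  have hpos : 1 ≤ (Nat.card (Q i₀.ℓ)).factorization p :=
    (hp.dvd_iff_one_le_factorization Nat.card_pos.ne').1 hdvd
  -- a nonzero `p`-torsion class of `H²(Gal(L₀/K), C(L₀,T₀))`
  have hgt : 1 < Nat.card (primaryPart p (groupCohomology (AC i₀.ℓ i₀.T) 2)) := by
    rw [hcard]
    exact Nat.one_lt_pow (Nat.one_le_iff_ne_zero.1 hpos) hp.one_lt
  have : Finite (primaryPart p (groupCohomology (AC i₀.ℓ i₀.T) 2)) :=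
    Nat.finite_of_card_ne_zero (by omega)
  have : Nontrivial (primaryPart p (groupCohomology (AC i₀.ℓ i₀.T) 2)) :=
    Finite.one_lt_card_iff_nontrivial.1 hgt
  obtain ⟨⟨w, hw⟩, hne⟩ := exists_ne (0 : primaryPart p (groupCohomology (AC i₀.ℓ i₀.T) 2))
  have hw0 : w ≠ 0 := fun h => hne (Subtype.ext h)
  obtain ⟨m, hm⟩ := mem_primaryPart.1 hw
  obtain ⟨y, hy0, hyp⟩ := exists_pTorsion_ne_zero p m w hw0 hm
  have hST0 : ∃ q ∈ i₀.T, q ∈ S := ⟨_, i₀.hST hpS, hpS⟩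
  refine ⟨i₀, (toBS i₀.ℓ i₀.T).hom y, ?_, ?_, ?_⟩
  · rw [← map_nsmul, hyp, map_zero]
  · intro j h h0
    have h1 := trBS_injective hTS hp hp2 hpS hζ hζK h _ 1
      (by rw [pow_one, ← map_nsmul, hyp, map_zero]) h0
    exact hy0 ((toBS_bijective i₀.ℓ i₀.T hST0).1 (h1.trans (map_zero _).symm))
  · intro i
    obtain ⟨j, hij, -, hcyc⟩ := exists_good_stage hp hp2 hpS hζ hζK i
    have hSTj : ∃ q ∈ j.T, q ∈ S := ⟨_, j.hST hpS, hpS⟩
    exact ⟨j, hij, cyc_of_bijective (toBS j.ℓ j.T).hom.toAddMonoidHom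
      (toBS_bijective j.ℓ j.T hSTj) p hcyc⟩

end Main

/-! ### Unconditional forms -/

section Final

variable {p : ℕ}

/-- (T-SURJ) is helper80's theorem `extCS_surjective`. -/
theorem tSurj : TSurj S p := fun L _ _ _ _ hST hTT hg => extCS_surjective L S hg hST hTT

/-- **`ClsCyc S K p`**, unconditional: `K ∋ ζ_p` finite unramified outside `S ∋ p`, `p` odd. -/
theorem clsCyc_final (hp : p.Prime) (hp2 : p ≠ 2) (hpS : (⟨p, hp⟩ : Nat.Primes) ∈ S)
    (hK : K.IsUnramifiedOutside S) {ζ : Qb} (hζ : IsPrimitiveRoot ζ p) (hζK : ζ ∈ K) :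
    ClsCyc S K p :=
  clsCyc tSurj hp hp2 hpS hK hζ hζK

open Fermat.Agent.GC.Global.KummerBridge Fermat.Agent.GC.KumH Fermat.Agent.GC.Places in
/-- **`hD2`**, unconditional: the `p`-torsion of `Hlc²(G_K, D_S)` has exactly `p` elements. -/
theorem hD2_final [FiniteDimensional ℚ K] (hp : p.Prime) (hp2 : p ≠ 2)
    (hpS : (⟨p, hp⟩ : Nat.Primes) ∈ S) (hK : K.IsUnramifiedOutside S) (hS : S.Nonempty)
    {ζ : Qb} (hζ : IsPrimitiveRoot ζ p) (hζK : ζ ∈ K) :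
    Nat.card (torsC ((p : ℕ) : ℤ) (Hlc (levelK S K) (ideleSK S K).X₃ 2)) = p :=
  hD2_ideleSK_cls hp hpS hK hS (clsCyc_final hp hp2 hpS hK hζ hζK)

end Final

end Fermat.Agent.GC.Global.Limit.ClsCycProof
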