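/-
GATE-C / C4 [B']-FIN hand-over (helper97): helper12's class-level statement `ClsDiv S K p`
(`EJDModelCls.lean`, the input of `bdivp`) from the `C`-language finite-level statements.

* `stJB`, `stJB_eq` : the stage map `H²(Gal(L/K), J(L,S)) → H²(Gal(L/K), C_S(L,T))` at ANY `T ⊇ S`
  is `compMap ∘ πC_*` (`extC ∘ JtoC_S = CtoCS ∘ JtoC_T ∘ extJ`), hence `stJB ξ = 0 ↔ πC_* ξ = 0`;
* `stJB_mono` : `T`-change on the ambient side (`extCS ∘ extC = extC`);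
* `galK_eq_upV` : `Gal(L'/K) = upV h Gal(L/K)`;
* `trJ2_eq` : the model transition `H²(Gal(L/K), J(L,S)) → H²(Gal(L'/K), J(L',S))` is helper72's
  `inflJCoh` followed by the (cast-free) restriction along `Gal(L'/K) = upV h Gal(L/K)`;
* `OnHyp S K p` : (FC-onto-p) at `b = 1` in the shape consumed here;
* `clsDiv_of_onHyp` : **`OnHyp S K p → ClsDiv S K p`** ((jd) = helper72 `exists_level_jdiv`).
-/
import Fermat.Agent.GC.Global.Limit.EJDModelCls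
import Fermat.Agent.GC.Global.WRec.FinLevelDiv
import Fermat.Agent.GC.Global.MackeyDivExists
import Fermat.Agent.GC.Global.Adapter.LayerCS
import Fermat.Agent.GC.Global.Funct.LayerSup

set_option autoImplicit false
set_option linter.unusedSectionVars false

open CategoryTheory groupCohomology

noncomputable section

namespace Fermat.Agent.GC.Global.Limit.ClsDivProof

open Fermat.Agent.GC.Global Fermat.Agent.GC.Global.Funct Fermat.Agent.GC.Global.Adapter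
open Fermat.Agent.GC.Global.LMU
open Fermat.Agent.GC.Global.Limit.LayerTower Fermat.Agent.GC.Global.Limit.TowerJS
open Fermat.Agent.GC.Global.Limit.AmbientModel Fermat.Agent.GC.Global.Limit.EJDModel
open Fermat.Agent.GC.Global.Mackey Fermat.Agent.GC.Global.WRec
open Fermat.Agent.GC.Global.WRec.FinLevelDiv Fermat.Agent.GC.Global.Adapter.LayerCS

variable {S : Finset Nat.Primes} {K : IntermediateField ℚ Qb}

/-! ### The stage map at an arbitrary `T ⊇ S` -/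

/-- the stage map `H²(Gal(L/K), J(L,S)) → H²(Gal(L/K), C_S(L,T))` at any `T ⊇ S`. -/
abbrev stJB (ℓ : Layer S K) {T : Finset Nat.Primes} (hST : S ⊆ T) :
    groupCohomology (AJ ℓ) 2 ⟶ groupCohomology (BS ℓ T) 2 :=
  groupCohomology.map (MonoidHom.id (Q ℓ)) (gstJC ℓ ≫ incS ℓ hST) 2

theorem stJBS_eq_stJB {p : ℕ} (i : LayerT S K p) : stJBS i = stJB i.ℓ i.hST := rfl

/-- **(B4)** `extC ∘ JtoC_S = CtoCS ∘ JtoC_T ∘ extJ` on classes. -/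
theorem stJB_eq (ℓ : Layer S K) {T : Finset Nat.Primes} (hST : S ⊆ T)
    (ξ : groupCohomology (AJ ℓ) 2) :
    (stJB ℓ hST).hom ξ =
      compMap ℓ.L S T (galK K ℓ.L) 1 ((piCCoh ℓ.L S T (galK K ℓ.L) 2).hom ξ) := by
  have key : groupCohomology.map (MonoidHom.id (Q ℓ)) (gstJC ℓ ≫ incS ℓ hST) 2 =
      piCCoh ℓ.L S T (galK K ℓ.L) 2 ≫
        groupCohomology.map (A := Rep.res (galK K ℓ.L).subtype (C ℓ.L T))
          (B := Rep.res (galK K ℓ.L).subtype (CS ℓ.L S T)) (MonoidHom.id (galK K ℓ.L))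
          ((Rep.resFunctor (k := ℤ) (galK K ℓ.L).subtype).map (CtoCS ℓ.L S T)) 2 := by
    unfold piCCoh
    rw [← groupCohomology.map_id_comp]
    refine groupCohomology.map_congr rfl ?_ 2
    refine LinearMap.ext fun y => ?_
    exact extC_JtoC ℓ.L S hST y
  exact congr($(key).hom ξ)

/-- `stJB ξ = 0 ↔ πC_* ξ = 0` (`L` unramified outside `S`, `S ∩ T ≠ ∅`). -/
theorem stJB_eq_zero_iff (ℓ : Layer S K) {T : Finset Nat.Primes} (hST : S ⊆ T)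
    (hne : ∃ q ∈ T, q ∈ S) (ξ : groupCohomology (AJ ℓ) 2) :
    (stJB ℓ hST).hom ξ = 0 ↔ (piCCoh ℓ.L S T (galK K ℓ.L) 2).hom ξ = 0 := by
  rw [stJB_eq]
  constructor
  · intro h
    exact (compMap_bijective ℓ.L S T ℓ.unram hne (galK K ℓ.L) 1).1 (h.trans (map_zero _).symm)
  · intro h
    rw [h]
    exact map_zero _

/-- `T`-change on the ambient side: `stJB` at `T' ⊇ T` factors through `stJB` at `T`. -/
theorem stJB_mono (ℓ : Layer S K) {T T' : Finset Nat.Primes} (hST : S ⊆ T) (hTT : T ⊆ T')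
    (ξ : groupCohomology (AJ ℓ) 2) (h0 : (stJB ℓ hST).hom ξ = 0) :
    (stJB ℓ (hST.trans hTT)).hom ξ = 0 := by
  have key : stJB ℓ (hST.trans hTT) =
      stJB ℓ hST ≫ groupCohomology.map (A := BS ℓ T) (B := BS ℓ T') (MonoidHom.id (Q ℓ))
        ((Rep.resFunctor (k := ℤ) (galK K ℓ.L).subtype).map (extCSHom ℓ.L S hST hTT)) 2 := by
    unfold stJB
    rw [← groupCohomology.map_id_comp]
    refine groupCohomology.map_congr rfl ?_ 2
    refine LinearMap.ext fun y => ?_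
    exact (extCS_extC ℓ.L S hST hTT ((JtoC ℓ.L S).hom y)).symm
  rw [key]
  change (groupCohomology.map _ _ 2).hom ((stJB ℓ hST).hom ξ) = 0
  rw [h0, map_zero]

/-! ### `Gal(L'/K) = upV h Gal(L/K)` and the model transition on the `J`-side -/

/-- `Gal(L'/K)` is the preimage of `Gal(L/K)` (`K ≤ L ≤ L'`). -/
theorem galK_eq_upV {ℓ ℓ' : Layer S K} (h : ℓ ≤ ℓ') :
    galK K ℓ'.L = upV (Layer.le_def.1 h) (galK K ℓ.L) := by
  ext σ
  rw [Subgroup.mem_comap]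
  constructor
  · exact gRes_mem_galK h σ
  · intro hσ x hx
    have hxL : (x : Qb) ∈ ℓ.L := ℓ.le hx
    have h1 := GalRes.apply_res (gIncl (Layer.le_def.1 h)) σ ⟨(x : Qb), hxL⟩
    have h2 : gRes (Layer.le_def.1 h) σ ⟨(x : Qb), hxL⟩ = ⟨(x : Qb), hxL⟩ := hσ _ hx
    have h3 : gIncl (Layer.le_def.1 h) ⟨(x : Qb), hxL⟩ = x := Subtype.ext (coe_gIncl _ _)
    change gIncl (Layer.le_def.1 h) (gRes (Layer.le_def.1 h) σ ⟨(x : Qb), hxL⟩) = _ at h1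
    rw [h2, h3] at h1
    exact h1.symm

/-- the model transition `H²(Gal(L/K), J(L,S)) → H²(Gal(L'/K), J(L',S))`. -/
abbrev trJ2 {ℓ ℓ' : Layer S K} (h : ℓ ≤ ℓ') :
    groupCohomology (AJ ℓ) 2 ⟶ groupCohomology (AJ ℓ') 2 :=
  groupCohomology.map (tau h) (trJ h) 2

theorem trJS_eq_trJ2 {p : ℕ} {i j : LayerT S K p} (h : i ≤ j) : trJS h = trJ2 h.1 := rfl

/-- the model transition is helper72's `inflJCoh` followed by the restriction along the equality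
`Gal(L'/K) = upV h Gal(L/K)`. -/
theorem trJ2_eq {ℓ ℓ' : Layer S K} (h : ℓ ≤ ℓ') :
    trJ2 h = inflJCoh (Layer.le_def.1 h) S (galK K ℓ.L) 2 ≫
      resLE (J ℓ'.L S) (le_of_eq (galK_eq_upV h)) 2 := by
  unfold trJ2 inflJCoh resLE
  rw [← groupCohomology.map_comp]
  refine groupCohomology.map_congr ?_ ?_ 2
  · rfl
  · rfl

/-! ### The hand-over -/

variable (S K) in
/-- **(FC-onto-p)** at `b = 1`, in the shape consumed by `clsDiv_of_onHyp`: above every layer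
`ℓ₁ ⊇ K`, every `V₁ ≤ Gal(ℓ₁/K)` and every `T₀ ⊇ S` there are a layer `ℓ₂ ≥ ℓ₁` and a set
`T ⊇ T₀` good for `ℓ₂` such that the image in `H²(V₂, C(L₂,T))` of every `p`-torsion class of
`H²(V₁, C(L₁,T))` is `πC_*` of a `p`-torsion class of `H²(V₂, J(L₂,S))`. -/
def OnHyp (p : ℕ) : Prop :=
  ∀ (ℓ₁ : Layer S K) (V₁ : Subgroup (ℓ₁.L ≃ₐ[ℚ] ℓ₁.L)), V₁ ≤ galK K ℓ₁.L →
    ∀ T₀ : Finset Nat.Primes, S ⊆ T₀ →
    ∃ (ℓ₂ : Layer S K) (h₂ : ℓ₁ ≤ ℓ₂) (T : Finset Nat.Primes), T₀ ⊆ T ∧ GoodT ℓ₂.L T p ∧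
      ∀ z : groupCohomology (Rep.res V₁.subtype (C ℓ₁.L T)) 2, p • z = 0 →
        ∃ ξ₂ : groupCohomology (Rep.res (upV (Layer.le_def.1 h₂) V₁).subtype (J ℓ₂.L S)) 2,
          p • ξ₂ = 0 ∧
          (stageTrans (Layer.le_def.1 h₂) T V₁ 2).hom z =
            (piCCoh ℓ₂.L S T (upV (Layer.le_def.1 h₂) V₁) 2).hom ξ₂

/-- **`ClsDiv S K p`** (helper12, `EJDModelCls`) from (FC-onto-p); (jd) is helper72's
`exists_level_jdiv`. -/
theorem clsDiv_of_onHyp {p : ℕ} (hp : p.Prime) (hpS : (⟨p, hp⟩ : Nat.Primes) ∈ S)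
    (on : OnHyp S K p) : ClsDiv S K p := by
  have : Fact p.Prime := ⟨hp⟩
  intro i ξ a hξ h0
  -- (jd)
  obtain ⟨k₀, hk₀⟩ := exists_level_jdiv (L := i.ℓ.L) (p := p) S a
  -- the layer `ℓ₁ = ℓ ⊔ ℚ(ζ_{p^(k₀+1)})`
  obtain ⟨ℓ₁, hℓ₁⟩ : ∃ ℓ₁ : Layer S K, ℓ₁.L = i.ℓ.L ⊔ cycLayer p k₀ :=
    ⟨⟨i.ℓ.L ⊔ cycLayer p k₀, i.ℓ.unram.sup (isUnramifiedOutside_cycLayer p k₀ S hpS),
      isGalois_sup_of_isGalois, i.ℓ.le.trans le_sup_left⟩, rfl⟩
  have h₁ : i.ℓ ≤ ℓ₁ := Layer.le_def.2 (hℓ₁ ▸ le_sup_left)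
  have hc₁ : cycLayer p k₀ ≤ ℓ₁.L := hℓ₁ ▸ le_sup_right
  -- (on) above `ℓ₁`
  obtain ⟨ℓ₂, h₂, T, hT, hg, hon⟩ :=
    on ℓ₁ (upV (Layer.le_def.1 h₁) (galK K i.ℓ.L)) (galK_eq_upV h₁).ge i.T i.hST
  have hne : ∃ q ∈ T, q ∈ S := ⟨⟨p, hp⟩, (i.hST.trans hT) hpS, hpS⟩
  -- `πC_* ξ = 0` at `T`
  have hπ : (piCCoh i.ℓ.L S T (galK K i.ℓ.L) 2).hom ξ = 0 :=
    (stJB_eq_zero_iff i.ℓ (i.hST.trans hT) hne ξ).1 (stJB_mono i.ℓ i.hST hT ξ h0)
  obtain ⟨ξ', h1, h2⟩ := fc_div (Layer.le_def.1 h₁) (Layer.le_def.1 h₂) S T (galK K i.ℓ.L)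
    (fun x hx => hk₀ k₀ le_rfl ℓ₁.L (Layer.le_def.1 h₁) hc₁ (galK K i.ℓ.L) x hx)
    hon ξ hξ hπ
  -- the stage `j`
  let j : LayerT S K p := ⟨ℓ₂, T, i.hST.trans hT, hg⟩
  have hij : i ≤ j := ⟨h₁.trans h₂, hT⟩
  refine ⟨j, hij, (resLE (J ℓ₂.L S) (le_of_eq (galK_eq_upV hij.1)) 2).hom ξ', ?_, ?_⟩
  · rw [trJS_eq_trJ2, trJ2_eq]
    change (resLE (J ℓ₂.L S) _ 2).hom
      ((inflJCoh (Layer.le_def.1 hij.1) S (galK K i.ℓ.L) 2).hom ξ) = _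
    rw [h1]
    exact map_nsmul _ _ _
  · rw [stJBS_eq_stJB]
    refine (stJB_eq_zero_iff ℓ₂ (i.hST.trans hT) hne _).2 ?_
    have hnat := resLE_naturality (piC ℓ₂.L S T) (le_of_eq (galK_eq_upV hij.1)) 2
    have := congr($(hnat).hom ξ')
    change (piCCoh ℓ₂.L S T (galK K ℓ₂.L) 2).hom ((resLE (J ℓ₂.L S) _ 2).hom ξ') =
      (resLE (C ℓ₂.L T) _ 2).hom
        ((piCCoh ℓ₂.L S T (upV (Layer.le_def.1 hij.1) (galK K i.ℓ.L)) 2).hom ξ') at this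
    rw [this, h2, map_zero]

end Fermat.Agent.GC.Global.Limit.ClsDivProof
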