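/-
GATE-C / C4 [B']-FIN (helper97): **`ClsDiv S K p` unconditionally** for `K ∋ ζ_p`, `p` odd, `p ∈ S`.

* `onHyp_of_zeta` : helper14's `exists_fc_onto` (FC-onto-p, `WRec/FinLevelJ.lean`) + helper68's
  `exists_pow_dvd_card_map_chiLayer_of_zeta` (DEG-GROW) + helper79's `LayerSup` + helper11's
  `exists_goodT` give the hypothesis `OnHyp S K p` of `ClsDivProof.clsDiv_of_onHyp`;
* `clsDiv_final` : `ClsDiv S K p`.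
-/
import Fermat.Agent.GC.Global.Limit.ClsDivProof
import Fermat.Agent.GC.Global.WRec.FinLevelJ
import Fermat.Agent.GC.Global.WRec.DegGrow

set_option autoImplicit false
set_option linter.unusedSectionVars false

open CategoryTheory groupCohomology

noncomputable section

namespace Fermat.Agent.GC.Global.Limit.ClsDivProof

open Fermat.Agent.GC.Global Fermat.Agent.GC.Global.Funct Fermat.Agent.GC.Global.Adapter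
open Fermat.Agent.GC.Global.Limit.LayerTower Fermat.Agent.GC.Global.Limit.EJDModel
open Fermat.Agent.GC.Global.WRec Fermat.Agent.GC.Global.WRec.FinLevelDiv

variable {S : Finset Nat.Primes} {K : IntermediateField ℚ Qb}

/-- **(FC-onto-p) in the shape `OnHyp`**, for `K ∋ ζ_p`, `p` odd, `p ∈ S`. -/
theorem onHyp_of_zeta {p : ℕ} (hp : p.Prime) (hp2 : p ≠ 2) (hpS : (⟨p, hp⟩ : Nat.Primes) ∈ S)
    {ζ : Qb} (hζ : IsPrimitiveRoot ζ p) (hζK : ζ ∈ K) : OnHyp S K p := by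
  have : Fact p.Prime := ⟨hp⟩
  intro ℓ₁ V₁ hV₁ T₀ hT₀
  -- `ζ` as an element of `ℓ₁.L`, fixed by `V₁ ≤ Gal(ℓ₁/K)`
  have hζL : ζ ∈ ℓ₁.L := ℓ₁.le hζK
  have hζ₁ : IsPrimitiveRoot (⟨ζ, hζL⟩ : ℓ₁.L) p :=
    IsPrimitiveRoot.of_map_of_injective (f := ℓ₁.L.val) hζ ℓ₁.L.val.injective
  have hVζ : ∀ v ∈ V₁, v (⟨ζ, hζL⟩ : ℓ₁.L) = ⟨ζ, hζL⟩ := fun v hv => hV₁ hv ⟨ζ, hζL⟩ hζK
  obtain ⟨k₁, hk₁⟩ := FinLevel.exists_fc_onto p hp2 V₁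
  obtain ⟨k₂, hk₂⟩ := DegGrow.exists_pow_dvd_card_map_chiLayer_of_zeta p V₁
    ((Nat.card V₁).factorization p) ⟨ζ, hζL⟩ hζ₁ hVζ
  -- the layer `ℓ₂ = ℓ₁ ⊔ ℚ(ζ_{p^(k+1)})`, `k = max k₁ k₂`
  obtain ⟨ℓ₂, hℓ₂⟩ : ∃ ℓ₂ : Layer S K, ℓ₁.L ⊔ cycLayer p (max k₁ k₂) = ℓ₂.L :=
    ⟨⟨ℓ₁.L ⊔ cycLayer p (max k₁ k₂),
      ℓ₁.unram.sup (isUnramifiedOutside_cycLayer p (max k₁ k₂) S hpS),
      isGalois_sup_of_isGalois, ℓ₁.le.trans le_sup_left⟩, rfl⟩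
  have h₂ : ℓ₁ ≤ ℓ₂ := Layer.le_def.2 (hℓ₂ ▸ le_sup_left)
  have hc : cycLayer p (max k₁ k₂) ≤ ℓ₂.L := hℓ₂ ▸ le_sup_right
  obtain ⟨T, hT, hg⟩ := exists_goodT ℓ₂.L T₀ (ℓ₂.unram.mono hT₀) hp
  refine ⟨ℓ₂, h₂, T, hT, hg, fun z hz => ?_⟩
  have hz1 : p ^ 1 • z = 0 := by rw [pow_one]; exact hz
  refine Exists.elim (hk₁ (max k₁ k₂) (le_max_left _ _) ℓ₂.L (Layer.le_def.1 h₂) hc S T hg hpS
    (hT (hT₀ hpS)) ⟨ζ, hζL⟩ hζ₁ hVζ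
    (ker_gRes_inf_ker_gRes_eq_bot (Layer.le_def.1 h₂) hc hℓ₂)
    (hk₂ (max k₁ k₂) (le_max_right _ _) ℓ₂.L (Layer.le_def.1 h₂) hc) z 1 hz1) fun ξ hξ => ?_
  refine ⟨ξ, ?_, hξ.2⟩
  have := hξ.1
  rwa [pow_one] at this

/-- **`ClsDiv S K p`** (helper12, `EJDModelCls`), unconditionally: `K ∋ ζ_p`, `p` odd, `p ∈ S`. -/
theorem clsDiv_final {p : ℕ} (hp : p.Prime) (hp2 : p ≠ 2) (hpS : (⟨p, hp⟩ : Nat.Primes) ∈ S)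
    {ζ : Qb} (hζ : IsPrimitiveRoot ζ p) (hζK : ζ ∈ K) : ClsDiv S K p :=
  clsDiv_of_onHyp hp hpS (onHyp_of_zeta hp hp2 hpS hζ hζK)

end Fermat.Agent.GC.Global.Limit.ClsDivProof
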