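/-
GATE-C / C4 (CS-BRIDGE), helper81: the dictionary between the `C(L,T)`-language of the finite
level theorems (`devissage_C`, `CycAbs`, `CyclicLayer`, helper14 `StageIso`) and the ambient
stage modules `BS ℓ T = C_S(L,T)|_{Gal(L/K)}` of helper7's `CompareCS.Ambient` (helper80
`StageCS`).

* `AT ℓ T`, `JT ℓ T` : `C(L,T)`, `J(L,T)` restricted to the stage group `Q ℓ = Gal(L/K)`
  (`AT ℓ S = A ℓ`, `JT ℓ S = AJ ℓ` by `rfl`);
* (B1) `toBS ℓ T n : Hⁿ(Q ℓ, C(L,T)) ⟶ Hⁿ(Q ℓ, BS ℓ T)`, `toBS_bijective` in degrees `n + 1` (LM-U);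
* (B2) `trT`, `toBS_trans` : the transition square (`inflC` against `trS`, fixed `T`);
* (B3) `extBS`, `trS_eq`, `map_trS_eq` : the `T`-change on the ambient side, `trS = ext ≫ trS`;
* (B4) `piC`, `piCT`, `JtoAT`, `JtoAT_incS`, `map_JtoAT_incS` : `(inc ∘ gst)_* = toBS ∘ (piC)_*`;
* `castH e X n` : transport along an equality of subgroups (`castH_natural`, `map_comp_castH`);
* `upV_galK`, `stageTrans_castH`, `inflJ_castH` : helper14's `stageTrans` / helper72's `inflJCoh`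
  are the tower transitions up to `castH`;
* packaged: `trS_eq_of_stageTrans` (ONTO), `map_JtoAT_incS_eq_zero_iff` (DIV), `mult_of_toBS` (CYC).
-/
import Mathlib
import Fermat.Agent.GC.Global.Adapter.LayerCS
import Fermat.Agent.GC.Global.Funct.StageCS
import Fermat.Agent.GC.Global.Funct.StageIso

set_option autoImplicit false
set_option linter.unusedSectionVars false

open scoped Padic
open IntermediateField CategoryTheory groupCohomology

noncomputable section

namespace Fermat.Agent.GC.Global.Limit.BridgeCS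

open Fermat.Agent.GC.Global Fermat.Agent.GC.Global.Adapter Fermat.Agent.GC.Global.LMU
open Fermat.Agent.GC.Global.Funct Fermat.Agent.GC.Global.Limit.LayerTower

variable {S : Finset Nat.Primes} {K : IntermediateField ℚ Qb} {T T' : Finset Nat.Primes}

/-! ### The stage modules in `C(L,T)`-language -/

/-- `C(L,T)` restricted to the stage group `Gal(L/K)`. -/
def AT (ℓ : Layer S K) (T : Finset Nat.Primes) : Rep ℤ (Q ℓ) :=
  Rep.res (galK K ℓ.L).subtype (C ℓ.L T)

/-- `J(L,T)` restricted to the stage group `Gal(L/K)`. -/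
def JT (ℓ : Layer S K) (T : Finset Nat.Primes) : Rep ℤ (Q ℓ) :=
  Rep.res (galK K ℓ.L).subtype (J ℓ.L T)

theorem AT_ρ (ℓ : Layer S K) (T : Finset Nat.Primes) (σ : Q ℓ) (c : C ℓ.L T) :
    (AT ℓ T).ρ σ c = (C ℓ.L T).ρ (σ : ℓ.L ≃ₐ[ℚ] ℓ.L) c := rfl

theorem JT_ρ (ℓ : Layer S K) (T : Finset Nat.Primes) (σ : Q ℓ) (y : J ℓ.L T) :
    (JT ℓ T).ρ σ y = (J ℓ.L T).ρ (σ : ℓ.L ≃ₐ[ℚ] ℓ.L) y := rfl

/-- `AT ℓ S` is helper12's stage module `A ℓ`. -/
theorem AT_self (ℓ : Layer S K) : AT ℓ S = A ℓ := rfl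

/-- the projection `C(L,T) ⟶ C_S(L,T)` on the stage. -/
def CtoBS (ℓ : Layer S K) (T : Finset Nat.Primes) : AT ℓ T ⟶ BS ℓ T :=
  (Rep.resFunctor (k := ℤ) (galK K ℓ.L).subtype).map (CtoCS ℓ.L S T)

@[simp] theorem CtoBS_hom (ℓ : Layer S K) (T : Finset Nat.Primes) (c : C ℓ.L T) :
    (CtoBS ℓ T).hom c = (CtoCS ℓ.L S T).hom c := rfl

/-- **(B1)** the comparison `Hⁿ(Gal(L/K), C(L,T)) ⟶ Hⁿ(Gal(L/K), BS ℓ T)`. -/
def toBS (ℓ : Layer S K) (T : Finset Nat.Primes) (n : ℕ) :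
    groupCohomology (AT ℓ T) n ⟶ groupCohomology (BS ℓ T) n :=
  groupCohomology.map (MonoidHom.id (Q ℓ)) (CtoBS ℓ T) n

/-- **(B1)** bijectivity in positive degrees (helper52 (LM-U)). -/
theorem toBS_bijective (ℓ : Layer S K) (T : Finset Nat.Primes) (hST : ∃ q ∈ T, q ∈ S) (n : ℕ) :
    Function.Bijective (toBS ℓ T (n + 1)).hom :=
  res_CtoCS_bijective_of_isUnramifiedOutside ℓ.L T ℓ.unram hST (galK K ℓ.L) n

/-- every class of the ambient module comes from a unique `C(L,T)`-class. -/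
theorem existsUnique_toBS_eq (ℓ : Layer S K) (T : Finset Nat.Primes) (hST : ∃ q ∈ T, q ∈ S)
    (n : ℕ) (z : groupCohomology (BS ℓ T) (n + 1)) :
    ∃! x : groupCohomology (AT ℓ T) (n + 1), (toBS ℓ T (n + 1)).hom x = z := by
  obtain ⟨x, hx⟩ := (toBS_bijective ℓ T hST n).2 z
  exact ⟨x, hx, fun y hy => (toBS_bijective ℓ T hST n).1 (hy.trans hx.symm)⟩

/-! ### (B2) the transition square at fixed `T` -/

/-- `inflC` on the stage modules at `T`. -/
def trT {ℓ ℓ' : Layer S K} (h : ℓ ≤ ℓ') (T : Finset Nat.Primes) :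
    Rep.res (tau h) (AT ℓ T) ⟶ AT ℓ' T :=
  Rep.ofHom (ρ := (Rep.res (tau h) (AT ℓ T)).ρ) (σ := (AT ℓ' T).ρ)
    { toLinearMap := inflC (Layer.le_def.1 h) T
      isIntertwining' := fun σ => LinearMap.ext fun c =>
        inflC_rho (Layer.le_def.1 h) T (σ : ℓ'.L ≃ₐ[ℚ] ℓ'.L) c }

@[simp] theorem trT_hom {ℓ ℓ' : Layer S K} (h : ℓ ≤ ℓ') (T : Finset Nat.Primes) (c : C ℓ.L T) :
    (trT h T).hom c = inflC (Layer.le_def.1 h) T c := rfl

/-- `trT h S` is helper12's `tr h`. -/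
theorem trT_self {ℓ ℓ' : Layer S K} (h : ℓ ≤ ℓ') : trT h S = tr h := rfl

/-- the square of representations behind `toBS_trans`. -/
theorem CtoBS_trS {ℓ ℓ' : Layer S K} (h : ℓ ≤ ℓ') (hST : S ⊆ T) :
    (Rep.resFunctor (tau h)).map (CtoBS ℓ T) ≫ trS h hST (Finset.Subset.refl T) =
      trT h T ≫ CtoBS ℓ' T := by
  have key : ∀ c : C ℓ.L T,
      transCS (Layer.le_def.1 h) S hST (Finset.Subset.refl T) ((CtoCS ℓ.L S T).hom c) =
        (CtoCS ℓ'.L S T).hom (inflC (Layer.le_def.1 h) T c) := fun c => by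
    rw [transCS_apply, extCS_refl, inflCS_CtoCS]
  ext c
  exact key c

/-- **(B2)** the transition square: `toBS` intertwines the transition maps of the `C(L,T)`-stages
(`inflC`) and of the ambient stages (`trS`, fixed `T`). -/
theorem toBS_trans {ℓ ℓ' : Layer S K} (h : ℓ ≤ ℓ') (hST : S ⊆ T) (n : ℕ) :
    toBS ℓ T n ≫ groupCohomology.map (tau h) (trS h hST (Finset.Subset.refl T)) n =
      groupCohomology.map (tau h) (trT h T) n ≫ toBS ℓ' T n := by
  have h1 := groupCohomology.map_comp (A := AT ℓ T) (B := BS ℓ T) (C := BS ℓ' T)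
    (MonoidHom.id (Q ℓ)) (tau h) (CtoBS ℓ T) (trS h hST (Finset.Subset.refl T)) n
  have h2 := groupCohomology.map_comp (A := AT ℓ T) (B := AT ℓ' T) (C := BS ℓ' T)
    (tau h) (MonoidHom.id (Q ℓ')) (trT h T) (CtoBS ℓ' T) n
  refine h1.symm.trans (Eq.trans ?_ h2)
  rw [CtoBS_trS]
  rfl

theorem toBS_trans_apply {ℓ ℓ' : Layer S K} (h : ℓ ≤ ℓ') (hST : S ⊆ T) (n : ℕ)
    (x : groupCohomology (AT ℓ T) n) :
    (groupCohomology.map (tau h) (trS h hST (Finset.Subset.refl T)) n).hom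
        ((toBS ℓ T n).hom x) =
      (toBS ℓ' T n).hom ((groupCohomology.map (tau h) (trT h T) n).hom x) :=
  congr($(toBS_trans h hST n).hom x)

/-! ### (B3) the `T`-change on the ambient side -/

/-- `extCS` on the ambient stage modules. -/
def extBS (ℓ : Layer S K) (hST : S ⊆ T) (hTT : T ⊆ T') : BS ℓ T ⟶ BS ℓ T' :=
  (Rep.resFunctor (k := ℤ) (galK K ℓ.L).subtype).map (extCSHom ℓ.L S hST hTT)

@[simp] theorem extBS_hom (ℓ : Layer S K) (hST : S ⊆ T) (hTT : T ⊆ T') (c : CS ℓ.L S T) :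
    (extBS ℓ hST hTT).hom c = extCS ℓ.L S hST hTT c := rfl

/-- `trS = (T-change at the lower layer) ≫ (transition at fixed T')`. -/
theorem trS_eq {ℓ ℓ' : Layer S K} (h : ℓ ≤ ℓ') (hST : S ⊆ T) (hTT : T ⊆ T') :
    trS h hST hTT = (Rep.resFunctor (tau h)).map (extBS ℓ hST hTT) ≫
      trS h (hST.trans hTT) (Finset.Subset.refl T') := by
  have key : ∀ c : CS ℓ.L S T, transCS (Layer.le_def.1 h) S hST hTT c =
      transCS (Layer.le_def.1 h) S (hST.trans hTT) (Finset.Subset.refl T')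
        (extCS ℓ.L S hST hTT c) := fun c => by
    rw [transCS_apply', transCS_apply, extCS_refl]
  ext c
  exact key c

/-- class-level form of `trS_eq`. -/
theorem map_trS_eq {ℓ ℓ' : Layer S K} (h : ℓ ≤ ℓ') (hST : S ⊆ T) (hTT : T ⊆ T') (n : ℕ) :
    groupCohomology.map (tau h) (trS h hST hTT) n =
      groupCohomology.map (MonoidHom.id (Q ℓ)) (extBS ℓ hST hTT) n ≫
        groupCohomology.map (tau h) (trS h (hST.trans hTT) (Finset.Subset.refl T')) n := by
  have h1 := groupCohomology.map_comp (A := BS ℓ T) (B := BS ℓ T') (C := BS ℓ' T')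
    (MonoidHom.id (Q ℓ)) (tau h) (extBS ℓ hST hTT)
    (trS h (hST.trans hTT) (Finset.Subset.refl T')) n
  refine Eq.trans ?_ h1
  rw [← trS_eq]
  rfl

/-! ### (B4) compatibility with `J ⟶ C` -/

/-- `extJ` as a morphism of representations. -/
def extJRep (L : IntermediateField ℚ Qb) [FiniteDimensional ℚ L] [IsGalois ℚ L]
    (T T' : Finset Nat.Primes) : J L T ⟶ J L T' :=
  Rep.ofHom (ρ := (J L T).ρ) (σ := (J L T').ρ)
    { toLinearMap := extJ L T T'
      isIntertwining' := fun g => LinearMap.ext fun y => extJ_rho L g y }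

@[simp] theorem extJRep_hom (L : IntermediateField ℚ Qb) [FiniteDimensional ℚ L] [IsGalois ℚ L]
    (T T' : Finset Nat.Primes) (y : J L T) : (extJRep L T T').hom y = extJ L T T' y := rfl

/-- `J(L,S) ⟶ C(L,T)`, `y ↦ [ext y]`. -/
def piC (L : IntermediateField ℚ Qb) [FiniteDimensional ℚ L] [IsGalois ℚ L]
    (S T : Finset Nat.Primes) : J L S ⟶ C L T := extJRep L S T ≫ JtoC L T

@[simp] theorem piC_hom (L : IntermediateField ℚ Qb) [FiniteDimensional ℚ L] [IsGalois ℚ L]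
    (S T : Finset Nat.Primes) (y : J L S) :
    (piC L S T).hom y = (JtoC L T).hom (extJ L S T y) := rfl

/-- `JtoC` on the stage (for `T = S` this is helper12's `gstJC ℓ : AJ ℓ ⟶ A ℓ`, by `rfl`). -/
def JtoAT (ℓ : Layer S K) (T : Finset Nat.Primes) : JT ℓ T ⟶ AT ℓ T :=
  (Rep.resFunctor (k := ℤ) (galK K ℓ.L).subtype).map (JtoC ℓ.L T)

@[simp] theorem JtoAT_hom (ℓ : Layer S K) (T : Finset Nat.Primes) (y : J ℓ.L T) :
    (JtoAT ℓ T).hom y = (JtoC ℓ.L T).hom y := rfl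

/-- `piC` on the stage (`JT ℓ S` is helper12's `AJ ℓ`, by `rfl`). -/
def piCT (ℓ : Layer S K) (T : Finset Nat.Primes) : JT ℓ S ⟶ AT ℓ T :=
  (Rep.resFunctor (k := ℤ) (galK K ℓ.L).subtype).map (piC ℓ.L S T)

@[simp] theorem piCT_hom (ℓ : Layer S K) (T : Finset Nat.Primes) (y : J ℓ.L S) :
    (piCT ℓ T).hom y = (JtoC ℓ.L T).hom (extJ ℓ.L S T y) := rfl

/-- the square of representations: `inc ∘ gst = CtoCS ∘ JtoC ∘ extJ`. -/
theorem JtoAT_incS (ℓ : Layer S K) (hST : S ⊆ T) :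
    (JtoAT ℓ S ≫ incS ℓ hST : JT ℓ S ⟶ BS ℓ T) = piCT ℓ T ≫ CtoBS ℓ T := by
  have key : ∀ y : J ℓ.L S, extC ℓ.L S hST ((JtoC ℓ.L S).hom y) =
      (CtoCS ℓ.L S T).hom ((JtoC ℓ.L T).hom (extJ ℓ.L S T y)) := fun y => by
    rw [extC_JtoC, JtoCS_apply]
  ext y
  exact key y

/-- **(B4)** class-level: `(inc ∘ gst)_* = toBS ∘ (piC)_*`. -/
theorem map_JtoAT_incS (ℓ : Layer S K) (hST : S ⊆ T) (n : ℕ) :
    groupCohomology.map (A := JT ℓ S) (B := BS ℓ T) (MonoidHom.id (Q ℓ))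
        (JtoAT ℓ S ≫ incS ℓ hST : JT ℓ S ⟶ BS ℓ T) n =
      groupCohomology.map (A := JT ℓ S) (B := AT ℓ T) (MonoidHom.id (Q ℓ)) (piCT ℓ T) n ≫
        toBS ℓ T n := by
  rw [JtoAT_incS, groupCohomology.map_id_comp]
  rfl

/-! ### Transport along an equality of subgroups -/

section Cast

universe u
variable {k G : Type u} [CommRing k] [Group G]

/-- the identity of `X`, as a morphism over the identification of two equal subgroups. -/
def castRes {V V' : Subgroup G} (e : V = V') (X : Rep k G) :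
    Rep.res (MulEquiv.subgroupCongr e).symm.toMonoidHom (Rep.res V.subtype X) ⟶
      Rep.res V'.subtype X :=
  Rep.ofHom (ρ := (Rep.res (MulEquiv.subgroupCongr e).symm.toMonoidHom (Rep.res V.subtype X)).ρ)
    (σ := (Rep.res V'.subtype X).ρ)
    { toLinearMap := LinearMap.id
      isIntertwining' := fun _ => rfl }

@[simp] theorem castRes_hom {V V' : Subgroup G} (e : V = V') (X : Rep k G) (x : X) :
    (castRes e X).hom x = x := rfl

/-- transport of the cohomology of a restricted representation along an equality of subgroups -/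
def castH {V V' : Subgroup G} (e : V = V') (X : Rep k G) (n : ℕ) :
    groupCohomology (Rep.res V.subtype X) n ⟶ groupCohomology (Rep.res V'.subtype X) n :=
  groupCohomology.map (MulEquiv.subgroupCongr e).symm.toMonoidHom (castRes e X) n

theorem castH_rfl (V : Subgroup G) (X : Rep k G) (n : ℕ) :
    castH (rfl : V = V) X n = 𝟙 _ := by
  have h : cochainsMap (MulEquiv.subgroupCongr (rfl : V = V)).symm.toMonoidHom
      (castRes (rfl : V = V) X) = 𝟙 (inhomogeneousCochains (Rep.res V.subtype X)) := rfl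
  unfold castH groupCohomology.map
  rw [h]
  exact HomologicalComplex.homologyMap_id _ _

theorem castH_comp_symm {V V' : Subgroup G} (e : V = V') (X : Rep k G) (n : ℕ) :
    castH e X n ≫ castH e.symm X n = 𝟙 _ := by
  subst e
  rw [castH_rfl, Category.comp_id]

theorem castH_symm_comp {V V' : Subgroup G} (e : V = V') (X : Rep k G) (n : ℕ) :
    castH e.symm X n ≫ castH e X n = 𝟙 _ := by
  subst e
  rw [castH_rfl, Category.comp_id]

theorem castH_bijective {V V' : Subgroup G} (e : V = V') (X : Rep k G) (n : ℕ) :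
    Function.Bijective (castH e X n).hom := by
  subst e
  rw [castH_rfl]
  exact Function.bijective_id

theorem castH_symm_apply {V V' : Subgroup G} (e : V = V') (X : Rep k G) (n : ℕ)
    (x : groupCohomology (Rep.res V.subtype X) n) :
    (castH e.symm X n).hom ((castH e X n).hom x) = x := by
  subst e
  rw [castH_rfl]
  rfl

theorem castH_apply_symm {V V' : Subgroup G} (e : V = V') (X : Rep k G) (n : ℕ)
    (x : groupCohomology (Rep.res V'.subtype X) n) :
    (castH e X n).hom ((castH e.symm X n).hom x) = x := by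
  subst e
  rw [castH_rfl]
  rfl

/-- `castH` is natural in the coefficients. -/
theorem castH_natural {V V' : Subgroup G} (e : V = V') {X Y : Rep k G} (f : X ⟶ Y) (n : ℕ) :
    castH e X n ≫ groupCohomology.map (A := Rep.res V'.subtype X) (B := Rep.res V'.subtype Y)
        (MonoidHom.id V') ((Rep.resFunctor V'.subtype).map f) n =
      groupCohomology.map (A := Rep.res V.subtype X) (B := Rep.res V.subtype Y)
        (MonoidHom.id V) ((Rep.resFunctor V.subtype).map f) n ≫ castH e Y n := by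
  subst e
  rw [castH_rfl, castH_rfl, Category.id_comp, Category.comp_id]

theorem castH_natural_apply {V V' : Subgroup G} (e : V = V') {X Y : Rep k G} (f : X ⟶ Y) (n : ℕ)
    (x : groupCohomology (Rep.res V.subtype X) n) :
    (groupCohomology.map (A := Rep.res V'.subtype X) (B := Rep.res V'.subtype Y)
        (MonoidHom.id V') ((Rep.resFunctor V'.subtype).map f) n).hom ((castH e X n).hom x) =
      (castH e Y n).hom ((groupCohomology.map (A := Rep.res V.subtype X)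
        (B := Rep.res V.subtype Y) (MonoidHom.id V) ((Rep.resFunctor V.subtype).map f) n).hom x) :=
  congr($(castH_natural e f n).hom x)

theorem castH_nsmul {V V' : Subgroup G} (e : V = V') (X : Rep k G) (n : ℕ) (c : ℕ)
    (x : groupCohomology (Rep.res V.subtype X) n) :
    (castH e X n).hom (c • x) = c • (castH e X n).hom x := map_nsmul _ _ _

/-- **comparison of two `map`s which differ by the identification of equal subgroups.** -/
theorem map_comp_castH {G' : Type u} [Group G'] {X : Rep k G} {X' : Rep k G'}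
    {V : Subgroup G} {V' V'' : Subgroup G'} (e : V' = V'')
    (f' : V' →* V) (f'' : V'' →* V)
    (hf : ∀ (g' : V') (g'' : V''), (g' : G') = g'' → f' g' = f'' g'')
    (φ' : Rep.res f' (Rep.res V.subtype X) ⟶ Rep.res V'.subtype X')
    (φ'' : Rep.res f'' (Rep.res V.subtype X) ⟶ Rep.res V''.subtype X')
    (hφ : ∀ x : X, φ'.hom x = φ''.hom x) (n : ℕ) :
    groupCohomology.map f' φ' n ≫ castH e X' n = groupCohomology.map f'' φ'' n := by
  subst e
  have h1 : f' = f'' := by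
    ext g
    rw [hf g g rfl]
  subst h1
  have h2 : φ' = φ'' := by
    ext x
    exact hφ x
  subst h2
  rw [castH_rfl, Category.comp_id]

end Cast

/-! ### Comparison with helper14's `stageTrans` and helper72's `inflJCoh` -/

/-- `Gal(L'/K)` is the preimage of `Gal(L/K)` under restriction. -/
theorem upV_galK {ℓ ℓ' : Layer S K} (h : ℓ ≤ ℓ') :
    upV (Layer.le_def.1 h) (galK K ℓ.L) = galK K ℓ'.L := by
  ext σ
  rw [Subgroup.mem_comap]
  refine ⟨fun hσ x hx => ?_, fun hσ => gRes_mem_galK h σ hσ⟩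
  have hxL : (x : Qb) ∈ ℓ.L := ℓ.le hx
  have h1 := hσ ⟨(x : Qb), hxL⟩ hx
  have h2 := GalRes.apply_res (gIncl (Layer.le_def.1 h)) σ ⟨(x : Qb), hxL⟩
  have h3 : gIncl (Layer.le_def.1 h) ⟨(x : Qb), hxL⟩ = x := Subtype.ext rfl
  rw [h3] at h2
  rw [← h2]
  change gIncl (Layer.le_def.1 h) (gRes (Layer.le_def.1 h) σ ⟨(x : Qb), hxL⟩) = x
  rw [h1, h3]

/-- `inflJ` on the stage modules at `T` (for `T = S` this is helper12's `trJ h`, by `rfl`). -/
def trJT {ℓ ℓ' : Layer S K} (h : ℓ ≤ ℓ') (T : Finset Nat.Primes) :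
    Rep.res (tau h) (JT ℓ T) ⟶ JT ℓ' T :=
  Rep.ofHom (ρ := (Rep.res (tau h) (JT ℓ T)).ρ) (σ := (JT ℓ' T).ρ)
    { toLinearMap := inflJ (Layer.le_def.1 h) T
      isIntertwining' := fun σ => LinearMap.ext fun y =>
        inflJ_rho (Layer.le_def.1 h) T (σ : ℓ'.L ≃ₐ[ℚ] ℓ'.L) y }

@[simp] theorem trJT_hom {ℓ ℓ' : Layer S K} (h : ℓ ≤ ℓ') (T : Finset Nat.Primes) (y : J ℓ.L T) :
    (trJT h T).hom y = inflJ (Layer.le_def.1 h) T y := rfl

/-- **helper14's `stageTrans` is the tower transition on `C(L,T)`-classes**, up to the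
identification `upV h (Gal(L/K)) = Gal(L'/K)`. -/
theorem stageTrans_castH {ℓ ℓ' : Layer S K} (h : ℓ ≤ ℓ') (T : Finset Nat.Primes) (n : ℕ) :
    stageTrans (Layer.le_def.1 h) T (galK K ℓ.L) n ≫ castH (upV_galK h) (C ℓ'.L T) n =
      groupCohomology.map (tau h) (trT h T) n :=
  map_comp_castH (upV_galK h) (resV (Layer.le_def.1 h) (galK K ℓ.L)) (tau h)
    (fun g' g'' hg => Subtype.ext (by
      rw [coe_resV, coe_tau, hg]))
    (inflCRes (Layer.le_def.1 h) T (galK K ℓ.L)) (trT h T) (fun _ => rfl) n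

theorem stageTrans_castH_apply {ℓ ℓ' : Layer S K} (h : ℓ ≤ ℓ') (T : Finset Nat.Primes) (n : ℕ)
    (x : groupCohomology (AT ℓ T) n) :
    (castH (upV_galK h) (C ℓ'.L T) n).hom
        ((stageTrans (Layer.le_def.1 h) T (galK K ℓ.L) n).hom x) =
      (groupCohomology.map (tau h) (trT h T) n).hom x :=
  congr($(stageTrans_castH h T n).hom x)

/-- **any inflation map on `J(L,T)`-classes over `upV h V → V`** (e.g. helper72's `inflJCoh`)
is the tower transition `map (tau h) (trJT h T)`, up to `castH`. -/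
theorem inflJ_castH {ℓ ℓ' : Layer S K} (h : ℓ ≤ ℓ') (T : Finset Nat.Primes)
    (f' : upV (Layer.le_def.1 h) (galK K ℓ.L) →* galK K ℓ.L)
    (hf' : ∀ g, ((f' g : galK K ℓ.L) : ℓ.L ≃ₐ[ℚ] ℓ.L) = gRes (Layer.le_def.1 h) g.1)
    (φ' : Rep.res f' (Rep.res (galK K ℓ.L).subtype (J ℓ.L T)) ⟶
      Rep.res (upV (Layer.le_def.1 h) (galK K ℓ.L)).subtype (J ℓ'.L T))
    (hφ' : ∀ y : J ℓ.L T, φ'.hom y = inflJ (Layer.le_def.1 h) T y) (n : ℕ) :
    groupCohomology.map f' φ' n ≫ castH (upV_galK h) (J ℓ'.L T) n =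
      groupCohomology.map (tau h) (trJT h T) n := by
  have hf : ∀ (g' : upV (Layer.le_def.1 h) (galK K ℓ.L)) (g'' : galK K ℓ'.L),
      (g' : ℓ'.L ≃ₐ[ℚ] ℓ'.L) = g'' → f' g' = tau h g'' := fun g' g'' hg =>
    Subtype.ext (by rw [hf', coe_tau, hg])
  exact map_comp_castH (X := J ℓ.L T) (X' := J ℓ'.L T) (V := galK K ℓ.L)
    (upV_galK h) f' (tau h) hf φ' (trJT h T) hφ' n

theorem inflJ_castH_apply {ℓ ℓ' : Layer S K} (h : ℓ ≤ ℓ') (T : Finset Nat.Primes)
    (f' : upV (Layer.le_def.1 h) (galK K ℓ.L) →* galK K ℓ.L)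
    (hf' : ∀ g, ((f' g : galK K ℓ.L) : ℓ.L ≃ₐ[ℚ] ℓ.L) = gRes (Layer.le_def.1 h) g.1)
    (φ' : Rep.res f' (Rep.res (galK K ℓ.L).subtype (J ℓ.L T)) ⟶
      Rep.res (upV (Layer.le_def.1 h) (galK K ℓ.L)).subtype (J ℓ'.L T))
    (hφ' : ∀ y : J ℓ.L T, φ'.hom y = inflJ (Layer.le_def.1 h) T y) (n : ℕ)
    (ξ : groupCohomology (JT ℓ T) n) :
    (castH (upV_galK h) (J ℓ'.L T) n).hom ((groupCohomology.map f' φ' n).hom ξ) =
      (groupCohomology.map (tau h) (trJT h T) n).hom ξ :=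
  congr($(inflJ_castH h T f' hf' φ' hφ' n).hom ξ)

/-! ### Packaged transfers -/

/-- a morphism `J(L,S) ⟶ C(L,T)` given pointwise by `y ↦ [ext y]` is `piC`. -/
theorem eq_piC (L : IntermediateField ℚ Qb) [FiniteDimensional ℚ L] [IsGalois ℚ L]
    (S T : Finset Nat.Primes) (π : J L S ⟶ C L T)
    (hπ : ∀ y, π.hom y = (JtoC L T).hom (extJ L S T y)) : π = piC L S T := by
  ext y
  exact hπ y

/-- **ONTO-transfer.**  Stage `(ℓ,T₀)`, later stage `(ℓ',T)`.  If the ambient class `z` corresponds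
(after the `T`-change) to the `C(L,T)`-class `x`, and helper14's `stageTrans x` is `π_* ξ` for a
`J(L',S)`-class `ξ` over `upV h V`, then the ambient transition of `z` is `(inc ∘ gst)_*` of the
transported class `castH ξ`. -/
theorem trS_eq_of_stageTrans {ℓ ℓ' : Layer S K} (h : ℓ ≤ ℓ') {T₀ T : Finset Nat.Primes}
    (hST₀ : S ⊆ T₀) (hTT : T₀ ⊆ T) (n : ℕ)
    (z : groupCohomology (BS ℓ T₀) n) (x : groupCohomology (AT ℓ T) n)
    (hx : (toBS ℓ T n).hom x =
      (groupCohomology.map (A := BS ℓ T₀) (B := BS ℓ T) (MonoidHom.id (Q ℓ))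
        (extBS ℓ hST₀ hTT) n).hom z)
    (π : J ℓ'.L S ⟶ C ℓ'.L T) (hπ : ∀ y, π.hom y = (JtoC ℓ'.L T).hom (extJ ℓ'.L S T y))
    (ξ : groupCohomology
      (Rep.res (upV (Layer.le_def.1 h) (galK K ℓ.L)).subtype (J ℓ'.L S)) n)
    (hξ : (stageTrans (Layer.le_def.1 h) T (galK K ℓ.L) n).hom x =
      (groupCohomology.map
        (A := Rep.res (upV (Layer.le_def.1 h) (galK K ℓ.L)).subtype (J ℓ'.L S))
        (B := Rep.res (upV (Layer.le_def.1 h) (galK K ℓ.L)).subtype (C ℓ'.L T))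
        (MonoidHom.id _)
        ((Rep.resFunctor (upV (Layer.le_def.1 h) (galK K ℓ.L)).subtype).map π) n).hom ξ) :
    (groupCohomology.map (tau h) (trS h hST₀ hTT) n).hom z =
      (groupCohomology.map (A := JT ℓ' S) (B := BS ℓ' T) (MonoidHom.id (Q ℓ'))
        (JtoAT ℓ' S ≫ incS ℓ' (hST₀.trans hTT) : JT ℓ' S ⟶ BS ℓ' T) n).hom
        ((castH (upV_galK h) (J ℓ'.L S) n).hom ξ) := by
  obtain rfl := eq_piC ℓ'.L S T π hπ
  have e1 : (groupCohomology.map (tau h) (trS h hST₀ hTT) n).hom z =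
      (groupCohomology.map (tau h) (trS h (hST₀.trans hTT) (Finset.Subset.refl T)) n).hom
        ((groupCohomology.map (A := BS ℓ T₀) (B := BS ℓ T) (MonoidHom.id (Q ℓ))
          (extBS ℓ hST₀ hTT) n).hom z) :=
    congr($(map_trS_eq h hST₀ hTT n).hom z)
  have e3 := toBS_trans_apply h (hST₀.trans hTT) n x
  have e4 := stageTrans_castH_apply h T n x
  have e5 := castH_natural_apply (upV_galK h) (piC ℓ'.L S T) n ξ
  have e2 : (groupCohomology.map (A := JT ℓ' S) (B := BS ℓ' T) (MonoidHom.id (Q ℓ'))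
        (JtoAT ℓ' S ≫ incS ℓ' (hST₀.trans hTT) : JT ℓ' S ⟶ BS ℓ' T) n).hom
        ((castH (upV_galK h) (J ℓ'.L S) n).hom ξ) =
      (toBS ℓ' T n).hom ((groupCohomology.map (A := JT ℓ' S) (B := AT ℓ' T)
        (MonoidHom.id (Q ℓ')) (piCT ℓ' T) n).hom ((castH (upV_galK h) (J ℓ'.L S) n).hom ξ)) :=
    congr($(map_JtoAT_incS ℓ' (hST₀.trans hTT) n).hom
      ((castH (upV_galK h) (J ℓ'.L S) n).hom ξ))
  rw [e1, ← hx, e3, ← e4, hξ, ← e5]
  exact e2.symm

/-- **vanishing transfer**: `(inc ∘ gst)_* ξ = 0 ↔ (piC)_* ξ = 0` in positive degrees. -/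
theorem map_JtoAT_incS_eq_zero_iff (ℓ : Layer S K) (hST : S ⊆ T) (hST' : ∃ q ∈ T, q ∈ S)
    (n : ℕ) (ξ : groupCohomology (JT ℓ S) (n + 1)) :
    (groupCohomology.map (A := JT ℓ S) (B := BS ℓ T) (MonoidHom.id (Q ℓ))
        (JtoAT ℓ S ≫ incS ℓ hST : JT ℓ S ⟶ BS ℓ T) (n + 1)).hom ξ = 0 ↔
      (groupCohomology.map (A := JT ℓ S) (B := AT ℓ T) (MonoidHom.id (Q ℓ))
        (piCT ℓ T) (n + 1)).hom ξ = 0 := by
  have e2 : (groupCohomology.map (A := JT ℓ S) (B := BS ℓ T) (MonoidHom.id (Q ℓ))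
        (JtoAT ℓ S ≫ incS ℓ hST : JT ℓ S ⟶ BS ℓ T) (n + 1)).hom ξ =
      (toBS ℓ T (n + 1)).hom ((groupCohomology.map (A := JT ℓ S) (B := AT ℓ T)
        (MonoidHom.id (Q ℓ)) (piCT ℓ T) (n + 1)).hom ξ) :=
    congr($(map_JtoAT_incS ℓ hST (n + 1)).hom ξ)
  rw [e2]
  constructor
  · intro h0
    apply (toBS_bijective ℓ T hST' n).1
    rw [h0, map_zero]
  · intro h0
    rw [h0, map_zero]

/-- **CYC-transfer**: a "cyclicity of the `p`-torsion" statement for `C(L,T)`-classes passes to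
the ambient classes. -/
theorem mult_of_toBS (ℓ : Layer S K) (T : Finset Nat.Primes) (hST' : ∃ q ∈ T, q ∈ S) (n p : ℕ)
    (hC : ∀ x x' : groupCohomology (AT ℓ T) (n + 1), p • x = 0 → p • x' = 0 →
      ∃ c : ℕ, x' = c • x ∨ x = c • x')
    (z z' : groupCohomology (BS ℓ T) (n + 1)) (hz : p • z = 0) (hz' : p • z' = 0) :
    ∃ c : ℕ, z' = c • z ∨ z = c • z' := by
  obtain ⟨x, rfl⟩ := (toBS_bijective ℓ T hST' n).2 z
  obtain ⟨x', rfl⟩ := (toBS_bijective ℓ T hST' n).2 z'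
  have hx : p • x = 0 := (toBS_bijective ℓ T hST' n).1 (by rw [map_nsmul, hz, map_zero])
  have hx' : p • x' = 0 := (toBS_bijective ℓ T hST' n).1 (by rw [map_nsmul, hz', map_zero])
  obtain ⟨c, hc | hc⟩ := hC x x' hx hx'
  · exact ⟨c, Or.inl (by rw [hc, map_nsmul])⟩
  · exact ⟨c, Or.inr (by rw [hc, map_nsmul])⟩

/-- torsion transfer -/
theorem nsmul_eq_zero_of_toBS (ℓ : Layer S K) (T : Finset Nat.Primes) (hST' : ∃ q ∈ T, q ∈ S)
    (n c : ℕ) (x : groupCohomology (AT ℓ T) (n + 1)) (hx : c • (toBS ℓ T (n + 1)).hom x = 0) :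
    c • x = 0 :=
  (toBS_bijective ℓ T hST' n).1 (by rw [map_nsmul, hx, map_zero])

end Fermat.Agent.GC.Global.Limit.BridgeCS
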