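/-
GATE-C / C4 [B']-FIN, hand-over of (FC-onto-p) (helper74): **`ClsOnto S K p`** (helper12's
class-level finite statement behind `EJDHyp.bontop`, `EJDModelCls.lean`), UNCONDITIONALLY for
`K ∋ ζ_p` and `p` odd, `p ∈ S`.

* `OntoHyp S K p` : helper14's (FC-onto-p) (`FinLevelJ.exists_fc_onto`) quantified over the layers
  of the tower: for every layer `ℓ₁` and `T ⊇ S` there are a later layer `ℓ₂`, a set `T₂ ⊇ T` good
  for `ℓ₂.L`, such that every `p ^ b`-torsion class of `H²(Gal(L₁/K), C(L₁,T₂))` becomes at `ℓ₂`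
  the image of a `p ^ b`-torsion class of `H²(Gal(L₂/K), J(L₂,S))`;
* `ontoHyp` : `OntoHyp S K p` for `K ∋ ζ_p` (`ℓ₂ := ℓ₁.L ⊔ ℚ(ζ_{p^(k+1)})`, `k` large:
  helper79 `exists_layer_sup`, `ker_gRes_inf_ker_gRes_eq_bot`, helper68 DEG-GROW, helper11
  `exists_goodT`);
* `onHyp_one` : the `b = 1` form (helper97's `(on)` hypothesis of `ClsDiv`);
* `clsOnto_of_ontoHyp` : `OntoHyp ⟹ ClsOnto` (helper81 `BridgeCS`: `toBS` bijective, the `T`-change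
  `extBS`, `trS_eq_of_stageTrans`);
* `clsOnto` : the result.
-/
import Fermat.Agent.GC.Global.Limit.EJDModelCls
import Fermat.Agent.GC.Global.Limit.BridgeCS
import Fermat.Agent.GC.Global.WRec.FinLevelJ
import Fermat.Agent.GC.Global.Funct.LayerSup
import Fermat.Agent.GC.Global.WRec.DegGrow
import Fermat.Agent.GC.Global.Adapter.PrimesOver

set_option autoImplicit false
set_option linter.unusedSectionVars false

open CategoryTheory groupCohomology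

noncomputable section

namespace Fermat.Agent.GC.Global.Limit.ClsOntoProof

open Fermat.Agent.GC.Global Fermat.Agent.GC.Global.Adapter Fermat.Agent.GC.Global.Funct
open Fermat.Agent.GC.Global.WRec
open Fermat.Agent.GC.Global.Limit.LayerTower Fermat.Agent.GC.Global.Limit.AmbientModel
open Fermat.Agent.GC.Global.Limit.EJDModel Fermat.Agent.GC.Global.Limit.TowerJS

variable {S : Finset Nat.Primes} {K : IntermediateField ℚ Qb} {p : ℕ}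

variable (S K p) in
/-- **(FC-onto-p) over the tower of layers.** -/
def OntoHyp : Prop :=
  ∀ (ℓ₁ : Layer S K) (T : Finset Nat.Primes), S ⊆ T →
    ∃ (ℓ₂ : Layer S K) (h : ℓ₁ ≤ ℓ₂) (T₂ : Finset Nat.Primes), T ⊆ T₂ ∧ GoodT ℓ₂.L T₂ p ∧
      ∀ (z : groupCohomology (Rep.res (galK K ℓ₁.L).subtype (C ℓ₁.L T₂)) 2) (b : ℕ),
        p ^ b • z = 0 →
        ∃ ξ₂ : groupCohomology
            (Rep.res (upV (Layer.le_def.1 h) (galK K ℓ₁.L)).subtype (J ℓ₂.L S)) 2,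
          p ^ b • ξ₂ = 0 ∧
          (stageTrans (Layer.le_def.1 h) T₂ (galK K ℓ₁.L) 2).hom z =
            (FinLevelDiv.piCCoh ℓ₂.L S T₂ (upV (Layer.le_def.1 h) (galK K ℓ₁.L)) 2).hom ξ₂

/-- **`OntoHyp` for `K ∋ ζ_p`.** -/
theorem ontoHyp [hp : Fact p.Prime] (hp2 : p ≠ 2) (hpS : pp p ∈ S) {ζ : Qb}
    (hζ : IsPrimitiveRoot ζ p) (hζK : ζ ∈ K) : OntoHyp S K p := by
  intro ℓ T₀ hST₀
  -- `ζ` as an element of the layer, fixed by `Gal(L/K)`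
  set ζL : ℓ.L := ⟨ζ, ℓ.le hζK⟩ with hζLdef
  have hζL : IsPrimitiveRoot ζL p :=
    IsPrimitiveRoot.of_map_of_injective (f := ℓ.L.val) (by exact hζ) ℓ.L.val.injective
  have hVζ : ∀ v ∈ galK K ℓ.L, v ζL = ζL := fun v hv => hv ζL hζK
  obtain ⟨k₁, hk₁⟩ := FinLevel.exists_fc_onto p hp2 (galK K ℓ.L)
  obtain ⟨k₂, hk₂⟩ := DegGrow.exists_pow_dvd_card_map_chiLayer_of_zeta p (galK K ℓ.L)
    ((Nat.card (galK K ℓ.L)).factorization p) ζL hζL hVζ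
  obtain ⟨L', hLL', hcyc, hsup, hfd, hgal, hun⟩ :=
    exists_layer_sup p (max k₁ k₂) (S := S) ℓ.unram hpS
  have := hfd
  have := hgal
  obtain ⟨T, hT₀T, hg⟩ := exists_goodT (L := L') T₀ (hun.mono hST₀) hp.out
  have hbot := ker_gRes_inf_ker_gRes_eq_bot hLL' hcyc hsup
  refine ⟨⟨L', hun, hgal, ℓ.le.trans hLL'⟩, hLL', T, hT₀T, hg, fun z b hz => ?_⟩
  exact hk₁ (max k₁ k₂) (le_max_left _ _) L' hLL' hcyc S T hg hpS (hT₀T (hST₀ hpS)) ζL hζL hVζ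
    hbot (hk₂ (max k₁ k₂) (le_max_right _ _) L' hLL' hcyc) z b hz

/-- the `b = 1` form of `OntoHyp` (helper97's `(on)` input of `ClsDiv`). -/
theorem onHyp_one (on : OntoHyp S K p) :
    ∀ (ℓ₁ : Layer S K) (T : Finset Nat.Primes), S ⊆ T →
      ∃ (ℓ₂ : Layer S K) (h : ℓ₁ ≤ ℓ₂) (T₂ : Finset Nat.Primes), T ⊆ T₂ ∧ GoodT ℓ₂.L T₂ p ∧
        ∀ z : groupCohomology (Rep.res (galK K ℓ₁.L).subtype (C ℓ₁.L T₂)) 2, p • z = 0 →
          ∃ ξ₂ : groupCohomology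
              (Rep.res (upV (Layer.le_def.1 h) (galK K ℓ₁.L)).subtype (J ℓ₂.L S)) 2,
            p • ξ₂ = 0 ∧
            (stageTrans (Layer.le_def.1 h) T₂ (galK K ℓ₁.L) 2).hom z =
              (FinLevelDiv.piCCoh ℓ₂.L S T₂ (upV (Layer.le_def.1 h) (galK K ℓ₁.L)) 2).hom ξ₂ := by
  intro ℓ₁ T hST
  obtain ⟨ℓ₂, h, T₂, hTT, hg, hon⟩ := on ℓ₁ T hST
  refine ⟨ℓ₂, h, T₂, hTT, hg, fun z hz => ?_⟩
  obtain ⟨ξ₂, h1, h2⟩ := hon z 1 (by rw [pow_one]; exact hz)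
  exact ⟨ξ₂, by rw [pow_one] at h1; exact h1, h2⟩

/-- **`OntoHyp ⟹ ClsOnto`** (helper81's bridge). -/
theorem clsOnto_of_ontoHyp (hS : S.Nonempty) (on : OntoHyp S K p) : ClsOnto S K p := by
  intro i z a hz
  obtain ⟨ℓ', h, T, hTT, hg, hon⟩ := on i.ℓ i.T i.hST
  have hST' : ∃ q ∈ T, q ∈ S := by
    obtain ⟨q, hq⟩ := hS
    exact ⟨q, hTT (i.hST hq), hq⟩
  -- the `T`-change of `z`, and the corresponding `C(L,T)`-class
  obtain ⟨x, hx⟩ := (BridgeCS.toBS_bijective i.ℓ T hST' 1).2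
    ((groupCohomology.map (A := BS i.ℓ i.T) (B := BS i.ℓ T) (MonoidHom.id (Q i.ℓ))
      (BridgeCS.extBS i.ℓ i.hST hTT) 2).hom z)
  have hxa : p ^ a • x = 0 := by
    refine BridgeCS.nsmul_eq_zero_of_toBS i.ℓ T hST' 1 (p ^ a) x ?_
    rw [hx, ← map_nsmul, hz, map_zero]
  obtain ⟨ξ, -, hξ⟩ := hon x a hxa
  refine ⟨⟨ℓ', T, i.hST.trans hTT, hg⟩, ⟨h, hTT⟩,
    (BridgeCS.castH (BridgeCS.upV_galK h) (J ℓ'.L S) 2).hom ξ, ?_⟩
  exact BridgeCS.trS_eq_of_stageTrans h i.hST hTT 2 z x hx (FinLevelDiv.piC ℓ'.L S T)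
    (fun _ => rfl) ξ hξ

/-- **`ClsOnto S K p`** for `K ∋ ζ_p`, `p` odd, `p ∈ S`. -/
theorem clsOnto [hp : Fact p.Prime] (hp2 : p ≠ 2) (hpS : pp p ∈ S) {ζ : Qb}
    (hζ : IsPrimitiveRoot ζ p) (hζK : ζ ∈ K) : ClsOnto S K p :=
  clsOnto_of_ontoHyp ⟨pp p, hpS⟩ (ontoHyp hp2 hpS hζ hζK)

/-- **`ClsOnto S K p`**, with the binders of helper12's `ejdHyp_ideleSK_final` / helper97's
`clsDiv_final`. -/
theorem clsOnto_final (hp : p.Prime) (hp2 : p ≠ 2) (hpS : (⟨p, hp⟩ : Nat.Primes) ∈ S) {ζ : Qb}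
    (hζ : IsPrimitiveRoot ζ p) (hζK : ζ ∈ K) : ClsOnto S K p :=
  haveI : Fact p.Prime := ⟨hp⟩
  clsOnto hp2 hpS hζ hζK

end Fermat.Agent.GC.Global.Limit.ClsOntoProof
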