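/-
GATE-C / C4 (A5) CAP-M in the language of helper80's `extC : C(L,S) → C_S(L,T)` and
`inflCS : C_S(L,T) → C_S(L',T)` (helper79).  This is verbatim the field `capM` of helper7's
`CompareCS.Ambient` and the `∃ a₁` clause of helper12's `AStage.stage_step`:

* `capM_extC`        : `extC a = p ^ r • b` ⟹ in a bigger layer `L'` (finite Galois over `ℚ`, unramified
                       outside `S`): `∃ a', extC a' = inflCS b`;
* `capM_extC_finset` : the same for a finite family, with one common `L'`;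
* `capM_extC_mono`   : `extC a = inflCS b` persists in bigger layers.
-/
import Mathlib
import Fermat.Agent.GC.Global.Limit.CapRange
import Fermat.Agent.GC.Global.Funct.TChangeCS

set_option autoImplicit false
set_option linter.unusedSectionVars false

noncomputable section

namespace Fermat.Agent.GC.Global.Limit.CapCS

open Fermat.Agent.GC.Global Fermat.Agent.GC.Global.Adapter Fermat.Agent.GC.Global.Funct
open Fermat.Agent.GC.Global.LMU Fermat.Agent.GC.Global.Limit.CapRange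

variable (L : IntermediateField ℚ Qb) [FiniteDimensional ℚ L] [IsGalois ℚ L]
  (S : Finset Nat.Primes) {T : Finset Nat.Primes}

/-- **(A5) CAP-M** for `extC` / `inflCS`. -/
theorem capM_extC {p : ℕ} (hp : p.Prime) (hpS : (⟨p, hp⟩ : Nat.Primes) ∈ S) (hST : S ⊆ T)
    (hL : L.IsUnramifiedOutside S) (b : CS L S T) (r : ℕ) (a : C L S)
    (h : extC L S hST a = p ^ r • b) :
    ∃ L' : IntermediateField ℚ Qb, L ≤ L' ∧ L'.IsUnramifiedOutside S ∧ IsGalois ℚ L' ∧
      ∀ [FiniteDimensional ℚ L'] [IsGalois ℚ L'] (hle : L ≤ L'),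
        ∃ a' : C L' S, extC L' S hST a' = inflCS hle S T b := by
  obtain ⟨y, rfl⟩ := JtoCS_surjective L S T b
  obtain ⟨x, rfl⟩ := JtoC_surjective L S a
  rw [extC_JtoC] at h
  obtain ⟨L', hle, hL', hgal, h'⟩ := cap_model_CS L S T hp hpS hST hL r y x h.symm
  refine ⟨L', hle, hL', hgal, ?_⟩
  intro _ _ hle'
  obtain ⟨x', hx'⟩ := h' hle'
  refine ⟨(JtoC L' S).hom x', ?_⟩
  rw [extC_JtoC, inflCS_JtoCS]
  exact hx'.symm

/-- `extC a = inflCS b` persists in bigger layers. -/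
theorem capM_extC_mono (hST : S ⊆ T) {L₁ L₂ : IntermediateField ℚ Qb}
    [FiniteDimensional ℚ L₁] [IsGalois ℚ L₁] [FiniteDimensional ℚ L₂] [IsGalois ℚ L₂]
    (h₁ : L ≤ L₁) (h₂ : L₁ ≤ L₂) (b : CS L S T)
    (h : ∃ a : C L₁ S, extC L₁ S hST a = inflCS h₁ S T b) :
    ∃ a' : C L₂ S, extC L₂ S hST a' = inflCS (h₁.trans h₂) S T b := by
  obtain ⟨a, ha⟩ := h
  refine ⟨inflC h₂ S a, ?_⟩
  rw [← inflCS_extC h₂ S hST a, ha, inflCS_inflCS]

/-- **(A5) CAP-M**, finite families. -/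
theorem capM_extC_finset {p : ℕ} (hp : p.Prime) (hpS : (⟨p, hp⟩ : Nat.Primes) ∈ S) (hST : S ⊆ T)
    (hL : L.IsUnramifiedOutside S) (F : Finset (CS L S T))
    (hF : ∀ b ∈ F, ∃ (r : ℕ) (a : C L S), extC L S hST a = p ^ r • b) :
    ∃ L' : IntermediateField ℚ Qb, L ≤ L' ∧ L'.IsUnramifiedOutside S ∧ IsGalois ℚ L' ∧
      ∀ [FiniteDimensional ℚ L'] [IsGalois ℚ L'] (hle : L ≤ L'),
        ∀ b ∈ F, ∃ a' : C L' S, extC L' S hST a' = inflCS hle S T b := by
  classical
  induction F using Finset.induction_on with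
  | empty =>
    refine ⟨L, le_refl L, hL, inferInstance, ?_⟩
    intro _ _ _ b hb
    exact absurd hb (Finset.notMem_empty b)
  | insert b F _ ih =>
    obtain ⟨L₁, hle₁, hL₁, hgal₁, h₁⟩ := ih (fun c hc => hF c (Finset.mem_insert_of_mem hc))
    haveI : FiniteDimensional ℚ L₁ := hL₁.1
    haveI : IsGalois ℚ L₁ := hgal₁
    obtain ⟨r, a, ha⟩ := hF b (Finset.mem_insert_self b F)
    have ha₁ : extC L₁ S hST (inflC hle₁ S a) = p ^ r • inflCS hle₁ S T b := by
      rw [← inflCS_extC hle₁ S hST a, ha, map_nsmul]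
    obtain ⟨L₂, hle₂, hL₂, hgal₂, h₂⟩ :=
      capM_extC L₁ S hp hpS hST hL₁ (inflCS hle₁ S T b) r (inflC hle₁ S a) ha₁
    refine ⟨L₂, hle₁.trans hle₂, hL₂, hgal₂, ?_⟩
    intro _ _ hle c hc
    rcases Finset.mem_insert.1 hc with rfl | hc
    · obtain ⟨a', ha'⟩ := h₂ hle₂
      refine ⟨a', ?_⟩
      rw [ha', inflCS_inflCS]
    · exact capM_extC_mono L S hST hle₁ hle₂ c (h₁ hle₁ c hc)

end Fermat.Agent.GC.Global.Limit.CapCS
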