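/-
GATE-C / C4 AMBIENT-MODEL (helper80): the model instance of helper7's `CompareCS.Ambient`.

* (re-indexing of towers: helper12's `ColimVanish.Tower.reindex`, `TowerJS.reindexMap`);
* `LayerT S K p` : pairs (layer `ℓ`, `T ⊇ S` good for `ℓ.L`), a directed preorder;
* `towerDST` : helper12/helper71's tower over `D_S`, re-indexed over `LayerT S K p`;
* `ambientDS` : `Ambient towerDST p (fun i => BS i.ℓ i.T)` — the ambient modules
  `C_S(L,T)|_{Gal(L/K)}` with `inc = extC`, `s = transCS`, `tors` = finiteness of the class group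
  (helper68), `capM` = `p`-capitulation (helper79).
-/
import Fermat.Agent.GC.Global.Limit.TowerDS
import Fermat.Agent.GC.Global.Limit.TowerJS
import Fermat.Agent.GC.Global.Limit.CompareCS
import Fermat.Agent.GC.Global.Limit.CapCS
import Fermat.Agent.GC.Global.Funct.StageCS
import Fermat.Agent.GC.Global.Adapter.ClassFiniteExtC
import Fermat.Agent.GC.Global.Adapter.PrimesOver

set_option autoImplicit false
set_option linter.unusedSectionVars false

open CategoryTheory groupCohomology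

noncomputable section

namespace Fermat.Agent.GC.Global.Limit.AmbientModel

open Fermat.Agent.GC.Prof Fermat.Agent.GC.Global Fermat.Agent.GC.Global.Funct
open Fermat.Agent.GC.Global.Adapter Fermat.Agent.GC.Global.LMU
open Fermat.Agent.GC.Global.Limit.ColimVanish Fermat.Agent.GC.Global.Limit.LayerTower
open Fermat.Agent.GC.Global.Limit.TowerDS Fermat.Agent.GC.Global.Limit.CompareCS
open Fermat.Agent.GC.Global.Limit.TowerJS
open Fermat.Agent.GC.LimJ Fermat.Agent.GC.Places Fermat.Agent.GC.C0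

/-! ### The index set: layers with a good set of primes -/

section Index

variable (S : Finset Nat.Primes) (K : IntermediateField ℚ Qb) (p : ℕ)

/-- a layer `ℓ` together with a set `T ⊇ S` of primes which is good for `ℓ.L`. -/
structure LayerT where
  /-- the layer -/
  ℓ : Layer S K
  /-- the set of primes -/
  T : Finset Nat.Primes
  hST : S ⊆ T
  good : GoodT ℓ.L T p

variable {S K p}

instance : Preorder (LayerT S K p) where
  le i j := i.ℓ ≤ j.ℓ ∧ i.T ⊆ j.T
  le_refl i := ⟨le_refl _, Finset.Subset.refl _⟩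
  le_trans i j l hij hjl := ⟨hij.1.trans hjl.1, hij.2.trans hjl.2⟩

lemma LayerT.le_def {i j : LayerT S K p} : i ≤ j ↔ i.ℓ ≤ j.ℓ ∧ i.T ⊆ j.T := Iff.rfl

lemma LayerT.fst_mono : Monotone (LayerT.ℓ : LayerT S K p → Layer S K) := fun _ _ h => h.1

/-- every layer carries a good `T` containing a given `T₀ ⊇ S`. -/
lemma LayerT.exists_ge (hp : p.Prime) (ℓ : Layer S K) (T₀ : Finset Nat.Primes) (h0 : S ⊆ T₀) :
    ∃ i : LayerT S K p, i.ℓ = ℓ ∧ T₀ ⊆ i.T := by
  obtain ⟨T, hT, hg⟩ := exists_goodT ℓ.L T₀ (ℓ.unram.mono h0) hp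
  exact ⟨⟨ℓ, T, h0.trans hT, hg⟩, rfl, hT⟩

lemma LayerT.cofinal (hp : p.Prime) (ℓ : Layer S K) : ∃ i : LayerT S K p, ℓ ≤ i.ℓ := by
  obtain ⟨i, hi, -⟩ := LayerT.exists_ge (p := p) hp ℓ S (Finset.Subset.refl S)
  exact ⟨i, hi ▸ le_refl ℓ⟩

lemma LayerT.cofinal_above (hp : p.Prime) (i : LayerT S K p) (ℓ : Layer S K) (h : i.ℓ ≤ ℓ) :
    ∃ j : LayerT S K p, i ≤ j ∧ ℓ ≤ j.ℓ := by
  obtain ⟨j, hj, hT⟩ := LayerT.exists_ge (p := p) hp ℓ i.T i.hST
  exact ⟨j, ⟨hj ▸ h, hT⟩, hj ▸ le_refl ℓ⟩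

instance LayerT.isDirected [Fact p.Prime] : IsDirected (LayerT S K p) (· ≤ ·) where
  directed i j := by
    obtain ⟨ℓ, h1, h2⟩ := exists_ge_ge i.ℓ j.ℓ
    obtain ⟨l, hl, hT⟩ := LayerT.exists_ge (p := p) (Fact.out : p.Prime) ℓ (i.T ∪ j.T)
      (i.hST.trans Finset.subset_union_left)
    exact ⟨l, ⟨hl ▸ h1, Finset.subset_union_left.trans hT⟩,
      ⟨hl ▸ h2, Finset.subset_union_right.trans hT⟩⟩

end Index

/-! ### The tower and the ambient modules -/

section Model

variable {S : Finset Nat.Primes} {K : IntermediateField ℚ Qb} {p : ℕ}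

/-- the tower of layers over `D_S`, re-indexed over `LayerT S K p`. -/
def towerDST (hK : K.IsUnramifiedOutside S) (hS : S.Nonempty) (hp : p.Prime) :
    Tower (levelK S K) (Rep.res K.fixingSubgroup.subtype (DS S))
      (fun i : LayerT S K p => Q i.ℓ) (fun i : LayerT S K p => A i.ℓ) :=
  haveI : Fact p.Prime := ⟨hp⟩
  (towerDS hK hS).reindex LayerT.ℓ LayerT.fst_mono (LayerT.cofinal hp)

/-- the tower of layers over `J_S`, re-indexed over `LayerT S K p`. -/
def towerJST (hK : K.IsUnramifiedOutside S) (hp : p.Prime) :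
    Tower (levelK S K) (Rep.res K.fixingSubgroup.subtype (JS S))
      (fun i : LayerT S K p => Q i.ℓ) (fun i : LayerT S K p => AJ i.ℓ) :=
  haveI : Fact p.Prime := ⟨hp⟩
  (towerJS hK).reindex LayerT.ℓ LayerT.fst_mono (LayerT.cofinal hp)

/-- the map of towers `J_S → D_S` (stage maps `JtoC`), over `LayerT S K p`. -/
def towerMapT (hK : K.IsUnramifiedOutside S) (hS : S.Nonempty) (hp : p.Prime) :
    TowerMap (towerJST hK hp) (towerDST hK hS hp) (gJD S K) :=
  haveI : Fact p.Prime := ⟨hp⟩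
  reindexMap (towerMapJD hK hS) LayerT.ℓ LayerT.fst_mono (LayerT.cofinal hp)

lemma towerDST_t (hK : K.IsUnramifiedOutside S) (hS : S.Nonempty) (hp : p.Prime)
    {i j : LayerT S K p} (h : i ≤ j) (a : A i.ℓ) :
    ((towerDST hK hS hp).t h).hom a = inflC (Layer.le_def.1 h.1) S a := rfl

lemma towerDST_τ (hK : K.IsUnramifiedOutside S) (hS : S.Nonempty) (hp : p.Prime)
    {i j : LayerT S K p} (h : i ≤ j) : (towerDST hK hS hp).τ h = tau h.1 := rfl

/-- **the model instance of `CompareCS.Ambient`**: `B (ℓ,T) = C_S(L,T)|_{Gal(L/K)}`. -/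
def ambientDS (hK : K.IsUnramifiedOutside S) (hS : S.Nonempty) (hp : p.Prime)
    (hpS : (⟨p, hp⟩ : Nat.Primes) ∈ S) :
    Ambient (towerDST hK hS hp) p (fun i : LayerT S K p => BS i.ℓ i.T) where
  inc i := incS i.ℓ i.hST
  inc_injective i := incS_injective i.ℓ i.hST
  s {i j} h := trS h.1 i.hST h.2
  s_inc {i j} h a := trS_incS h.1 i.hST h.2 a
  s_trans {i j l} h h' b := trS_trS h.1 h'.1 i.hST h.2 h'.2 b
  tors i b := CF.exists_pos_extC_eq_smul i.ℓ.L S i.T i.hST b
  capM i b r a hab := by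
    obtain ⟨L', hle, hL', hgal, h⟩ := CapCS.capM_extC i.ℓ.L S hp hpS i.hST i.ℓ.unram b r a hab
    have : FiniteDimensional ℚ L' := hL'.1
    have : IsGalois ℚ L' := hgal
    obtain ⟨a', ha'⟩ := h hle
    obtain ⟨T', hT, hg⟩ := exists_goodT L' i.T (hL'.mono i.hST) hp
    refine ⟨⟨⟨L', hL', hgal, i.ℓ.le.trans hle⟩, T', i.hST.trans hT, hg⟩, ⟨hle, hT⟩, a', ?_⟩
    have e : ∀ b' : CS i.ℓ.L S i.T, extC L' S i.hST a' = inflCS hle S i.T b' →
        extC L' S (i.hST.trans hT) a' = transCS hle S i.hST hT b' := by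
      intro b' hb'
      rw [transCS_apply, ← hb', extCS_extC]
    exact e b ha'

@[simp] lemma ambientDS_inc_hom (hK : K.IsUnramifiedOutside S) (hS : S.Nonempty) (hp : p.Prime)
    (hpS : (⟨p, hp⟩ : Nat.Primes) ∈ S) (i : LayerT S K p) (a : C i.ℓ.L S) :
    ((ambientDS hK hS hp hpS).inc i).hom a = extC i.ℓ.L S i.hST a := rfl

@[simp] lemma ambientDS_s_hom (hK : K.IsUnramifiedOutside S) (hS : S.Nonempty) (hp : p.Prime)
    (hpS : (⟨p, hp⟩ : Nat.Primes) ∈ S) {i j : LayerT S K p} (h : i ≤ j) (b : CS i.ℓ.L S i.T) :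
    ((ambientDS hK hS hp hpS).s h).hom b = transCS (Layer.le_def.1 h.1) S i.hST h.2 b := rfl

@[simp] lemma towerMapT_gst (hK : K.IsUnramifiedOutside S) (hS : S.Nonempty) (hp : p.Prime)
    (i : LayerT S K p) : (towerMapT hK hS hp).gst i = gstJC i.ℓ := rfl

lemma towerJST_t (hK : K.IsUnramifiedOutside S) (hp : p.Prime)
    {i j : LayerT S K p} (h : i ≤ j) : (towerJST hK hp).t h = trJ h.1 := rfl

lemma towerJST_τ (hK : K.IsUnramifiedOutside S) (hp : p.Prime)
    {i j : LayerT S K p} (h : i ≤ j) : (towerJST hK hp).τ h = tau h.1 := rfl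

/-- the same ambient structure over helper12's pair index `LT S K` (no goodness condition on
`T`; use `ambientDS` when the stages must be good). -/
def ambientDS2 (hK : K.IsUnramifiedOutside S) (hS : S.Nonempty) (hp : p.Prime)
    (hpS : (⟨p, hp⟩ : Nat.Primes) ∈ S) :
    Ambient (towerDS2 hK hS) p (fun i : LT S K => BS i.1 i.2.1) where
  inc i := incS i.1 i.2.2
  inc_injective i := incS_injective i.1 i.2.2
  s {i j} h := trS h.1 i.2.2 (LT_le_def.1 h).2
  s_inc {i j} h a := trS_incS h.1 i.2.2 (LT_le_def.1 h).2 a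
  s_trans {i j l} h h' b := trS_trS h.1 h'.1 i.2.2 (LT_le_def.1 h).2 (LT_le_def.1 h').2 b
  tors i b := CF.exists_pos_extC_eq_smul i.1.L S i.2.1 i.2.2 b
  capM i b r a hab := by
    obtain ⟨L', hle, hL', hgal, h⟩ := CapCS.capM_extC i.1.L S hp hpS i.2.2 i.1.unram b r a hab
    have : FiniteDimensional ℚ L' := hL'.1
    have : IsGalois ℚ L' := hgal
    obtain ⟨a', ha'⟩ := h hle
    refine ⟨(⟨L', hL', hgal, i.1.le.trans hle⟩, i.2), ⟨hle, le_refl i.2⟩, a', ?_⟩
    have e : ∀ b' : CS i.1.L S i.2.1, extC L' S i.2.2 a' = inflCS hle S i.2.1 b' →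
        extC L' S (i.2.2.trans (Finset.Subset.refl i.2.1)) a'
          = transCS hle S i.2.2 (Finset.Subset.refl i.2.1) b' := by
      intro b' hb'
      rw [transCS_apply, ← hb', extCS_extC]
    exact e b ha'

end Model

end Fermat.Agent.GC.Global.Limit.AmbientModel
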