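/-
GATE-C / C4 (LM-J) = (A7), part 8 (helper71): **the tower of layers over `D_S`**.

helper12's `LayerTower.mkTower` instantiated with `D := DS S` and `φ_L := ΦCLin S L hL`
(`IdeleSClass.lean`): a `ColimVanish.Tower` over `(G_K, levelK S K, D_S|_{G_K})` with stages
`(Gal(L/K), C(L,S)|_{Gal(L/K)})`, `L` running over the finite Galois layers `K ≤ L ⊂ ℚ_S`.
-/
import Fermat.Agent.GC.Global.Limit.IdeleSClass
import Fermat.Agent.GC.Global.Limit.LayerTower

set_option autoImplicit false
set_option linter.unusedSectionVars false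

open CategoryTheory

noncomputable section

namespace Fermat.Agent.GC.LimJ

open Fermat.Agent.GC.Prof Fermat.Agent.GC.C0 Fermat.Agent.GC.Places Fermat.Agent.GC.Global
  Fermat.Agent.GC.Global.Funct Fermat.Agent.GC.Global.Limit.ColimVanish

local notation "Qb" => AlgebraicClosure ℚ
local notation "GQ" => (AlgebraicClosure ℚ ≃ₐ[ℚ] AlgebraicClosure ℚ)

variable (S : Finset Nat.Primes) (K : IntermediateField ℚ Qb)

/-- helper12's restriction map is mine -/
lemma layerTower_resQ_eq (L : IntermediateField ℚ Qb) [Normal ℚ L] :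
    Limit.LayerTower.resQ L = LimJ.resQ L := rfl

/-- **the tower of layers over the `S`-idele class module `D_S`** -/
def towerDS (hK : K.IsUnramifiedOutside S) (hS : S.Nonempty) :
    Tower (levelK S K) (Rep.res K.fixingSubgroup.subtype (DS S))
      (Limit.LayerTower.Q (S := S) (K := K)) Limit.LayerTower.A :=
  Limit.LayerTower.mkTower (DS S) hK (fun ℓ => (ΦCLin S ℓ.L ℓ.unram).toAddMonoidHom)
    (fun ℓ g c => ΦCLin_rho S ℓ.L ℓ.unram g c)
    (fun {ℓ ℓ'} h c => ΦCLin_inflC S ℓ.L ℓ.unram ℓ'.unram (Limit.LayerTower.Layer.le_def.1 h) c)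
    (fun ℓ => ΦCLin_injective S ℓ.L ℓ.unram hS)
    (fun d => by
      obtain ⟨L, hfd, hgal, hL, hle, c, hc⟩ := exists_ΦCLin_eq S K hK d
      exact ⟨⟨L, hL, hgal, hle⟩, c, hc⟩)

end Fermat.Agent.GC.LimJ
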